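import Mathlib
import Fermat.Prelude.Def_GaloisRep_Adic

set_option autoImplicit false

open scoped TensorProduct

namespace Fermat.Agent.S53

noncomputable section

/-- The absolute Galois group of the rationals, as used in the prelude. -/
abbrev GQ : Type := AlgebraicClosure ℚ ≃ₐ[ℚ] AlgebraicClosure ℚ

section basics

variable {A : Type} [CommRing A]

/-- A vector all of whose coordinates lie in `I` lies in `I • ⊤`. -/
lemma pi_mem_smul_top (I : Ideal A) (w : Fin 2 → A) (hw : ∀ i, w i ∈ I) :
    w ∈ I • (⊤ : Submodule A (Fin 2 → A)) := by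
  have h : w = ∑ i, w i • (Pi.single i (1 : A) : Fin 2 → A) := by
    funext j
    simp [Finset.sum_apply, Pi.single_apply]
  rw [h]
  exact Submodule.sum_mem _ fun i _ => Submodule.smul_mem_smul (hw i) Submodule.mem_top

/-- Coordinates of an element of `I • ⊤` lie in `I`. -/
lemma repr_mem_of_mem_smul_top {M : Type} [AddCommGroup M] [Module A M] {ι : Type}
    (b : Module.Basis ι A M) (I : Ideal A) {x : M} (hx : x ∈ I • (⊤ : Submodule A M)) (i : ι) :
    b.repr x i ∈ I := by
  refine Submodule.smul_induction_on (p := fun x => b.repr x i ∈ I) hx ?_ ?_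
  · intro a ha m _
    rw [map_smul, Finsupp.smul_apply, smul_eq_mul]
    exact I.mul_mem_right _ ha
  · intro x y hx hy
    rw [map_add, Finsupp.add_apply]
    exact I.add_mem hx hy

/-- A local homomorphism maps the `n`-th power of the maximal ideal into the `n`-th power. -/
lemma map_mem_maximalIdeal_pow {A B : Type} [CommRing A] [IsLocalRing A] [CommRing B]
    [IsLocalRing B] (φ : A →+* B) (hφ : IsLocalHom φ) {n : ℕ} {a : A}
    (ha : a ∈ IsLocalRing.maximalIdeal A ^ n) : φ a ∈ IsLocalRing.maximalIdeal B ^ n := by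
  have hmap : (IsLocalRing.maximalIdeal A ^ n).map φ ≤ IsLocalRing.maximalIdeal B ^ n := by
    rw [Ideal.map_pow]
    exact Ideal.pow_right_mono (Ideal.map_le_iff_le_comap.mpr fun a ha =>
      Ideal.mem_comap.mpr (haveI := hφ; map_nonunit φ a ha)) n
  exact hmap (Ideal.mem_map_of_mem φ ha)

end basics

/-- A framed (matrix valued) adically continuous representation of `GQ` over a local ring. -/
structure FramedRep (A : Type) [CommRing A] [IsLocalRing A] where
  toMonoidHom : GQ →* Matrix (Fin 2) (Fin 2) A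
  cont : ∀ n : ℕ, ∃ L : IntermediateField ℚ (AlgebraicClosure ℚ), FiniteDimensional ℚ L ∧
    ∀ σ : GQ, (∀ x ∈ L, σ x = x) → ∀ i j : Fin 2,
      (toMonoidHom σ - 1) i j ∈ IsLocalRing.maximalIdeal A ^ n

namespace FramedRep

variable {A : Type} [CommRing A] [IsLocalRing A]

instance : CoeFun (FramedRep A) (fun _ => GQ → Matrix (Fin 2) (Fin 2) A) :=
  ⟨fun r => r.toMonoidHom⟩

@[ext] lemma ext {r r' : FramedRep A} (h : ∀ σ, r σ = r' σ) : r = r' := by
  cases r; cases r'
  congr
  exact MonoidHom.ext h

lemma map_mul (r : FramedRep A) (σ τ : GQ) : r (σ * τ) = r σ * r τ := r.toMonoidHom.map_mul σ τ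

lemma map_one (r : FramedRep A) : r 1 = 1 := r.toMonoidHom.map_one

/-- The values of a framed representation are invertible matrices. -/
lemma isUnit_apply (r : FramedRep A) (σ : GQ) : IsUnit (r σ) :=
  (Group.isUnit σ).map r.toMonoidHom

/-- The `GaloisRepAdic` attached to a framed representation, on `Fin 2 → A`. -/
noncomputable def toGaloisRepAdic (r : FramedRep A) : GaloisRepAdic A where
  V := Fin 2 → A
  finrank_eq := Module.finrank_fin_fun A
  ρ :=
    { toFun := fun σ => Matrix.toLin' (r.toMonoidHom σ)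
      map_one' := by rw [_root_.map_one, Matrix.toLin'_one]; rfl
      map_mul' := fun σ τ => by rw [_root_.map_mul, Matrix.toLin'_mul]; rfl }
  isAdicContinuous := by
    intro n
    obtain ⟨L, hL, h⟩ := r.cont n
    refine ⟨L, hL, fun σ hσ v => ?_⟩
    have h1 : Matrix.toLin' (r.toMonoidHom σ) v - v = (r.toMonoidHom σ - 1).mulVec v := by
      rw [Matrix.sub_mulVec, Matrix.one_mulVec, Matrix.toLin'_apply]
    show Matrix.toLin' (r.toMonoidHom σ) v - v ∈ _
    rw [h1]
    apply pi_mem_smul_top
    intro i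
    simp only [Matrix.mulVec, dotProduct]
    exact Ideal.sum_mem _ fun j _ => Ideal.mul_mem_right _ _ (h σ hσ i j)

@[simp] lemma toGaloisRepAdic_ρ_apply (r : FramedRep A) (σ : GQ) (v : Fin 2 → A) :
    r.toGaloisRepAdic.ρ σ v = (r σ).mulVec v := Matrix.toLin'_apply _ _

/-- Entrywise push-forward of a framed representation along a local homomorphism. -/
noncomputable def map {B : Type} [CommRing B] [IsLocalRing B] (φ : A →+* B) (hφ : IsLocalHom φ)
    (r : FramedRep A) : FramedRep B where
  toMonoidHom :=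
    (φ.mapMatrix : Matrix (Fin 2) (Fin 2) A →+* Matrix (Fin 2) (Fin 2) B).toMonoidHom.comp
      r.toMonoidHom
  cont := by
    intro n
    obtain ⟨L, hL, h⟩ := r.cont n
    refine ⟨L, hL, fun σ hσ i j => ?_⟩
    have h2 : (φ.mapMatrix (r.toMonoidHom σ) - 1) i j = φ ((r.toMonoidHom σ - 1) i j) := by
      rw [Matrix.sub_apply, Matrix.sub_apply, RingHom.mapMatrix_apply, Matrix.map_apply,
        _root_.map_sub]
      congr 1
      by_cases hij : i = j
      · subst hij; simp
      · simp [Matrix.one_apply_ne hij]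
    show (φ.mapMatrix (r.toMonoidHom σ) - 1) i j ∈ _
    rw [h2]
    exact map_mem_maximalIdeal_pow φ hφ (h σ hσ i j)

@[simp] lemma map_apply {B : Type} [CommRing B] [IsLocalRing B] (φ : A →+* B)
    (hφ : IsLocalHom φ) (r : FramedRep A) (σ : GQ) : r.map φ hφ σ = (r σ).map φ := rfl

end FramedRep

section toFramed

variable {A : Type} [CommRing A] [IsLocalRing A]

/-- Every `GaloisRepAdic` is equivalent to a framed one. -/
theorem exists_framedRep (ρ : GaloisRepAdic A) :
    ∃ r : FramedRep A, ρ.IsEquiv r.toGaloisRepAdic := by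
  classical
  let b : Module.Basis (Fin 2) A ρ.V := Module.finBasisOfFinrankEq A ρ.V ρ.finrank_eq
  refine ⟨{ toMonoidHom :=
              { toFun := fun σ => LinearMap.toMatrix b b (ρ.ρ σ)
                map_one' := by rw [_root_.map_one, LinearMap.toMatrix_one]
                map_mul' := fun σ τ => by rw [_root_.map_mul, LinearMap.toMatrix_mul] }
            cont := ?_ }, ⟨{ toLinearEquiv := b.equivFun, map_apply := ?_ }⟩⟩
  · intro n
    obtain ⟨L, hL, h⟩ := ρ.isAdicContinuous n
    refine ⟨L, hL, fun σ hσ i j => ?_⟩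
    have h3 : (LinearMap.toMatrix b b (ρ.ρ σ) - 1) i j = b.repr (ρ.ρ σ (b j) - b j) i := by
      rw [← LinearMap.toMatrix_one b, ← _root_.map_sub, LinearMap.toMatrix_apply,
        LinearMap.sub_apply, Module.End.one_apply]
    show (LinearMap.toMatrix b b (ρ.ρ σ) - 1) i j ∈ _
    rw [h3]
    exact repr_mem_of_mem_smul_top b _ (h σ hσ (b j)) i
  · intro σ x
    show b.equivFun (ρ.ρ σ x) = Matrix.toLin' (LinearMap.toMatrix b b (ρ.ρ σ)) (b.equivFun x)
    rw [Matrix.toLin'_apply, Module.Basis.equivFun_apply, Module.Basis.equivFun_apply,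
      LinearMap.toMatrix_mulVec_repr]

end toFramed

section compat

variable {A : Type} [CommRing A] [IsLocalRing A]

/-- Compatibility of `piScalarRight` with base change of matrices. -/
lemma piScalarRight_baseChange_toLin' {A B : Type} [CommRing A] [CommRing B] [Algebra A B]
    (M : Matrix (Fin 2) (Fin 2) A) (x : B ⊗[A] (Fin 2 → A)) :
    TensorProduct.piScalarRight A B B (Fin 2) ((Matrix.toLin' M).baseChange B x) =
      Matrix.toLin' (M.map (algebraMap A B)) (TensorProduct.piScalarRight A B B (Fin 2) x) := by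
  induction x using TensorProduct.induction_on with
  | zero => simp only [map_zero]
  | tmul b v =>
    rw [LinearMap.baseChange_tmul, TensorProduct.piScalarRight_apply,
      TensorProduct.piScalarRightHom_tmul, TensorProduct.piScalarRight_apply,
      TensorProduct.piScalarRightHom_tmul, Matrix.toLin'_apply, Matrix.toLin'_apply]
    funext i
    simp only [Matrix.mulVec, dotProduct, Matrix.map_apply, Algebra.smul_def,
      map_sum, _root_.map_mul, Finset.sum_mul, mul_assoc]
  | add x y hx hy => simp only [map_add, hx, hy]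

lemma toLin'_conj_apply {A : Type} [CommRing A] (γ M M' : Matrix (Fin 2) (Fin 2) A)
    (h : γ * M = M' * γ) (x : Fin 2 → A) :
    Matrix.toLin' γ (Matrix.toLin' M x) = Matrix.toLin' M' (Matrix.toLin' γ x) := by
  simp only [Matrix.toLin'_apply, Matrix.mulVec_mulVec, h]

/-- Base change of the `GaloisRepAdic` of a framed representation is the `GaloisRepAdic` of the
entrywise push-forward. -/
theorem FramedRep.baseChangeAlong_isEquiv {B : Type} [CommRing B] [IsLocalRing B] (φ : A →+* B)
    (hφ : IsLocalHom φ) (r : FramedRep A) :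
    (r.toGaloisRepAdic.baseChangeAlong φ hφ).IsEquiv (r.map φ hφ).toGaloisRepAdic := by
  classical
  let _ : Algebra A B := φ.toAlgebra
  exact ⟨{ toLinearEquiv := TensorProduct.piScalarRight A B B (Fin 2)
           map_apply := fun σ x => piScalarRight_baseChange_toLin' (r.toMonoidHom σ) x }⟩

/-- Two framed representations give equivalent `GaloisRepAdic`s iff they are conjugate. -/
theorem FramedRep.isEquiv_iff_conj (r r' : FramedRep A) :
    r.toGaloisRepAdic.IsEquiv r'.toGaloisRepAdic ↔
      ∃ γ : (Matrix (Fin 2) (Fin 2) A)ˣ, ∀ σ, γ.val * r σ = r' σ * γ.val := by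
  classical
  constructor
  · rintro ⟨e⟩
    let f : (Fin 2 → A) →ₗ[A] (Fin 2 → A) := e.toLinearEquiv.toLinearMap
    let g : (Fin 2 → A) →ₗ[A] (Fin 2 → A) := e.toLinearEquiv.symm.toLinearMap
    have hfg : LinearMap.toMatrix' f * LinearMap.toMatrix' g = 1 := by
      rw [← LinearMap.toMatrix'_comp, ← LinearMap.toMatrix'_id]
      congr 1
      exact LinearMap.ext fun x => e.toLinearEquiv.apply_symm_apply x
    have hgf : LinearMap.toMatrix' g * LinearMap.toMatrix' f = 1 := by
      rw [← LinearMap.toMatrix'_comp, ← LinearMap.toMatrix'_id]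
      congr 1
      exact LinearMap.ext fun x => e.toLinearEquiv.symm_apply_apply x
    refine ⟨⟨LinearMap.toMatrix' f, LinearMap.toMatrix' g, hfg, hgf⟩, fun σ => ?_⟩
    show LinearMap.toMatrix' f * r σ = r' σ * LinearMap.toMatrix' f
    have h1 : f ∘ₗ Matrix.toLin' (r σ) = Matrix.toLin' (r' σ) ∘ₗ f :=
      LinearMap.ext fun x => e.map_apply σ x
    have h2 := congrArg LinearMap.toMatrix' h1
    rwa [LinearMap.toMatrix'_comp, LinearMap.toMatrix'_comp, LinearMap.toMatrix'_toLin',
      LinearMap.toMatrix'_toLin'] at h2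
  · rintro ⟨γ, hγ⟩
    have hinv : Invertible γ.val := γ.invertible
    refine ⟨{ toLinearEquiv := Matrix.toLinearEquiv' γ.val hinv, map_apply := ?_ }⟩
    intro σ x
    exact toLin'_conj_apply γ.val (r σ) (r' σ) (hγ σ) x

/-- Conjugate of a framed representation by an invertible matrix. -/
def FramedRep.conj (γ : (Matrix (Fin 2) (Fin 2) A)ˣ) (r : FramedRep A) : FramedRep A where
  toMonoidHom :=
    { toFun := fun σ => γ.val * r σ * γ.inv
      map_one' := by rw [r.map_one, mul_one]; exact γ.val_inv
      map_mul' := fun σ τ => by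
        rw [r.map_mul]
        calc γ.val * (r σ * r τ) * γ.inv = γ.val * r σ * (γ.inv * γ.val) * r τ * γ.inv := by
              rw [γ.inv_val]; simp only [mul_one, mul_assoc]
          _ = γ.val * r σ * γ.inv * (γ.val * r τ * γ.inv) := by simp only [mul_assoc] }
  cont := by
    intro n
    obtain ⟨L, hL, h⟩ := r.cont n
    refine ⟨L, hL, fun σ hσ i j => ?_⟩
    have h1 : γ.val * r σ * γ.inv - 1 = γ.val * (r σ - 1) * γ.inv := by
      rw [mul_sub, sub_mul, mul_one, γ.val_inv]
    show (γ.val * r σ * γ.inv - 1) i j ∈ _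
    rw [h1, Matrix.mul_apply]
    refine Ideal.sum_mem _ fun k _ => Ideal.mul_mem_right _ _ ?_
    rw [Matrix.mul_apply]
    exact Ideal.sum_mem _ fun l _ => Ideal.mul_mem_left _ _ (h σ hσ l k)

@[simp] lemma FramedRep.conj_apply (γ : (Matrix (Fin 2) (Fin 2) A)ˣ) (r : FramedRep A) (σ : GQ) :
    r.conj γ σ = γ.val * r σ * γ.inv := rfl

lemma FramedRep.conj_isEquiv (γ : (Matrix (Fin 2) (Fin 2) A)ˣ) (r : FramedRep A) :
    r.toGaloisRepAdic.IsEquiv (r.conj γ).toGaloisRepAdic := by
  rw [FramedRep.isEquiv_iff_conj]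
  refine ⟨γ, fun σ => ?_⟩
  rw [FramedRep.conj_apply, mul_assoc, mul_assoc, γ.inv_val, mul_one]

end compat

end

end Fermat.Agent.S53
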