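import Mathlib
import Fermat.Prelude.Def_GaloisRep_Adic
import Fermat.Agent.S53.Framed

set_option autoImplicit false

open scoped TensorProduct

namespace Fermat.Agent.S53

noncomputable section

/-- A framed (matrix valued) residual representation factoring through a finite level. -/
structure FramedResidual (k : Type) [Field k] where
  toMonoidHom : GQ →* Matrix (Fin 2) (Fin 2) k
  finiteLevel : ∃ L : IntermediateField ℚ (AlgebraicClosure ℚ), FiniteDimensional ℚ L ∧
    ∀ σ : GQ, (∀ x ∈ L, σ x = x) → toMonoidHom σ = 1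

namespace FramedResidual

variable {k : Type} [Field k]

instance : CoeFun (FramedResidual k) (fun _ => GQ → Matrix (Fin 2) (Fin 2) k) :=
  ⟨fun r => r.toMonoidHom⟩

@[ext] lemma ext {r r' : FramedResidual k} (h : ∀ σ, r σ = r' σ) : r = r' := by
  cases r; cases r'
  congr
  exact MonoidHom.ext h

lemma map_mul (r : FramedResidual k) (σ τ : GQ) : r (σ * τ) = r σ * r τ :=
  r.toMonoidHom.map_mul σ τ

lemma map_one (r : FramedResidual k) : r 1 = 1 := r.toMonoidHom.map_one

/-- The `ResidualGaloisRep` attached to a framed residual representation, on `Fin 2 → k`. -/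
def toResidualGaloisRep (rb : FramedResidual k) : ResidualGaloisRep k where
  V := Fin 2 → k
  finrank_eq := Module.finrank_fin_fun k
  ρ :=
    { toFun := fun σ => Matrix.toLin' (rb.toMonoidHom σ)
      map_one' := by rw [_root_.map_one, Matrix.toLin'_one]; rfl
      map_mul' := fun σ τ => by rw [_root_.map_mul, Matrix.toLin'_mul]; rfl }
  factorsThroughFiniteLevel := by
    obtain ⟨L, hL, h⟩ := rb.finiteLevel
    refine ⟨L, hL, fun σ hσ => ?_⟩
    show Matrix.toLin' (rb.toMonoidHom σ) = 1
    rw [h σ hσ, Matrix.toLin'_one]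
    rfl

@[simp] lemma toResidualGaloisRep_ρ_apply (rb : FramedResidual k) (σ : GQ) (v : Fin 2 → k) :
    rb.toResidualGaloisRep.ρ σ v = (rb σ).mulVec v := Matrix.toLin'_apply _ _

/-- Entrywise push-forward along a field homomorphism. -/
def map {k' : Type} [Field k'] (ι : k →+* k') (rb : FramedResidual k) : FramedResidual k' where
  toMonoidHom :=
    (ι.mapMatrix : Matrix (Fin 2) (Fin 2) k →+* Matrix (Fin 2) (Fin 2) k').toMonoidHom.comp
      rb.toMonoidHom
  finiteLevel := by
    obtain ⟨L, hL, h⟩ := rb.finiteLevel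
    refine ⟨L, hL, fun σ hσ => ?_⟩
    show ι.mapMatrix (rb.toMonoidHom σ) = 1
    rw [h σ hσ, _root_.map_one]

@[simp] lemma map_apply {k' : Type} [Field k'] (ι : k →+* k') (rb : FramedResidual k) (σ : GQ) :
    rb.map ι σ = (rb σ).map ι := rfl

/-- Base change of the `ResidualGaloisRep` of a framed residual representation. -/
theorem baseChangeAlong_isEquiv {k' : Type} [Field k'] (ι : k →+* k') (rb : FramedResidual k) :
    (rb.toResidualGaloisRep.baseChangeAlong ι).IsEquiv (rb.map ι).toResidualGaloisRep := by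
  classical
  let _ : Algebra k k' := ι.toAlgebra
  exact ⟨{ toLinearEquiv := TensorProduct.piScalarRight k k' k' (Fin 2)
           map_apply := fun σ x => piScalarRight_baseChange_toLin' (rb.toMonoidHom σ) x }⟩

/-- Two framed residual representations are equivalent iff they are conjugate. -/
theorem isEquiv_iff_conj (r r' : FramedResidual k) :
    r.toResidualGaloisRep.IsEquiv r'.toResidualGaloisRep ↔
      ∃ γ : (Matrix (Fin 2) (Fin 2) k)ˣ, ∀ σ, γ.val * r σ = r' σ * γ.val := by
  classical
  constructor
  · rintro ⟨e⟩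
    let f : (Fin 2 → k) →ₗ[k] (Fin 2 → k) := e.toLinearEquiv.toLinearMap
    let g : (Fin 2 → k) →ₗ[k] (Fin 2 → k) := e.toLinearEquiv.symm.toLinearMap
    have hfg : LinearMap.toMatrix' f * LinearMap.toMatrix' g = 1 := by
      rw [← LinearMap.toMatrix'_comp, ← LinearMap.toMatrix'_id]
      congr 1
      exact LinearMap.ext fun x => e.toLinearEquiv.apply_symm_apply x
    have hgf : LinearMap.toMatrix' g * LinearMap.toMatrix' f = 1 := by
      rw [← LinearMap.toMatrix'_comp, ← LinearMap.toMatrix'_id]
      congr 1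
      exact LinearMap.ext fun x => e.toLinearEquiv.symm_apply_apply x
    refine ⟨⟨LinearMap.toMatrix' f, LinearMap.toMatrix' g, hfg, hgf⟩, fun σ => ?_⟩
    show LinearMap.toMatrix' f * r σ = r' σ * LinearMap.toMatrix' f
    have h1 : f ∘ₗ Matrix.toLin' (r σ) = Matrix.toLin' (r' σ) ∘ₗ f :=
      LinearMap.ext fun x => e.map_apply σ x
    have h2 := congrArg LinearMap.toMatrix' h1
    rwa [LinearMap.toMatrix'_comp, LinearMap.toMatrix'_comp, LinearMap.toMatrix'_toLin',
      LinearMap.toMatrix'_toLin'] at h2
  · rintro ⟨γ, hγ⟩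
    have hinv : Invertible γ.val := γ.invertible
    refine ⟨{ toLinearEquiv := Matrix.toLinearEquiv' γ.val hinv, map_apply := ?_ }⟩
    intro σ x
    exact toLin'_conj_apply γ.val (r σ) (r' σ) (hγ σ) x

end FramedResidual

section framing

variable {k : Type} [Field k]

/-- Every `ResidualGaloisRep` is equivalent to a framed one. -/
theorem exists_framedResidual (ρ : ResidualGaloisRep k) :
    ∃ rb : FramedResidual k, ρ.IsEquiv rb.toResidualGaloisRep := by
  classical
  let b : Module.Basis (Fin 2) k ρ.V := Module.finBasisOfFinrankEq k ρ.V ρ.finrank_eq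
  refine ⟨{ toMonoidHom :=
              { toFun := fun σ => LinearMap.toMatrix b b (ρ.ρ σ)
                map_one' := by rw [_root_.map_one, LinearMap.toMatrix_one]
                map_mul' := fun σ τ => by rw [_root_.map_mul, LinearMap.toMatrix_mul] }
            finiteLevel := ?_ }, ⟨{ toLinearEquiv := b.equivFun, map_apply := ?_ }⟩⟩
  · obtain ⟨L, hL, h⟩ := ρ.factorsThroughFiniteLevel
    refine ⟨L, hL, fun σ hσ => ?_⟩
    show LinearMap.toMatrix b b (ρ.ρ σ) = 1
    rw [h σ hσ, LinearMap.toMatrix_one]
  · intro σ x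
    show b.equivFun (ρ.ρ σ x) = Matrix.toLin' (LinearMap.toMatrix b b (ρ.ρ σ)) (b.equivFun x)
    rw [Matrix.toLin'_apply, Module.Basis.equivFun_apply, Module.Basis.equivFun_apply,
      LinearMap.toMatrix_mulVec_repr]

end framing

section residual

variable {A : Type} [CommRing A] [IsLocalRing A]

/-- The residual framed representation of a framed representation. -/
def FramedRep.residual (r : FramedRep A) : FramedResidual (IsLocalRing.ResidueField A) where
  toMonoidHom :=
    ((IsLocalRing.residue A).mapMatrix :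
      Matrix (Fin 2) (Fin 2) A →+* Matrix (Fin 2) (Fin 2) (IsLocalRing.ResidueField A)).toMonoidHom.comp
      r.toMonoidHom
  finiteLevel := by
    obtain ⟨L, hL, h⟩ := r.cont 1
    refine ⟨L, hL, fun σ hσ => ?_⟩
    show (IsLocalRing.residue A).mapMatrix (r.toMonoidHom σ) = 1
    have h1 : (IsLocalRing.residue A).mapMatrix (r.toMonoidHom σ - 1) = 0 := by
      ext i j
      rw [RingHom.mapMatrix_apply, Matrix.map_apply, Matrix.zero_apply,
        IsLocalRing.residue_eq_zero_iff]
      have := h σ hσ i j
      rwa [pow_one] at this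
    rwa [_root_.map_sub, _root_.map_one, sub_eq_zero] at h1

@[simp] lemma FramedRep.residual_apply (r : FramedRep A) (σ : GQ) :
    r.residual σ = (r σ).map (IsLocalRing.residue A) := rfl

/-- The residual representation of the `GaloisRepAdic` of a framed representation. -/
theorem FramedRep.residual_isEquiv (r : FramedRep A) :
    r.toGaloisRepAdic.residual.IsEquiv r.residual.toResidualGaloisRep := by
  classical
  refine ⟨{ toLinearEquiv :=
              TensorProduct.piScalarRight A (IsLocalRing.ResidueField A)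
                (IsLocalRing.ResidueField A) (Fin 2)
            map_apply := fun σ x => ?_ }⟩
  have h := piScalarRight_baseChange_toLin' (B := IsLocalRing.ResidueField A)
    (r.toMonoidHom σ) x
  rw [IsLocalRing.ResidueField.algebraMap_eq] at h
  exact h

/-- Units of the matrix ring lift along surjective local homomorphisms. -/
lemma exists_units_map_eq {A B : Type} [CommRing A] [CommRing B] (φ : A →+* B)
    (hφ : IsLocalHom φ) (hsurj : Function.Surjective φ) (γ' : (Matrix (Fin 2) (Fin 2) B)ˣ) :
    ∃ γ : (Matrix (Fin 2) (Fin 2) A)ˣ, γ.val.map φ = γ'.val := by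
  classical
  choose f hf using hsurj
  let M : Matrix (Fin 2) (Fin 2) A := Matrix.of fun i j => f (γ'.val i j)
  have hM : M.map φ = γ'.val := by
    ext i j
    simp [M, hf]
  have hdet : IsUnit M.det := by
    have := hφ
    apply IsUnit.of_map φ
    rw [RingHom.map_det, RingHom.mapMatrix_apply, hM]
    exact (Matrix.isUnit_iff_isUnit_det _).mp γ'.isUnit
  have hMu : IsUnit M := (Matrix.isUnit_iff_isUnit_det M).mpr hdet
  exact ⟨hMu.unit, by rw [IsUnit.unit_spec]; exact hM⟩

/-- `r` reduces to `rb` (transported along `ι`) entrywise. -/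
def FramedRep.IsLiftOf {k : Type} [Field k] (r : FramedRep A) (rb : FramedResidual k)
    (ι : k →+* IsLocalRing.ResidueField A) : Prop :=
  ∀ σ, (r σ).map (IsLocalRing.residue A) = (rb σ).map ι

lemma FramedRep.isLiftOf_iff {k : Type} [Field k] (r : FramedRep A) (rb : FramedResidual k)
    (ι : k →+* IsLocalRing.ResidueField A) : r.IsLiftOf rb ι ↔ r.residual = rb.map ι :=
  ⟨fun h => FramedResidual.ext h, fun h σ => by
    have := congrArg (fun s : FramedResidual (IsLocalRing.ResidueField A) => s σ) h
    exact this⟩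

/-- If `r` lifts `rb` and `rb` frames `ρbar`, the residual representation of `r` is `ρbar`. -/
theorem FramedRep.IsLiftOf.residual_isEquiv {k : Type} [Field k] {r : FramedRep A}
    {rb : FramedResidual k} {ι : k →+* IsLocalRing.ResidueField A} (h : r.IsLiftOf rb ι)
    {ρbar : ResidualGaloisRep k} (hrb : ρbar.IsEquiv rb.toResidualGaloisRep) :
    r.toGaloisRepAdic.residual.IsEquiv (ρbar.baseChangeAlong ι) := by
  obtain ⟨e1⟩ := r.residual_isEquiv
  obtain ⟨e2⟩ := rb.baseChangeAlong_isEquiv ι
  obtain ⟨e3⟩ := hrb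
  rw [FramedRep.isLiftOf_iff] at h
  rw [h] at e1
  exact ⟨e1.trans (e2.symm.trans (e3.baseChangeAlong ι).symm)⟩

/-- Bridge: a `GaloisRepAdic` whose residual representation is `ρbar` has a framing lifting a
given framing of `ρbar`. -/
theorem exists_framedLift {k : Type} [Field k] (ρ : GaloisRepAdic A) {ρbar : ResidualGaloisRep k}
    {rb : FramedResidual k} (hrb : ρbar.IsEquiv rb.toResidualGaloisRep)
    (ι : k →+* IsLocalRing.ResidueField A) (h : ρ.residual.IsEquiv (ρbar.baseChangeAlong ι)) :
    ∃ r : FramedRep A, ρ.IsEquiv r.toGaloisRepAdic ∧ r.IsLiftOf rb ι := by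
  obtain ⟨r0, ⟨e0⟩⟩ := exists_framedRep ρ
  obtain ⟨e1⟩ := r0.residual_isEquiv
  obtain ⟨e2⟩ := rb.baseChangeAlong_isEquiv ι
  obtain ⟨e3⟩ := hrb
  obtain ⟨e4⟩ := h
  have hconj : r0.residual.toResidualGaloisRep.IsEquiv (rb.map ι).toResidualGaloisRep :=
    ⟨e1.symm.trans (e0.residual.symm.trans (e4.trans ((e3.baseChangeAlong ι).trans e2)))⟩
  rw [FramedResidual.isEquiv_iff_conj] at hconj
  obtain ⟨γ', hγ'⟩ := hconj
  obtain ⟨γ, hγ⟩ := exists_units_map_eq (IsLocalRing.residue A) inferInstance
    IsLocalRing.residue_surjective γ'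
  refine ⟨r0.conj γ, ⟨e0.trans (r0.conj_isEquiv γ).some⟩, fun σ => ?_⟩
  have hinv : γ.inv.map (IsLocalRing.residue A) = γ'.inv := by
    have h1 : γ.inv.map (IsLocalRing.residue A) * γ'.val = 1 := by
      rw [← hγ, ← Matrix.map_mul, γ.inv_val]
      simp
    calc γ.inv.map (IsLocalRing.residue A)
        = γ.inv.map (IsLocalRing.residue A) * (γ'.val * γ'.inv) := by rw [γ'.val_inv, mul_one]
      _ = γ'.inv := by rw [← mul_assoc, h1, one_mul]
  rw [FramedRep.conj_apply, Matrix.map_mul, Matrix.map_mul, hγ, hinv]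
  have h2 := hγ' σ
  rw [FramedRep.residual_apply, FramedResidual.map_apply] at h2
  rw [h2, mul_assoc, γ'.val_inv, mul_one]

end residual

end

end Fermat.Agent.S53
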