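import Mathlib
import Fermat.Prelude.Def_GaloisRep_DeformationRingData
import Fermat.Prelude.Def_GaloisRep_DeformationCondition
import Fermat.Agent.S53.FramedResidual

/-!
The universal framed representation over the limit ring (piece G3 of the S53 plan), written
against an abstract hypothesis package.
-/

set_option autoImplicit false

namespace Fermat.Agent.S53

open IsLocalRing

noncomputable section

section QuotPow

variable {R : Type} [CommRing R] [IsLocalRing R]

theorem quotPow_ne_top (n : ℕ) : maximalIdeal R ^ (n + 1) ≠ ⊤ := by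
  intro h
  have h1 : maximalIdeal R ^ (n + 1) ≤ maximalIdeal R := Ideal.pow_le_self (by omega)
  rw [h] at h1
  exact (maximalIdeal.isMaximal R).ne_top (top_le_iff.mp h1)

theorem quotPow_isLocalRing (n : ℕ) : IsLocalRing (R ⧸ maximalIdeal R ^ (n + 1)) := by
  have : Nontrivial (R ⧸ maximalIdeal R ^ (n + 1)) :=
    Ideal.Quotient.nontrivial_iff.mpr (quotPow_ne_top n)
  exact IsLocalRing.of_surjective' (Ideal.Quotient.mk _) Ideal.Quotient.mk_surjective

attribute [local instance] quotPow_isLocalRing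

theorem quotPow_mk_isLocalHom (n : ℕ) :
    IsLocalHom (Ideal.Quotient.mk (maximalIdeal R ^ (n + 1))) :=
  IsLocalHom.of_surjective _ Ideal.Quotient.mk_surjective

theorem quotPow_maximalIdeal_pow (n : ℕ) :
    maximalIdeal (R ⧸ maximalIdeal R ^ (n + 1)) ^ (n + 1) = ⊥ := by
  rw [← map_maximalIdeal_of_surjective (Ideal.Quotient.mk (maximalIdeal R ^ (n + 1)))
    Ideal.Quotient.mk_surjective, ← Ideal.map_pow, Ideal.map_quotient_self]

theorem quotPow_isArtinianTestAlgebra {𝒪 : Type} [CommRing 𝒪] [IsLocalRing 𝒪] [Algebra 𝒪 R]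
    [IsNoetherianRing R] [IsLocalHom (algebraMap 𝒪 R)]
    (hres : Function.Surjective (residue R ∘ algebraMap 𝒪 R)) (n : ℕ) :
    GaloisRep.IsArtinianTestAlgebra 𝒪 (R ⧸ maximalIdeal R ^ (n + 1)) where
  isLocalHom := by
    have h1 := quotPow_mk_isLocalHom (R := R) n
    have : algebraMap 𝒪 (R ⧸ maximalIdeal R ^ (n + 1)) =
        (Ideal.Quotient.mk (maximalIdeal R ^ (n + 1))).comp (algebraMap 𝒪 R) := rfl
    rw [this]
    exact RingHom.isLocalHom_comp _ _
  residue_surjective := by
    intro z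
    obtain ⟨y', rfl⟩ := residue_surjective z
    obtain ⟨y, rfl⟩ := Ideal.Quotient.mk_surjective y'
    obtain ⟨o, ho⟩ := hres (residue R y)
    refine ⟨o, ?_⟩
    have h1 : y - algebraMap 𝒪 R o ∈ maximalIdeal R := by
      rw [← residue_eq_zero_iff, map_sub, sub_eq_zero]
      exact ho.symm
    have h2 := quotPow_mk_isLocalHom (R := R) n
    have h3 : Ideal.Quotient.mk (maximalIdeal R ^ (n + 1)) (y - algebraMap 𝒪 R o) ∈
        maximalIdeal (R ⧸ maximalIdeal R ^ (n + 1)) := map_nonunit _ _ h1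
    rw [← residue_eq_zero_iff, map_sub, map_sub, sub_eq_zero] at h3
    rw [Function.comp_apply]
    exact h3.symm
  isArtinian := by
    rw [isArtinianRing_iff_isNilpotent_maximalIdeal]
    exact ⟨n + 1, quotPow_maximalIdeal_pow n⟩

end QuotPow

section Universal

attribute [local instance] quotPow_isLocalRing

variable {R : Type} [CommRing R] [IsLocalRing R]

/-- An element lying in all powers of the maximal ideal of a Hausdorff local ring is zero. -/
theorem eq_zero_of_forall_mem_pow_succ [IsHausdorff (maximalIdeal R) R] {y : R}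
    (h : ∀ n : ℕ, y ∈ maximalIdeal R ^ (n + 1)) : y = 0 := by
  apply IsHausdorff.haus (I := maximalIdeal R) (M := R) inferInstance
  intro n
  rw [SModEq.sub_mem, smul_eq_mul, Ideal.mul_top, sub_zero]
  exact Ideal.pow_le_pow_right (Nat.le_succ n) (h n)

/-- In an Artinian local ring some power of the maximal ideal vanishes. -/
theorem exists_maximalIdeal_pow_succ_eq_bot {B : Type} [CommRing B] [IsLocalRing B]
    [IsArtinianRing B] : ∃ n : ℕ, maximalIdeal B ^ (n + 1) = ⊥ := by
  obtain ⟨m, hm⟩ := IsArtinianRing.isNilpotent_jacobson_bot (R := B)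
  rw [jacobson_eq_maximalIdeal _ bot_ne_top] at hm
  refine ⟨m, ?_⟩
  rw [pow_succ, hm, Ideal.zero_eq_bot, Ideal.bot_mul]

variable {𝒪 : Type} [CommRing 𝒪] [IsLocalRing 𝒪]
variable {𝒟 : ∀ ⦃A : Type⦄ [CommRing A] [IsLocalRing A] [Algebra 𝒪 A], GaloisRepAdic A → Prop}
variable [IsNoetherianRing R] [IsAdicComplete (maximalIdeal R) R] [Algebra 𝒪 R]
  [IsLocalHom (algebraMap 𝒪 R)]
variable {Λ : Type} [CommRing Λ] [Algebra 𝒪 Λ]

/-- The universal framed representation over the limit ring `R`: its entries are the images of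
the coordinate elements `x σ i j`; it is of type `𝒟` and lifts the framed residual
representation. -/
theorem exists_universalFramedRep
    (h𝒟 : GaloisRep.IsDeformationCondition 𝒪 𝒟)
    (rb : FramedResidual (ResidueField 𝒪))
    (SP : ∀ ⦃B : Type⦄ [CommRing B] [IsLocalRing B] [Algebra 𝒪 B], FramedRep B → Prop)
    (hSP_type : ∀ ⦃B : Type⦄ [CommRing B] [IsLocalRing B] [Algebra 𝒪 B],
      GaloisRep.IsArtinianTestAlgebra 𝒪 B → ∀ r : FramedRep B, SP r → 𝒟 r.toGaloisRepAdic)
    (hSP_lift : ∀ ⦃B : Type⦄ [CommRing B] [IsLocalRing B] [Algebra 𝒪 B]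
      [IsLocalHom (algebraMap 𝒪 B)],
      GaloisRep.IsArtinianTestAlgebra 𝒪 B → ∀ r : FramedRep B, SP r →
        r.IsLiftOf rb (ResidueField.map (algebraMap 𝒪 B)))
    (x : GQ → Fin 2 → Fin 2 → Λ) (I : ℕ → Ideal Λ)
    (hGI : ∀ (n : ℕ) ⦃B : Type⦄ [CommRing B] [IsLocalRing B] [Algebra 𝒪 B],
      GaloisRep.IsArtinianTestAlgebra 𝒪 B → maximalIdeal B ^ (n + 1) = ⊥ →
      ∀ f : Λ →ₐ[𝒪] B, I n ≤ RingHom.ker f →
        ∃ r : FramedRep B, (∀ σ i j, r σ i j = f (x σ i j)) ∧ SP r)
    (hres : Function.Surjective (residue R ∘ algebraMap 𝒪 R))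
    (ι : Λ →ₐ[𝒪] R) (hI : ∀ n, I n ≤ (maximalIdeal R ^ (n + 1)).comap ι) :
    ∃ rU : FramedRep R, (∀ σ i j, rU σ i j = ι (x σ i j)) ∧ 𝒟 rU.toGaloisRepAdic ∧
      rU.IsLiftOf rb (ResidueField.map (algebraMap 𝒪 R)) := by
  classical
  -- the level-`n` framed representations
  have hlev : ∀ n : ℕ, ∃ r : FramedRep (R ⧸ maximalIdeal R ^ (n + 1)),
      (∀ σ i j, r σ i j = Ideal.Quotient.mk (maximalIdeal R ^ (n + 1)) (ι (x σ i j))) ∧ SP r := by
    intro n
    have hB := quotPow_isArtinianTestAlgebra (𝒪 := 𝒪) (R := R) hres n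
    have hker : I n ≤ RingHom.ker ((Ideal.Quotient.mkₐ 𝒪 (maximalIdeal R ^ (n + 1))).comp ι) := by
      intro l hl
      rw [RingHom.mem_ker]
      have := hI n hl
      rw [Ideal.mem_comap] at this
      show Ideal.Quotient.mk (maximalIdeal R ^ (n + 1)) (ι l) = 0
      exact Ideal.Quotient.eq_zero_iff_mem.mpr this
    obtain ⟨r, hr, hSP⟩ := hGI n hB (quotPow_maximalIdeal_pow n) _ hker
    exact ⟨r, fun σ i j => by rw [hr]; rfl, hSP⟩
  choose rl hrl hrlSP using hlev
  let M : GQ → Matrix (Fin 2) (Fin 2) R := fun σ => Matrix.of fun i j => ι (x σ i j)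
  have hMmap : ∀ n σ, (M σ).map (Ideal.Quotient.mk (maximalIdeal R ^ (n + 1))) = rl n σ := by
    intro n σ
    ext i j
    rw [Matrix.map_apply, hrl]
    rfl
  have hmem_of_map_eq : ∀ {X Y : Matrix (Fin 2) (Fin 2) R},
      (∀ n, X.map (Ideal.Quotient.mk (maximalIdeal R ^ (n + 1))) =
        Y.map (Ideal.Quotient.mk (maximalIdeal R ^ (n + 1)))) → X = Y := by
    intro X Y h
    ext i j
    rw [← sub_eq_zero]
    apply eq_zero_of_forall_mem_pow_succ
    intro n
    have := congrFun (congrFun (h n) i) j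
    rw [Matrix.map_apply, Matrix.map_apply] at this
    exact Ideal.Quotient.eq.mp this
  have hM1 : M 1 = 1 := by
    apply hmem_of_map_eq
    intro n
    rw [hMmap, (rl n).map_one, Matrix.map_one _ (map_zero _) (map_one _)]
  have hMmul : ∀ σ τ, M (σ * τ) = M σ * M τ := by
    intro σ τ
    apply hmem_of_map_eq
    intro n
    rw [hMmap, (rl n).map_mul, Matrix.map_mul, hMmap, hMmap]
  let rU : FramedRep R :=
    { toMonoidHom := { toFun := M, map_one' := hM1, map_mul' := hMmul }
      cont := by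
        intro n
        obtain ⟨L, hL, h⟩ := (rl n).cont (n + 1)
        refine ⟨L, hL, fun σ hσ i j => ?_⟩
        have h1 := h σ hσ i j
        rw [quotPow_maximalIdeal_pow, Ideal.mem_bot] at h1
        have h2 : Ideal.Quotient.mk (maximalIdeal R ^ (n + 1)) ((M σ - 1) i j) = 0 := by
          rw [← h1]
          show _ = ((rl n) σ - 1) i j
          rw [← hMmap n σ, Matrix.sub_apply, Matrix.sub_apply, Matrix.map_apply, map_sub]
          congr 1
          by_cases hij : i = j
          · subst hij; simp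
          · simp [Matrix.one_apply_ne hij]
        have h3 := Ideal.Quotient.eq_zero_iff_mem.mp h2
        exact Ideal.pow_le_pow_right (Nat.le_succ n) h3 }
  have hrU : ∀ σ i j, rU σ i j = ι (x σ i j) := fun σ i j => rfl
  refine ⟨rU, hrU, ?_, ?_⟩
  · -- type 𝒟
    rw [h𝒟.iff_forall_surjective inferInstance hres]
    intro B _ _ _ hB q hq _
    have := hB.isArtinian
    obtain ⟨n, hn⟩ := exists_maximalIdeal_pow_succ_eq_bot (B := B)
    have hker : I n ≤ RingHom.ker (q.comp ι) := by
      intro l hl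
      rw [RingHom.mem_ker]
      have h1 := hI n hl
      rw [Ideal.mem_comap] at h1
      have h2 := map_mem_maximalIdeal_pow (q : R →+* B) hq h1
      rw [hn, Ideal.mem_bot] at h2
      exact h2
    obtain ⟨r, hr, hSP⟩ := hGI n hB hn _ hker
    have hreq : r = rU.map (q : R →+* B) hq := by
      ext σ i j
      rw [hr, FramedRep.map_apply, Matrix.map_apply, hrU]
      rfl
    have h1 : 𝒟 (rU.map (q : R →+* B) hq).toGaloisRepAdic := hreq ▸ hSP_type hB r hSP
    obtain ⟨e⟩ := rU.baseChangeAlong_isEquiv (q : R →+* B) hq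
    exact h𝒟.of_isEquiv hB ⟨e.symm⟩ h1
  · -- lifts `rb`
    intro σ
    have hB := quotPow_isArtinianTestAlgebra (𝒪 := 𝒪) (R := R) hres 0
    have := hB.isLocalHom
    have := quotPow_mk_isLocalHom (R := R) 0
    have h0 := hSP_lift hB (rl 0) (hrlSP 0) σ
    ext i j
    have h1 := congrFun (congrFun h0 i) j
    rw [Matrix.map_apply, Matrix.map_apply, hrl] at h1
    rw [Matrix.map_apply, Matrix.map_apply, hrU]
    have hcomp : ResidueField.map (algebraMap 𝒪 (R ⧸ maximalIdeal R ^ (0 + 1))) =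
        (ResidueField.map (Ideal.Quotient.mk (maximalIdeal R ^ (0 + 1)))).comp
          (ResidueField.map (algebraMap 𝒪 R)) := by
      rw [← ResidueField.map_comp]
      rfl
    rw [hcomp, RingHom.comp_apply, ← ResidueField.map_residue] at h1
    exact (ResidueField.map (Ideal.Quotient.mk (maximalIdeal R ^ (0 + 1)))).injective h1

end Universal

end

end Fermat.Agent.S53
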