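import Mathlib
import Fermat.Prelude.Def_GaloisRep_DeformationRingData
import Fermat.Prelude.Def_GaloisRep_DeformationCondition
import Fermat.Agent.S53.FramedResidual
import Fermat.Agent.S53.UniversalRep

/-!
The universal property of the universal framed representation with respect to Artinian test
algebras (piece G4 of the S53 plan), written against an abstract hypothesis package.
-/

set_option autoImplicit false

namespace Fermat.Agent.S53

open IsLocalRing

noncomputable section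

section ArtinUniversal

/-- An algebra homomorphism between local algebras over a local ring is local as soon as the
base ring surjects onto the residue field of the target. -/
theorem isLocalHom_of_residue_surjective {𝒪 R B : Type} [CommRing 𝒪] [IsLocalRing 𝒪]
    [CommRing R] [IsLocalRing R] [Algebra 𝒪 R] [CommRing B] [IsLocalRing B] [Algebra 𝒪 B]
    [IsLocalHom (algebraMap 𝒪 B)]
    (hB : Function.Surjective (residue B ∘ algebraMap 𝒪 B)) (φ : R →ₐ[𝒪] B) :
    IsLocalHom (φ : R →+* B) := by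
  refine ⟨fun a ha => ?_⟩
  by_contra hna
  have haM : a ∈ maximalIdeal R := (mem_maximalIdeal a).mpr hna
  obtain ⟨o, ho⟩ := hB (residue B (φ a))
  rw [Function.comp_apply] at ho
  have hounit : IsUnit o := by
    by_contra hno
    have h1 : algebraMap 𝒪 B o ∈ maximalIdeal B :=
      map_nonunit (algebraMap 𝒪 B) o ((mem_maximalIdeal o).mpr hno)
    rw [← residue_eq_zero_iff, ho, residue_eq_zero_iff] at h1
    exact (mem_maximalIdeal _).mp h1 ha
  have h2 : IsUnit (algebraMap 𝒪 R o - a) := by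
    by_contra hnu
    have h3 : algebraMap 𝒪 R o - a ∈ maximalIdeal R := (mem_maximalIdeal _).mpr hnu
    have h4 : algebraMap 𝒪 R o ∈ maximalIdeal R := by
      have := (maximalIdeal R).add_mem h3 haM
      rwa [sub_add_cancel] at this
    exact (mem_maximalIdeal _).mp h4 (hounit.map (algebraMap 𝒪 R))
  have h5 : IsUnit ((φ : R →+* B) (algebraMap 𝒪 R o - a)) := h2.map (φ : R →+* B)
  have h6 : (φ : R →+* B) (algebraMap 𝒪 R o - a) ∈ maximalIdeal B := by
    rw [← residue_eq_zero_iff, map_sub, map_sub, sub_eq_zero]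
    show residue B (φ (algebraMap 𝒪 R o)) = residue B (φ a)
    rw [AlgHom.commutes, ho]
  exact (mem_maximalIdeal _).mp h6 h5

variable {𝒪 : Type} [CommRing 𝒪] [IsLocalRing 𝒪]
variable {𝒟 : ∀ ⦃A : Type⦄ [CommRing A] [IsLocalRing A] [Algebra 𝒪 A], GaloisRepAdic A → Prop}
variable {R : Type} [CommRing R] [IsLocalRing R] [Algebra 𝒪 R]
variable {Λ : Type} [CommRing Λ] [Algebra 𝒪 Λ]

/-- The universal property of the universal framed representation on Artinian test algebras. -/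
theorem artinian_universal
    (ρbar : ResidualGaloisRep (ResidueField 𝒪))
    (SP : ∀ ⦃B : Type⦄ [CommRing B] [IsLocalRing B] [Algebra 𝒪 B], FramedRep B → Prop)
    (hSP_E : ∀ ⦃B : Type⦄ [CommRing B] [IsLocalRing B] [Algebra 𝒪 B]
      [IsLocalHom (algebraMap 𝒪 B)], GaloisRep.IsArtinianTestAlgebra 𝒪 B →
      ∀ ρB : GaloisRepAdic B, 𝒟 ρB →
        ρB.residual.IsEquiv (ρbar.baseChangeAlong (ResidueField.map (algebraMap 𝒪 B))) →
        ∃ r : FramedRep B, SP r ∧ ρB.IsEquiv r.toGaloisRepAdic)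
    (hSP_U : ∀ ⦃B : Type⦄ [CommRing B] [IsLocalRing B] [Algebra 𝒪 B],
      GaloisRep.IsArtinianTestAlgebra 𝒪 B → ∀ r r' : FramedRep B, SP r → SP r' →
        r.toGaloisRepAdic.IsEquiv r'.toGaloisRepAdic → r = r')
    (x : GQ → Fin 2 → Fin 2 → Λ) (I : ℕ → Ideal Λ)
    (hGI : ∀ (n : ℕ) ⦃B : Type⦄ [CommRing B] [IsLocalRing B] [Algebra 𝒪 B],
      GaloisRep.IsArtinianTestAlgebra 𝒪 B → maximalIdeal B ^ (n + 1) = ⊥ →
      ∀ f : Λ →ₐ[𝒪] B, (I n ≤ RingHom.ker f ↔
        ∃ r : FramedRep B, (∀ σ i j, r σ i j = f (x σ i j)) ∧ SP r))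
    (hfree : ∀ ⦃B : Type⦄ [CommRing B] [IsLocalRing B] [Algebra 𝒪 B]
      (v : GQ → Fin 2 → Fin 2 → B), ∃ f : Λ →ₐ[𝒪] B, ∀ σ i j, f (x σ i j) = v σ i j)
    (hgen : ∀ ⦃B : Type⦄ [CommRing B] [IsLocalRing B] [Algebra 𝒪 B] (f g : Λ →ₐ[𝒪] B),
      (∀ σ i j, f (x σ i j) = g (x σ i j)) → f = g)
    (ι : Λ →ₐ[𝒪] R) (hI : ∀ n, I n ≤ (maximalIdeal R ^ (n + 1)).comap ι)
    (hdense : ∀ (n : ℕ) (y : R), ∃ l : Λ, y - ι l ∈ maximalIdeal R ^ (n + 1))
    (hlift : ∀ (n : ℕ) ⦃B : Type⦄ [CommRing B] [IsLocalRing B] [Algebra 𝒪 B],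
      GaloisRep.IsArtinianTestAlgebra 𝒪 B → maximalIdeal B ^ (n + 1) = ⊥ →
      ∀ g : Λ →ₐ[𝒪] B, I n ≤ RingHom.ker g → ∃ φ : R →ₐ[𝒪] B, ∀ l, φ (ι l) = g l)
    (rU : FramedRep R) (hrU : ∀ σ i j, rU σ i j = ι (x σ i j))
    (B : Type) [CommRing B] [IsLocalRing B] [Algebra 𝒪 B] [IsLocalHom (algebraMap 𝒪 B)]
    (hB : GaloisRep.IsArtinianTestAlgebra 𝒪 B) (ρB : GaloisRepAdic B) (hρB : 𝒟 ρB)
    (hres : ρB.residual.IsEquiv (ρbar.baseChangeAlong (ResidueField.map (algebraMap 𝒪 B)))) :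
    ∃! φ : R →ₐ[𝒪] B, ∃ hφ : IsLocalHom (φ : R →+* B),
      (rU.toGaloisRepAdic.baseChangeAlong (φ : R →+* B) hφ).IsEquiv ρB := by
  classical
  have := hB.isArtinian
  obtain ⟨n, hn⟩ := exists_maximalIdeal_pow_succ_eq_bot (B := B)
  obtain ⟨r, hrSP, ⟨eB⟩⟩ := hSP_E hB ρB hρB hres
  obtain ⟨f, hf⟩ := hfree (fun σ i j => r σ i j)
  have hker : I n ≤ RingHom.ker f := (hGI n hB hn f).mpr ⟨r, fun σ i j => (hf σ i j).symm, hrSP⟩
  obtain ⟨φ, hφι⟩ := hlift n hB hn f hker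
  have hφloc : IsLocalHom (φ : R →+* B) :=
    isLocalHom_of_residue_surjective hB.residue_surjective φ
  -- key: any local algebra hom `ψ` pushes `rU` to a slice point
  have hpush : ∀ (ψ : R →ₐ[𝒪] B) (hψ : IsLocalHom (ψ : R →+* B)),
      SP (rU.map (ψ : R →+* B) hψ) := by
    intro ψ hψ
    have hk : I n ≤ RingHom.ker (ψ.comp ι) := by
      intro l hl
      rw [RingHom.mem_ker]
      have h1 := hI n hl
      rw [Ideal.mem_comap] at h1
      have h2 := map_mem_maximalIdeal_pow (ψ : R →+* B) hψ h1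
      rw [hn, Ideal.mem_bot] at h2
      exact h2
    obtain ⟨r', hr', hSP'⟩ := (hGI n hB hn (ψ.comp ι)).mp hk
    have : r' = rU.map (ψ : R →+* B) hψ := by
      ext σ i j
      rw [hr', FramedRep.map_apply, Matrix.map_apply, hrU]
      rfl
    exact this ▸ hSP'
  have hmapφ : rU.map (φ : R →+* B) hφloc = r := by
    ext σ i j
    rw [FramedRep.map_apply, Matrix.map_apply, hrU]
    show φ (ι (x σ i j)) = _
    rw [hφι, hf]
  refine ⟨φ, ⟨hφloc, ?_⟩, ?_⟩
  · obtain ⟨e1⟩ := rU.baseChangeAlong_isEquiv (φ : R →+* B) hφloc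
    rw [hmapφ] at e1
    exact ⟨e1.trans eB.symm⟩
  · rintro ψ ⟨hψ, ⟨eψ⟩⟩
    obtain ⟨e1⟩ := rU.baseChangeAlong_isEquiv (ψ : R →+* B) hψ
    have heq : rU.map (ψ : R →+* B) hψ = r :=
      hSP_U hB _ _ (hpush ψ hψ) hrSP ⟨e1.symm.trans (eψ.trans eB)⟩
    have hψι : ψ.comp ι = f := by
      apply hgen
      intro σ i j
      have := congrFun (congrFun (congrArg (fun s : FramedRep B => s σ) heq) i) j
      rw [FramedRep.map_apply, Matrix.map_apply, hrU] at this
      rw [hf]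
      exact this
    -- `ψ` and `φ` agree on the range of `ι`, which is dense
    apply AlgHom.ext
    intro y
    obtain ⟨l, hl⟩ := hdense n y
    have h1 := map_mem_maximalIdeal_pow (ψ : R →+* B) hψ hl
    have h2 := map_mem_maximalIdeal_pow (φ : R →+* B) hφloc hl
    rw [hn, Ideal.mem_bot] at h1 h2
    have h1' : ψ y = ψ (ι l) := by
      have : (ψ : R →+* B) (y - ι l) = ψ y - ψ (ι l) := map_sub _ _ _
      rw [this] at h1
      exact sub_eq_zero.mp h1
    have h2' : φ y = φ (ι l) := by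
      have : (φ : R →+* B) (y - ι l) = φ y - φ (ι l) := map_sub _ _ _
      rw [this] at h2
      exact sub_eq_zero.mp h2
    rw [h1', h2', hφι]
    exact congrArg (fun g : Λ →ₐ[𝒪] B => g l) hψι

end ArtinUniversal

end

end Fermat.Agent.S53
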