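import Mathlib
import Fermat.Prelude.Def_GaloisRep_Adic
import Fermat.Prelude.Def_GaloisRep_DeformationCondition

set_option autoImplicit false
set_option linter.style.haveILetI false

namespace Fermat.Agent.S53

open scoped TensorProduct

section Comp

variable {A B C : Type} [CommRing A] [IsLocalRing A] [CommRing B] [IsLocalRing B]
  [CommRing C] [IsLocalRing C]

noncomputable def adicBaseChangeCompEquiv (φ : A →+* B) (hφ : IsLocalHom φ) (ψ : B →+* C)
    (hψ : IsLocalHom ψ) (hψφ : IsLocalHom (ψ.comp φ)) (ρ : GaloisRepAdic A) :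
    GaloisRepAdic.Equiv ((ρ.baseChangeAlong φ hφ).baseChangeAlong ψ hψ)
      (ρ.baseChangeAlong (ψ.comp φ) hψφ) :=
  letI : Algebra A B := φ.toAlgebra
  letI : Algebra B C := ψ.toAlgebra
  letI : Algebra A C := (ψ.comp φ).toAlgebra
  haveI : IsScalarTower A B C := IsScalarTower.of_algebraMap_eq (fun _ => rfl)
  { toLinearEquiv := TensorProduct.AlgebraTensorModule.cancelBaseChange A B C C ρ.V
    map_apply := fun σ x => by
      show TensorProduct.AlgebraTensorModule.cancelBaseChange A B C C ρ.V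
          (((ρ.ρ σ).baseChange B).baseChange C x) =
        (ρ.ρ σ).baseChange C (TensorProduct.AlgebraTensorModule.cancelBaseChange A B C C ρ.V x)
      rw [LinearMap.baseChange_baseChange]
      simp }

theorem adicBaseChange_comp_isEquiv (φ : A →+* B) (hφ : IsLocalHom φ) (ψ : B →+* C)
    (hψ : IsLocalHom ψ) (hψφ : IsLocalHom (ψ.comp φ)) (ρ : GaloisRepAdic A) :
    ((ρ.baseChangeAlong φ hφ).baseChangeAlong ψ hψ).IsEquiv
      (ρ.baseChangeAlong (ψ.comp φ) hψφ) :=
  ⟨adicBaseChangeCompEquiv φ hφ ψ hψ hψφ ρ⟩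

theorem adicBaseChange_comp_isEquiv' (φ : A →+* B) (hφ : IsLocalHom φ) (ψ : B →+* C)
    (hψ : IsLocalHom ψ) (χ : A →+* C) (hχ : IsLocalHom χ) (h : ψ.comp φ = χ)
    (ρ : GaloisRepAdic A) :
    ((ρ.baseChangeAlong φ hφ).baseChangeAlong ψ hψ).IsEquiv (ρ.baseChangeAlong χ hχ) := by
  subst h
  exact adicBaseChange_comp_isEquiv φ hφ ψ hψ hχ ρ

end Comp

section Residual

section General

variable {A B : Type} [CommRing A] [CommRing B] (φ : A →+* B)
  {kA kB : Type} [Field kA] [Field kB] [Algebra A kA] [Algebra B kB] (ψ : kA →+* kB)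
  (hcomp : ∀ a, ψ (algebraMap A kA a) = algebraMap B kB (φ a))
  {V : Type} [AddCommGroup V] [Module A V]

noncomputable def cancelEquivGeneral :
    letI : Algebra A B := φ.toAlgebra
    letI : Algebra kA kB := ψ.toAlgebra
    kB ⊗[B] (B ⊗[A] V) ≃ₗ[kB] kB ⊗[kA] (kA ⊗[A] V) :=
  letI : Algebra A B := φ.toAlgebra
  letI : Algebra kA kB := ψ.toAlgebra
  letI : Algebra A kB := ((algebraMap B kB).comp φ).toAlgebra
  haveI : IsScalarTower A B kB := IsScalarTower.of_algebraMap_eq (fun _ => rfl)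
  haveI : IsScalarTower A kA kB := IsScalarTower.of_algebraMap_eq (fun a => (hcomp a).symm)
  (TensorProduct.AlgebraTensorModule.cancelBaseChange A B kB kB V) ≪≫ₗ
    (TensorProduct.AlgebraTensorModule.cancelBaseChange A kA kB kB V).symm

theorem cancelEquivGeneral_baseChange (f : V →ₗ[A] V) :
    letI : Algebra A B := φ.toAlgebra
    letI : Algebra kA kB := ψ.toAlgebra
    ∀ x : kB ⊗[B] (B ⊗[A] V),
    cancelEquivGeneral φ ψ hcomp ((f.baseChange B).baseChange kB x) =
      (f.baseChange kA).baseChange kB (cancelEquivGeneral φ ψ hcomp x) := by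
  letI : Algebra A B := φ.toAlgebra
  letI : Algebra kA kB := ψ.toAlgebra
  letI : Algebra A kB := ((algebraMap B kB).comp φ).toAlgebra
  haveI : IsScalarTower A B kB := IsScalarTower.of_algebraMap_eq (fun _ => rfl)
  haveI : IsScalarTower A kA kB := IsScalarTower.of_algebraMap_eq (fun a => (hcomp a).symm)
  intro x
  show ((TensorProduct.AlgebraTensorModule.cancelBaseChange A B kB kB V) ≪≫ₗ
    (TensorProduct.AlgebraTensorModule.cancelBaseChange A kA kB kB V).symm)
      ((f.baseChange B).baseChange kB x) =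
    (f.baseChange kA).baseChange kB
      (((TensorProduct.AlgebraTensorModule.cancelBaseChange A B kB kB V) ≪≫ₗ
    (TensorProduct.AlgebraTensorModule.cancelBaseChange A kA kB kB V).symm) x)
  rw [LinearMap.baseChange_baseChange, LinearMap.baseChange_baseChange]
  simp

end General

variable {A B : Type} [CommRing A] [IsLocalRing A] [CommRing B] [IsLocalRing B]

noncomputable def residualBaseChangeEquiv (φ : A →+* B) (hφ : IsLocalHom φ) (ρ : GaloisRepAdic A) :
    ResidualGaloisRep.Equiv (ρ.baseChangeAlong φ hφ).residual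
      (ρ.residual.baseChangeAlong (haveI := hφ; IsLocalRing.ResidueField.map φ)) :=
  haveI := hφ
  { toLinearEquiv := cancelEquivGeneral φ (IsLocalRing.ResidueField.map φ) (fun _ => rfl)
      (V := ρ.V)
    map_apply := fun σ x =>
      cancelEquivGeneral_baseChange φ (IsLocalRing.ResidueField.map φ) (fun _ => rfl) (ρ.ρ σ) x }

theorem residual_baseChangeAlong_isEquiv (φ : A →+* B) (hφ : IsLocalHom φ) (ρ : GaloisRepAdic A) :
    (ρ.baseChangeAlong φ hφ).residual.IsEquiv
      (ρ.residual.baseChangeAlong (haveI := hφ; IsLocalRing.ResidueField.map φ)) :=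
  ⟨residualBaseChangeEquiv φ hφ ρ⟩

section ResidualComp

variable {k k' k'' : Type} [Field k] [Field k'] [Field k'']

noncomputable def residualBaseChangeCompEquiv (ψ₁ : k →+* k') (ψ₂ : k' →+* k'')
    (ρ : ResidualGaloisRep k) :
    ResidualGaloisRep.Equiv ((ρ.baseChangeAlong ψ₁).baseChangeAlong ψ₂)
      (ρ.baseChangeAlong (ψ₂.comp ψ₁)) :=
  letI : Algebra k k' := ψ₁.toAlgebra
  letI : Algebra k' k'' := ψ₂.toAlgebra
  letI : Algebra k k'' := (ψ₂.comp ψ₁).toAlgebra
  haveI : IsScalarTower k k' k'' := IsScalarTower.of_algebraMap_eq (fun _ => rfl)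
  { toLinearEquiv := TensorProduct.AlgebraTensorModule.cancelBaseChange k k' k'' k'' ρ.V
    map_apply := fun σ x => by
      show TensorProduct.AlgebraTensorModule.cancelBaseChange k k' k'' k'' ρ.V
          (((ρ.ρ σ).baseChange k').baseChange k'' x) =
        (ρ.ρ σ).baseChange k'' (TensorProduct.AlgebraTensorModule.cancelBaseChange k k' k'' k'' ρ.V x)
      rw [LinearMap.baseChange_baseChange]
      simp }

theorem residualBaseChange_comp_isEquiv (ψ₁ : k →+* k') (ψ₂ : k' →+* k'') (χ : k →+* k'')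
    (h : ψ₂.comp ψ₁ = χ) (ρ : ResidualGaloisRep k) :
    ((ρ.baseChangeAlong ψ₁).baseChangeAlong ψ₂).IsEquiv (ρ.baseChangeAlong χ) := by
  subst h
  exact ⟨residualBaseChangeCompEquiv ψ₁ ψ₂ ρ⟩

end ResidualComp

section Deformation

variable {𝒪 : Type} [CommRing 𝒪] [IsLocalRing 𝒪] {A B : Type} [CommRing A] [IsLocalRing A]
  [CommRing B] [IsLocalRing B] [Algebra 𝒪 A] [Algebra 𝒪 B]

theorem residual_isEquiv_baseChangeAlong [IsLocalHom (algebraMap 𝒪 A)]
    [IsLocalHom (algebraMap 𝒪 B)]
    (ρbar : ResidualGaloisRep (IsLocalRing.ResidueField 𝒪)) (ρ : GaloisRepAdic A)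
    (h : ρ.residual.IsEquiv
      (ρbar.baseChangeAlong (IsLocalRing.ResidueField.map (algebraMap 𝒪 A))))
    (φ : A →ₐ[𝒪] B) (hφ : IsLocalHom (φ : A →+* B)) :
    (ρ.baseChangeAlong (φ : A →+* B) hφ).residual.IsEquiv
      (ρbar.baseChangeAlong (IsLocalRing.ResidueField.map (algebraMap 𝒪 B))) := by
  obtain ⟨e⟩ := h
  haveI := hφ
  have e1 := residualBaseChangeEquiv (φ : A →+* B) hφ ρ
  have e2 := ResidualGaloisRep.Equiv.baseChangeAlong
    (IsLocalRing.ResidueField.map (φ : A →+* B)) e
  have hcomp : (IsLocalRing.ResidueField.map (φ : A →+* B)).comp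
      (IsLocalRing.ResidueField.map (algebraMap 𝒪 A)) =
      IsLocalRing.ResidueField.map (algebraMap 𝒪 B) := by
    apply Ideal.Quotient.ringHom_ext
    ext x
    simp only [RingHom.comp_apply]
    show (IsLocalRing.ResidueField.map (φ : A →+* B))
      ((IsLocalRing.ResidueField.map (algebraMap 𝒪 A)) (IsLocalRing.residue 𝒪 x)) =
      (IsLocalRing.ResidueField.map (algebraMap 𝒪 B)) (IsLocalRing.residue 𝒪 x)
    rw [IsLocalRing.ResidueField.map_residue, IsLocalRing.ResidueField.map_residue,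
      IsLocalRing.ResidueField.map_residue]
    congr 1
    exact φ.commutes x
  obtain ⟨e3⟩ := residualBaseChange_comp_isEquiv _ _ _ hcomp ρbar
  exact ⟨(e1.trans e2).trans e3⟩

end Deformation

end Residual

end Fermat.Agent.S53
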