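import Mathlib
import Fermat.Prelude.Def_GaloisRep_DeformationRingData
import Fermat.Prelude.Def_GaloisRep_DeformationCondition

set_option autoImplicit false
set_option linter.style.haveILetI false

namespace Fermat.Agent.S53

open IsLocalRing

noncomputable section Tangent

variable (𝒪 : Type) [CommRing 𝒪] [IsLocalRing 𝒪]

/-- The `𝒪`-algebra structure on the dual numbers over the residue field used in
`GaloisRep.TangentFinite`. -/
@[reducible] def dualNumberAlgebra : Algebra 𝒪 (DualNumber (ResidueField 𝒪)) :=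
  ((algebraMap (ResidueField 𝒪) (DualNumber (ResidueField 𝒪))).comp
    (algebraMap 𝒪 (ResidueField 𝒪))).toAlgebra

/-- The algebra structure on the residue field of the dual numbers used in
`GaloisRep.TangentFinite`. -/
@[reducible] def dualNumberResidueAlgebra :
    Algebra (ResidueField 𝒪) (ResidueField (DualNumber (ResidueField 𝒪))) :=
  ((IsLocalRing.residue (DualNumber (ResidueField 𝒪))).comp
    (algebraMap (ResidueField 𝒪) (DualNumber (ResidueField 𝒪)))).toAlgebra

theorem algebraMap_dualNumber_apply (a : 𝒪) :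
    letI := dualNumberAlgebra 𝒪
    algebraMap 𝒪 (DualNumber (ResidueField 𝒪)) a =
      algebraMap (ResidueField 𝒪) (DualNumber (ResidueField 𝒪)) (residue 𝒪 a) := rfl

theorem isLocalHom_algebraMap_dualNumber :
    letI := dualNumberAlgebra 𝒪
    IsLocalHom (algebraMap 𝒪 (DualNumber (ResidueField 𝒪))) := by
  letI := dualNumberAlgebra 𝒪
  refine ⟨fun a ha => ?_⟩
  rw [algebraMap_dualNumber_apply] at ha
  have h1 : IsUnit (TrivSqZeroExt.fstHom (ResidueField 𝒪) (ResidueField 𝒪) (ResidueField 𝒪)
      (algebraMap (ResidueField 𝒪) (DualNumber (ResidueField 𝒪)) (residue 𝒪 a))) :=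
    ha.map _
  have h2 : IsUnit (residue 𝒪 a) := by simpa using h1
  exact (IsLocalRing.residue_ne_zero_iff_isUnit a).mp h2.ne_zero

theorem residueFieldMap_dualNumber :
    letI := dualNumberAlgebra 𝒪
    haveI := isLocalHom_algebraMap_dualNumber 𝒪
    ResidueField.map (algebraMap 𝒪 (DualNumber (ResidueField 𝒪))) =
      (IsLocalRing.residue (DualNumber (ResidueField 𝒪))).comp
        (algebraMap (ResidueField 𝒪) (DualNumber (ResidueField 𝒪))) := by
  letI := dualNumberAlgebra 𝒪
  haveI := isLocalHom_algebraMap_dualNumber 𝒪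
  ext x
  obtain ⟨a, rfl⟩ := residue_surjective x
  rfl

theorem mem_maximalIdeal_dualNumber_iff {K : Type*} [Field K] (x : DualNumber K) :
    x ∈ maximalIdeal (DualNumber K) ↔ TrivSqZeroExt.fst x = 0 := by
  rw [mem_maximalIdeal, mem_nonunits_iff, TrivSqZeroExt.isUnit_iff_isUnit_fst, isUnit_iff_ne_zero,
    not_not]

theorem isArtinianTestAlgebra_dualNumber :
    letI := dualNumberAlgebra 𝒪
    GaloisRep.IsArtinianTestAlgebra 𝒪 (DualNumber (ResidueField 𝒪)) := by
  letI := dualNumberAlgebra 𝒪
  refine ⟨isLocalHom_algebraMap_dualNumber 𝒪, ?_, ?_⟩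
  · intro x
    obtain ⟨y, rfl⟩ := residue_surjective x
    obtain ⟨a, ha⟩ := residue_surjective (TrivSqZeroExt.fst y)
    refine ⟨a, ?_⟩
    show residue _ (algebraMap 𝒪 _ a) = residue _ y
    rw [algebraMap_dualNumber_apply, ha, ← sub_eq_zero, ← map_sub, residue_eq_zero_iff,
      mem_maximalIdeal_dualNumber_iff]
    simp [TrivSqZeroExt.algebraMap_eq_inl]
  · haveI : Module.Finite (ResidueField 𝒪) (DualNumber (ResidueField 𝒪)) :=
      inferInstanceAs (Module.Finite (ResidueField 𝒪) (ResidueField 𝒪 × ResidueField 𝒪))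
    exact IsArtinianRing.of_finite (ResidueField 𝒪) _

/-- Finiteness criterion extracted from `GaloisRep.TangentFinite`: any family of deformations of
type `𝒟` to the dual numbers which are pairwise inequivalent is finite. -/
theorem finite_of_tangentFinite (ρbar : ResidualGaloisRep (ResidueField 𝒪))
    (𝒟 : ∀ ⦃A : Type⦄ [CommRing A] [IsLocalRing A] [Algebra 𝒪 A], GaloisRepAdic A → Prop)
    (hfin : GaloisRep.TangentFinite 𝒪 ρbar 𝒟) :
    letI := dualNumberAlgebra 𝒪
    haveI := isLocalHom_algebraMap_dualNumber 𝒪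
    ∀ {X : Type*} (Φ : X → GaloisRepAdic (DualNumber (ResidueField 𝒪))),
      (∀ x, 𝒟 (Φ x)) →
      (∀ x, (Φ x).residual.IsEquiv (ρbar.baseChangeAlong
        (ResidueField.map (algebraMap 𝒪 (DualNumber (ResidueField 𝒪)))))) →
      (∀ x y, (Φ x).IsEquiv (Φ y) → x = y) → Finite X := by
  letI := dualNumberAlgebra 𝒪
  haveI := isLocalHom_algebraMap_dualNumber 𝒪
  intro X Φ h𝒟 hres hinj
  unfold GaloisRep.TangentFinite at hfin
  have hres' : ∀ x, (Φ x).residual.IsEquiv
      (ρbar.baseChangeAlong ((IsLocalRing.residue (DualNumber (ResidueField 𝒪))).comp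
        (algebraMap (ResidueField 𝒪) (DualNumber (ResidueField 𝒪))))) := by
    intro x
    have h := hres x
    rwa [residueFieldMap_dualNumber] at h
  refine @Finite.of_injective _ _ hfin (fun x => Quotient.mk _ ⟨Φ x, h𝒟 x, hres' x⟩) ?_
  intro x y hxy
  exact hinj x y (Quotient.exact hxy)

end Tangent

end Fermat.Agent.S53
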