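import Mathlib

set_option autoImplicit false

namespace Fermat.Agent.S53

open Ideal

section AdicSup

variable {R : Type*} [CommRing R] (I J : Ideal R)

theorem mk_mem_smul_top_iff (a b : ℕ) (x : R) :
    (Ideal.Quotient.mk (I ^ a) x ∈ (J ^ b • ⊤ : Submodule R (R ⧸ I ^ a))) ↔ x ∈ I ^ a ⊔ J ^ b := by
  constructor
  · intro h
    have key : ∀ z ∈ (J ^ b • ⊤ : Submodule R (R ⧸ I ^ a)),
        ∃ y ∈ J ^ b, Ideal.Quotient.mk (I ^ a) y = z := by
      intro z hz
      refine Submodule.smul_induction_on hz ?_ ?_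
      · intro r hr m _
        obtain ⟨y, rfl⟩ := Ideal.Quotient.mk_surjective m
        exact ⟨r * y, Ideal.mul_mem_right _ _ hr, by simp [Algebra.smul_def]⟩
      · rintro _ _ ⟨y₁, hy₁, rfl⟩ ⟨y₂, hy₂, rfl⟩
        exact ⟨y₁ + y₂, Ideal.add_mem _ hy₁ hy₂, by simp⟩
    obtain ⟨y, hy, hxy⟩ := key _ h
    have hmem : x - y ∈ I ^ a := by
      rw [← Ideal.Quotient.eq]
      exact hxy.symm
    have : x = (x - y) + y := by ring
    rw [this]
    exact Ideal.add_mem _ (Ideal.mem_sup_left hmem) (Ideal.mem_sup_right hy)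
  · intro h
    obtain ⟨i, hi, j, hj, rfl⟩ := Submodule.mem_sup.mp h
    have h1 : Ideal.Quotient.mk (I ^ a) (i + j) = j • (Ideal.Quotient.mk (I ^ a) 1) := by
      rw [map_add, Ideal.Quotient.eq_zero_iff_mem.mpr hi, zero_add, Algebra.smul_def]
      simp
    rw [h1]
    exact Submodule.smul_mem_smul hj Submodule.mem_top

theorem iInf_sup_pow_of_isHausdorff (a : ℕ) [IsHausdorff J (R ⧸ I ^ a)] (x : R)
    (hx : ∀ b, x ∈ I ^ a ⊔ J ^ b) : x ∈ I ^ a := by
  rw [← Ideal.Quotient.eq_zero_iff_mem]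
  apply IsHausdorff.haus' (I := J) (M := R ⧸ I ^ a)
  intro b
  rw [SModEq.zero]
  exact (mk_mem_smul_top_iff I J a b x).mpr (hx b)

theorem exists_limit_of_isPrecomplete (a : ℕ) [IsPrecomplete J (R ⧸ I ^ a)] (h : ℕ → R)
    (hh : ∀ m n, m ≤ n → h m - h n ∈ I ^ a ⊔ J ^ m) :
    ∃ l : R, ∀ b, h b - l ∈ I ^ a ⊔ J ^ b := by
  obtain ⟨L, hL⟩ := IsPrecomplete.prec' (I := J) (M := R ⧸ I ^ a)
    (fun n => Ideal.Quotient.mk (I ^ a) (h n)) (by
      intro m n hmn
      rw [SModEq.sub_mem, ← map_sub]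
      exact (mk_mem_smul_top_iff I J a m _).mpr (hh m n hmn))
  obtain ⟨l, rfl⟩ := Ideal.Quotient.mk_surjective L
  refine ⟨l, fun b => ?_⟩
  have := hL b
  rw [SModEq.sub_mem, ← map_sub] at this
  exact (mk_mem_smul_top_iff I J a b _).mp this

theorem sup_pow_le_pow_sup (a b n : ℕ) (ha : n ≤ a) (hb : n ≤ b) :
    I ^ a ⊔ J ^ b ≤ (I ⊔ J) ^ n :=
  sup_le ((Ideal.pow_le_pow_right ha).trans (Ideal.pow_right_mono le_sup_left n))
    ((Ideal.pow_le_pow_right hb).trans (Ideal.pow_right_mono le_sup_right n))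

theorem isAdicComplete_sup [IsAdicComplete I R] (hJ : ∀ n, IsAdicComplete J (R ⧸ I ^ n)) :
    IsAdicComplete (I ⊔ J) R := by
  have hsm : ∀ (n : ℕ) (x : R), x ≡ 0 [SMOD ((I ⊔ J) ^ n • ⊤ : Submodule R R)] ↔
      x ∈ (I ⊔ J) ^ n := by
    intro n x
    rw [SModEq.zero, smul_eq_mul, Ideal.mul_top]
  have hsm' : ∀ (K : Ideal R) (x y : R), x ≡ y [SMOD (K • ⊤ : Submodule R R)] ↔
      x - y ∈ K := by
    intro K x y
    rw [SModEq.sub_mem, smul_eq_mul, Ideal.mul_top]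
  refine { toIsHausdorff := ⟨?_⟩, toIsPrecomplete := ⟨?_⟩ }
  · intro x hx
    apply IsHausdorff.haus' (I := I) (M := R)
    intro a
    rw [SModEq.zero, smul_eq_mul, Ideal.mul_top]
    have := (hJ a).toIsHausdorff
    apply iInf_sup_pow_of_isHausdorff I J a x
    intro b
    exact Ideal.sup_pow_add_le_pow_sup_pow ((hsm (a + b) x).mp (hx (a + b)))
  · intro f hf
    have hf' : ∀ m n, m ≤ n → f m - f n ∈ (I ⊔ J) ^ m := fun m n hmn =>
      (hsm' _ _ _).mp (hf hmn)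
    -- step 1: limits modulo `I ^ a`
    have h1 : ∀ a, ∃ l : R, ∀ b, f (a + b) - l ∈ I ^ a ⊔ J ^ b := by
      intro a
      have := (hJ a).toIsPrecomplete
      apply exists_limit_of_isPrecomplete I J a (fun b => f (a + b))
      intro m n hmn
      exact Ideal.sup_pow_add_le_pow_sup_pow (hf' (a + m) (a + n) (by omega))
    choose l hl using h1
    -- step 2: the `l a` are `I`-adically Cauchy
    have h2 : ∀ a a', a ≤ a' → l a - l a' ∈ I ^ a := by
      intro a a' haa'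
      have := (hJ a).toIsHausdorff
      apply iInf_sup_pow_of_isHausdorff I J a
      intro b
      have hle1 : I ^ a ⊔ J ^ ((a' - a) + b) ≤ I ^ a ⊔ J ^ b :=
        sup_le_sup_left (Ideal.pow_le_pow_right (by omega)) _
      have hle2 : I ^ a' ⊔ J ^ b ≤ I ^ a ⊔ J ^ b :=
        sup_le_sup_right (Ideal.pow_le_pow_right haa') _
      have e1 : f (a + ((a' - a) + b)) - l a ∈ I ^ a ⊔ J ^ b := hle1 (hl a ((a' - a) + b))
      have e2 : f (a' + b) - l a' ∈ I ^ a ⊔ J ^ b := hle2 (hl a' b)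
      have e3 : a + ((a' - a) + b) = a' + b := by omega
      rw [e3] at e1
      have : l a - l a' = (f (a' + b) - l a') - (f (a' + b) - l a) := by ring
      rw [this]
      exact Ideal.sub_mem _ e2 e1
    obtain ⟨L, hL⟩ := IsPrecomplete.prec' (I := I) (M := R) l (by
      intro m n hmn
      rw [hsm']
      exact h2 m n hmn)
    have hL' : ∀ a, l a - L ∈ I ^ a := fun a => (hsm' _ _ _).mp (hL a)
    refine ⟨L, fun n => ?_⟩
    rw [hsm']
    have e1 : f n - f (n + n) ∈ (I ⊔ J) ^ n := hf' n (n + n) (by omega)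
    have e2 : f (n + n) - l n ∈ (I ⊔ J) ^ n :=
      sup_pow_le_pow_sup I J n n n le_rfl le_rfl (hl n n)
    have e3 : l n - L ∈ (I ⊔ J) ^ n := Ideal.pow_right_mono le_sup_left n (hL' n)
    have : f n - L = (f n - f (n + n)) + (f (n + n) - l n) + (l n - L) := by ring
    rw [this]
    exact Ideal.add_mem _ (Ideal.add_mem _ e1 e2) e3

end AdicSup

end Fermat.Agent.S53
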