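import Mathlib
import Fermat.Prelude.Thm_IsAdicComplete_of_module_finite
import Fermat.Agent.S53.AdicSup

set_option autoImplicit false

namespace Fermat.Agent.S53

open MvPowerSeries IsLocalRing

section VarIdeal

variable {σ : Type*} [Finite σ] {R : Type*} [CommRing R]

omit [Finite σ] in
theorem span_range_X_eq_map :
    (Ideal.span (Set.range X) : Ideal (MvPowerSeries σ R)) =
      (MvPolynomial.idealOfVars σ R).map
        (algebraMap (MvPolynomial σ R) (MvPowerSeries σ R)) := by
  rw [MvPolynomial.idealOfVars, Ideal.map_span, ← Set.range_comp]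
  congr 2
  funext s
  rw [Function.comp_apply, MvPowerSeries.algebraMap_apply']
  simp

theorem mem_span_range_X_pow_of_truncTotal_eq_zero (n : ℕ) (f : MvPowerSeries σ R)
    (h : truncTotal n f = 0) :
    f ∈ (Ideal.span (Set.range X) : Ideal (MvPowerSeries σ R)) ^ n := by
  set e := toAdicCompletionAlgEquiv σ R with he
  have h1 : AdicCompletion.eval (MvPolynomial.idealOfVars σ R) (MvPolynomial σ R) n (e f) = 0 := by
    rw [AdicCompletion.eval_apply, he, toAdicCompletionAlgEquiv_apply,
      toAdicCompletion_apply_eq_mk_truncTotal, h, map_zero]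
  have h2 : e f ∈ (MvPolynomial.idealOfVars σ R ^ n • ⊤ :
      Submodule (MvPolynomial σ R)
        (AdicCompletion (MvPolynomial.idealOfVars σ R) (MvPolynomial σ R))) := by
    rw [AdicCompletion.pow_smul_top_eq_ker_eval (MvPolynomial.idealOfVars_fg σ R)]
    exact h1
  have h3 : f ∈ (MvPolynomial.idealOfVars σ R ^ n • ⊤ :
      Submodule (MvPolynomial σ R) (MvPowerSeries σ R)) := by
    have h4 : e.symm (e f) ∈ Submodule.map (e.symm.toLinearEquiv : _ →ₗ[MvPolynomial σ R] _)
        (MvPolynomial.idealOfVars σ R ^ n • ⊤ :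
          Submodule (MvPolynomial σ R)
            (AdicCompletion (MvPolynomial.idealOfVars σ R) (MvPolynomial σ R))) :=
      Submodule.mem_map_of_mem h2
    rw [Submodule.map_smul''] at h4
    rw [AlgEquiv.symm_apply_apply] at h4
    exact Submodule.smul_mono le_rfl le_top h4
  rw [Ideal.smul_top_eq_map, Submodule.restrictScalars_mem, Ideal.map_pow,
    ← span_range_X_eq_map] at h3
  exact h3

theorem sub_truncTotal_mem_span_range_X_pow (n : ℕ) (f : MvPowerSeries σ R) :
    f - ((truncTotal n f : MvPolynomial σ R) : MvPowerSeries σ R) ∈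
      (Ideal.span (Set.range X) : Ideal (MvPowerSeries σ R)) ^ n := by
  rcases Nat.eq_zero_or_pos n with rfl | hn
  · simp
  apply mem_span_range_X_pow_of_truncTotal_eq_zero
  rw [map_sub, sub_eq_zero, eq_comm,
    truncTotal_coe_eq_self_iff _ hn.ne']
  exact totalDegree_truncTotal_lt f hn.ne'

instance finite_quotient_span_range_X_pow (n : ℕ) :
    Module.Finite R (MvPowerSeries σ R ⧸
      (Ideal.span (Set.range X) : Ideal (MvPowerSeries σ R)) ^ n) := by
  let g : MvPolynomial.restrictTotalDegree σ R n →ₗ[R] MvPowerSeries σ R ⧸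
      (Ideal.span (Set.range X) : Ideal (MvPowerSeries σ R)) ^ n :=
    ((Ideal.Quotient.mkₐ R _).toLinearMap.comp
      (MvPolynomial.coeToMvPowerSeries.algHom (σ := σ) (R := R) R).toLinearMap).comp
      (MvPolynomial.restrictTotalDegree σ R n).subtype
  refine Module.Finite.of_surjective g ?_
  intro y
  obtain ⟨f, rfl⟩ := Ideal.Quotient.mk_surjective y
  rcases Nat.eq_zero_or_pos n with rfl | hn
  · refine ⟨0, ?_⟩
    rw [map_zero, eq_comm, Ideal.Quotient.eq_zero_iff_mem]
    simp
  refine ⟨⟨truncTotal n f, ?_⟩, ?_⟩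
  · rw [MvPolynomial.mem_restrictTotalDegree]
    exact (totalDegree_truncTotal_lt f hn.ne').le
  · show Ideal.Quotient.mk _ ((truncTotal n f : MvPolynomial σ R) : MvPowerSeries σ R) =
      Ideal.Quotient.mk _ f
    rw [eq_comm, Ideal.Quotient.eq]
    exact sub_truncTotal_mem_span_range_X_pow n f

end VarIdeal

section Local

variable {σ : Type*} [Finite σ] {𝒪 : Type*} [CommRing 𝒪] [IsLocalRing 𝒪]

omit [Finite σ] in
theorem mem_maximalIdeal_mvPowerSeries_iff (f : MvPowerSeries σ 𝒪) :
    f ∈ maximalIdeal (MvPowerSeries σ 𝒪) ↔ constantCoeff f ∈ maximalIdeal 𝒪 := by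
  rw [mem_maximalIdeal, mem_maximalIdeal, mem_nonunits_iff, mem_nonunits_iff,
    isUnit_iff_constantCoeff]

theorem maximalIdeal_mvPowerSeries_eq :
    maximalIdeal (MvPowerSeries σ 𝒪) =
      (Ideal.span (Set.range X) : Ideal (MvPowerSeries σ 𝒪)) ⊔
        (maximalIdeal 𝒪).map (algebraMap 𝒪 (MvPowerSeries σ 𝒪)) := by
  apply le_antisymm
  · intro f hf
    rw [mem_maximalIdeal_mvPowerSeries_iff] at hf
    have h1 : f - C (constantCoeff f) ∈
        (Ideal.span (Set.range X) : Ideal (MvPowerSeries σ 𝒪)) := by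
      have := mem_span_range_X_pow_of_truncTotal_eq_zero 1 (f - C (constantCoeff f)) (by
        ext x
        by_cases hx : Finsupp.degree x < 1
        · rw [coeff_truncTotal _ hx]
          have hx0 : x = 0 := by
            rw [← Finsupp.degree_eq_zero_iff]
            omega
          subst hx0
          simp
        · rw [coeff_truncTotal_eq_zero _ (not_lt.mp hx)]
          simp)
      simpa using this
    have h2 : C (constantCoeff f) ∈
        (maximalIdeal 𝒪).map (algebraMap 𝒪 (MvPowerSeries σ 𝒪)) := by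
      rw [c_eq_algebraMap]
      exact Ideal.mem_map_of_mem _ hf
    have : f = (f - C (constantCoeff f)) + C (constantCoeff f) := by ring
    rw [this]
    exact Ideal.add_mem _ (Ideal.mem_sup_left h1) (Ideal.mem_sup_right h2)
  · apply sup_le
    · rw [Ideal.span_le]
      rintro _ ⟨i, rfl⟩
      rw [SetLike.mem_coe, mem_maximalIdeal_mvPowerSeries_iff, constantCoeff_X]
      exact Ideal.zero_mem _
    · rw [Ideal.map_le_iff_le_comap]
      intro a ha
      rw [Ideal.mem_comap, mem_maximalIdeal_mvPowerSeries_iff, ← c_eq_algebraMap,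
        constantCoeff_C]
      exact ha

variable [IsNoetherianRing 𝒪] [IsAdicComplete (maximalIdeal 𝒪) 𝒪]

instance isAdicComplete_maximalIdeal_mvPowerSeries :
    IsAdicComplete (maximalIdeal (MvPowerSeries σ 𝒪)) (MvPowerSeries σ 𝒪) := by
  rw [maximalIdeal_mvPowerSeries_eq]
  apply isAdicComplete_sup
  intro n
  rw [IsAdicComplete.map_algebraMap_iff]
  exact IsAdicComplete.of_module_finite (maximalIdeal 𝒪) _

end Local

end Fermat.Agent.S53
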