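import Mathlib
import Fermat.Agent.S53.PowerSeriesComplete

set_option autoImplicit false

namespace Fermat.Agent.S53

open MvPowerSeries

section EvalNilp

variable {σ : Type*} [Finite σ] {𝒪 : Type*} [CommRing 𝒪] {B : Type*} [CommRing B] [Algebra 𝒪 B]

theorem aeval_eq_zero_of_mem_pow (y : σ → B) (n : ℕ)
    (hy : (Ideal.span (Set.range y)) ^ n = ⊥) :
    ∀ a ∈ MvPolynomial.idealOfVars σ 𝒪 ^ n, MvPolynomial.aeval y a = 0 := by
  intro a ha
  have h1 : (MvPolynomial.idealOfVars σ 𝒪 ^ n).map (MvPolynomial.aeval (R := 𝒪) y) = ⊥ := by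
    rw [Ideal.map_pow, MvPolynomial.idealOfVars, Ideal.map_span, ← Set.range_comp]
    have : (⇑(MvPolynomial.aeval (R := 𝒪) y) ∘ MvPolynomial.X) = y := by
      funext s
      simp
    rw [this, hy]
  have h2 := Ideal.mem_map_of_mem (MvPolynomial.aeval (R := 𝒪) y) ha
  rw [h1] at h2
  exact h2

/-- Evaluation of power series at a family `y` with `(span (range y)) ^ n = ⊥`. -/
noncomputable def evalNilp (y : σ → B) (n : ℕ) (hy : (Ideal.span (Set.range y)) ^ n = ⊥) :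
    MvPowerSeries σ 𝒪 →ₐ[𝒪] B :=
  (Ideal.Quotient.liftₐ (MvPolynomial.idealOfVars σ 𝒪 ^ n) (MvPolynomial.aeval y)
    (aeval_eq_zero_of_mem_pow y n hy)).comp ((truncTotalAlgHom σ 𝒪 n).restrictScalars 𝒪)

theorem evalNilp_apply (y : σ → B) (n : ℕ) (hy : (Ideal.span (Set.range y)) ^ n = ⊥)
    (f : MvPowerSeries σ 𝒪) :
    evalNilp y n hy f = MvPolynomial.aeval y (truncTotal n f) := rfl

theorem evalNilp_coe (y : σ → B) (n : ℕ) (hy : (Ideal.span (Set.range y)) ^ n = ⊥)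
    (p : MvPolynomial σ 𝒪) :
    evalNilp y n hy (p : MvPowerSeries σ 𝒪) = MvPolynomial.aeval y p := by
  have h := (truncTotalAlgHom σ 𝒪 n).commutes p
  show (Ideal.Quotient.liftₐ (MvPolynomial.idealOfVars σ 𝒪 ^ n) (MvPolynomial.aeval y)
    (aeval_eq_zero_of_mem_pow y n hy)) ((truncTotalAlgHom σ 𝒪 n) (p : MvPowerSeries σ 𝒪)) = _
  have h' : (truncTotalAlgHom σ 𝒪 n) (p : MvPowerSeries σ 𝒪) =
      Ideal.Quotient.mk _ p := h
  rw [h']
  rfl

theorem evalNilp_X (y : σ → B) (n : ℕ) (hy : (Ideal.span (Set.range y)) ^ n = ⊥) (i : σ) :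
    evalNilp (𝒪 := 𝒪) y n hy (X i) = y i := by
  rw [← MvPolynomial.coe_X, evalNilp_coe, MvPolynomial.aeval_X]

theorem evalNilp_eq_zero_of_mem (y : σ → B) (n : ℕ) (hy : (Ideal.span (Set.range y)) ^ n = ⊥)
    (f : MvPowerSeries σ 𝒪)
    (hf : f ∈ (Ideal.span (Set.range X) : Ideal (MvPowerSeries σ 𝒪)) ^ n) :
    evalNilp y n hy f = 0 := by
  have h1 : ((Ideal.span (Set.range X) : Ideal (MvPowerSeries σ 𝒪)) ^ n).map
      (evalNilp (𝒪 := 𝒪) y n hy) = ⊥ := by
    rw [Ideal.map_pow, Ideal.map_span, ← Set.range_comp]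
    have : (⇑(evalNilp (𝒪 := 𝒪) y n hy) ∘ X) = y := by
      funext s
      simp [evalNilp_X]
    rw [this, hy]
  have h2 := Ideal.mem_map_of_mem (evalNilp (𝒪 := 𝒪) y n hy) hf
  rw [h1] at h2
  exact h2

/-- Two algebra maps out of the power series ring which agree on the variables and kill
a power of the ideal of variables are equal. -/
theorem algHom_ext_of_pow_le_ker (φ ψ : MvPowerSeries σ 𝒪 →ₐ[𝒪] B) (n : ℕ)
    (hφ : ∀ f ∈ (Ideal.span (Set.range X) : Ideal (MvPowerSeries σ 𝒪)) ^ n, φ f = 0)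
    (hψ : ∀ f ∈ (Ideal.span (Set.range X) : Ideal (MvPowerSeries σ 𝒪)) ^ n, ψ f = 0)
    (hX : ∀ i, φ (X i) = ψ (X i)) : φ = ψ := by
  have hpoly : ∀ p : MvPolynomial σ 𝒪, φ (p : MvPowerSeries σ 𝒪) = ψ (p : MvPowerSeries σ 𝒪) := by
    intro p
    have e1 : (φ.comp (MvPolynomial.coeToMvPowerSeries.algHom (σ := σ) (R := 𝒪) 𝒪)) =
        (ψ.comp (MvPolynomial.coeToMvPowerSeries.algHom (σ := σ) (R := 𝒪) 𝒪)) := by
      apply MvPolynomial.algHom_ext
      intro i
      simpa using hX i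
    exact congrArg (fun g => g p) e1
  apply AlgHom.ext
  intro f
  have h1 := sub_truncTotal_mem_span_range_X_pow n f
  have h2 : f = (f - ((truncTotal n f : MvPolynomial σ 𝒪) : MvPowerSeries σ 𝒪)) +
      ((truncTotal n f : MvPolynomial σ 𝒪) : MvPowerSeries σ 𝒪) := by ring
  rw [h2, map_add, map_add, hφ _ h1, hψ _ h1, hpoly]

end EvalNilp

section Limit

variable {S : Type*} [CommRing S] (𝔪 : Ideal S)

theorem sub_mem_pow_of_succ (t : ℕ → S) (a : ℕ)
    (ht : ∀ j, t (j + 1) - t j ∈ 𝔪 ^ (a + j)) (j k : ℕ) :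
    t (j + k) - t j ∈ 𝔪 ^ (a + j) := by
  induction k with
  | zero => simp
  | succ k ih =>
    have h1 : t (j + (k + 1)) - t j = (t (j + k + 1) - t (j + k)) + (t (j + k) - t j) := by
      rw [← add_assoc]; ring
    rw [h1]
    refine Ideal.add_mem _ ?_ ih
    exact Ideal.pow_le_pow_right (by omega) (ht (j + k))

/-- A sequence whose successive differences lie in increasing powers of `𝔪` converges. -/
theorem exists_limit_of_succ [IsAdicComplete 𝔪 S] (t : ℕ → S) (a : ℕ)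
    (ht : ∀ j, t (j + 1) - t j ∈ 𝔪 ^ (a + j)) :
    ∃ L : S, ∀ j, L - t j ∈ 𝔪 ^ (a + j) := by
  have hsm' : ∀ (K : Ideal S) (x y : S), x ≡ y [SMOD (K • ⊤ : Submodule S S)] ↔
      x - y ∈ K := by
    intro K x y
    rw [SModEq.sub_mem, smul_eq_mul, Ideal.mul_top]
  obtain ⟨L, hL⟩ := IsPrecomplete.prec' (I := 𝔪) (M := S) (fun i => t (i - a)) (by
    intro m n hmn
    rw [hsm']
    have h1 : n - a = (m - a) + ((n - a) - (m - a)) := by omega
    rw [h1]
    have h2 := sub_mem_pow_of_succ 𝔪 t a ht (m - a) ((n - a) - (m - a))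
    have h3 : t (m - a) - t (m - a + (n - a - (m - a))) =
        -(t (m - a + (n - a - (m - a))) - t (m - a)) := by ring
    rw [h3]
    exact Ideal.neg_mem_iff _ |>.mpr (Ideal.pow_le_pow_right (by omega) h2))
  refine ⟨L, fun j => ?_⟩
  have := (hsm' _ _ _).mp (hL (a + j))
  have h4 : a + j - a = j := by omega
  rw [h4] at this
  have h5 : L - t j = -(t j - L) := by ring
  rw [h5]
  exact (Ideal.neg_mem_iff _).mpr this

end Limit

end Fermat.Agent.S53
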