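import Mathlib
import Fermat.Prelude.Def_GaloisRep_Adic

set_option autoImplicit false

namespace Fermat.Agent.S53

open Module

section Burnside

variable {K : Type*} [Field K] [IsAlgClosed K] {V : Type*} [AddCommGroup V] [Module K V]
  [FiniteDimensional K V] {G : Type*} [Monoid G]

theorem burnside_algClosed [Nontrivial V] (r : G →* Module.End K V)
    (hirr : ∀ W : Submodule K V, (∀ g, ∀ x ∈ W, r g x ∈ W) → W = ⊥ ∨ W = ⊤) :
    Submodule.span K (Set.range r) = ⊤ := by
  classical
  set R : Subalgebra K (Module.End K V) := Algebra.adjoin K (Set.range r) with hR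
  have hsimple : IsSimpleModule R V := by
    rw [isSimpleModule_iff]
    refine { exists_pair_ne := ⟨⊥, ⊤, bot_ne_top⟩, eq_bot_or_eq_top := fun W' => ?_ }
    have h := hirr (W'.restrictScalars K) (fun g x hx => by
      have : (⟨r g, Algebra.subset_adjoin ⟨g, rfl⟩⟩ : R) • x ∈ W' := W'.smul_mem _ hx
      exact this)
    rcases h with h | h
    · left; exact (Submodule.restrictScalars_eq_bot_iff K R V).1 h
    · right; exact (Submodule.restrictScalars_eq_top_iff K R V).1 h
  have hS := IsSimpleModule.algebraMap_end_bijective_of_isAlgClosed (A := R) (V := V) K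
  have hfin : Module.Finite (Module.End R V) V :=
    Module.Finite.of_restrictScalars_finite K (Module.End R V) V
  have hdense := Module.Finite.toModuleEnd_moduleEnd_surjective (R := R) (M := V)
  have htop : R = ⊤ := by
    rw [eq_top_iff]
    intro f _
    let f' : Module.End (Module.End R V) V :=
      { toFun := f
        map_add' := f.map_add
        map_smul' := fun φ v => by
          obtain ⟨c, rfl⟩ := hS.2 φ
          simp }
    obtain ⟨x, hx⟩ := hdense f'
    have : (x : Module.End K V) = f := by
      ext v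
      have := congrArg (fun g => g v) hx
      exact this
    rw [← this]
    exact x.2
  have h1 : (Algebra.adjoin K (Set.range r)).toSubmodule = Submodule.span K (Set.range r) := by
    rw [Algebra.adjoin_eq_span, ← MonoidHom.coe_mrange, Submonoid.closure_eq]
  rw [← h1, ← hR, htop, Algebra.top_toSubmodule]

end Burnside

section Descent

theorem span_eq_top_of_span_image_eq_top {k K : Type*} [Field k] [Field K] [Algebra k K]
    {M : Type*} [AddCommGroup M] [Module k M] [FiniteDimensional k M]
    {M' : Type*} [AddCommGroup M'] [Module K M'] [Module k M'] [IsScalarTower k K M']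
    [FiniteDimensional K M']
    (β : M →ₗ[k] M') (hrank : Module.finrank K M' = Module.finrank k M)
    (s : Set M) (hs : Submodule.span K (β '' s) = ⊤) : Submodule.span k s = ⊤ := by
  classical
  set E := Submodule.span k s with hE
  let b := Module.finBasis k E
  have h1 : Submodule.span K (β '' s) ≤ Submodule.span K (Set.range fun i => β (b i)) := by
    rw [Submodule.span_le]
    rintro _ ⟨x, hx, rfl⟩
    have hxE : x ∈ E := Submodule.subset_span hx
    have hsum := b.sum_repr ⟨x, hxE⟩
    have hx' : x = ∑ i, (b.repr ⟨x, hxE⟩ i) • (b i : M) := by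
      have := congrArg (fun y : E => (y : M)) hsum
      simp only [Submodule.coe_sum, Submodule.coe_smul] at this
      exact this.symm
    rw [hx', map_sum]
    refine Submodule.sum_mem _ fun i _ => ?_
    rw [map_smul, ← algebraMap_smul K]
    exact Submodule.smul_mem _ _ (Submodule.subset_span ⟨i, rfl⟩)
  have h2 : Module.finrank K M' ≤ Module.finrank k E := by
    have h3 : Submodule.span K (Set.range fun i => β (b i)) = ⊤ := by
      rw [eq_top_iff, ← hs]; exact h1
    have h4 := finrank_range_le_card (R := K) (fun i => β (b i))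
    rw [Set.finrank, h3, finrank_top, Fintype.card_fin] at h4
    exact h4
  apply Submodule.eq_top_of_finrank_eq
  apply le_antisymm (Submodule.finrank_le _)
  rw [← hrank]; exact h2

end Descent

section Residual

open scoped TensorProduct

theorem residual_span_range_eq_top {k : Type} [Field k] (ρ : ResidualGaloisRep k)
    (h : ρ.IsAbsolutelyIrreducible) :
    Submodule.span k (Set.range ρ.ρ) = (⊤ : Submodule k (Module.End k ρ.V)) := by
  classical
  set K := AlgebraicClosure k
  have hfr : Module.finrank K (K ⊗[k] ρ.V) = 2 := by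
    rw [Module.finrank_baseChange, ρ.finrank_eq]
  have : Nontrivial (K ⊗[k] ρ.V) := Module.nontrivial_of_finrank_pos (R := K) (by omega)
  have hB := burnside_algClosed (K := K) (V := K ⊗[k] ρ.V) (ρ.baseChange K).ρ h
  refine span_eq_top_of_span_image_eq_top (K := K) (M := Module.End k ρ.V)
    (M' := Module.End K (K ⊗[k] ρ.V)) (LinearMap.baseChangeHom k K ρ.V ρ.V) ?_ _ ?_
  · rw [Module.finrank_linearMap, Module.finrank_linearMap, hfr, ρ.finrank_eq]
  · rw [← hB]
    congr 1
    ext f
    constructor
    · rintro ⟨_, ⟨σ, rfl⟩, rfl⟩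
      exact ⟨σ, rfl⟩
    · rintro ⟨σ, rfl⟩
      exact ⟨_, ⟨σ, rfl⟩, rfl⟩

theorem residual_centralizer {k : Type} [Field k] (ρ : ResidualGaloisRep k)
    (h : ρ.IsAbsolutelyIrreducible) (f : Module.End k ρ.V)
    (hf : ∀ σ, f * ρ.ρ σ = ρ.ρ σ * f) : ∃ c : k, f = c • (1 : Module.End k ρ.V) := by
  classical
  have hspan := residual_span_range_eq_top ρ h
  have hall : ∀ g : Module.End k ρ.V, f * g = g * f := by
    intro g
    have hg : g ∈ Submodule.span k (Set.range ρ.ρ) := by rw [hspan]; trivial
    induction hg using Submodule.span_induction with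
    | mem g hg => obtain ⟨σ, rfl⟩ := hg; exact hf σ
    | zero => simp
    | add g1 g2 _ _ h1 h2 => rw [mul_add, add_mul, h1, h2]
    | smul c g _ h1 => rw [mul_smul_comm, smul_mul_assoc, h1]
  let b := Module.Free.chooseBasis k ρ.V
  let e := LinearMap.toMatrixAlgEquiv b
  have hM : e f ∈ Set.range (Matrix.scalar (Module.Free.ChooseBasisIndex k ρ.V)) := by
    apply Matrix.mem_range_scalar_of_commute_single
    intro i j _
    have h1 := hall (e.symm (Matrix.single i j 1))
    have h2 := congrArg e h1
    rw [map_mul, map_mul, AlgEquiv.apply_symm_apply] at h2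
    exact h2.symm
  obtain ⟨a, ha⟩ := hM
  refine ⟨a, ?_⟩
  apply e.injective
  rw [← ha, map_smul, map_one, Matrix.smul_one_eq_diagonal]
  rfl

end Residual

section MatrixForm

theorem matrix_scalar_of_commute_of_span_eq_top {R : Type*} [CommRing R] {n : Type*} [Fintype n]
    [DecidableEq n] {G : Type*} (r : G → Matrix n n R)
    (hspan : Submodule.span R (Set.range r) = ⊤) (M : Matrix n n R)
    (hM : ∀ g, M * r g = r g * M) : ∃ c : R, M = c • (1 : Matrix n n R) := by
  have hall : ∀ X : Matrix n n R, M * X = X * M := by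
    intro X
    have hX : X ∈ Submodule.span R (Set.range r) := by rw [hspan]; trivial
    induction hX using Submodule.span_induction with
    | mem X hX => obtain ⟨g, rfl⟩ := hX; exact hM g
    | zero => simp
    | add X1 X2 _ _ h1 h2 => rw [mul_add, add_mul, h1, h2]
    | smul c X _ h1 => rw [mul_smul_comm, smul_mul_assoc, h1]
  have hmem : M ∈ Set.range (Matrix.scalar n) := by
    apply Matrix.mem_range_scalar_of_commute_single
    intro i j _
    exact (hall (Matrix.single i j 1)).symm
  obtain ⟨a, ha⟩ := hmem
  exact ⟨a, by rw [← ha, Matrix.smul_one_eq_diagonal]; rfl⟩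

end MatrixForm

section Adic

open scoped TensorProduct

variable {A : Type} [CommRing A] [IsLocalRing A]

theorem mem_maximalIdeal_smul_top_of_baseChange_eq_zero {V : Type} [AddCommGroup V] [Module A V]
    [Module.Free A V] [Module.Finite A V] (g : Module.End A V)
    (hg : g.baseChange (IsLocalRing.ResidueField A) = 0) :
    g ∈ IsLocalRing.maximalIdeal A • (⊤ : Submodule A (Module.End A V)) := by
  classical
  let b := Module.Free.chooseBasis A V
  have hM := LinearMap.toMatrix_baseChange (IsLocalRing.ResidueField A) g b b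
  rw [hg, map_zero] at hM
  have hentry : ∀ i j, LinearMap.toMatrix b b g i j ∈ IsLocalRing.maximalIdeal A := by
    intro i j
    have := congrFun (congrFun hM i) j
    simp only [Matrix.zero_apply, Matrix.map_apply, IsLocalRing.ResidueField.algebraMap_eq] at this
    exact (IsLocalRing.residue_eq_zero_iff _).1 this.symm
  have hg' : g = Matrix.toLin b b (LinearMap.toMatrix b b g) := (Matrix.toLin_toMatrix b b g).symm
  rw [hg', Matrix.matrix_eq_sum_single (LinearMap.toMatrix b b g), map_sum]
  refine Submodule.sum_mem _ fun i _ => ?_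
  rw [map_sum]
  refine Submodule.sum_mem _ fun j _ => ?_
  have : Matrix.single i j (LinearMap.toMatrix b b g i j) =
      (LinearMap.toMatrix b b g i j) • Matrix.single i j (1 : A) := by
    rw [Matrix.smul_single, smul_eq_mul, mul_one]
  rw [this, map_smul]
  exact Submodule.smul_mem_smul (hentry i j) Submodule.mem_top

theorem adic_span_range_eq_top (ρ : GaloisRepAdic A)
    (h : ρ.residual.IsAbsolutelyIrreducible) :
    Submodule.span A (Set.range ρ.ρ) = (⊤ : Submodule A (Module.End A ρ.V)) := by
  classical
  have hres : Submodule.span (IsLocalRing.ResidueField A)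
      (Set.range fun σ => (ρ.ρ σ).baseChange (IsLocalRing.ResidueField A)) =
      (⊤ : Submodule (IsLocalRing.ResidueField A)
        (Module.End (IsLocalRing.ResidueField A) (IsLocalRing.ResidueField A ⊗[A] ρ.V))) :=
    residual_span_range_eq_top ρ.residual h
  have hfg : (⊤ : Submodule A (Module.End A ρ.V)).FG := Module.Finite.fg_top
  rw [eq_top_iff]
  refine Submodule.le_of_le_smul_of_le_jacobson_bot hfg (IsLocalRing.maximalIdeal_le_jacobson ⊥) ?_
  intro f _
  have hf : (f.baseChange (IsLocalRing.ResidueField A)) ∈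
      Submodule.span (IsLocalRing.ResidueField A)
      (Set.range fun σ => (ρ.ρ σ).baseChange (IsLocalRing.ResidueField A)) := by
    rw [hres]; trivial
  have key : ∀ g ∈ Submodule.span (IsLocalRing.ResidueField A)
      (Set.range fun σ => (ρ.ρ σ).baseChange (IsLocalRing.ResidueField A)),
      ∃ e ∈ Submodule.span A (Set.range ρ.ρ),
        e.baseChange (IsLocalRing.ResidueField A) = g := by
    intro g hg
    induction hg using Submodule.span_induction with
    | mem g hg =>
      obtain ⟨σ, rfl⟩ := hg
      exact ⟨ρ.ρ σ, Submodule.subset_span ⟨σ, rfl⟩, rfl⟩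
    | zero => exact ⟨0, Submodule.zero_mem _, LinearMap.baseChange_zero ..⟩
    | add g1 g2 _ _ h1 h2 =>
      obtain ⟨e1, he1, rfl⟩ := h1
      obtain ⟨e2, he2, rfl⟩ := h2
      exact ⟨e1 + e2, Submodule.add_mem _ he1 he2, LinearMap.baseChange_add ..⟩
    | smul c g _ h1 =>
      obtain ⟨e, he, rfl⟩ := h1
      obtain ⟨a, rfl⟩ := IsLocalRing.residue_surjective c
      refine ⟨a • e, Submodule.smul_mem _ a he, ?_⟩
      rw [LinearMap.baseChange_smul, ← IsLocalRing.ResidueField.algebraMap_eq, algebraMap_smul]
  obtain ⟨e, he, hef⟩ := key _ hf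
  have hdecomp : f = e + (f - e) := by abel
  rw [hdecomp]
  refine Submodule.add_mem_sup he (mem_maximalIdeal_smul_top_of_baseChange_eq_zero _ ?_)
  have hsub : (f - e).baseChange (IsLocalRing.ResidueField A) =
      f.baseChange (IsLocalRing.ResidueField A) - e.baseChange (IsLocalRing.ResidueField A) :=
    LinearMap.baseChange_sub ..
  rw [hsub]
  exact sub_eq_zero_of_eq hef.symm

theorem adic_centralizer (ρ : GaloisRepAdic A) (h : ρ.residual.IsAbsolutelyIrreducible)
    (f : Module.End A ρ.V) (hf : ∀ σ, f * ρ.ρ σ = ρ.ρ σ * f) :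
    ∃ a : A, f = a • (1 : Module.End A ρ.V) := by
  classical
  have hspan := adic_span_range_eq_top ρ h
  have hall : ∀ g : Module.End A ρ.V, f * g = g * f := by
    intro g
    have hg : g ∈ Submodule.span A (Set.range ρ.ρ) := by rw [hspan]; trivial
    induction hg using Submodule.span_induction with
    | mem g hg => obtain ⟨σ, rfl⟩ := hg; exact hf σ
    | zero => simp
    | add g1 g2 _ _ h1 h2 => rw [mul_add, add_mul, h1, h2]
    | smul c g _ h1 => rw [mul_smul_comm, smul_mul_assoc, h1]
  let b := Module.Free.chooseBasis A ρ.V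
  let e := LinearMap.toMatrixAlgEquiv b
  have hM : e f ∈ Set.range (Matrix.scalar (Module.Free.ChooseBasisIndex A ρ.V)) := by
    apply Matrix.mem_range_scalar_of_commute_single
    intro i j _
    have h1 := hall (e.symm (Matrix.single i j 1))
    have h2 := congrArg e h1
    rw [map_mul, map_mul, AlgEquiv.apply_symm_apply] at h2
    exact h2.symm
  obtain ⟨a, ha⟩ := hM
  refine ⟨a, ?_⟩
  apply e.injective
  rw [← ha, map_smul, map_one, Matrix.smul_one_eq_diagonal]
  rfl

theorem adic_equivariant_eq_smul {ρ₁ ρ₂ : GaloisRepAdic A}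
    (h : ρ₁.residual.IsAbsolutelyIrreducible) (e : GaloisRepAdic.Equiv ρ₁ ρ₂)
    (f : ρ₁.V →ₗ[A] ρ₂.V) (hf : ∀ σ x, f (ρ₁.ρ σ x) = ρ₂.ρ σ (f x)) :
    ∃ a : A, f = a • (e.toLinearEquiv : ρ₁.V →ₗ[A] ρ₂.V) := by
  obtain ⟨a, ha⟩ := adic_centralizer ρ₁ h
    ((e.toLinearEquiv.symm : ρ₂.V →ₗ[A] ρ₁.V) ∘ₗ f) (fun σ => by
      ext x
      simp only [Module.End.mul_apply, LinearMap.comp_apply, LinearEquiv.coe_coe, hf]
      apply e.toLinearEquiv.injective
      rw [LinearEquiv.apply_symm_apply, e.map_apply, LinearEquiv.apply_symm_apply])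
  refine ⟨a, ?_⟩
  ext x
  have := congrArg (fun g : Module.End A ρ₁.V => e.toLinearEquiv (g x)) ha
  simpa using this

end Adic

end Fermat.Agent.S53
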