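import Mathlib

/-!
Gauge slice (normal form) for lifts of a two dimensional residual representation,
in pure matrix form.  Interface independent.
-/

set_option autoImplicit false

namespace Fermat.Agent.S53

open Matrix Polynomial

section GaugePoly

variable {A : Type*} [CommRing A]

/-- The quadratic polynomial whose roots `y` are the gauge parameters for which the `(i,j)` entry
of `(1 + y N)⁻¹ M (1 + y N)` equals `c`. -/
noncomputable def gaugePoly (N M : Matrix (Fin 2) (Fin 2) A) (c : A) (i j : Fin 2) : A[X] :=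
  C (M i j - c) + C ((adjugate N * M + M * N) i j - c * trace N) * X
    + C ((adjugate N * M * N) i j - c * det N) * X ^ 2

theorem nf_adjugate_one_add_smul (N : Matrix (Fin 2) (Fin 2) A) (y : A) :
    adjugate (1 + y • N) = 1 + y • adjugate N := by
  rw [adjugate_fin_two, adjugate_fin_two]
  ext a b
  fin_cases a <;> fin_cases b <;> simp

theorem nf_det_one_add_smul (N : Matrix (Fin 2) (Fin 2) A) (y : A) :
    det (1 + y • N) = 1 + y * trace N + y ^ 2 * det N := by
  rw [det_fin_two, det_fin_two, trace_fin_two]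
  simp
  ring

theorem eval_gaugePoly (N M : Matrix (Fin 2) (Fin 2) A) (c : A) (i j : Fin 2) (y : A) :
    eval y (gaugePoly N M c i j) =
      (adjugate (1 + y • N) * M * (1 + y • N) : Matrix (Fin 2) (Fin 2) A) i j
        - c * det (1 + y • N) := by
  rw [nf_adjugate_one_add_smul, nf_det_one_add_smul]
  simp only [gaugePoly, eval_add, eval_mul, eval_C, eval_X, eval_pow]
  have : (1 + y • adjugate N) * M * (1 + y • N) =
      M + y • (adjugate N * M + M * N) + y ^ 2 • (adjugate N * M * N) := by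
    simp only [add_mul, mul_add, one_mul, mul_one, smul_mul_assoc, mul_smul_comm, smul_add,
      smul_smul, pow_two]
    abel
  rw [this]
  simp only [Matrix.add_apply, Matrix.smul_apply, smul_eq_mul]
  ring

theorem eval_zero_gaugePoly (N M : Matrix (Fin 2) (Fin 2) A) (c : A) (i j : Fin 2) :
    eval 0 (gaugePoly N M c i j) = M i j - c := by
  simp [gaugePoly]

theorem eval_zero_derivative_gaugePoly (N M : Matrix (Fin 2) (Fin 2) A) (c : A) (i j : Fin 2) :
    eval 0 (derivative (gaugePoly N M c i j)) =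
      trace N * (M i j - c) + (M * N - N * M : Matrix (Fin 2) (Fin 2) A) i j := by
  have h : adjugate N = trace N • (1 : Matrix (Fin 2) (Fin 2) A) - N := by
    rw [adjugate_fin_two, trace_fin_two]
    ext a b
    fin_cases a <;> fin_cases b <;> simp
  simp only [gaugePoly, derivative_add, derivative_mul, derivative_C, derivative_X,
    derivative_X_pow, eval_add, eval_mul, eval_C, eval_X, eval_pow, zero_mul, mul_one, zero_add]
  rw [h]
  simp only [sub_mul, smul_mul_assoc, one_mul, Matrix.add_apply, Matrix.sub_apply,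
    Matrix.smul_apply, smul_eq_mul]
  ring

end GaugePoly

section Slice

variable {A k G : Type*} [CommRing A] [Field k] [Monoid G]

/-- Conjugate a matrix valued monoid homomorphism by an invertible matrix. -/
def matConjHom (γ : (Matrix (Fin 2) (Fin 2) A)ˣ) (r : G →* Matrix (Fin 2) (Fin 2) A) :
    G →* Matrix (Fin 2) (Fin 2) A where
  toFun g := (γ : Matrix (Fin 2) (Fin 2) A) * r g * ((γ⁻¹ : (Matrix (Fin 2) (Fin 2) A)ˣ) :
    Matrix (Fin 2) (Fin 2) A)
  map_one' := by simp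
  map_mul' a b := by
    rw [map_mul]
    calc (γ : Matrix (Fin 2) (Fin 2) A) * (r a * r b) * ((γ⁻¹ : (Matrix (Fin 2) (Fin 2) A)ˣ) :
          Matrix (Fin 2) (Fin 2) A)
        = (γ : Matrix (Fin 2) (Fin 2) A) * r a * ((((γ⁻¹ * γ : (Matrix (Fin 2) (Fin 2) A)ˣ)) :
          Matrix (Fin 2) (Fin 2) A)) * r b * ((γ⁻¹ : (Matrix (Fin 2) (Fin 2) A)ˣ) :
          Matrix (Fin 2) (Fin 2) A) := by
          rw [inv_mul_cancel, Units.val_one, mul_one]; simp only [mul_assoc]
      _ = _ := by rw [Units.val_mul]; simp only [mul_assoc]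

@[simp] theorem matConjHom_apply (γ : (Matrix (Fin 2) (Fin 2) A)ˣ)
    (r : G →* Matrix (Fin 2) (Fin 2) A) (g : G) :
    matConjHom γ r g = (γ : Matrix (Fin 2) (Fin 2) A) * r g *
      ((γ⁻¹ : (Matrix (Fin 2) (Fin 2) A)ˣ) : Matrix (Fin 2) (Fin 2) A) := rfl

/-- The slice conditions. -/
structure IsNormalized (g0 g1 : G) (i j : Fin 2) (c : A)
    (r : G →* Matrix (Fin 2) (Fin 2) A) : Prop where
  col0 : r g0 0 0 = 0
  col1 : r g0 1 0 = 1
  entry : r g1 i j = c

variable (π : A →+* k) (hπ : Function.Surjective π) (hnil : ∀ a, π a = 0 → IsNilpotent a)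

include hπ hnil in
theorem nf_isUnit_of_map_ne_zero {a : A} (ha : π a ≠ 0) : IsUnit a := by
  obtain ⟨b, hb⟩ := hπ (π a)⁻¹
  have h1 : π (a * b - 1) = 0 := by rw [map_sub, map_mul, hb, mul_inv_cancel₀ ha, map_one, sub_self]
  have h2 : IsUnit (a * b) := by
    have := (hnil _ h1).isUnit_add_one
    simpa using this
  exact isUnit_of_mul_isUnit_left h2

omit [Monoid G] in
theorem nf_map_eq_zero_of_isNilpotent {a : A} (ha : IsNilpotent a) : π a = 0 :=
  (ha.map π).eq_zero


omit [Monoid G] in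
/-- Step 1: an explicit gauge transformation making the first column of `N` equal to `(0,1)`. -/
theorem nf_exists_conj_col_aux (n00 n01 n10 n11 v : A) (hv : v * n10 = 1) :
    ∃ γ : (Matrix (Fin 2) (Fin 2) A)ˣ,
      (γ : Matrix (Fin 2) (Fin 2) A) = !![1, -(n00 * v); 0, v] ∧
      ((γ⁻¹ : (Matrix (Fin 2) (Fin 2) A)ˣ) : Matrix (Fin 2) (Fin 2) A) = !![1, n00; 0, n10] ∧
      ((γ : Matrix (Fin 2) (Fin 2) A) * !![n00, n01; n10, n11] *
        ((γ⁻¹ : (Matrix (Fin 2) (Fin 2) A)ˣ) : Matrix (Fin 2) (Fin 2) A)) 0 0 = 0 ∧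
      ((γ : Matrix (Fin 2) (Fin 2) A) * !![n00, n01; n10, n11] *
        ((γ⁻¹ : (Matrix (Fin 2) (Fin 2) A)ˣ) : Matrix (Fin 2) (Fin 2) A)) 1 0 = 1 := by
  refine ⟨⟨!![1, -(n00 * v); 0, v], !![1, n00; 0, n10], ?_, ?_⟩, rfl, rfl, ?_, ?_⟩
  · rw [Matrix.mul_fin_two, Matrix.one_fin_two]
    ext a b
    fin_cases a <;> fin_cases b <;> simp
    · linear_combination (-n00) * hv
    · exact hv
  · rw [Matrix.mul_fin_two, Matrix.one_fin_two]
    ext a b
    fin_cases a <;> fin_cases b <;> simp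
    · linear_combination hv
  · show (!![1, -(n00 * v); 0, v] * !![n00, n01; n10, n11] * !![1, n00; 0, n10]) 0 0 = 0
    rw [Matrix.mul_fin_two, Matrix.mul_fin_two]
    simp
    linear_combination (-n00) * hv
  · show (!![1, -(n00 * v); 0, v] * !![n00, n01; n10, n11] * !![1, n00; 0, n10]) 1 0 = 1
    rw [Matrix.mul_fin_two, Matrix.mul_fin_two]
    simp
    linear_combination hv

theorem matConjHom_mul (γ₁ γ₂ : (Matrix (Fin 2) (Fin 2) A)ˣ) (r : G →* Matrix (Fin 2) (Fin 2) A) :
    matConjHom (γ₂ * γ₁) r = matConjHom γ₂ (matConjHom γ₁ r) := by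
  ext g : 1
  simp only [matConjHom_apply, _root_.mul_inv_rev, Units.val_mul, mul_assoc]

variable (rb : G →* Matrix (Fin 2) (Fin 2) k) (g0 g1 : G) (i j : Fin 2)

include hπ hnil in
/-- Existence of a gauge transformation into the slice. -/
theorem exists_normalizing
    (hN0 : rb g0 0 0 = 0) (hN1 : rb g0 1 0 = 1)
    (hcomm : (rb g1 * rb g0 - rb g0 * rb g1 : Matrix (Fin 2) (Fin 2) k) i j ≠ 0)
    (c : A) (hc : π c = rb g1 i j)
    (r : G →* Matrix (Fin 2) (Fin 2) A) (hr : ∀ g, π.mapMatrix (r g) = rb g) :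
    ∃ γ : (Matrix (Fin 2) (Fin 2) A)ˣ, π.mapMatrix (γ : Matrix (Fin 2) (Fin 2) A) = 1 ∧
      π.mapMatrix ((γ⁻¹ : (Matrix (Fin 2) (Fin 2) A)ˣ) : Matrix (Fin 2) (Fin 2) A) = 1 ∧
      IsNormalized g0 g1 i j c (matConjHom γ r) := by
  -- Step 1
  have e00 : π (r g0 0 0) = 0 := by
    have := congrFun (congrFun (hr g0) 0) 0
    simpa [hN0] using this
  have e10 : π (r g0 1 0) = 1 := by
    have := congrFun (congrFun (hr g0) 1) 0
    simpa [hN1] using this
  have hu : IsUnit (r g0 1 0) := nf_isUnit_of_map_ne_zero π hπ hnil (by rw [e10]; exact one_ne_zero)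
  obtain ⟨u, hu'⟩ := hu
  have hv : (↑u⁻¹ : A) * r g0 1 0 = 1 := by rw [← hu']; simp
  have hπv : π (↑u⁻¹ : A) = 1 := by
    have := congrArg π hv
    simpa [e10] using this
  obtain ⟨γ₁, hγ₁, hγ₁', h00, h10⟩ :=
    nf_exists_conj_col_aux (r g0 0 0) (r g0 0 1) (r g0 1 0) (r g0 1 1) (↑u⁻¹ : A) hv
  rw [← Matrix.eta_fin_two (r g0)] at h00 h10
  have hπγ₁ : π.mapMatrix (γ₁ : Matrix (Fin 2) (Fin 2) A) = 1 := by
    rw [hγ₁, Matrix.one_fin_two]
    ext a b
    fin_cases a <;> fin_cases b <;> simp [e00, hπv]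
  have hπγ₁' : π.mapMatrix ((γ₁⁻¹ : (Matrix (Fin 2) (Fin 2) A)ˣ) : Matrix (Fin 2) (Fin 2) A) = 1 := by
    rw [hγ₁', Matrix.one_fin_two]
    ext a b
    fin_cases a <;> fin_cases b <;> simp [e00, e10]
  set r₁ := matConjHom γ₁ r with hr₁def
  have hr₁ : ∀ g, π.mapMatrix (r₁ g) = rb g := by
    intro g
    rw [hr₁def, matConjHom_apply, map_mul, map_mul, hπγ₁, hπγ₁', hr g, one_mul, mul_one]
  -- Step 2
  set N₁ := r₁ g0 with hN₁
  set M₁ := r₁ g1 with hM₁
  have hπN : π.mapMatrix N₁ = rb g0 := hr₁ g0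
  have hπM : π.mapMatrix M₁ = rb g1 := hr₁ g1
  have hπMij : π (M₁ i j) = rb g1 i j := by
    have := congrFun (congrFun hπM i) j
    simpa using this
  set P := gaugePoly N₁ M₁ c i j with hP
  have h0 : IsNilpotent (aeval (0 : A) P) := by
    rw [coe_aeval_eq_eval, eval_zero_gaugePoly]
    apply hnil
    rw [map_sub, hπMij, hc, sub_self]
  have h1 : IsUnit (aeval (0 : A) (derivative P)) := by
    rw [coe_aeval_eq_eval, eval_zero_derivative_gaugePoly]
    apply nf_isUnit_of_map_ne_zero π hπ hnil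
    have e : π ((M₁ * N₁ - N₁ * M₁ : Matrix (Fin 2) (Fin 2) A) i j) =
        (rb g1 * rb g0 - rb g0 * rb g1 : Matrix (Fin 2) (Fin 2) k) i j := by
      have e' : π.mapMatrix (M₁ * N₁ - N₁ * M₁) = rb g1 * rb g0 - rb g0 * rb g1 := by
        rw [map_sub, map_mul, map_mul, hπN, hπM]
      rw [← e']
      simp
    rw [map_add, map_mul, map_sub, hπMij, hc, sub_self, mul_zero, zero_add, e]
    exact hcomm
  obtain ⟨y, ⟨hy_nil, hy_root⟩, -⟩ := existsUnique_nilpotent_sub_and_aeval_eq_zero h0 h1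
  rw [zero_sub, isNilpotent_neg_iff] at hy_nil
  rw [coe_aeval_eq_eval, eval_gaugePoly] at hy_root
  have hπy : π y = 0 := nf_map_eq_zero_of_isNilpotent π hy_nil
  set h : Matrix (Fin 2) (Fin 2) A := 1 + y • N₁ with hh
  have hπh : π.mapMatrix h = 1 := by
    rw [hh, map_add, map_one]
    have : π.mapMatrix (y • N₁) = 0 := by
      ext a b
      simp [hπy]
    rw [this, add_zero]
  have hdet : IsUnit h.det := by
    apply nf_isUnit_of_map_ne_zero π hπ hnil
    have : π h.det = (π.mapMatrix h).det := by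
      rw [RingHom.map_det]
    rw [this, hπh, det_one]
    exact one_ne_zero
  set γ₂ : (Matrix (Fin 2) (Fin 2) A)ˣ := (Matrix.nonsingInvUnit h hdet)⁻¹ with hγ₂
  have hγ₂val : (γ₂ : Matrix (Fin 2) (Fin 2) A) = h⁻¹ := by
    rw [hγ₂]; rfl
  have hγ₂inv : ((γ₂⁻¹ : (Matrix (Fin 2) (Fin 2) A)ˣ) : Matrix (Fin 2) (Fin 2) A) = h := by
    rw [hγ₂, inv_inv]; rfl
  have hπγ₂' : π.mapMatrix ((γ₂⁻¹ : (Matrix (Fin 2) (Fin 2) A)ˣ) :
      Matrix (Fin 2) (Fin 2) A) = 1 := by rw [hγ₂inv, hπh]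
  have hπγ₂ : π.mapMatrix (γ₂ : Matrix (Fin 2) (Fin 2) A) = 1 := by
    have : π.mapMatrix (γ₂ : Matrix (Fin 2) (Fin 2) A) *
        π.mapMatrix ((γ₂⁻¹ : (Matrix (Fin 2) (Fin 2) A)ˣ) : Matrix (Fin 2) (Fin 2) A) = 1 := by
      rw [← map_mul, ← Units.val_mul, mul_inv_cancel, Units.val_one, map_one]
    rwa [hπγ₂', mul_one] at this
  have hcommN : h * N₁ = N₁ * h := by
    rw [hh, add_mul, mul_add, one_mul, mul_one, smul_mul_assoc, mul_smul_comm]
  have hinvh : h⁻¹ * h = 1 := Matrix.nonsing_inv_mul h hdet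
  refine ⟨γ₂ * γ₁, ?_, ?_, ?_⟩
  · rw [Units.val_mul, map_mul, hπγ₁, hπγ₂, one_mul]
  · rw [_root_.mul_inv_rev, Units.val_mul, map_mul, hπγ₁', hπγ₂', one_mul]
  · rw [matConjHom_mul]
    have hg0 : matConjHom γ₂ r₁ g0 = N₁ := by
      rw [matConjHom_apply, hγ₂val, hγ₂inv, mul_assoc, ← hcommN, ← mul_assoc, hinvh, one_mul]
    refine ⟨?_, ?_, ?_⟩
    · rw [hg0]; exact h00
    · rw [hg0]; exact h10
    · rw [matConjHom_apply, hγ₂val, hγ₂inv, Matrix.inv_def, smul_mul_assoc, smul_mul_assoc,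
        Matrix.smul_apply, smul_eq_mul]
      have hroot : (adjugate h * M₁ * h : Matrix (Fin 2) (Fin 2) A) i j = c * h.det := by
        have := hy_root
        rw [sub_eq_zero] at this
        exact this
      rw [hroot, mul_comm c, ← mul_assoc, Ring.inverse_mul_cancel _ hdet, one_mul]


omit [Monoid G] in
/-- A matrix intertwining two matrices with first column `(0,1)` is of the form `x + y N`. -/
theorem eq_smul_one_add_smul_of_intertwine (N N' K : Matrix (Fin 2) (Fin 2) A)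
    (h00 : N 0 0 = 0) (h10 : N 1 0 = 1) (h00' : N' 0 0 = 0) (h10' : N' 1 0 = 1)
    (hK : N * K = K * N') :
    K = K 0 0 • (1 : Matrix (Fin 2) (Fin 2) A) + K 1 0 • N := by
  have e0 := congrFun (congrFun hK 0) 0
  have e1 := congrFun (congrFun hK 1) 0
  simp only [Matrix.mul_apply, Fin.sum_univ_two, h00, h10, h00', h10'] at e0 e1
  ext a b
  fin_cases a <;> fin_cases b <;> simp [h00, h10]
  · linear_combination -e0
  · linear_combination -e1

include hπ hnil in
/-- Uniqueness of the slice point in an equivalence class. -/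
theorem eq_of_isNormalized_of_intertwine
    (hcomm : (rb g1 * rb g0 - rb g0 * rb g1 : Matrix (Fin 2) (Fin 2) k) i j ≠ 0)
    (hschur : ∀ Z : Matrix (Fin 2) (Fin 2) k, (∀ g, Z * rb g = rb g * Z) →
      ∃ a : k, Z = a • (1 : Matrix (Fin 2) (Fin 2) k))
    (c : A)
    (r r' : G →* Matrix (Fin 2) (Fin 2) A) (hr : ∀ g, π.mapMatrix (r g) = rb g)
    (hr' : ∀ g, π.mapMatrix (r' g) = rb g)
    (hn : IsNormalized g0 g1 i j c r) (hn' : IsNormalized g0 g1 i j c r')
    (K : (Matrix (Fin 2) (Fin 2) A)ˣ)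
    (hK : ∀ g, r g * (K : Matrix (Fin 2) (Fin 2) A) = (K : Matrix (Fin 2) (Fin 2) A) * r' g) :
    r = r' ∧ ∃ x : Aˣ, (K : Matrix (Fin 2) (Fin 2) A) = (x : A) • (1 : Matrix (Fin 2) (Fin 2) A) := by
  set N := r g0 with hN
  set M := r g1 with hM
  set Km : Matrix (Fin 2) (Fin 2) A := (K : Matrix (Fin 2) (Fin 2) A) with hKm
  have hform : Km = Km 0 0 • (1 : Matrix (Fin 2) (Fin 2) A) + Km 1 0 • N :=
    eq_smul_one_add_smul_of_intertwine N (r' g0) Km hn.col0 hn.col1 hn'.col0 hn'.col1 (hK g0)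
  -- reduction of K is central
  have hcentral : ∀ g, π.mapMatrix Km * rb g = rb g * π.mapMatrix Km := by
    intro g
    have := congrArg π.mapMatrix (hK g)
    rw [map_mul, map_mul, hr g, hr' g] at this
    exact this.symm
  obtain ⟨a, ha⟩ := hschur _ hcentral
  have hπN : π.mapMatrix N = rb g0 := hr g0
  have hπM : π.mapMatrix M = rb g1 := hr g1
  have hπy : π (Km 1 0) = 0 := by
    have := congrFun (congrFun ha 1) 0
    simpa using this
  have hπx : π (Km 0 0) = a := by
    have := congrFun (congrFun ha 0) 0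
    simpa using this
  have ha0 : a ≠ 0 := by
    rintro rfl
    have h1 : π.mapMatrix Km * π.mapMatrix ((K⁻¹ : (Matrix (Fin 2) (Fin 2) A)ˣ) :
        Matrix (Fin 2) (Fin 2) A) = 1 := by
      rw [← map_mul, hKm, ← Units.val_mul, mul_inv_cancel, Units.val_one, map_one]
    rw [ha, zero_smul, zero_mul] at h1
    exact zero_ne_one h1
  have hxu : IsUnit (Km 0 0) := nf_isUnit_of_map_ne_zero π hπ hnil (by rw [hπx]; exact ha0)
  obtain ⟨x, hx⟩ := hxu
  set y' : A := (↑x⁻¹ : A) * Km 1 0 with hy'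
  have hy'nil : IsNilpotent y' := by
    apply hnil
    rw [hy', map_mul, hπy, mul_zero]
  have hform' : Km = (x : A) • (1 + y' • N) := by
    rw [smul_add, smul_smul, hy', ← mul_assoc, Units.mul_inv, one_mul, hx]
    exact hform
  set h : Matrix (Fin 2) (Fin 2) A := 1 + y' • N with hh
  -- cancel the unit scalar
  have hcancel : ∀ g, r g * h = h * r' g := by
    intro g
    have := hK g
    rw [hform', mul_smul_comm, smul_mul_assoc] at this
    have h2 := congrArg (fun Z => (↑x⁻¹ : A) • Z) this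
    simpa [smul_smul] using h2
  -- the gauge polynomial
  set P := gaugePoly N M c i j with hP
  have hπMij : π (M i j) = rb g1 i j := by
    have := congrFun (congrFun hπM i) j
    simpa using this
  have h0 : IsNilpotent (aeval (0 : A) P) := by
    rw [coe_aeval_eq_eval, eval_zero_gaugePoly, hM, hn.entry, sub_self]
    exact IsNilpotent.zero
  have h1 : IsUnit (aeval (0 : A) (derivative P)) := by
    rw [coe_aeval_eq_eval, eval_zero_derivative_gaugePoly]
    apply nf_isUnit_of_map_ne_zero π hπ hnil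
    have e : π ((M * N - N * M : Matrix (Fin 2) (Fin 2) A) i j) =
        (rb g1 * rb g0 - rb g0 * rb g1 : Matrix (Fin 2) (Fin 2) k) i j := by
      have e' : π.mapMatrix (M * N - N * M) = rb g1 * rb g0 - rb g0 * rb g1 := by
        rw [map_sub, map_mul, map_mul, hπN, hπM]
      rw [← e']
      simp
    have hMc : M i j - c = 0 := by rw [hM, hn.entry, sub_self]
    rw [hMc, mul_zero, zero_add, e]
    exact hcomm
  have hroot : aeval y' P = 0 := by
    rw [coe_aeval_eq_eval, eval_gaugePoly, ← hh, mul_assoc, hcancel g1, ← mul_assoc,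
      Matrix.adjugate_mul, smul_mul_assoc, one_mul, Matrix.smul_apply, smul_eq_mul, hn'.entry]
    ring
  have hroot0 : aeval (0 : A) P = 0 := by
    rw [coe_aeval_eq_eval, eval_zero_gaugePoly, hM, hn.entry, sub_self]
  have huniq := existsUnique_nilpotent_sub_and_aeval_eq_zero h0 h1
  have hy'0 : y' = 0 := by
    apply huniq.unique
    · exact ⟨by rw [zero_sub, isNilpotent_neg_iff]; exact hy'nil, hroot⟩
    · exact ⟨by rw [sub_zero]; exact IsNilpotent.zero, hroot0⟩
  have hKscalar : Km = (x : A) • (1 : Matrix (Fin 2) (Fin 2) A) := by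
    rw [hform', hh, hy'0, zero_smul, add_zero]
  refine ⟨?_, x, hKscalar⟩
  ext g : 1
  have := hcancel g
  rw [hh, hy'0, zero_smul, add_zero, mul_one, one_mul] at this
  exact this

end Slice

end Fermat.Agent.S53
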