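import Mathlib
import Fermat.Prelude.Def_GaloisRep_DeformationRingData
import Fermat.Prelude.Def_GaloisRep_DeformationCondition

set_option autoImplicit false

namespace Fermat.Agent.S53

open scoped TensorProduct

section MatrixSchur

variable {G : Type*} {ι : Type*} [Fintype ι] [DecidableEq ι]

/-- Schur property of a family of matrices: the centralizer consists of scalar matrices. -/
def IsSchurFamily {κ : Type*} [CommRing κ] (r : G → Matrix ι ι κ) : Prop :=
  ∀ X : Matrix ι ι κ, (∀ g, X * r g = r g * X) → ∃ c : κ, X = c • (1 : Matrix ι ι κ)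

/-- The commutator functionals `X ↦ (X * r g - r g * X) i j`. -/
def commFunctional {κ : Type*} [CommRing κ] (r : G → Matrix ι ι κ) (t : G × ι × ι) :
    Module.Dual κ (Matrix ι ι κ) where
  toFun X := (X * r t.1 - r t.1 * X) t.2.1 t.2.2
  map_add' X Y := by
    simp only [add_mul, mul_add, Matrix.sub_apply, Matrix.add_apply]
    ring
  map_smul' c X := by
    simp only [Matrix.smul_mul, Matrix.mul_smul, Matrix.sub_apply, Matrix.smul_apply,
      RingHom.id_apply, smul_eq_mul]
    ring

@[simp]
theorem commFunctional_apply {κ : Type*} [CommRing κ] (r : G → Matrix ι ι κ) (t : G × ι × ι)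
    (X : Matrix ι ι κ) :
    commFunctional r t X = (X * r t.1 - r t.1 * X) t.2.1 t.2.2 := rfl

/-- Over a field, a functional killing the identity matrix is a combination of commutator
functionals of a Schur family. -/
theorem mem_span_commFunctional {κ : Type*} [Field κ] (r : G → Matrix ι ι κ)
    (hS : IsSchurFamily r) (φ : Module.Dual κ (Matrix ι ι κ)) (hφ : φ 1 = 0) :
    φ ∈ Submodule.span κ (Set.range (commFunctional r)) := by
  set W : Subspace κ (Module.Dual κ (Matrix ι ι κ)) :=
    Submodule.span κ (Set.range (commFunctional r)) with hW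
  have hfd : FiniteDimensional κ W := inferInstance
  rw [← Subspace.dualCoannihilator_dualAnnihilator_eq (W := W), Submodule.mem_dualAnnihilator]
  intro X hX
  rw [Submodule.mem_dualCoannihilator] at hX
  have hcomm : ∀ g, X * r g = r g * X := by
    intro g
    ext i j
    have h := hX (commFunctional r (g, i, j)) (Submodule.subset_span ⟨_, rfl⟩)
    rw [commFunctional_apply] at h
    simpa [sub_eq_zero] using h
  obtain ⟨c, rfl⟩ := hS X hcomm
  rw [map_smul, hφ, smul_zero]

end MatrixSchur

section Lifting

variable {G : Type*} {ι : Type*} [Fintype ι] [DecidableEq ι]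

/-- The linear functional on matrices with coefficient matrix `C`. -/
def coeffFunctional {κ : Type*} [CommRing κ] (C : Matrix ι ι κ) :
    Module.Dual κ (Matrix ι ι κ) :=
  ∑ i, ∑ j, C i j • Matrix.entryLinearMap κ κ i j

omit [DecidableEq ι] in
theorem coeffFunctional_apply {κ : Type*} [CommRing κ] (C X : Matrix ι ι κ) :
    coeffFunctional C X = ∑ i, ∑ j, C i j * X i j := by
  simp [coeffFunctional, LinearMap.sum_apply]

theorem coeffFunctional_one {κ : Type*} [CommRing κ] (C : Matrix ι ι κ) :
    coeffFunctional C 1 = C.trace := by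
  simp [coeffFunctional_apply, Matrix.one_apply, Matrix.trace]

omit [DecidableEq ι] in
theorem map_coeffFunctional {A κ : Type*} [CommRing A] [CommRing κ] (f : A →+* κ)
    (C X : Matrix ι ι A) :
    f (coeffFunctional C X) = coeffFunctional (C.map f) (X.map f) := by
  simp [coeffFunctional_apply, map_sum, map_mul]

theorem map_commFunctional {A κ : Type*} [CommRing A] [CommRing κ] (f : A →+* κ)
    (r : G → Matrix ι ι A) (t : G × ι × ι) (X : Matrix ι ι A) :
    f (commFunctional r t X) = commFunctional (fun g => (r g).map f) t (X.map f) := by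
  simp [commFunctional_apply, Matrix.mul_apply, map_sum, map_mul, map_sub]

theorem dual_apply_mem_mul {A : Type*} [CommRing A] {J I : Ideal A}
    (L : Module.Dual A (Matrix ι ι A)) (hL : ∀ Y, L Y ∈ J)
    (X : Matrix ι ι A) (hX : ∀ i j, X i j ∈ I) : L X ∈ J * I := by
  rw [Matrix.matrix_eq_sum_single X, map_sum]
  refine Ideal.sum_mem _ fun i _ => ?_
  rw [map_sum]
  refine Ideal.sum_mem _ fun j _ => ?_
  have h : Matrix.single i j (X i j) = X i j • Matrix.single i j (1 : A) := by
    rw [Matrix.smul_single, smul_eq_mul, mul_one]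
  rw [h, map_smul, smul_eq_mul]
  have h2 : X i j * L (Matrix.single i j (1 : A)) ∈ I * J := Ideal.mul_mem_mul (hX i j) (hL _)
  rwa [Ideal.mul_comm] at h2

open IsLocalRing in
/-- Key lifting lemma: if the reduction of `r` is a Schur family and `X` commutes with `r`, then
any trace-zero-mod-`m` linear form in the entries of `X` lies in `m * I`, where `I` is any ideal
containing the entries of `X`. -/
theorem coeffFunctional_mem_of_commute {A : Type*} [CommRing A] [IsLocalRing A]
    (r : G → Matrix ι ι A)
    (hS : IsSchurFamily (fun g => (r g).map (residue A)))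
    (C : Matrix ι ι A) (hC : C.trace ∈ maximalIdeal A)
    (I : Ideal A) (X : Matrix ι ι A) (hXI : ∀ i j, X i j ∈ I)
    (hX : ∀ g, X * r g = r g * X) :
    coeffFunctional C X ∈ maximalIdeal A * I := by
  classical
  have hφ : coeffFunctional (C.map (residue A)) 1 = 0 := by
    rw [coeffFunctional_one]
    have : (C.map (residue A)).trace = residue A C.trace := by
      simp [Matrix.trace, map_sum]
    rw [this]
    exact (residue_eq_zero_iff _).mpr hC
  have hmem := mem_span_commFunctional _ hS _ hφ
  rw [Finsupp.mem_span_range_iff_exists_finsupp] at hmem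
  obtain ⟨c, hc⟩ := hmem
  set s : ResidueField A → A := Function.surjInv residue_surjective with hs
  have hs' : ∀ x, residue A (s x) = x := Function.surjInv_eq residue_surjective
  set L : Module.Dual A (Matrix ι ι A) :=
    coeffFunctional C - ∑ t ∈ c.support, s (c t) • commFunctional r t with hL
  have hLm : ∀ Y, L Y ∈ maximalIdeal A := by
    intro Y
    rw [← residue_eq_zero_iff, hL, LinearMap.sub_apply, map_sub, LinearMap.sum_apply, map_sum,
      map_coeffFunctional, ← hc, Finsupp.sum, LinearMap.sum_apply, sub_eq_zero]
    refine Finset.sum_congr rfl fun t _ => ?_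
    rw [LinearMap.smul_apply, LinearMap.smul_apply, smul_eq_mul, smul_eq_mul, map_mul, hs',
      map_commFunctional]
  have hLX : L X = coeffFunctional C X := by
    rw [hL, LinearMap.sub_apply, LinearMap.sum_apply, sub_eq_self]
    refine Finset.sum_eq_zero fun t _ => ?_
    rw [LinearMap.smul_apply, commFunctional_apply, hX t.1, sub_self, Matrix.zero_apply,
      smul_zero]
  rw [← hLX]
  exact dual_apply_mem_mul L hLm X hXI

theorem coeffFunctional_single {κ : Type*} [CommRing κ] (a b : ι) (X : Matrix ι ι κ) :
    coeffFunctional (Matrix.single a b (1 : κ)) X = X a b := by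
  rw [coeffFunctional_apply, Finset.sum_eq_single a, Finset.sum_eq_single b]
  · simp
  · intro j _ hj
    simp [hj.symm]
  · simp
  · intro i _ hi
    refine Finset.sum_eq_zero fun j _ => ?_
    simp [hi.symm]
  · simp

omit [DecidableEq ι] in
theorem coeffFunctional_sub {κ : Type*} [CommRing κ] (C C' X : Matrix ι ι κ) :
    coeffFunctional (C - C') X = coeffFunctional C X - coeffFunctional C' X := by
  simp only [coeffFunctional_apply, Matrix.sub_apply, sub_mul, Finset.sum_sub_distrib]

open IsLocalRing in
/-- Schur's lemma over a local ring, approximate form: a matrix commuting with a family whose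
reduction is Schur is a scalar modulo every power of the maximal ideal. -/
theorem exists_scalar_sub_mem_pow {A : Type*} [CommRing A] [IsLocalRing A]
    (r : G → Matrix ι ι A)
    (hS : IsSchurFamily (fun g => (r g).map (residue A)))
    (X : Matrix ι ι A) (hX : ∀ g, X * r g = r g * X) (n : ℕ) :
    ∃ c : A, ∀ i j, (X - c • (1 : Matrix ι ι A)) i j ∈ maximalIdeal A ^ n := by
  induction n with
  | zero => exact ⟨0, fun i j => by simp⟩
  | succ n ih =>
    obtain ⟨c, hc⟩ := ih
    set N := X - c • (1 : Matrix ι ι A) with hN
    have hNcomm : ∀ g, N * r g = r g * N := by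
      intro g
      rw [hN, sub_mul, mul_sub, hX g, Matrix.smul_mul, Matrix.mul_smul, one_mul, mul_one]
    have hoff : ∀ a b, a ≠ b → N a b ∈ maximalIdeal A ^ (n + 1) := by
      intro a b hab
      have h := coeffFunctional_mem_of_commute r hS (Matrix.single a b (1 : A))
        (by simp [Matrix.trace, hab]) _ N hc hNcomm
      rwa [coeffFunctional_single, ← pow_succ'] at h
    have hdiag : ∀ a b, N a a - N b b ∈ maximalIdeal A ^ (n + 1) := by
      intro a b
      have h := coeffFunctional_mem_of_commute r hS
        (Matrix.single a a (1 : A) - Matrix.single b b (1 : A))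
        (by simp [Matrix.trace_sub]) _ N hc hNcomm
      rwa [coeffFunctional_sub, coeffFunctional_single, coeffFunctional_single,
        ← pow_succ'] at h
    rcases isEmpty_or_nonempty ι with hι | ⟨⟨a0⟩⟩
    · exact ⟨0, fun i => (hι.false i).elim⟩
    · refine ⟨c + N a0 a0, fun i j => ?_⟩
      have hrw : X - (c + N a0 a0) • (1 : Matrix ι ι A) = N - N a0 a0 • (1 : Matrix ι ι A) := by
        rw [hN, add_smul]; abel
      rw [hrw, Matrix.sub_apply, Matrix.smul_apply, Matrix.one_apply]
      by_cases hij : i = j
      · subst hij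
        simpa using hdiag i a0
      · simpa [hij] using hoff i j hij

/-- Exact form when some power of the maximal ideal vanishes. -/
theorem exists_scalar_of_pow_eq_bot {A : Type*} [CommRing A] [IsLocalRing A]
    (r : G → Matrix ι ι A)
    (hS : IsSchurFamily (fun g => (r g).map (IsLocalRing.residue A)))
    (X : Matrix ι ι A) (hX : ∀ g, X * r g = r g * X) {n : ℕ}
    (hn : IsLocalRing.maximalIdeal A ^ n = ⊥) :
    ∃ c : A, X = c • (1 : Matrix ι ι A) := by
  obtain ⟨c, hc⟩ := exists_scalar_sub_mem_pow r hS X hX n
  refine ⟨c, ?_⟩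
  ext i j
  have h := hc i j
  rw [hn, Ideal.mem_bot] at h
  have h2 : X i j = (X - c • (1 : Matrix ι ι A)) i j + (c • (1 : Matrix ι ι A)) i j := by
    simp
  rw [h2, h, zero_add]

end Lifting

section Residual

/-- Schur's lemma for an absolutely irreducible residual representation: every endomorphism
commuting with the Galois action is a scalar. -/
theorem schur_of_isAbsolutelyIrreducible {k : Type} [Field k] (ρbar : ResidualGaloisRep k)
    (habs : ρbar.IsAbsolutelyIrreducible) (f : Module.End k ρbar.V)
    (hf : ∀ σ, f * ρbar.ρ σ = ρbar.ρ σ * f) :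
    ∃ c : k, f = c • (1 : Module.End k ρbar.V) := by
  classical
  set K := AlgebraicClosure k with hK
  set F : Module.End K (K ⊗[k] ρbar.V) := f.baseChange K with hF
  have hfr : Module.finrank K (K ⊗[k] ρbar.V) = 2 := (ρbar.baseChange K).finrank_eq
  have : Nontrivial (K ⊗[k] ρbar.V) :=
    Module.nontrivial_of_finrank_pos (R := K) (by rw [hfr]; norm_num)
  obtain ⟨μ, hμ⟩ := Module.End.exists_eigenvalue F
  have hstab : ∀ σ : AlgebraicClosure ℚ ≃ₐ[ℚ] AlgebraicClosure ℚ,
      ∀ x ∈ Module.End.eigenspace F μ, (ρbar.baseChange K).ρ σ x ∈ Module.End.eigenspace F μ := by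
    intro σ x hx
    rw [Module.End.mem_eigenspace_iff] at hx ⊢
    have hcomm : F * (ρbar.ρ σ).baseChange K = (ρbar.ρ σ).baseChange K * F := by
      rw [hF, ← LinearMap.baseChange_mul, hf σ, LinearMap.baseChange_mul]
    show F ((ρbar.ρ σ).baseChange K x) = μ • (ρbar.ρ σ).baseChange K x
    have h1 : F ((ρbar.ρ σ).baseChange K x) = (F * (ρbar.ρ σ).baseChange K) x := rfl
    rw [h1, hcomm, Module.End.mul_apply, hx, map_smul]
  have htop : Module.End.eigenspace F μ = ⊤ :=
    (habs _ hstab).resolve_left hμ
  have hFμ : F = μ • (1 : Module.End K (K ⊗[k] ρbar.V)) := by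
    ext x
    have hx : (1 ⊗ₜ[k] x : K ⊗[k] ρbar.V) ∈ Module.End.eigenspace F μ := htop ▸ Submodule.mem_top
    rw [Module.End.mem_eigenspace_iff] at hx
    simpa using hx
  set b := Module.finBasis k ρbar.V with hb
  set M := LinearMap.toMatrix b b f with hM
  have hMmap : M.map (algebraMap k K) = μ • (1 : Matrix _ _ K) := by
    rw [hM, ← LinearMap.toMatrix_baseChange, ← hF, hFμ, map_smul, LinearMap.toMatrix_one]
  have hinj : Function.Injective (algebraMap k K) := (algebraMap k K).injective
  have hoff : ∀ i j, i ≠ j → M i j = 0 := by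
    intro i j hij
    apply hinj
    have := congrFun (congrFun hMmap i) j
    simpa [Matrix.map_apply, Matrix.one_apply, hij] using this
  have hdiag : ∀ i, algebraMap k K (M i i) = μ := by
    intro i
    have := congrFun (congrFun hMmap i) i
    simpa [Matrix.map_apply, Matrix.one_apply] using this
  have hi0 : 0 < Module.finrank k ρbar.V := by rw [ρbar.finrank_eq]; norm_num
  let i0 : Fin (Module.finrank k ρbar.V) := ⟨0, hi0⟩
  refine ⟨M i0 i0, ?_⟩
  have hMs : M = M i0 i0 • (1 : Matrix _ _ k) := by
    ext i j
    by_cases hij : i = j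
    · subst hij
      have : M i i = M i0 i0 := hinj (by rw [hdiag, hdiag])
      simp [this]
    · simp [hoff i j hij, hij]
  apply (LinearMap.toMatrix b b).injective
  rw [← hM, map_smul, LinearMap.toMatrix_one]
  exact hMs

end Residual

end Fermat.Agent.S53
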