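import Mathlib
import Fermat.Agent.S53.Schur

set_option autoImplicit false

namespace Fermat.Agent.S53

open scoped TensorProduct

section BaseChangeSchur

variable {G : Type*} {ι : Type*} [Fintype ι] [DecidableEq ι]

/-- Two linear functionals on matrices agreeing on matrix units are equal. -/
theorem dual_matrix_ext {B : Type*} [CommRing B] (L L' : Module.Dual B (Matrix ι ι B))
    (h : ∀ i j, L (Matrix.single i j (1 : B)) = L' (Matrix.single i j (1 : B))) : L = L' := by
  ext X
  rw [Matrix.matrix_eq_sum_single X, map_sum, map_sum]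
  refine Finset.sum_congr rfl fun i _ => ?_
  rw [map_sum, map_sum]
  refine Finset.sum_congr rfl fun j _ => ?_
  have hs : Matrix.single i j (X i j) = X i j • Matrix.single i j (1 : B) := by
    rw [Matrix.smul_single, smul_eq_mul, mul_one]
  rw [hs, map_smul, map_smul, h]

/-- The Schur property is stable under base change from a field to any commutative ring. -/
theorem IsSchurFamily.map_of_field {κ : Type*} [Field κ] {B : Type*} [CommRing B]
    (f : κ →+* B) {r : G → Matrix ι ι κ} (hS : IsSchurFamily r) :
    IsSchurFamily (fun g => (r g).map f) := by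
  classical
  -- every linear form `C` with trace zero vanishes on the centraliser of the base change
  have key : ∀ C : Matrix ι ι κ, C.trace = 0 → ∀ X : Matrix ι ι B,
      (∀ g, X * (r g).map f = (r g).map f * X) → coeffFunctional (C.map f) X = 0 := by
    intro C hC X hX
    have hmem := mem_span_commFunctional r hS (coeffFunctional C)
      (by rw [coeffFunctional_one, hC])
    rw [Finsupp.mem_span_range_iff_exists_finsupp] at hmem
    obtain ⟨c, hc⟩ := hmem
    have hL : coeffFunctional (C.map f) =
        ∑ t ∈ c.support, f (c t) • commFunctional (fun g => (r g).map f) t := by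
      apply dual_matrix_ext
      intro i j
      have h1 : (Matrix.single i j (1 : B)) = (Matrix.single i j (1 : κ)).map f := by
        rw [Matrix.map_single, map_one]
      rw [h1, ← map_coeffFunctional, ← hc, LinearMap.sum_apply, Finsupp.sum,
        LinearMap.sum_apply, map_sum]
      refine Finset.sum_congr rfl fun t _ => ?_
      rw [LinearMap.smul_apply, LinearMap.smul_apply, smul_eq_mul, smul_eq_mul, map_mul,
        map_commFunctional]
    rw [hL, LinearMap.sum_apply]
    refine Finset.sum_eq_zero fun t _ => ?_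
    rw [LinearMap.smul_apply, commFunctional_apply, hX t.1, sub_self, Matrix.zero_apply,
      smul_zero]
  intro X hX
  have hoff : ∀ a b, a ≠ b → X a b = 0 := by
    intro a b hab
    have h := key (Matrix.single a b (1 : κ)) (by simp [Matrix.trace, hab]) X hX
    rwa [Matrix.map_single, map_one, coeffFunctional_single] at h
  have hdiag : ∀ a b, X a a = X b b := by
    intro a b
    have h := key (Matrix.single a a (1 : κ) - Matrix.single b b (1 : κ))
      (by simp [Matrix.trace_sub]) X hX
    have h2 : (Matrix.single a a (1 : κ) - Matrix.single b b (1 : κ)).map f =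
        Matrix.single a a (1 : B) - Matrix.single b b (1 : B) := by
      ext i j
      simp [Matrix.map_apply, Matrix.single_apply, apply_ite f]
    rw [h2, coeffFunctional_sub, coeffFunctional_single, coeffFunctional_single] at h
    exact sub_eq_zero.mp h
  rcases isEmpty_or_nonempty ι with hι | ⟨⟨a0⟩⟩
  · exact ⟨0, by ext i; exact (hι.false i).elim⟩
  · refine ⟨X a0 a0, ?_⟩
    ext i j
    by_cases hij : i = j
    · subst hij
      simp [hdiag i a0]
    · simp [hoff i j hij, hij]

open IsLocalRing in
/-- Exact Schur lemma over a separated local ring. -/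
theorem exists_scalar_of_isHausdorff {A : Type*} [CommRing A] [IsLocalRing A]
    [IsHausdorff (maximalIdeal A) A]
    (r : G → Matrix ι ι A)
    (hS : IsSchurFamily (fun g => (r g).map (residue A)))
    (X : Matrix ι ι A) (hX : ∀ g, X * r g = r g * X) :
    ∃ c : A, X = c • (1 : Matrix ι ι A) := by
  rcases isEmpty_or_nonempty ι with hι | ⟨⟨a0⟩⟩
  · exact ⟨0, by ext i; exact (hι.false i).elim⟩
  refine ⟨X a0 a0, ?_⟩
  ext i j
  rw [← sub_eq_zero]
  apply IsHausdorff.haus (I := maximalIdeal A) (M := A) inferInstance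
  intro n
  rw [SModEq.zero, smul_eq_mul, Ideal.mul_top]
  obtain ⟨c, hc⟩ := exists_scalar_sub_mem_pow r hS X hX n
  have h1 := hc i j
  have h2 := hc a0 a0
  rw [Matrix.sub_apply, Matrix.smul_apply, Matrix.one_apply_eq, smul_eq_mul, mul_one] at h2
  have h3 : X i j - (X a0 a0 • (1 : Matrix ι ι A)) i j =
      (X - c • (1 : Matrix ι ι A)) i j - (X a0 a0 - c) * (1 : Matrix ι ι A) i j := by
    simp only [Matrix.sub_apply, Matrix.smul_apply, smul_eq_mul]
    ring
  rw [h3]
  exact Ideal.sub_mem _ h1 (Ideal.mul_mem_right _ _ h2)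

end BaseChangeSchur

section ModuleSchur

/-- Module-level Schur property: the centraliser of the family consists of scalars. -/
def IsSchurRep {G R V : Type*} [CommRing R] [AddCommGroup V] [Module R V]
    (φ : G → Module.End R V) : Prop :=
  ∀ f : Module.End R V, (∀ g, f * φ g = φ g * f) → ∃ c : R, f = c • (1 : Module.End R V)

variable {G : Type*} {ι : Type*} [Fintype ι] [DecidableEq ι]
variable {R V : Type*} [CommRing R] [AddCommGroup V] [Module R V]

theorem IsSchurRep.isSchurFamily_toMatrix {φ : G → Module.End R V} (h : IsSchurRep φ)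
    (b : Module.Basis ι R V) : IsSchurFamily (fun g => LinearMap.toMatrix b b (φ g)) := by
  intro X hX
  set e := LinearMap.toMatrixAlgEquiv b with he
  have hcomm : ∀ g, e.symm X * φ g = φ g * e.symm X := by
    intro g
    apply e.injective
    rw [map_mul, map_mul, AlgEquiv.apply_symm_apply]
    exact hX g
  obtain ⟨c, hc⟩ := h (e.symm X) hcomm
  refine ⟨c, ?_⟩
  have := congrArg e hc
  rwa [AlgEquiv.apply_symm_apply, map_smul, map_one] at this

theorem isSchurRep_of_isSchurFamily_toMatrix {φ : G → Module.End R V}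
    (b : Module.Basis ι R V) (h : IsSchurFamily (fun g => LinearMap.toMatrix b b (φ g))) :
    IsSchurRep φ := by
  intro f hf
  set e := LinearMap.toMatrixAlgEquiv b with he
  have hcomm : ∀ g, e f * LinearMap.toMatrix b b (φ g) = LinearMap.toMatrix b b (φ g) * e f := by
    intro g
    have : LinearMap.toMatrix b b (φ g) = e (φ g) := rfl
    rw [this, ← map_mul, ← map_mul, hf g]
  obtain ⟨c, hc⟩ := h (e f) hcomm
  refine ⟨c, e.injective ?_⟩
  rw [hc, map_smul, map_one]

/-- Transport of the Schur property along an intertwining linear equivalence. -/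
theorem IsSchurRep.of_linearEquiv {V' : Type*} [AddCommGroup V'] [Module R V']
    {φ : G → Module.End R V} {φ' : G → Module.End R V'} (e : V ≃ₗ[R] V')
    (he : ∀ g x, e (φ g x) = φ' g (e x)) (h : IsSchurRep φ') : IsSchurRep φ := by
  intro f hf
  have hcomm : ∀ g, (e.conj f) * φ' g = φ' g * (e.conj f) := by
    intro g
    ext y
    obtain ⟨x, rfl⟩ := e.surjective y
    have h1 : f (φ g x) = φ g (f x) := by
      have := congrArg (fun F : Module.End R V => F x) (hf g)
      simpa using this
    simp only [Module.End.mul_apply, LinearEquiv.conj_apply, LinearMap.comp_apply,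
      LinearEquiv.coe_coe, LinearEquiv.symm_apply_apply]
    rw [← he, LinearEquiv.symm_apply_apply, h1, he]
  obtain ⟨c, hc⟩ := h (e.conj f) hcomm
  refine ⟨c, ?_⟩
  ext x
  have := congrArg (fun F : Module.End R V' => e.symm (F (e x))) hc
  simpa [LinearEquiv.conj_apply] using this

end ModuleSchur

section Galois

open IsLocalRing

theorem isSchurRep_of_isAbsolutelyIrreducible {k : Type} [Field k] (ρbar : ResidualGaloisRep k)
    (habs : ρbar.IsAbsolutelyIrreducible) : IsSchurRep (fun σ => ρbar.ρ σ) :=
  fun f hf => schur_of_isAbsolutelyIrreducible ρbar habs f hf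

theorem isSchurRep_baseChangeAlong {k k' : Type} [Field k] [Field k'] (ψ : k →+* k')
    (ρbar : ResidualGaloisRep k) (h : IsSchurRep (fun σ => ρbar.ρ σ)) :
    IsSchurRep (fun σ => (ρbar.baseChangeAlong ψ).ρ σ) := by
  classical
  let _ : Algebra k k' := ψ.toAlgebra
  set b := Module.finBasis k ρbar.V with hb
  have hfam := (h.isSchurFamily_toMatrix b).map_of_field ψ
  show IsSchurRep (fun σ => ((ρbar.ρ σ).baseChange k' : Module.End k' (k' ⊗[k] ρbar.V)))
  refine isSchurRep_of_isSchurFamily_toMatrix (Algebra.TensorProduct.basis k' b) ?_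
  have heq : (fun σ => LinearMap.toMatrix (Algebra.TensorProduct.basis k' b)
      (Algebra.TensorProduct.basis k' b) ((ρbar.ρ σ).baseChange k')) =
      fun σ => (LinearMap.toMatrix b b (ρbar.ρ σ)).map ψ := by
    funext σ
    exact LinearMap.toMatrix_baseChange k' (ρbar.ρ σ) b b
  rw [heq]
  exact hfam

theorem isSchurRep_of_residual_isEquiv {k : Type} [Field k] {ρ₁ ρ₂ : ResidualGaloisRep k}
    (e : ρ₁.IsEquiv ρ₂) (h : IsSchurRep (fun σ => ρ₂.ρ σ)) : IsSchurRep (fun σ => ρ₁.ρ σ) := by
  obtain ⟨e⟩ := e
  exact IsSchurRep.of_linearEquiv e.toLinearEquiv (fun σ x => e.map_apply σ x) h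

variable {A : Type} [CommRing A] [IsLocalRing A]

/-- The residual representation of a deformation of an absolutely irreducible `ρbar` has the
Schur property. -/
theorem isSchurRep_residual_of_isEquiv {k : Type} [Field k] (ρbar : ResidualGaloisRep k)
    (habs : ρbar.IsAbsolutelyIrreducible) (ψ : k →+* ResidueField A) (ρ : GaloisRepAdic A)
    (h : ρ.residual.IsEquiv (ρbar.baseChangeAlong ψ)) :
    IsSchurRep (fun σ => ρ.residual.ρ σ) :=
  isSchurRep_of_residual_isEquiv h
    (isSchurRep_baseChangeAlong ψ ρbar (isSchurRep_of_isAbsolutelyIrreducible ρbar habs))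

variable {ι : Type*} [Fintype ι] [DecidableEq ι]

theorem isSchurFamily_toMatrix_residue (ρ : GaloisRepAdic A)
    (hS : IsSchurRep (fun σ => ρ.residual.ρ σ)) (b : Module.Basis ι A ρ.V) :
    IsSchurFamily (fun σ => (LinearMap.toMatrix b b (ρ.ρ σ)).map (residue A)) := by
  have hS' : IsSchurRep (fun σ => ((ρ.ρ σ).baseChange (ResidueField A) :
      Module.End (ResidueField A) (ResidueField A ⊗[A] ρ.V))) := hS
  have hfam := hS'.isSchurFamily_toMatrix (Algebra.TensorProduct.basis (ResidueField A) b)
  have heq : (fun σ => LinearMap.toMatrix (Algebra.TensorProduct.basis (ResidueField A) b)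
      (Algebra.TensorProduct.basis (ResidueField A) b) ((ρ.ρ σ).baseChange (ResidueField A))) =
      fun σ => (LinearMap.toMatrix b b (ρ.ρ σ)).map (residue A) := by
    funext σ
    exact LinearMap.toMatrix_baseChange (ResidueField A) (ρ.ρ σ) b b
  rw [← heq]
  exact hfam

omit [Fintype ι] [DecidableEq ι] in
/-- Approximate centraliser theorem: an endomorphism of a deformation commuting with the Galois
action is a scalar modulo every power of the maximal ideal. -/
theorem exists_scalar_sub_mem_of_commute (ρ : GaloisRepAdic A)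
    (hS : IsSchurRep (fun σ => ρ.residual.ρ σ))
    (f : Module.End A ρ.V) (hf : ∀ σ, f * ρ.ρ σ = ρ.ρ σ * f) (n : ℕ) :
    ∃ c : A, ∀ v, f v - c • v ∈ (maximalIdeal A ^ n) • (⊤ : Submodule A ρ.V) := by
  classical
  set b := Module.Free.chooseBasis A ρ.V with hb
  set e := LinearMap.toMatrixAlgEquiv b with he
  have hfam := isSchurFamily_toMatrix_residue ρ hS b
  have hX : ∀ σ, e f * LinearMap.toMatrix b b (ρ.ρ σ) = LinearMap.toMatrix b b (ρ.ρ σ) * e f := by
    intro σ
    have : LinearMap.toMatrix b b (ρ.ρ σ) = e (ρ.ρ σ) := rfl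
    rw [this, ← map_mul, ← map_mul, hf σ]
  obtain ⟨c, hc⟩ := exists_scalar_sub_mem_pow _ hfam (e f) hX n
  refine ⟨c, fun v => ?_⟩
  have h1 : f v - c • v = Matrix.toLin b b (e f - c • (1 : Matrix _ _ A)) v := by
    have h2 : Matrix.toLin b b (e f - c • (1 : Matrix _ _ A)) = f - c • (1 : Module.End A ρ.V) := by
      have h3 : e (f - c • (1 : Module.End A ρ.V)) = e f - c • (1 : Matrix _ _ A) := by
        rw [map_sub, map_smul, map_one]
      rw [← h3]
      exact (LinearMap.toMatrixAlgEquiv b).symm_apply_apply _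
    rw [h2]
    simp
  rw [h1, Matrix.toLin_apply]
  refine Submodule.sum_mem _ fun i _ => ?_
  refine Submodule.smul_mem_smul ?_ Submodule.mem_top
  rw [Matrix.mulVec, dotProduct]
  exact Ideal.sum_mem _ fun j _ => Ideal.mul_mem_right _ _ (hc i j)

omit [Fintype ι] [DecidableEq ι] in
/-- Centraliser theorem: over a separated local ring (e.g. Artinian, or complete Noetherian),
an endomorphism of a deformation commuting with the Galois action is a scalar. -/
theorem exists_scalar_of_commute [IsHausdorff (maximalIdeal A) A] (ρ : GaloisRepAdic A)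
    (hS : IsSchurRep (fun σ => ρ.residual.ρ σ))
    (f : Module.End A ρ.V) (hf : ∀ σ, f * ρ.ρ σ = ρ.ρ σ * f) :
    ∃ c : A, f = c • (1 : Module.End A ρ.V) := by
  classical
  set b := Module.Free.chooseBasis A ρ.V with hb
  set e := LinearMap.toMatrixAlgEquiv b with he
  have hfam := isSchurFamily_toMatrix_residue ρ hS b
  have hX : ∀ σ, e f * LinearMap.toMatrix b b (ρ.ρ σ) = LinearMap.toMatrix b b (ρ.ρ σ) * e f := by
    intro σ
    have : LinearMap.toMatrix b b (ρ.ρ σ) = e (ρ.ρ σ) := rfl
    rw [this, ← map_mul, ← map_mul, hf σ]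
  obtain ⟨c, hc⟩ := exists_scalar_of_isHausdorff _ hfam (e f) hX
  refine ⟨c, e.injective ?_⟩
  rw [hc, map_smul, map_one]

omit [Fintype ι] [DecidableEq ι] in
/-- Two equivalences between deformations differ by a unit scalar. -/
theorem equiv_exists_unit_smul [IsHausdorff (maximalIdeal A) A]
    {ρ₁ ρ₂ : GaloisRepAdic A} (hS : IsSchurRep (fun σ => ρ₁.residual.ρ σ))
    (e₁ e₂ : GaloisRepAdic.Equiv ρ₁ ρ₂) :
    ∃ u : Aˣ, ∀ x, e₂.toLinearEquiv x = u • e₁.toLinearEquiv x := by
  -- `f = e₁⁻¹ ∘ e₂` and `g = e₂⁻¹ ∘ e₁` are mutually inverse commuting endomorphisms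
  set f : Module.End A ρ₁.V :=
    (e₁.toLinearEquiv.symm.toLinearMap).comp e₂.toLinearEquiv.toLinearMap with hf
  set g : Module.End A ρ₁.V :=
    (e₂.toLinearEquiv.symm.toLinearMap).comp e₁.toLinearEquiv.toLinearMap with hg
  have hfc : ∀ σ, f * ρ₁.ρ σ = ρ₁.ρ σ * f := by
    intro σ
    ext x
    simp only [hf, Module.End.mul_apply, LinearMap.comp_apply, LinearEquiv.coe_coe]
    apply e₁.toLinearEquiv.injective
    rw [LinearEquiv.apply_symm_apply, e₂.map_apply, e₁.map_apply, LinearEquiv.apply_symm_apply]
  have hgc : ∀ σ, g * ρ₁.ρ σ = ρ₁.ρ σ * g := by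
    intro σ
    ext x
    simp only [hg, Module.End.mul_apply, LinearMap.comp_apply, LinearEquiv.coe_coe]
    apply e₂.toLinearEquiv.injective
    rw [LinearEquiv.apply_symm_apply, e₁.map_apply, e₂.map_apply, LinearEquiv.apply_symm_apply]
  obtain ⟨c, hc⟩ := exists_scalar_of_commute ρ₁ hS f hfc
  obtain ⟨d, hd⟩ := exists_scalar_of_commute ρ₁ hS g hgc
  have hfg : f * g = 1 := by
    ext x
    simp [hf, hg]
  have hcd : c * d = 1 := by
    rw [hc, hd, smul_mul_smul_comm, mul_one] at hfg
    -- evaluate on a basis vector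
    have hpos : 0 < Module.finrank A ρ₁.V := by rw [ρ₁.finrank_eq]; norm_num
    have : Nontrivial ρ₁.V := Module.nontrivial_of_finrank_pos (R := A) hpos
    set b := Module.Free.chooseBasis A ρ₁.V
    obtain ⟨i⟩ : Nonempty (Module.Free.ChooseBasisIndex A ρ₁.V) := by
      by_contra hne
      rw [not_nonempty_iff] at hne
      have : Module.finrank A ρ₁.V = 0 := by
        rw [Module.finrank_eq_card_chooseBasisIndex]
        exact Fintype.card_eq_zero
      omega
    have h1 := congrArg (fun F : Module.End A ρ₁.V => b.repr (F (b i)) i) hfg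
    simpa using h1
  refine ⟨⟨c, d, hcd, by rw [mul_comm]; exact hcd⟩, fun x => ?_⟩
  have h1 := congrArg (fun F : Module.End A ρ₁.V => e₁.toLinearEquiv (F x)) hc
  simpa [hf] using h1

end Galois

end Fermat.Agent.S53
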