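import Fermat.Agent.S53.NormalForm
import Fermat.Agent.S53.Burnside

/-!
Existence of the data defining the gauge slice, for a residual matrix representation
whose image spans the matrix algebra.
-/

set_option autoImplicit false

namespace Fermat.Agent.S53

open Matrix

section SliceData

variable {k G : Type*} [Field k] [Monoid G]

/-- Conjugation preserves the property that the image spans the matrix algebra. -/
theorem span_range_matConjHom_eq_top (γ : (Matrix (Fin 2) (Fin 2) k)ˣ)
    (rb : G →* Matrix (Fin 2) (Fin 2) k)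
    (hspan : Submodule.span k (Set.range rb) = ⊤) :
    Submodule.span k (Set.range (matConjHom γ rb)) = ⊤ := by
  rw [eq_top_iff]
  intro Y _
  have hY : ((γ⁻¹ : (Matrix (Fin 2) (Fin 2) k)ˣ) : Matrix (Fin 2) (Fin 2) k) * Y *
      (γ : Matrix (Fin 2) (Fin 2) k) ∈ Submodule.span k (Set.range rb) := by
    rw [hspan]; trivial
  have key : ∀ X ∈ Submodule.span k (Set.range rb),
      (γ : Matrix (Fin 2) (Fin 2) k) * X *
        ((γ⁻¹ : (Matrix (Fin 2) (Fin 2) k)ˣ) : Matrix (Fin 2) (Fin 2) k) ∈
        Submodule.span k (Set.range (matConjHom γ rb)) := by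
    intro X hX
    induction hX using Submodule.span_induction with
    | mem X hX =>
      obtain ⟨g, rfl⟩ := hX
      exact Submodule.subset_span ⟨g, rfl⟩
    | zero => simp
    | add X1 X2 _ _ h1 h2 =>
      rw [mul_add, add_mul]
      exact Submodule.add_mem _ h1 h2
    | smul c X _ h1 =>
      rw [mul_smul_comm, smul_mul_assoc]
      exact Submodule.smul_mem _ c h1
  have := key _ hY
  have e : (γ : Matrix (Fin 2) (Fin 2) k) *
      (((γ⁻¹ : (Matrix (Fin 2) (Fin 2) k)ˣ) : Matrix (Fin 2) (Fin 2) k) * Y *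
        (γ : Matrix (Fin 2) (Fin 2) k)) *
      ((γ⁻¹ : (Matrix (Fin 2) (Fin 2) k)ˣ) : Matrix (Fin 2) (Fin 2) k) = Y := by
    rw [← mul_assoc, ← mul_assoc, Units.mul_inv, one_mul, mul_assoc, Units.mul_inv, mul_one]
  rwa [e] at this

/-- Some matrix in the image has a nonzero lower left entry. -/
theorem exists_apply_one_zero_ne_zero (rb : G →* Matrix (Fin 2) (Fin 2) k)
    (hspan : Submodule.span k (Set.range rb) = ⊤) : ∃ g0, rb g0 1 0 ≠ 0 := by
  by_contra hcon
  push Not at hcon
  have hall : ∀ X ∈ Submodule.span k (Set.range rb), X 1 0 = 0 := by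
    intro X hX
    induction hX using Submodule.span_induction with
    | mem X hX => obtain ⟨g, rfl⟩ := hX; exact hcon g
    | zero => simp
    | add X1 X2 _ _ h1 h2 => rw [Matrix.add_apply, h1, h2, add_zero]
    | smul c X _ h1 => rw [Matrix.smul_apply, h1, smul_zero]
  have h1 : (Matrix.single (1 : Fin 2) (0 : Fin 2) (1 : k)) 1 0 = 0 :=
    hall _ (by rw [hspan]; trivial)
  simp at h1

/-- Existence of the slice data: after a change of basis, `rb g0` has first column `(0,1)`, some
`rb g1` does not commute with it, and the family is Schur. -/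
theorem exists_sliceData (rb : G →* Matrix (Fin 2) (Fin 2) k)
    (hspan : Submodule.span k (Set.range rb) = ⊤) :
    ∃ (γ : (Matrix (Fin 2) (Fin 2) k)ˣ) (g0 g1 : G) (i j : Fin 2),
      (matConjHom γ rb g0) 0 0 = 0 ∧ (matConjHom γ rb g0) 1 0 = 1 ∧
      ((matConjHom γ rb g1) * (matConjHom γ rb g0) - (matConjHom γ rb g0) * (matConjHom γ rb g1) :
        Matrix (Fin 2) (Fin 2) k) i j ≠ 0 ∧
      (∀ Z : Matrix (Fin 2) (Fin 2) k,
        (∀ g, Z * matConjHom γ rb g = matConjHom γ rb g * Z) →
          ∃ a : k, Z = a • (1 : Matrix (Fin 2) (Fin 2) k)) ∧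
      Submodule.span k (Set.range (matConjHom γ rb)) = ⊤ := by
  obtain ⟨g0, hg0⟩ := exists_apply_one_zero_ne_zero rb hspan
  obtain ⟨γ, -, -, h00, h10⟩ :=
    nf_exists_conj_col_aux (rb g0 0 0) (rb g0 0 1) (rb g0 1 0) (rb g0 1 1) (rb g0 1 0)⁻¹
      (inv_mul_cancel₀ hg0)
  rw [← Matrix.eta_fin_two (rb g0)] at h00 h10
  have hspan' := span_range_matConjHom_eq_top γ rb hspan
  have hschur : ∀ Z : Matrix (Fin 2) (Fin 2) k,
      (∀ g, Z * matConjHom γ rb g = matConjHom γ rb g * Z) →
        ∃ a : k, Z = a • (1 : Matrix (Fin 2) (Fin 2) k) :=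
    fun Z hZ => matrix_scalar_of_commute_of_span_eq_top (fun g => matConjHom γ rb g) hspan' Z hZ
  -- some `g1` does not commute with `N`
  set N := matConjHom γ rb g0 with hN
  have hex : ∃ g1, matConjHom γ rb g1 * N - N * matConjHom γ rb g1 ≠ 0 := by
    by_contra hcon
    push Not at hcon
    obtain ⟨a, ha⟩ := hschur N (fun g => by
      have := hcon g
      rw [sub_eq_zero] at this
      exact this.symm)
    have h1 : N 1 0 = (a • (1 : Matrix (Fin 2) (Fin 2) k)) 1 0 := by rw [← ha]
    rw [hN, matConjHom_apply, h10] at h1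
    simp at h1
  obtain ⟨g1, hg1⟩ := hex
  have hij : ∃ i j, (matConjHom γ rb g1 * N - N * matConjHom γ rb g1 :
      Matrix (Fin 2) (Fin 2) k) i j ≠ 0 := by
    by_contra hcon
    push Not at hcon
    exact hg1 (by ext i j; exact hcon i j)
  obtain ⟨i, j, hij⟩ := hij
  exact ⟨γ, g0, g1, i, j, h00, h10, hij, hschur, hspan'⟩

end SliceData

end Fermat.Agent.S53
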