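import Mathlib
import Fermat.Prelude.Def_GaloisRep_DeformationCondition
import Fermat.Agent.S53.FramedResidual
import Fermat.Agent.S53.NormalForm
import Fermat.Agent.S53.SchurAdic
import Fermat.Agent.S53.SliceData
import Fermat.Agent.S53.Burnside

set_option autoImplicit false

namespace Fermat.Agent.S53

noncomputable section

open IsLocalRing

section artinianBasics

variable {A : Type} [CommRing A] [IsLocalRing A]

/-- In an Artinian local ring some power of the maximal ideal vanishes. -/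
lemma exists_maximalIdeal_pow_eq_bot [IsArtinianRing A] : ∃ n : ℕ, maximalIdeal A ^ n = ⊥ := by
  have h1 : IsNilpotent (Ideal.jacobson (⊥ : Ideal A)) := IsArtinianRing.isNilpotent_jacobson_bot
  rw [IsLocalRing.jacobson_eq_maximalIdeal ⊥ bot_ne_top] at h1
  obtain ⟨n, hn⟩ := h1
  exact ⟨n, by rw [hn, Ideal.zero_eq_bot]⟩

/-- Elements of the maximal ideal of an Artinian local ring are nilpotent. -/
lemma isNilpotent_of_mem_maximalIdeal [IsArtinianRing A] {a : A} (ha : a ∈ maximalIdeal A) :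
    IsNilpotent a := by
  obtain ⟨n, hn⟩ := exists_maximalIdeal_pow_eq_bot (A := A)
  refine ⟨n, ?_⟩
  have h2 : a ^ n ∈ maximalIdeal A ^ n := Ideal.pow_mem_pow ha n
  rwa [hn, Ideal.mem_bot] at h2

/-- The kernel of the residue map of an Artinian local ring is nil. -/
lemma isNilpotent_of_residue_eq_zero [IsArtinianRing A] (a : A) (ha : residue A a = 0) :
    IsNilpotent a :=
  isNilpotent_of_mem_maximalIdeal ((residue_eq_zero_iff a).mp ha)

/-- A ring homomorphism out of a local ring with nil maximal ideal into a nontrivial ring is local. -/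
lemma isLocalHom_of_nil {B : Type} [CommRing B] [Nontrivial B] (φ : A →+* B)
    (hnil : ∀ a ∈ maximalIdeal A, IsNilpotent a) : IsLocalHom φ := by
  constructor
  intro a ha
  by_contra hna
  have h1 : IsNilpotent (φ a) := (hnil a hna).map φ
  obtain ⟨n, hn⟩ := h1
  have h2 : IsUnit ((φ a) ^ n) := ha.pow n
  rw [hn] at h2
  exact not_isUnit_zero h2

/-- A ring homomorphism out of an Artinian local ring into a nontrivial ring is local. -/
lemma isLocalHom_of_isArtinianRing [IsArtinianRing A] {B : Type} [CommRing B] [Nontrivial B]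
    (φ : A →+* B) : IsLocalHom φ :=
  isLocalHom_of_nil φ fun _ ha => isNilpotent_of_mem_maximalIdeal ha

end artinianBasics

section sliceData

variable (𝒪 : Type) [CommRing 𝒪] [IsLocalRing 𝒪]

/-- The data defining the gauge slice: a framing of the residual representation whose value at
`g0` has first column `(0, 1)`, and an entry of some `rb g1` detecting the remaining gauge. -/
structure SliceData where
  rb : FramedResidual (ResidueField 𝒪)
  g0 : GQ
  g1 : GQ
  i : Fin 2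
  j : Fin 2
  c0 : 𝒪
  hN0 : rb g0 0 0 = 0
  hN1 : rb g0 1 0 = 1
  hcomm : (rb g1 * rb g0 - rb g0 * rb g1) i j ≠ 0
  hc0 : residue 𝒪 c0 = rb g1 i j
  hschur : IsSchurFamily (fun g => rb g)

variable {𝒪}

/-- Transport of the spanning property from endomorphisms to matrices along a framing. -/
lemma span_range_eq_top_of_isEquiv {k : Type} [Field k] {ρ : ResidualGaloisRep k}
    {rb : FramedResidual k} (h : ρ.IsEquiv rb.toResidualGaloisRep)
    (hspan : Submodule.span k (Set.range ρ.ρ) = ⊤) :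
    Submodule.span k (Set.range rb.toMonoidHom) = ⊤ := by
  classical
  obtain ⟨e⟩ := h
  let E : ρ.V ≃ₗ[k] (Fin 2 → k) := e.toLinearEquiv
  let Ψ : Module.End k ρ.V ≃ₗ[k] Matrix (Fin 2) (Fin 2) k :=
    (LinearEquiv.conj E).trans LinearMap.toMatrix'
  have hΨ : ∀ σ, Ψ (ρ.ρ σ) = rb.toMonoidHom σ := by
    intro σ
    show LinearMap.toMatrix' (LinearEquiv.conj E (ρ.ρ σ)) = rb.toMonoidHom σ
    rw [← LinearMap.toMatrix'_toLin' (rb.toMonoidHom σ)]
    congr 1
    refine LinearMap.ext fun x => ?_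
    rw [LinearEquiv.conj_apply_apply]
    have := e.map_apply σ (E.symm x)
    rw [show e.toLinearEquiv (E.symm x) = x from E.apply_symm_apply x] at this
    exact this
  have h1 : Set.range rb.toMonoidHom = Ψ '' Set.range ρ.ρ := by
    ext M
    constructor
    · rintro ⟨σ, rfl⟩
      exact ⟨ρ.ρ σ, ⟨σ, rfl⟩, hΨ σ⟩
    · rintro ⟨f, ⟨σ, rfl⟩, rfl⟩
      exact ⟨σ, (hΨ σ).symm⟩
  rw [h1]
  have h2 : Submodule.span k ((Ψ.toLinearMap) '' Set.range ρ.ρ) = ⊤ := by
    rw [← Submodule.map_span, hspan, Submodule.map_top, LinearMap.range_eq_top]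
    exact Ψ.surjective
  exact h2

/-- Existence of a slice datum for an absolutely irreducible residual representation. -/
theorem exists_sliceDatum (ρbar : ResidualGaloisRep (ResidueField 𝒪))
    (habs : ρbar.IsAbsolutelyIrreducible) :
    ∃ S : SliceData 𝒪, ρbar.IsEquiv S.rb.toResidualGaloisRep := by
  obtain ⟨rb0, hrb0⟩ := exists_framedResidual ρbar
  have hspan : Submodule.span (ResidueField 𝒪) (Set.range rb0.toMonoidHom) = ⊤ :=
    span_range_eq_top_of_isEquiv hrb0 (residual_span_range_eq_top ρbar habs)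
  obtain ⟨γ, g0, g1, i, j, h00, h10, hij, hschur, -⟩ := exists_sliceData rb0.toMonoidHom hspan
  let rb : FramedResidual (ResidueField 𝒪) :=
    { toMonoidHom := matConjHom γ rb0.toMonoidHom
      finiteLevel := by
        obtain ⟨L, hL, h⟩ := rb0.finiteLevel
        refine ⟨L, hL, fun σ hσ => ?_⟩
        rw [matConjHom_apply, h σ hσ, mul_one, Units.mul_inv] }
  obtain ⟨c0, hc0⟩ := residue_surjective (rb g1 i j)
  refine ⟨{ rb := rb, g0 := g0, g1 := g1, i := i, j := j, c0 := c0, hN0 := h00, hN1 := h10,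
            hcomm := hij, hc0 := hc0, hschur := hschur }, ?_⟩
  obtain ⟨e0⟩ := hrb0
  have h2 : rb0.toResidualGaloisRep.IsEquiv rb.toResidualGaloisRep := by
    rw [FramedResidual.isEquiv_iff_conj]
    refine ⟨γ, fun σ => ?_⟩
    show (γ : Matrix (Fin 2) (Fin 2) (ResidueField 𝒪)) * rb0.toMonoidHom σ =
      matConjHom γ rb0.toMonoidHom σ * γ
    rw [matConjHom_apply, mul_assoc, Units.inv_mul, mul_one]
  obtain ⟨e2⟩ := h2
  exact ⟨e0.trans e2⟩

end sliceData

section slicePoint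

variable {𝒪 : Type} [CommRing 𝒪] [IsLocalRing 𝒪] (S : SliceData 𝒪)
  (𝒟 : ∀ ⦃A : Type⦄ [CommRing A] [IsLocalRing A] [Algebra 𝒪 A], GaloisRepAdic A → Prop)

/-- A slice point over `A`: a framed lift of the framing of the slice datum, normalised, of
type `𝒟`. -/
structure IsSlicePoint {A : Type} [CommRing A] [IsLocalRing A] [Algebra 𝒪 A]
    [IsLocalHom (algebraMap 𝒪 A)] (r : FramedRep A) : Prop where
  lift : r.IsLiftOf S.rb (ResidueField.map (algebraMap 𝒪 A))
  normalized : IsNormalized S.g0 S.g1 S.i S.j (algebraMap 𝒪 A S.c0) r.toMonoidHom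
  type : 𝒟 r.toGaloisRepAdic

section translate

variable {A : Type} [CommRing A] [IsLocalRing A] [Algebra 𝒪 A] [IsLocalHom (algebraMap 𝒪 A)]

lemma SliceData.map_hN0 :
    (S.rb.map (ResidueField.map (algebraMap 𝒪 A))).toMonoidHom S.g0 0 0 = 0 := by
  show ((S.rb S.g0).map (ResidueField.map (algebraMap 𝒪 A))) 0 0 = 0
  rw [Matrix.map_apply, S.hN0, map_zero]

lemma SliceData.map_hN1 :
    (S.rb.map (ResidueField.map (algebraMap 𝒪 A))).toMonoidHom S.g0 1 0 = 1 := by
  show ((S.rb S.g0).map (ResidueField.map (algebraMap 𝒪 A))) 1 0 = 1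
  rw [Matrix.map_apply, S.hN1, map_one]

lemma SliceData.map_hcomm :
    ((S.rb.map (ResidueField.map (algebraMap 𝒪 A))).toMonoidHom S.g1 *
        (S.rb.map (ResidueField.map (algebraMap 𝒪 A))).toMonoidHom S.g0 -
      (S.rb.map (ResidueField.map (algebraMap 𝒪 A))).toMonoidHom S.g0 *
        (S.rb.map (ResidueField.map (algebraMap 𝒪 A))).toMonoidHom S.g1 :
      Matrix (Fin 2) (Fin 2) (ResidueField A)) S.i S.j ≠ 0 := by
  show ((S.rb S.g1).map (ResidueField.map (algebraMap 𝒪 A)) *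
        (S.rb S.g0).map (ResidueField.map (algebraMap 𝒪 A)) -
      (S.rb S.g0).map (ResidueField.map (algebraMap 𝒪 A)) *
        (S.rb S.g1).map (ResidueField.map (algebraMap 𝒪 A))) S.i S.j ≠ 0
  have key : ((S.rb S.g1).map (ResidueField.map (algebraMap 𝒪 A)) *
        (S.rb S.g0).map (ResidueField.map (algebraMap 𝒪 A)) -
      (S.rb S.g0).map (ResidueField.map (algebraMap 𝒪 A)) *
        (S.rb S.g1).map (ResidueField.map (algebraMap 𝒪 A))) =
      (ResidueField.map (algebraMap 𝒪 A)).mapMatrix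
        (S.rb S.g1 * S.rb S.g0 - S.rb S.g0 * S.rb S.g1) := by
    rw [map_sub, _root_.map_mul, _root_.map_mul]
    rfl
  rw [key, RingHom.mapMatrix_apply, Matrix.map_apply]
  intro h
  exact S.hcomm ((map_eq_zero _).mp h)

lemma SliceData.map_hc0 :
    residue A (algebraMap 𝒪 A S.c0) =
      (S.rb.map (ResidueField.map (algebraMap 𝒪 A))).toMonoidHom S.g1 S.i S.j := by
  show _ = ((S.rb S.g1).map (ResidueField.map (algebraMap 𝒪 A))) S.i S.j
  rw [Matrix.map_apply, ← S.hc0, ResidueField.map_residue]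

lemma SliceData.map_hschur :
    ∀ Z : Matrix (Fin 2) (Fin 2) (ResidueField A),
      (∀ g, Z * (S.rb.map (ResidueField.map (algebraMap 𝒪 A))).toMonoidHom g =
        (S.rb.map (ResidueField.map (algebraMap 𝒪 A))).toMonoidHom g * Z) →
      ∃ a : ResidueField A, Z = a • (1 : Matrix (Fin 2) (Fin 2) (ResidueField A)) :=
  IsSchurFamily.map_of_field (ResidueField.map (algebraMap 𝒪 A)) S.hschur

lemma FramedRep.IsLiftOf.mapMatrix_eq {k : Type} [Field k] {r : FramedRep A}
    {rb : FramedResidual k} {ι : k →+* ResidueField A} (h : r.IsLiftOf rb ι) (g : GQ) :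
    (residue A).mapMatrix (r.toMonoidHom g) = (rb.map ι).toMonoidHom g := h g

end translate

section unique

variable {A : Type} [CommRing A] [IsLocalRing A] [Algebra 𝒪 A] [IsLocalHom (algebraMap 𝒪 A)]
  [IsArtinianRing A]

/-- Uniqueness of the normalised lift in a conjugacy class. -/
theorem eq_of_isLiftOf_of_isNormalized {r r' : FramedRep A}
    (hl : r.IsLiftOf S.rb (ResidueField.map (algebraMap 𝒪 A)))
    (hl' : r'.IsLiftOf S.rb (ResidueField.map (algebraMap 𝒪 A)))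
    (hn : IsNormalized S.g0 S.g1 S.i S.j (algebraMap 𝒪 A S.c0) r.toMonoidHom)
    (hn' : IsNormalized S.g0 S.g1 S.i S.j (algebraMap 𝒪 A S.c0) r'.toMonoidHom)
    (h : r.toGaloisRepAdic.IsEquiv r'.toGaloisRepAdic) : r = r' := by
  rw [FramedRep.isEquiv_iff_conj] at h
  obtain ⟨γ, hγ⟩ := h
  have hK : ∀ g, r.toMonoidHom g * ((γ⁻¹ : (Matrix (Fin 2) (Fin 2) A)ˣ) :
      Matrix (Fin 2) (Fin 2) A) =
      ((γ⁻¹ : (Matrix (Fin 2) (Fin 2) A)ˣ) : Matrix (Fin 2) (Fin 2) A) * r'.toMonoidHom g := by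
    intro g
    have h1 := hγ g
    calc r.toMonoidHom g * ((γ⁻¹ : (Matrix (Fin 2) (Fin 2) A)ˣ) : Matrix (Fin 2) (Fin 2) A)
        = ((γ⁻¹ : (Matrix (Fin 2) (Fin 2) A)ˣ) : Matrix (Fin 2) (Fin 2) A) *
            (γ.val * r.toMonoidHom g) *
            ((γ⁻¹ : (Matrix (Fin 2) (Fin 2) A)ˣ) : Matrix (Fin 2) (Fin 2) A) := by
          rw [← mul_assoc, Units.inv_mul, one_mul]
      _ = ((γ⁻¹ : (Matrix (Fin 2) (Fin 2) A)ˣ) : Matrix (Fin 2) (Fin 2) A) *
            r'.toMonoidHom g := by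
          rw [h1, mul_assoc, mul_assoc, Units.mul_inv, mul_one]
  have := (eq_of_isNormalized_of_intertwine (residue A) residue_surjective
    isNilpotent_of_residue_eq_zero (S.rb.map (ResidueField.map (algebraMap 𝒪 A))).toMonoidHom
    S.g0 S.g1 S.i S.j S.map_hcomm S.map_hschur (algebraMap 𝒪 A S.c0) r.toMonoidHom r'.toMonoidHom
    (fun g => hl.mapMatrix_eq g) (fun g => hl'.mapMatrix_eq g) hn hn' γ⁻¹ hK).1
  exact FramedRep.ext fun σ => congrArg (fun f : GQ →* Matrix (Fin 2) (Fin 2) A => f σ) this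

theorem IsSlicePoint.eq_of_isEquiv {r r' : FramedRep A} (hr : IsSlicePoint S 𝒟 r)
    (hr' : IsSlicePoint S 𝒟 r') (h : r.toGaloisRepAdic.IsEquiv r'.toGaloisRepAdic) : r = r' :=
  eq_of_isLiftOf_of_isNormalized S hr.lift hr'.lift hr.normalized hr'.normalized h

end unique

section exist

variable {A : Type} [CommRing A] [IsLocalRing A] [Algebra 𝒪 A] [IsLocalHom (algebraMap 𝒪 A)]

/-- Existence of a slice point in every deformation class over an Artinian test algebra. -/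
theorem exists_isSlicePoint (h𝒟 : GaloisRep.IsDeformationCondition 𝒪 𝒟)
    (hA : GaloisRep.IsArtinianTestAlgebra 𝒪 A) {ρbar : ResidualGaloisRep (ResidueField 𝒪)}
    (hrb : ρbar.IsEquiv S.rb.toResidualGaloisRep) (ρA : GaloisRepAdic A) (hD : 𝒟 ρA)
    (hres : ρA.residual.IsEquiv
      (ρbar.baseChangeAlong (ResidueField.map (algebraMap 𝒪 A)))) :
    ∃ r : FramedRep A, IsSlicePoint S 𝒟 r ∧ ρA.IsEquiv r.toGaloisRepAdic := by
  have : IsArtinianRing A := hA.isArtinian
  obtain ⟨r0, ⟨e0⟩, hl0⟩ := exists_framedLift ρA hrb (ResidueField.map (algebraMap 𝒪 A)) hres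
  obtain ⟨γ, hγ1, hγ2, hnorm⟩ := exists_normalizing (residue A) residue_surjective
    isNilpotent_of_residue_eq_zero (S.rb.map (ResidueField.map (algebraMap 𝒪 A))).toMonoidHom
    S.g0 S.g1 S.i S.j S.map_hN0 S.map_hN1 S.map_hcomm (algebraMap 𝒪 A S.c0) S.map_hc0
    r0.toMonoidHom (fun g => hl0.mapMatrix_eq g)
  have hconj : (r0.conj γ).toMonoidHom = matConjHom γ r0.toMonoidHom := rfl
  obtain ⟨e1⟩ := r0.conj_isEquiv γ
  have hequiv : ρA.IsEquiv (r0.conj γ).toGaloisRepAdic := ⟨e0.trans e1⟩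
  refine ⟨r0.conj γ, ⟨fun σ => ?_, by rw [hconj]; exact hnorm, h𝒟.of_isEquiv hA hequiv hD⟩,
    hequiv⟩
  rw [RingHom.mapMatrix_apply] at hγ1 hγ2
  rw [FramedRep.conj_apply, Matrix.map_mul, Matrix.map_mul, hγ1,
    show γ.inv = ((γ⁻¹ : (Matrix (Fin 2) (Fin 2) A)ˣ) : Matrix (Fin 2) (Fin 2) A) from rfl, hγ2,
    one_mul, mul_one]
  exact hl0 σ

end exist

end slicePoint

section coordinateRing

variable (𝒪 : Type) [CommRing 𝒪]

/-- The coordinate ring of framed representations: a polynomial ring with one variable for each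
matrix entry of each Galois element. -/
abbrev Lam : Type := MvPolynomial (GQ × Fin 2 × Fin 2) 𝒪

variable {𝒪} {A : Type} [CommRing A] [Algebra 𝒪 A]

/-- The matrices attached to a point of `Lam`. -/
def matOf (f : Lam 𝒪 →ₐ[𝒪] A) (σ : GQ) : Matrix (Fin 2) (Fin 2) A :=
  Matrix.of fun i j => f (MvPolynomial.X (σ, i, j))

/-- The point of `Lam` attached to a family of matrices. -/
def evalHom (m : GQ → Matrix (Fin 2) (Fin 2) A) : Lam 𝒪 →ₐ[𝒪] A :=
  MvPolynomial.aeval fun t : GQ × Fin 2 × Fin 2 => m t.1 t.2.1 t.2.2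

@[simp] lemma matOf_apply (f : Lam 𝒪 →ₐ[𝒪] A) (σ : GQ) (i j : Fin 2) :
    matOf f σ i j = f (MvPolynomial.X (σ, i, j)) := rfl

@[simp] lemma evalHom_X (m : GQ → Matrix (Fin 2) (Fin 2) A) (σ : GQ) (i j : Fin 2) :
    evalHom (𝒪 := 𝒪) m (MvPolynomial.X (σ, i, j)) = m σ i j := by
  rw [evalHom, MvPolynomial.aeval_X]

@[simp] lemma matOf_evalHom (m : GQ → Matrix (Fin 2) (Fin 2) A) (σ : GQ) :
    matOf (evalHom (𝒪 := 𝒪) m) σ = m σ := by
  ext i j
  rw [matOf_apply, evalHom_X]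

lemma algHom_ext_matOf {f g : Lam 𝒪 →ₐ[𝒪] A} (h : ∀ σ, matOf f σ = matOf g σ) : f = g := by
  apply MvPolynomial.algHom_ext
  rintro ⟨σ, i, j⟩
  have := congrFun (congrFun (h σ) i) j
  rwa [matOf_apply, matOf_apply] at this

@[simp] lemma evalHom_matOf (f : Lam 𝒪 →ₐ[𝒪] A) : evalHom (matOf f) = f :=
  algHom_ext_matOf fun σ => matOf_evalHom _ σ

lemma matOf_comp {B : Type} [CommRing B] [Algebra 𝒪 B] (φ : A →ₐ[𝒪] B) (f : Lam 𝒪 →ₐ[𝒪] A)
    (σ : GQ) : matOf (φ.comp f) σ = (matOf f σ).map φ := by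
  ext i j
  rw [matOf_apply, Matrix.map_apply, matOf_apply, AlgHom.comp_apply]

lemma evalHom_comp {B : Type} [CommRing B] [Algebra 𝒪 B] (φ : A →ₐ[𝒪] B)
    (m : GQ → Matrix (Fin 2) (Fin 2) A) :
    φ.comp (evalHom (𝒪 := 𝒪) m) = evalHom fun σ => (m σ).map φ :=
  algHom_ext_matOf fun σ => by rw [matOf_comp, matOf_evalHom, matOf_evalHom]

end coordinateRing

section good

variable {𝒪 : Type} [CommRing 𝒪] [IsLocalRing 𝒪] (S : SliceData 𝒪)
  (𝒟 : ∀ ⦃A : Type⦄ [CommRing A] [IsLocalRing A] [Algebra 𝒪 A], GaloisRepAdic A → Prop)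

/-- A point of `Lam` is good if its matrices form a slice point. -/
def good {A : Type} [CommRing A] [IsLocalRing A] [Algebra 𝒪 A] (f : Lam 𝒪 →ₐ[𝒪] A) : Prop :=
  ∃ (_ : IsLocalHom (algebraMap 𝒪 A)) (r : FramedRep A),
    (∀ σ, r σ = matOf f σ) ∧ IsSlicePoint S 𝒟 r

lemma good_iff {A : Type} [CommRing A] [IsLocalRing A] [Algebra 𝒪 A]
    [IsLocalHom (algebraMap 𝒪 A)] (f : Lam 𝒪 →ₐ[𝒪] A) :
    good S 𝒟 f ↔ ∃ r : FramedRep A, (∀ σ, r σ = matOf f σ) ∧ IsSlicePoint S 𝒟 r :=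
  ⟨fun ⟨_, r, h1, h2⟩ => ⟨r, h1, h2⟩, fun ⟨r, h1, h2⟩ => ⟨inferInstance, r, h1, h2⟩⟩

lemma good_evalHom {A : Type} [CommRing A] [IsLocalRing A] [Algebra 𝒪 A]
    [IsLocalHom (algebraMap 𝒪 A)] {r : FramedRep A} (hr : IsSlicePoint S 𝒟 r) :
    good S 𝒟 (evalHom (𝒪 := 𝒪) fun σ => r σ) :=
  ⟨inferInstance, r, fun σ => (matOf_evalHom _ σ).symm, hr⟩

end good

end

end Fermat.Agent.S53
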