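import Mathlib
import Fermat.Prelude.Def_GaloisRep_DeformationCondition
import Fermat.Agent.S53.Slice
import Fermat.Agent.S53.Tangent

set_option autoImplicit false

namespace Fermat.Agent.S53

noncomputable section

open IsLocalRing

section framedTransfer

variable {A B : Type} [CommRing A] [IsLocalRing A] [CommRing B] [IsLocalRing B]

/-- Over a local ring with nilpotent maximal ideal, a framed representation is trivial on a
finite level. -/
lemma FramedRep.exists_level_eq_one (r : FramedRep A) {N : ℕ} (hN : maximalIdeal A ^ N = ⊥) :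
    ∃ L : IntermediateField ℚ (AlgebraicClosure ℚ), FiniteDimensional ℚ L ∧
      ∀ σ : GQ, (∀ x ∈ L, σ x = x) → r σ = 1 := by
  obtain ⟨L, hL, h⟩ := r.cont N
  refine ⟨L, hL, fun σ hσ => ?_⟩
  have h1 : r.toMonoidHom σ - 1 = 0 := by
    ext i j
    have := h σ hσ i j
    rwa [hN, Ideal.mem_bot] at this
  exact sub_eq_zero.mp h1

/-- A family of matrices trivial on a finite level and multiplicative is a framed representation. -/
def FramedRep.ofLevel (m : GQ → Matrix (Fin 2) (Fin 2) A) (h1 : m 1 = 1)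
    (hmul : ∀ σ τ, m (σ * τ) = m σ * m τ)
    (hL : ∃ L : IntermediateField ℚ (AlgebraicClosure ℚ), FiniteDimensional ℚ L ∧
      ∀ σ : GQ, (∀ x ∈ L, σ x = x) → m σ = 1) : FramedRep A where
  toMonoidHom := { toFun := m, map_one' := h1, map_mul' := hmul }
  cont := by
    intro n
    obtain ⟨L, hLfin, h⟩ := hL
    refine ⟨L, hLfin, fun σ hσ i j => ?_⟩
    show (m σ - 1) i j ∈ _
    rw [h σ hσ, sub_self]
    exact Ideal.zero_mem _

@[simp] lemma FramedRep.ofLevel_apply (m : GQ → Matrix (Fin 2) (Fin 2) A) (h1 : m 1 = 1)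
    (hmul : ∀ σ τ, m (σ * τ) = m σ * m τ)
    (hL : ∃ L : IntermediateField ℚ (AlgebraicClosure ℚ), FiniteDimensional ℚ L ∧
      ∀ σ : GQ, (∀ x ∈ L, σ x = x) → m σ = 1) (σ : GQ) :
    FramedRep.ofLevel m h1 hmul hL σ = m σ := rfl

/-- Descent of a framed representation along an injective ring homomorphism into an Artinian
local ring. -/
theorem exists_framedRep_of_map_injective [IsArtinianRing B] (φ : A →+* B)
    (hinj : Function.Injective φ) (m : GQ → Matrix (Fin 2) (Fin 2) A) (rB : FramedRep B)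
    (h : ∀ σ, (m σ).map φ = rB σ) : ∃ rA : FramedRep A, ∀ σ, rA σ = m σ := by
  have hminj : Function.Injective (fun M : Matrix (Fin 2) (Fin 2) A => M.map φ) :=
    Matrix.map_injective hinj
  obtain ⟨N, hN⟩ := exists_maximalIdeal_pow_eq_bot (A := B)
  obtain ⟨L, hL, hL1⟩ := rB.exists_level_eq_one hN
  refine ⟨FramedRep.ofLevel m ?_ ?_ ⟨L, hL, fun σ hσ => ?_⟩, fun σ => rfl⟩
  · apply hminj
    show (m 1).map φ = (1 : Matrix (Fin 2) (Fin 2) A).map φ
    rw [h 1, rB.map_one, Matrix.map_one _ (map_zero φ) (map_one φ)]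
  · intro σ τ
    apply hminj
    show (m (σ * τ)).map φ = (m σ * m τ).map φ
    rw [Matrix.map_mul, h, h, h, rB.map_mul]
  · apply hminj
    show (m σ).map φ = (1 : Matrix (Fin 2) (Fin 2) A).map φ
    rw [h σ, hL1 σ hσ, Matrix.map_one _ (map_zero φ) (map_one φ)]

/-- Gluing of framed representations along a jointly injective pair of homomorphisms into
Artinian local rings. -/
theorem exists_framedRep_of_jointly_injective {P : Type} [CommRing P] [IsLocalRing P]
    [IsArtinianRing A] [IsArtinianRing B] (pA : P →+* A) (pB : P →+* B)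
    (hinj : Function.Injective fun x => (pA x, pB x)) (m : GQ → Matrix (Fin 2) (Fin 2) P)
    (rA : FramedRep A) (rB : FramedRep B) (hA : ∀ σ, (m σ).map pA = rA σ)
    (hB : ∀ σ, (m σ).map pB = rB σ) : ∃ rP : FramedRep P, ∀ σ, rP σ = m σ := by
  have hminj : ∀ M M' : Matrix (Fin 2) (Fin 2) P, M.map pA = M'.map pA → M.map pB = M'.map pB →
      M = M' := by
    intro M M' h1 h2
    ext i j
    apply hinj
    have e1 := congrFun (congrFun h1 i) j
    have e2 := congrFun (congrFun h2 i) j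
    simp only [Matrix.map_apply] at e1 e2
    exact Prod.ext e1 e2
  obtain ⟨NA, hNA⟩ := exists_maximalIdeal_pow_eq_bot (A := A)
  obtain ⟨NB, hNB⟩ := exists_maximalIdeal_pow_eq_bot (A := B)
  obtain ⟨LA, hLA, hLA1⟩ := rA.exists_level_eq_one hNA
  obtain ⟨LB, hLB, hLB1⟩ := rB.exists_level_eq_one hNB
  have := hLA
  have := hLB
  refine ⟨FramedRep.ofLevel m ?_ ?_ ⟨LA ⊔ LB, IntermediateField.finiteDimensional_sup LA LB,
    fun σ hσ => ?_⟩, fun σ => rfl⟩
  · apply hminj
    · rw [hA 1, rA.map_one, Matrix.map_one _ (map_zero pA) (map_one pA)]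
    · rw [hB 1, rB.map_one, Matrix.map_one _ (map_zero pB) (map_one pB)]
  · intro σ τ
    apply hminj
    · rw [Matrix.map_mul, hA, hA, hA, rA.map_mul]
    · rw [Matrix.map_mul, hB, hB, hB, rB.map_mul]
  · have hσA : ∀ x ∈ LA, σ x = x := fun x hx => hσ x ((le_sup_left : LA ≤ LA ⊔ LB) hx)
    have hσB : ∀ x ∈ LB, σ x = x := fun x hx => hσ x ((le_sup_right : LB ≤ LA ⊔ LB) hx)
    apply hminj
    · rw [hA σ, hLA1 σ hσA, Matrix.map_one _ (map_zero pA) (map_one pA)]
    · rw [hB σ, hLB1 σ hσB, Matrix.map_one _ (map_zero pB) (map_one pB)]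

end framedTransfer

section residueMaps

variable {𝒪 : Type} [CommRing 𝒪] [IsLocalRing 𝒪]
  {A B : Type} [CommRing A] [IsLocalRing A] [Algebra 𝒪 A] [IsLocalHom (algebraMap 𝒪 A)]
  [CommRing B] [IsLocalRing B] [Algebra 𝒪 B] [IsLocalHom (algebraMap 𝒪 B)]

/-- Compatibility of the residue field maps with an `𝒪`-algebra homomorphism. -/
lemma residueFieldMap_algHom (φ : A →ₐ[𝒪] B) [IsLocalHom (φ : A →+* B)]
    (x : ResidueField 𝒪) :
    ResidueField.map (φ : A →+* B) (ResidueField.map (algebraMap 𝒪 A) x) =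
      ResidueField.map (algebraMap 𝒪 B) x := by
  obtain ⟨o, rfl⟩ := residue_surjective x
  rw [ResidueField.map_residue, ResidueField.map_residue, ResidueField.map_residue]
  congr 1
  exact φ.commutes o

end residueMaps

section slicePointFunctoriality

variable {𝒪 : Type} [CommRing 𝒪] [IsLocalRing 𝒪] (S : SliceData 𝒪)
  (𝒟 : ∀ ⦃A : Type⦄ [CommRing A] [IsLocalRing A] [Algebra 𝒪 A], GaloisRepAdic A → Prop)
  {A B : Type} [CommRing A] [IsLocalRing A] [Algebra 𝒪 A] [IsLocalHom (algebraMap 𝒪 A)]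
  [CommRing B] [IsLocalRing B] [Algebra 𝒪 B] [IsLocalHom (algebraMap 𝒪 B)]

/-- The lift condition is preserved by `𝒪`-algebra homomorphisms. -/
lemma FramedRep.IsLiftOf.map_algHom (φ : A →ₐ[𝒪] B) (hφ : IsLocalHom (φ : A →+* B))
    {r : FramedRep A} (h : r.IsLiftOf S.rb (ResidueField.map (algebraMap 𝒪 A))) :
    (r.map (φ : A →+* B) hφ).IsLiftOf S.rb (ResidueField.map (algebraMap 𝒪 B)) := by
  have := hφ
  intro σ
  ext i j
  have h1 := congrFun (congrFun (h σ) i) j
  simp only [Matrix.map_apply] at h1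
  simp only [Matrix.map_apply, FramedRep.map_apply]
  rw [← ResidueField.map_residue, h1, residueFieldMap_algHom]

/-- The lift condition descends along `𝒪`-algebra homomorphisms. -/
lemma FramedRep.IsLiftOf.of_map_algHom (φ : A →ₐ[𝒪] B) (hφ : IsLocalHom (φ : A →+* B))
    {r : FramedRep A}
    (h : (r.map (φ : A →+* B) hφ).IsLiftOf S.rb (ResidueField.map (algebraMap 𝒪 B))) :
    r.IsLiftOf S.rb (ResidueField.map (algebraMap 𝒪 A)) := by
  have := hφ
  intro σ
  ext i j
  have h1 := congrFun (congrFun (h σ) i) j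
  simp only [Matrix.map_apply, FramedRep.map_apply] at h1
  simp only [Matrix.map_apply]
  apply (ResidueField.map (φ : A →+* B)).injective
  rw [ResidueField.map_residue, h1, residueFieldMap_algHom]

/-- Slice points push forward along `𝒪`-algebra homomorphisms of Artinian test algebras. -/
theorem IsSlicePoint.map (h𝒟 : GaloisRep.IsDeformationCondition 𝒪 𝒟)
    (hA : GaloisRep.IsArtinianTestAlgebra 𝒪 A) (hB : GaloisRep.IsArtinianTestAlgebra 𝒪 B)
    (φ : A →ₐ[𝒪] B) (hφ : IsLocalHom (φ : A →+* B)) {r : FramedRep A}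
    (hr : IsSlicePoint S 𝒟 r) : IsSlicePoint S 𝒟 (r.map (φ : A →+* B) hφ) := by
  refine ⟨hr.lift.map_algHom S φ hφ, ⟨?_, ?_, ?_⟩,
    h𝒟.of_isEquiv hB (r.baseChangeAlong_isEquiv (φ : A →+* B) hφ)
      (h𝒟.baseChangeAlong hA hB φ hφ hr.type)⟩
  · show (φ : A →+* B) (r.toMonoidHom S.g0 0 0) = 0
    rw [hr.normalized.col0, map_zero]
  · show (φ : A →+* B) (r.toMonoidHom S.g0 1 0) = 1
    rw [hr.normalized.col1, map_one]
  · show (φ : A →+* B) (r.toMonoidHom S.g1 S.i S.j) = algebraMap 𝒪 B S.c0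
    rw [hr.normalized.entry]
    exact φ.commutes S.c0

/-- Slice points descend along injective `𝒪`-algebra homomorphisms of Artinian test algebras. -/
theorem IsSlicePoint.of_map_injective (h𝒟 : GaloisRep.IsDeformationCondition 𝒪 𝒟)
    (hA : GaloisRep.IsArtinianTestAlgebra 𝒪 A) (hB : GaloisRep.IsArtinianTestAlgebra 𝒪 B)
    (φ : A →ₐ[𝒪] B) (hφ : IsLocalHom (φ : A →+* B)) (hinj : Function.Injective φ)
    {r : FramedRep A} (hr : IsSlicePoint S 𝒟 (r.map (φ : A →+* B) hφ)) :
    IsSlicePoint S 𝒟 r := by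
  have hinj' : Function.Injective (φ : A →+* B) := hinj
  refine ⟨hr.lift.of_map_algHom S φ hφ, ⟨?_, ?_, ?_⟩, ?_⟩
  · apply hinj'
    have := hr.normalized.col0
    rw [map_zero]
    exact this
  · apply hinj'
    have := hr.normalized.col1
    rw [map_one]
    exact this
  · apply hinj'
    have := hr.normalized.entry
    rw [show (φ : A →+* B) (algebraMap 𝒪 A S.c0) = algebraMap 𝒪 B S.c0 from φ.commutes S.c0]
    exact this
  · obtain ⟨e⟩ := r.baseChangeAlong_isEquiv (φ : A →+* B) hφ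
    exact h𝒟.of_baseChangeAlong_injective hA hB φ hφ hinj
      (h𝒟.of_isEquiv hB ⟨e.symm⟩ hr.type)

end slicePointFunctoriality

section fibreProduct

variable {𝒪 : Type} [CommRing 𝒪] [IsLocalRing 𝒪] (S : SliceData 𝒪)
  (𝒟 : ∀ ⦃A : Type⦄ [CommRing A] [IsLocalRing A] [Algebra 𝒪 A], GaloisRepAdic A → Prop)
  {A B C P : Type} [CommRing A] [IsLocalRing A] [Algebra 𝒪 A] [IsLocalHom (algebraMap 𝒪 A)]
  [CommRing B] [IsLocalRing B] [Algebra 𝒪 B] [IsLocalHom (algebraMap 𝒪 B)]
  [CommRing C] [IsLocalRing C] [Algebra 𝒪 C]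
  [CommRing P] [IsLocalRing P] [Algebra 𝒪 P] [IsLocalHom (algebraMap 𝒪 P)]

/-- Slice points glue over fibre products of Artinian test algebras. -/
theorem IsSlicePoint.of_fibreProduct (h𝒟 : GaloisRep.IsDeformationCondition 𝒪 𝒟)
    (hA : GaloisRep.IsArtinianTestAlgebra 𝒪 A) (hB : GaloisRep.IsArtinianTestAlgebra 𝒪 B)
    (hC : GaloisRep.IsArtinianTestAlgebra 𝒪 C) (hP : GaloisRep.IsArtinianTestAlgebra 𝒪 P)
    (f : A →ₐ[𝒪] C) (g : B →ₐ[𝒪] C) (pA : P →ₐ[𝒪] A) (pB : P →ₐ[𝒪] B)
    (hpA : IsLocalHom (pA : P →+* A)) (hpB : IsLocalHom (pB : P →+* B))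
    (hfg : f.comp pA = g.comp pB) (hinj : Function.Injective fun x => (pA x, pB x))
    (hsurj : ∀ a b, f a = g b → ∃ x, pA x = a ∧ pB x = b) {r : FramedRep P}
    (hrA : IsSlicePoint S 𝒟 (r.map (pA : P →+* A) hpA))
    (hrB : IsSlicePoint S 𝒟 (r.map (pB : P →+* B) hpB)) : IsSlicePoint S 𝒟 r := by
  have hzero : ∀ x : P, pA x = 0 → pB x = 0 → x = 0 := by
    intro x h1 h2
    apply hinj
    show (pA x, pB x) = (pA 0, pB 0)
    rw [h1, h2, map_zero, map_zero]
  have heq : ∀ x y : P, pA x = pA y → pB x = pB y → x = y := by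
    intro x y h1 h2
    exact hinj (Prod.ext h1 h2)
  refine ⟨hrA.lift.of_map_algHom S pA hpA, ⟨?_, ?_, ?_⟩, ?_⟩
  · exact hzero _ hrA.normalized.col0 hrB.normalized.col0
  · apply heq
    · rw [map_one]; exact hrA.normalized.col1
    · rw [map_one]; exact hrB.normalized.col1
  · apply heq
    · rw [pA.commutes]; exact hrA.normalized.entry
    · rw [pB.commutes]; exact hrB.normalized.entry
  · obtain ⟨eA⟩ := r.baseChangeAlong_isEquiv (pA : P →+* A) hpA
    obtain ⟨eB⟩ := r.baseChangeAlong_isEquiv (pB : P →+* B) hpB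
    exact h𝒟.of_fibreProduct hA hB hC hP f g pA pB hpA hpB hfg hinj hsurj
      (h𝒟.of_isEquiv hA ⟨eA.symm⟩ hrA.type) (h𝒟.of_isEquiv hB ⟨eB.symm⟩ hrB.type)

end fibreProduct

section goodProps

variable {𝒪 : Type} [CommRing 𝒪] [IsLocalRing 𝒪] (S : SliceData 𝒪)
  (𝒟 : ∀ ⦃A : Type⦄ [CommRing A] [IsLocalRing A] [Algebra 𝒪 A], GaloisRepAdic A → Prop)

/-- Good points are stable under composition with `𝒪`-algebra homomorphisms of test algebras. -/
theorem good_comp (h𝒟 : GaloisRep.IsDeformationCondition 𝒪 𝒟)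
    {A B : Type} [CommRing A] [IsLocalRing A] [Algebra 𝒪 A]
    [CommRing B] [IsLocalRing B] [Algebra 𝒪 B]
    (hA : GaloisRep.IsArtinianTestAlgebra 𝒪 A) (hB : GaloisRep.IsArtinianTestAlgebra 𝒪 B)
    (φ : A →ₐ[𝒪] B) {f : Lam 𝒪 →ₐ[𝒪] A} (hf : good S 𝒟 f) : good S 𝒟 (φ.comp f) := by
  obtain ⟨hl, r, hr1, hr2⟩ := hf
  have := hA.isArtinian
  have hφ : IsLocalHom (φ : A →+* B) := isLocalHom_of_isArtinianRing _
  have := hB.isLocalHom
  refine ⟨hB.isLocalHom, r.map (φ : A →+* B) hφ, fun σ => ?_, hr2.map S 𝒟 h𝒟 hA hB φ hφ⟩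
  rw [matOf_comp, FramedRep.map_apply, hr1 σ]
  rfl

/-- Good points descend along injective `𝒪`-algebra homomorphisms of test algebras. -/
theorem good_of_comp_injective (h𝒟 : GaloisRep.IsDeformationCondition 𝒪 𝒟)
    {A B : Type} [CommRing A] [IsLocalRing A] [Algebra 𝒪 A]
    [CommRing B] [IsLocalRing B] [Algebra 𝒪 B]
    (hA : GaloisRep.IsArtinianTestAlgebra 𝒪 A) (hB : GaloisRep.IsArtinianTestAlgebra 𝒪 B)
    (φ : A →ₐ[𝒪] B) (hinj : Function.Injective φ) {f : Lam 𝒪 →ₐ[𝒪] A}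
    (hf : good S 𝒟 (φ.comp f)) : good S 𝒟 f := by
  obtain ⟨hl, rB, hr1, hr2⟩ := hf
  have := hA.isArtinian
  have := hB.isArtinian
  have hφ : IsLocalHom (φ : A →+* B) := isLocalHom_of_isArtinianRing _
  have := hA.isLocalHom
  obtain ⟨rA, hrA⟩ := exists_framedRep_of_map_injective (φ : A →+* B) hinj (matOf f) rB
    (fun σ => by rw [hr1 σ, matOf_comp]; rfl)
  have hmap : rA.map (φ : A →+* B) hφ = rB := by
    apply FramedRep.ext
    intro σ
    rw [FramedRep.map_apply, hrA σ, hr1 σ, matOf_comp]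
    rfl
  refine ⟨hA.isLocalHom, rA, hrA, ?_⟩
  apply IsSlicePoint.of_map_injective S 𝒟 h𝒟 hA hB φ hφ hinj
  rw [hmap]
  exact hr2

/-- Good points glue over fibre products of test algebras. -/
theorem good_of_fibreProduct (h𝒟 : GaloisRep.IsDeformationCondition 𝒪 𝒟)
    {A B C P : Type} [CommRing A] [IsLocalRing A] [Algebra 𝒪 A]
    [CommRing B] [IsLocalRing B] [Algebra 𝒪 B] [CommRing C] [IsLocalRing C] [Algebra 𝒪 C]
    [CommRing P] [IsLocalRing P] [Algebra 𝒪 P]
    (hA : GaloisRep.IsArtinianTestAlgebra 𝒪 A) (hB : GaloisRep.IsArtinianTestAlgebra 𝒪 B)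
    (hC : GaloisRep.IsArtinianTestAlgebra 𝒪 C) (hP : GaloisRep.IsArtinianTestAlgebra 𝒪 P)
    (f : A →ₐ[𝒪] C) (g : B →ₐ[𝒪] C) (pA : P →ₐ[𝒪] A) (pB : P →ₐ[𝒪] B)
    (hfg : f.comp pA = g.comp pB) (hinj : Function.Injective fun x => (pA x, pB x))
    (hsurj : ∀ a b, f a = g b → ∃ x, pA x = a ∧ pB x = b) {x : Lam 𝒪 →ₐ[𝒪] P}
    (hxA : good S 𝒟 (pA.comp x)) (hxB : good S 𝒟 (pB.comp x)) : good S 𝒟 x := by
  obtain ⟨hlA, rA, hrA1, hrA2⟩ := hxA
  obtain ⟨hlB, rB, hrB1, hrB2⟩ := hxB
  have := hA.isArtinian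
  have := hB.isArtinian
  have := hP.isArtinian
  have hpA : IsLocalHom (pA : P →+* A) := isLocalHom_of_isArtinianRing _
  have hpB : IsLocalHom (pB : P →+* B) := isLocalHom_of_isArtinianRing _
  have := hP.isLocalHom
  obtain ⟨rP, hrP⟩ := exists_framedRep_of_jointly_injective (pA : P →+* A) (pB : P →+* B) hinj
    (matOf x) rA rB (fun σ => by rw [hrA1 σ, matOf_comp]; rfl)
    (fun σ => by rw [hrB1 σ, matOf_comp]; rfl)
  have hmapA : rP.map (pA : P →+* A) hpA = rA := by
    apply FramedRep.ext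
    intro σ
    rw [FramedRep.map_apply, hrP σ, hrA1 σ, matOf_comp]
    rfl
  have hmapB : rP.map (pB : P →+* B) hpB = rB := by
    apply FramedRep.ext
    intro σ
    rw [FramedRep.map_apply, hrP σ, hrB1 σ, matOf_comp]
    rfl
  refine ⟨hP.isLocalHom, rP, hrP, ?_⟩
  apply IsSlicePoint.of_fibreProduct S 𝒟 h𝒟 hA hB hC hP f g pA pB hpA hpB hfg hinj hsurj
  · rw [hmapA]; exact hrA2
  · rw [hmapB]; exact hrB2

end goodProps

section basePoint

variable {𝒪 : Type} [CommRing 𝒪] [IsLocalRing 𝒪]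

/-- The structure map to the residue field is a local homomorphism. -/
lemma isLocalHom_algebraMap_residueField : IsLocalHom (algebraMap 𝒪 (ResidueField 𝒪)) := by
  rw [ResidueField.algebraMap_eq]
  infer_instance

/-- The residue field is an Artinian test algebra. -/
lemma isArtinianTestAlgebra_residueField :
    GaloisRep.IsArtinianTestAlgebra 𝒪 (ResidueField 𝒪) where
  isLocalHom := isLocalHom_algebraMap_residueField
  residue_surjective := by
    rw [ResidueField.algebraMap_eq]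
    exact residue_surjective.comp residue_surjective
  isArtinian := inferInstance

/-- A framed residual representation, regarded as a framed representation over the field. -/
def FramedResidual.toFramedRep {k : Type} [Field k] (rb : FramedResidual k) : FramedRep k :=
  FramedRep.ofLevel (fun σ => rb σ) rb.map_one rb.map_mul rb.finiteLevel

@[simp] lemma FramedResidual.toFramedRep_apply {k : Type} [Field k] (rb : FramedResidual k)
    (σ : GQ) : rb.toFramedRep σ = rb σ := rfl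

/-- The framed representation of a framing of `ρbar` is equivalent to `ρbar` regarded as a
`GaloisRepAdic`. -/
lemma FramedResidual.toFramedRep_isEquiv {k : Type} [Field k] {ρbar : ResidualGaloisRep k}
    {rb : FramedResidual k} (hrb : ρbar.IsEquiv rb.toResidualGaloisRep) :
    (GaloisRepAdic.ofResidualGaloisRep ρbar).IsEquiv rb.toFramedRep.toGaloisRepAdic := by
  obtain ⟨e⟩ := hrb
  exact ⟨{ toLinearEquiv := e.toLinearEquiv, map_apply := fun σ x => e.map_apply σ x }⟩

variable (S : SliceData 𝒪)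
  (𝒟 : ∀ ⦃A : Type⦄ [CommRing A] [IsLocalRing A] [Algebra 𝒪 A], GaloisRepAdic A → Prop)

/-- The residue field map of the residue field is the residue map. -/
lemma residueFieldMap_residueField
    [IsLocalHom (algebraMap 𝒪 (ResidueField 𝒪))] (x : ResidueField 𝒪) :
    ResidueField.map (algebraMap 𝒪 (ResidueField 𝒪)) x = residue (ResidueField 𝒪) x := by
  obtain ⟨o, rfl⟩ := residue_surjective x
  rw [ResidueField.map_residue, ResidueField.algebraMap_eq]

/-- The base point: the framing of the slice datum is a slice point over the residue field. -/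
theorem isSlicePoint_base (h𝒟 : GaloisRep.IsDeformationCondition 𝒪 𝒟)
    [IsLocalHom (algebraMap 𝒪 (ResidueField 𝒪))]
    {ρbar : ResidualGaloisRep (ResidueField 𝒪)} (hrb : ρbar.IsEquiv S.rb.toResidualGaloisRep)
    (hbar : 𝒟 (GaloisRepAdic.ofResidualGaloisRep ρbar)) :
    IsSlicePoint S 𝒟 S.rb.toFramedRep := by
  refine ⟨fun σ => ?_, ⟨S.hN0, S.hN1, ?_⟩,
    h𝒟.of_isEquiv isArtinianTestAlgebra_residueField
      (FramedResidual.toFramedRep_isEquiv hrb) hbar⟩
  · ext i j
    simp only [Matrix.map_apply, FramedResidual.toFramedRep_apply]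
    rw [residueFieldMap_residueField]
  · show S.rb S.g1 S.i S.j = algebraMap 𝒪 (ResidueField 𝒪) S.c0
    rw [ResidueField.algebraMap_eq, S.hc0]

/-- Every slice point over the residue field is the base point. -/
theorem IsSlicePoint.eq_base [IsLocalHom (algebraMap 𝒪 (ResidueField 𝒪))]
    {r : FramedRep (ResidueField 𝒪)} (hr : IsSlicePoint S 𝒟 r) : r = S.rb.toFramedRep := by
  apply FramedRep.ext
  intro σ
  ext i j
  have h1 := congrFun (congrFun (hr.lift σ) i) j
  simp only [Matrix.map_apply] at h1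
  rw [residueFieldMap_residueField] at h1
  exact (residue (ResidueField 𝒪)).injective h1

/-- The base point of `Lam`. -/
def basePoint : Lam 𝒪 →ₐ[𝒪] ResidueField 𝒪 := evalHom fun σ => S.rb σ

theorem good_basePoint (h𝒟 : GaloisRep.IsDeformationCondition 𝒪 𝒟)
    {ρbar : ResidualGaloisRep (ResidueField 𝒪)} (hrb : ρbar.IsEquiv S.rb.toResidualGaloisRep)
    (hbar : 𝒟 (GaloisRepAdic.ofResidualGaloisRep ρbar)) : good S 𝒟 (basePoint S) := by
  have : IsLocalHom (algebraMap 𝒪 (ResidueField 𝒪)) := isLocalHom_algebraMap_residueField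
  exact ⟨isLocalHom_algebraMap_residueField, S.rb.toFramedRep,
    fun σ => (matOf_evalHom _ σ).symm, isSlicePoint_base S 𝒟 h𝒟 hrb hbar⟩

theorem eq_basePoint_of_good {f : Lam 𝒪 →ₐ[𝒪] ResidueField 𝒪} (hf : good S 𝒟 f) :
    f = basePoint S := by
  obtain ⟨hl, r, hr1, hr2⟩ := hf
  have := hl
  apply algHom_ext_matOf
  intro σ
  rw [← hr1 σ, hr2.eq_base S 𝒟]
  exact (matOf_evalHom _ σ).symm

end basePoint

end

end Fermat.Agent.S53
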