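import Mathlib
import Fermat.Prelude.Def_GaloisRep_Adic
import Fermat.Agent.S53.Burnside

set_option autoImplicit false
set_option linter.style.haveILetI false

namespace Fermat.Agent.S53

open scoped TensorProduct

section BaseChangeSpan

variable {k k' : Type} [Field k] [Field k'] [Algebra k k'] {V : Type} [AddCommGroup V]
  [Module k V] [Module.Finite k V]

theorem span_range_baseChange_eq_top :
    Submodule.span k' (Set.range (fun f : Module.End k V => f.baseChange k')) =
      (⊤ : Submodule k' (Module.End k' (k' ⊗[k] V))) := by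
  classical
  let b := Module.Free.chooseBasis k V
  let b' := Algebra.TensorProduct.basis k' b
  rw [eq_top_iff]
  intro g _
  have hg : g = Matrix.toLin b' b' (LinearMap.toMatrix b' b' g) :=
    (Matrix.toLin_toMatrix b' b' g).symm
  rw [hg, Matrix.matrix_eq_sum_single (LinearMap.toMatrix b' b' g), map_sum]
  refine Submodule.sum_mem _ fun i _ => ?_
  rw [map_sum]
  refine Submodule.sum_mem _ fun j _ => ?_
  have h1 : Matrix.single i j (LinearMap.toMatrix b' b' g i j) =
      (LinearMap.toMatrix b' b' g i j) • Matrix.single i j (1 : k') := by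
    rw [Matrix.smul_single, smul_eq_mul, mul_one]
  rw [h1, map_smul]
  refine Submodule.smul_mem _ _ (Submodule.subset_span ⟨Matrix.toLin b b (Matrix.single i j 1), ?_⟩)
  apply (LinearMap.toMatrix b' b').injective
  have h2 := LinearMap.toMatrix_baseChange k' (Matrix.toLin b b (Matrix.single i j (1 : k))) b b
  rw [LinearMap.toMatrix_toLin] at h2
  rw [LinearMap.toMatrix_toLin]
  refine h2.trans ?_
  ext a c
  simp [Matrix.single_apply, apply_ite]

end BaseChangeSpan

section Residual

variable {k : Type} [Field k]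

theorem residual_span_eq_top_of_equiv {ρ₁ ρ₂ : ResidualGaloisRep k}
    (e : ResidualGaloisRep.Equiv ρ₁ ρ₂)
    (h : Submodule.span k (Set.range ρ₁.ρ) = (⊤ : Submodule k (Module.End k ρ₁.V))) :
    Submodule.span k (Set.range ρ₂.ρ) = (⊤ : Submodule k (Module.End k ρ₂.V)) := by
  have hconj : ∀ σ, e.toLinearEquiv.conj (ρ₁.ρ σ) = ρ₂.ρ σ := by
    intro σ
    ext x
    rw [LinearEquiv.conj_apply, LinearMap.comp_apply, LinearMap.comp_apply, LinearEquiv.coe_coe,
      LinearEquiv.coe_coe, e.map_apply, LinearEquiv.apply_symm_apply]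
  have hrange : Set.range ρ₂.ρ = e.toLinearEquiv.conj '' Set.range ρ₁.ρ := by
    ext f
    constructor
    · rintro ⟨σ, rfl⟩
      exact ⟨ρ₁.ρ σ, ⟨σ, rfl⟩, hconj σ⟩
    · rintro ⟨_, ⟨σ, rfl⟩, rfl⟩
      exact ⟨σ, (hconj σ).symm⟩
  rw [hrange, ← LinearEquiv.coe_coe, ← Submodule.map_span, h, Submodule.map_top,
    LinearEquiv.range]

theorem residual_span_eq_top_baseChangeAlong {k' : Type} [Field k'] (ι : k →+* k')
    (ρ : ResidualGaloisRep k)
    (h : Submodule.span k (Set.range ρ.ρ) = (⊤ : Submodule k (Module.End k ρ.V))) :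
    Submodule.span k' (Set.range (ρ.baseChangeAlong ι).ρ) =
      (⊤ : Submodule k' (Module.End k' (ρ.baseChangeAlong ι).V)) := by
  letI : Algebra k k' := ι.toAlgebra
  have key : ∀ f : Module.End k ρ.V, f ∈ Submodule.span k (Set.range ρ.ρ) →
      f.baseChange k' ∈ Submodule.span k' (Set.range (ρ.baseChange k').ρ) := by
    intro f hf
    induction hf using Submodule.span_induction with
    | mem f hf =>
      obtain ⟨σ, rfl⟩ := hf
      exact Submodule.subset_span ⟨σ, rfl⟩
    | zero => rw [LinearMap.baseChange_zero]; exact Submodule.zero_mem _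
    | add f g _ _ hf hg => rw [LinearMap.baseChange_add]; exact Submodule.add_mem _ hf hg
    | smul c f _ hf =>
      rw [LinearMap.baseChange_smul, ← algebraMap_smul k']
      exact Submodule.smul_mem _ _ hf
  show Submodule.span k' (Set.range (ρ.baseChange k').ρ) = ⊤
  rw [eq_top_iff, ← span_range_baseChange_eq_top (k := k) (k' := k') (V := ρ.V),
    Submodule.span_le]
  rintro _ ⟨f, rfl⟩
  exact key f (by rw [h]; trivial)

end Residual

section Adic

variable {A : Type} [CommRing A] [IsLocalRing A]

theorem adic_span_range_eq_top_of_residual_span (ρ : GaloisRepAdic A)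
    (hres : Submodule.span (IsLocalRing.ResidueField A) (Set.range ρ.residual.ρ) =
      (⊤ : Submodule (IsLocalRing.ResidueField A)
        (Module.End (IsLocalRing.ResidueField A) ρ.residual.V))) :
    Submodule.span A (Set.range ρ.ρ) = (⊤ : Submodule A (Module.End A ρ.V)) := by
  classical
  have hres : Submodule.span (IsLocalRing.ResidueField A)
      (Set.range fun σ => (ρ.ρ σ).baseChange (IsLocalRing.ResidueField A)) =
      (⊤ : Submodule (IsLocalRing.ResidueField A)
        (Module.End (IsLocalRing.ResidueField A) (IsLocalRing.ResidueField A ⊗[A] ρ.V))) :=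
    hres
  have hfg : (⊤ : Submodule A (Module.End A ρ.V)).FG := Module.Finite.fg_top
  rw [eq_top_iff]
  refine Submodule.le_of_le_smul_of_le_jacobson_bot hfg (IsLocalRing.maximalIdeal_le_jacobson ⊥) ?_
  intro f _
  have hf : (f.baseChange (IsLocalRing.ResidueField A)) ∈
      Submodule.span (IsLocalRing.ResidueField A)
      (Set.range fun σ => (ρ.ρ σ).baseChange (IsLocalRing.ResidueField A)) := by
    rw [hres]; trivial
  have key : ∀ g ∈ Submodule.span (IsLocalRing.ResidueField A)
      (Set.range fun σ => (ρ.ρ σ).baseChange (IsLocalRing.ResidueField A)),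
      ∃ e ∈ Submodule.span A (Set.range ρ.ρ),
        e.baseChange (IsLocalRing.ResidueField A) = g := by
    intro g hg
    induction hg using Submodule.span_induction with
    | mem g hg =>
      obtain ⟨σ, rfl⟩ := hg
      exact ⟨ρ.ρ σ, Submodule.subset_span ⟨σ, rfl⟩, rfl⟩
    | zero => exact ⟨0, Submodule.zero_mem _, LinearMap.baseChange_zero ..⟩
    | add g1 g2 _ _ h1 h2 =>
      obtain ⟨e1, he1, rfl⟩ := h1
      obtain ⟨e2, he2, rfl⟩ := h2
      exact ⟨e1 + e2, Submodule.add_mem _ he1 he2, LinearMap.baseChange_add ..⟩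
    | smul c g _ h1 =>
      obtain ⟨e, he, rfl⟩ := h1
      obtain ⟨a, rfl⟩ := IsLocalRing.residue_surjective c
      refine ⟨a • e, Submodule.smul_mem _ a he, ?_⟩
      rw [LinearMap.baseChange_smul, ← IsLocalRing.ResidueField.algebraMap_eq, algebraMap_smul]
  obtain ⟨e, he, hef⟩ := key _ hf
  have hdecomp : f = e + (f - e) := by abel
  rw [hdecomp]
  refine Submodule.add_mem_sup he (mem_maximalIdeal_smul_top_of_baseChange_eq_zero _ ?_)
  have hsub : (f - e).baseChange (IsLocalRing.ResidueField A) =
      f.baseChange (IsLocalRing.ResidueField A) - e.baseChange (IsLocalRing.ResidueField A) :=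
    LinearMap.baseChange_sub ..
  rw [hsub]
  exact sub_eq_zero_of_eq hef.symm

theorem adic_span_range_eq_top_of_residual_isEquiv {𝒪 : Type} [CommRing 𝒪] [IsLocalRing 𝒪]
    [Algebra 𝒪 A] [IsLocalHom (algebraMap 𝒪 A)]
    (ρbar : ResidualGaloisRep (IsLocalRing.ResidueField 𝒪)) (habs : ρbar.IsAbsolutelyIrreducible)
    (ρ : GaloisRepAdic A)
    (hres : ρ.residual.IsEquiv
      (ρbar.baseChangeAlong (IsLocalRing.ResidueField.map (algebraMap 𝒪 A)))) :
    Submodule.span A (Set.range ρ.ρ) = (⊤ : Submodule A (Module.End A ρ.V)) := by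
  obtain ⟨e⟩ := hres
  apply adic_span_range_eq_top_of_residual_span
  apply residual_span_eq_top_of_equiv e.symm
  apply residual_span_eq_top_baseChangeAlong
  exact residual_span_range_eq_top ρbar habs

end Adic

end Fermat.Agent.S53
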