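import Mathlib

set_option autoImplicit false
set_option linter.unusedSectionVars false

namespace Fermat.Agent.S53

open IsLocalRing

section EntriesIn

variable {A : Type*} [CommRing A] {n : Type*} [Fintype n] [DecidableEq n]

def EntriesIn (I : Ideal A) (M : Matrix n n A) : Prop := ∀ i j, M i j ∈ I

theorem EntriesIn.zero (I : Ideal A) : EntriesIn I (0 : Matrix n n A) := fun _ _ => I.zero_mem

theorem EntriesIn.add {I : Ideal A} {M N : Matrix n n A} (hM : EntriesIn I M)
    (hN : EntriesIn I N) : EntriesIn I (M + N) := fun i j => I.add_mem (hM i j) (hN i j)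

theorem EntriesIn.sub {I : Ideal A} {M N : Matrix n n A} (hM : EntriesIn I M)
    (hN : EntriesIn I N) : EntriesIn I (M - N) := fun i j => I.sub_mem (hM i j) (hN i j)

theorem EntriesIn.neg {I : Ideal A} {M : Matrix n n A} (hM : EntriesIn I M) :
    EntriesIn I (-M) := fun i j => I.neg_mem (hM i j)

theorem EntriesIn.smul {I : Ideal A} {M : Matrix n n A} (a : A) (hM : EntriesIn I M) :
    EntriesIn I (a • M) := fun i j => I.mul_mem_left a (hM i j)

theorem EntriesIn.mul_left {I : Ideal A} {M : Matrix n n A} (X : Matrix n n A)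
    (hM : EntriesIn I M) : EntriesIn I (X * M) := fun i j => by
  rw [Matrix.mul_apply]
  exact I.sum_mem fun k _ => I.mul_mem_left _ (hM k j)

theorem EntriesIn.mul_right {I : Ideal A} {M : Matrix n n A} (X : Matrix n n A)
    (hM : EntriesIn I M) : EntriesIn I (M * X) := fun i j => by
  rw [Matrix.mul_apply]
  exact I.sum_mem fun k _ => I.mul_mem_right _ (hM i k)

theorem EntriesIn.mono {I J : Ideal A} (h : I ≤ J) {M : Matrix n n A} (hM : EntriesIn I M) :
    EntriesIn J M := fun i j => h (hM i j)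

theorem entriesIn_bot_iff {M : Matrix n n A} : EntriesIn (⊥ : Ideal A) M ↔ M = 0 := by
  constructor
  · intro h; ext i j; exact (Submodule.mem_bot A).1 (h i j)
  · rintro rfl; exact EntriesIn.zero _

theorem exists_scalar_sub_entriesIn [Nonempty n] {G : Type*} (r : G → Matrix n n A)
    (hspan : Submodule.span A (Set.range r) = ⊤) (I : Ideal A) (X : Matrix n n A)
    (hX : ∀ g, EntriesIn I (X * r g - r g * X)) : ∃ c : A, EntriesIn I (X - c • 1) := by
  have hall : ∀ Y : Matrix n n A, EntriesIn I (X * Y - Y * X) := by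
    intro Y
    have hY : Y ∈ Submodule.span A (Set.range r) := by rw [hspan]; trivial
    induction hY using Submodule.span_induction with
    | mem Y hY => obtain ⟨g, rfl⟩ := hY; exact hX g
    | zero => simpa using EntriesIn.zero I
    | add Y1 Y2 _ _ h1 h2 =>
      have : X * (Y1 + Y2) - (Y1 + Y2) * X = (X * Y1 - Y1 * X) + (X * Y2 - Y2 * X) := by
        rw [mul_add, add_mul]; abel
      rw [this]; exact h1.add h2
    | smul c Y _ h1 =>
      have : X * (c • Y) - (c • Y) * X = c • (X * Y - Y * X) := by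
        rw [mul_smul_comm, smul_mul_assoc, smul_sub]
      rw [this]; exact h1.smul c
  obtain ⟨i₀⟩ := ‹Nonempty n›
  refine ⟨X i₀ i₀, fun a b => ?_⟩
  by_cases hab : a = b
  · subst hab
    have h := hall (Matrix.single a i₀ 1) a i₀
    simp only [Matrix.sub_apply, Matrix.mul_apply, Matrix.single_apply, Matrix.smul_apply,
      Matrix.one_apply_eq, smul_eq_mul, mul_one] at h ⊢
    simpa [Finset.sum_ite_eq, Finset.sum_ite_eq'] using h
  · have h := hall (Matrix.single b b 1) a b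
    simp only [Matrix.sub_apply, Matrix.mul_apply, Matrix.single_apply, Matrix.smul_apply,
      Matrix.one_apply_ne hab, smul_eq_mul, mul_zero, sub_zero] at h ⊢
    have hba : ¬ b = a := fun h' => hab h'.symm
    simpa [Finset.sum_ite_eq, Finset.sum_ite_eq', hba] using h

end EntriesIn

section Lift

variable {A : Type*} [CommRing A] [IsLocalRing A]
  {n : Type*} [Fintype n] [DecidableEq n]

theorem isUnit_det_of_entriesIn_sub {X Y : Matrix n n A}
    (h : EntriesIn (maximalIdeal A) (X - Y)) (hY : IsUnit Y.det) : IsUnit X.det := by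
  have hmap : (residue A).mapMatrix X = (residue A).mapMatrix Y := by
    ext i j
    simp only [RingHom.mapMatrix_apply, Matrix.map_apply]
    rw [← sub_eq_zero, ← map_sub, residue_eq_zero_iff]
    exact h i j
  rw [← residue_ne_zero_iff_isUnit, RingHom.map_det, hmap, ← RingHom.map_det,
    residue_ne_zero_iff_isUnit]
  exact hY

theorem isUnit_of_entriesIn_sub_smul_one [Nonempty n] {X : Matrix n n A} {c : A}
    (h : EntriesIn (maximalIdeal A) (X - c • 1)) (hX : IsUnit X.det) : IsUnit c := by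
  have hmap : (residue A).mapMatrix X = (residue A).mapMatrix (c • 1) := by
    ext i j
    simp only [RingHom.mapMatrix_apply, Matrix.map_apply]
    rw [← sub_eq_zero, ← map_sub, residue_eq_zero_iff]
    exact h i j
  rw [← residue_ne_zero_iff_isUnit] at hX ⊢
  rw [RingHom.map_det, hmap, ← RingHom.map_det, Matrix.det_smul, Matrix.det_one, mul_one,
    map_pow] at hX
  exact fun h0 => hX (by rw [h0, zero_pow Fintype.card_ne_zero])

variable {G : Type*} (r₁ r₂ : G → Matrix n n A)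

def ConjMod (I : Ideal A) (γ : Matrix n n A) : Prop :=
  IsUnit γ.det ∧ ∀ g, EntriesIn I (γ * r₁ g - r₂ g * γ)

theorem ConjMod.mono {I J : Ideal A} (h : I ≤ J) {γ : Matrix n n A}
    (hγ : ConjMod r₁ r₂ I γ) : ConjMod r₁ r₂ J γ :=
  ⟨hγ.1, fun g => (hγ.2 g).mono h⟩

theorem conjMod_step [Nonempty n] (hspan : Submodule.span A (Set.range r₁) = ⊤)
    {I J : Ideal A} (hJI : J ≤ I) (hI : I ≤ maximalIdeal A)
    {γ γ' : Matrix n n A} (hγ : ConjMod r₁ r₂ I γ) (hγ' : ConjMod r₁ r₂ J γ') :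
    ∃ γ'' : Matrix n n A, ConjMod r₁ r₂ J γ'' ∧ EntriesIn I (γ'' - γ) := by
  obtain ⟨Γ, hΓ1, hΓ2⟩ : ∃ Γ : Matrix n n A, Γ * γ = 1 ∧ γ * Γ = 1 :=
    ⟨γ⁻¹, Matrix.nonsing_inv_mul γ hγ.1, Matrix.mul_nonsing_inv γ hγ.1⟩
  have hX : ∀ g, EntriesIn I ((Γ * γ') * r₁ g - r₁ g * (Γ * γ')) := by
    intro g
    have hid : (Γ * γ') * r₁ g - r₁ g * (Γ * γ') =
        Γ * ((γ' * r₁ g - r₂ g * γ') - (γ * r₁ g - r₂ g * γ) * (Γ * γ')) := by
      have e1 : Γ * ((γ' * r₁ g - r₂ g * γ') - (γ * r₁ g - r₂ g * γ) * (Γ * γ')) =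
          Γ * γ' * r₁ g - Γ * r₂ g * γ' - (Γ * γ) * r₁ g * (Γ * γ') +
            Γ * r₂ g * (γ * Γ) * γ' := by noncomm_ring
      rw [e1, hΓ1, hΓ2]
      noncomm_ring
    rw [hid]
    exact (((hγ'.2 g).mono hJI).sub ((hγ.2 g).mul_right _)).mul_left _
  obtain ⟨c, hc⟩ := exists_scalar_sub_entriesIn r₁ hspan I (Γ * γ') hX
  have hdetX : IsUnit (Γ * γ').det := by
    rw [Matrix.det_mul]
    refine IsUnit.mul ?_ hγ'.1
    have : Γ.det * γ.det = 1 := by rw [← Matrix.det_mul, hΓ1, Matrix.det_one]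
    exact IsUnit.of_mul_eq_one _ this
  have hcu : IsUnit c := isUnit_of_entriesIn_sub_smul_one (hc.mono hI) hdetX
  obtain ⟨u, rfl⟩ := hcu
  refine ⟨(↑u⁻¹ : A) • γ', ⟨?_, fun g => ?_⟩, ?_⟩
  · rw [Matrix.det_smul]
    exact IsUnit.mul (IsUnit.pow _ (Units.isUnit _)) hγ'.1
  · have : ((↑u⁻¹ : A) • γ') * r₁ g - r₂ g * ((↑u⁻¹ : A) • γ') =
        (↑u⁻¹ : A) • (γ' * r₁ g - r₂ g * γ') := by
      rw [smul_mul_assoc, mul_smul_comm, smul_sub]
    rw [this]
    exact (hγ'.2 g).smul _
  · have : (↑u⁻¹ : A) • γ' - γ = (↑u⁻¹ : A) • (γ * (Γ * γ' - (u : A) • 1)) := by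
      rw [mul_sub, ← mul_assoc, hΓ2, one_mul, mul_smul_comm, mul_one, smul_sub, smul_smul,
        Units.inv_mul, one_smul]
    rw [this]
    exact (hc.mul_left _).smul _

theorem exists_conj_of_forall_conjMod [Nonempty n] [IsAdicComplete (maximalIdeal A) A]
    (hspan : Submodule.span A (Set.range r₁) = ⊤)
    (h : ∀ m : ℕ, ∃ γ : Matrix n n A, ConjMod r₁ r₂ (maximalIdeal A ^ m) γ) :
    ∃ γ : Matrix n n A, IsUnit γ.det ∧ ∀ g, γ * r₁ g = r₂ g * γ := by
  classical
  -- the compatible sequence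
  have hstep : ∀ (m : ℕ) (γ : {γ : Matrix n n A // ConjMod r₁ r₂ (maximalIdeal A ^ (m + 1)) γ}),
      ∃ γ' : {γ : Matrix n n A // ConjMod r₁ r₂ (maximalIdeal A ^ (m + 2)) γ},
        EntriesIn (maximalIdeal A ^ (m + 1)) (γ'.1 - γ.1) := by
    intro m γ
    obtain ⟨γ', hγ'⟩ := h (m + 2)
    obtain ⟨γ'', h1, h2⟩ := conjMod_step r₁ r₂ hspan
      (Ideal.pow_le_pow_right (Nat.le_succ (m + 1)))
      (Ideal.pow_le_self (Nat.succ_ne_zero m)) γ.2 hγ'
    exact ⟨⟨γ'', h1⟩, h2⟩
  let s : ∀ m : ℕ, {γ : Matrix n n A // ConjMod r₁ r₂ (maximalIdeal A ^ (m + 1)) γ} :=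
    fun m => Nat.rec (motive := fun m =>
      {γ : Matrix n n A // ConjMod r₁ r₂ (maximalIdeal A ^ (m + 1)) γ})
      ⟨(h 1).choose, (h 1).choose_spec⟩ (fun m γ => (hstep m γ).choose) m
  have hs : ∀ m, EntriesIn (maximalIdeal A ^ (m + 1)) ((s (m + 1)).1 - (s m).1) := fun m =>
    (hstep m (s m)).choose_spec
  have hcauchy : ∀ m k, m ≤ k → EntriesIn (maximalIdeal A ^ (m + 1)) ((s k).1 - (s m).1) := by
    intro m k hmk
    induction k, hmk using Nat.le_induction with
    | base => simpa using EntriesIn.zero _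
    | succ k hk ih =>
      have : (s (k + 1)).1 - (s m).1 = ((s (k + 1)).1 - (s k).1) + ((s k).1 - (s m).1) := by abel
      rw [this]
      exact ((hs k).mono (Ideal.pow_le_pow_right (by omega))).add ih
  -- entrywise limits
  have hlim : ∀ i j, ∃ L : A, ∀ m, (s m).1 i j ≡ L
      [SMOD (maximalIdeal A ^ m • ⊤ : Submodule A A)] := by
    intro i j
    refine IsPrecomplete.prec' (I := maximalIdeal A) (fun m => (s m).1 i j) ?_
    intro m k hmk
    rw [SModEq.sub_mem, smul_eq_mul, Ideal.mul_top]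
    have := hcauchy m k hmk i j
    rw [Matrix.sub_apply] at this
    have h2 : (s m).1 i j - (s k).1 i j = -((s k).1 i j - (s m).1 i j) := by ring
    rw [h2]
    exact neg_mem (Ideal.pow_le_pow_right (Nat.le_succ m) this)
  choose L hL using hlim
  let γ : Matrix n n A := Matrix.of L
  have hγ : ∀ m, EntriesIn (maximalIdeal A ^ m) ((s m).1 - γ) := by
    intro m i j
    have := hL i j m
    rw [SModEq.sub_mem, smul_eq_mul, Ideal.mul_top] at this
    exact this
  refine ⟨γ, ?_, fun g => ?_⟩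
  · refine isUnit_det_of_entriesIn_sub (Y := (s 1).1) ?_ (s 1).2.1
    have := (hγ 1).neg
    rw [neg_sub, pow_one] at this
    exact this
  · rw [← sub_eq_zero]
    ext i j
    apply IsHausdorff.haus' (I := maximalIdeal A)
    intro m
    rw [SModEq.sub_mem, sub_zero, smul_eq_mul, Ideal.mul_top]
    have hid : γ * r₁ g - r₂ g * γ = ((s m).1 * r₁ g - r₂ g * (s m).1) -
        (((s m).1 - γ) * r₁ g - r₂ g * ((s m).1 - γ)) := by noncomm_ring
    rw [hid]
    exact ((((s m).2.2 g).mono (Ideal.pow_le_pow_right (Nat.le_succ m))).sub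
      (((hγ m).mul_right _).sub ((hγ m).mul_left _))) i j

end Lift

end Fermat.Agent.S53
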