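import Mathlib
import Fermat.Prelude.Def_GaloisRep_Adic
import Fermat.Prelude.Def_GaloisRep_DeformationCondition
import Fermat.Prelude.Def_GaloisRep_DeformationRingData
import Fermat.Agent.S53.Burnside
import Fermat.Agent.S53.SpanTransport
import Fermat.Agent.S53.BaseChangeLemmas
import Fermat.Agent.S53.MatrixLift
import Fermat.Agent.S53.Framed

set_option autoImplicit false
set_option linter.style.haveILetI false
set_option linter.unusedSectionVars false

namespace Fermat.Agent.S53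

open IsLocalRing

section QuotPow

variable (A : Type) [CommRing A] [IsLocalRing A]

theorem maximalIdeal_pow_succ_ne_top (n : ℕ) : maximalIdeal A ^ (n + 1) ≠ ⊤ := fun h =>
  (IsLocalRing.maximalIdeal.isMaximal A).ne_top
    (top_le_iff.1 (h ▸ Ideal.pow_le_self (Nat.succ_ne_zero n)))

theorem nontrivial_quotPow (n : ℕ) : Nontrivial (A ⧸ maximalIdeal A ^ (n + 1)) :=
  Ideal.Quotient.nontrivial_iff.mpr (maximalIdeal_pow_succ_ne_top A n)

theorem isLocalRing_quotPow (n : ℕ) : IsLocalRing (A ⧸ maximalIdeal A ^ (n + 1)) :=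
  haveI := nontrivial_quotPow A n
  IsLocalRing.of_surjective' (Ideal.Quotient.mk _) Ideal.Quotient.mk_surjective

attribute [local instance] isLocalRing_quotPow nontrivial_quotPow

theorem isLocalHom_mk_quotPow (n : ℕ) :
    IsLocalHom (Ideal.Quotient.mk (maximalIdeal A ^ (n + 1))) :=
  IsLocalHom.of_surjective _ Ideal.Quotient.mk_surjective

theorem maximalIdeal_quotPow_pow_eq_bot (n : ℕ) :
    maximalIdeal (A ⧸ maximalIdeal A ^ (n + 1)) ^ (n + 1) = ⊥ := by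
  haveI := isLocalHom_mk_quotPow A n
  have hmap : (maximalIdeal A).map (Ideal.Quotient.mk (maximalIdeal A ^ (n + 1))) =
      maximalIdeal (A ⧸ maximalIdeal A ^ (n + 1)) := by
    ext x
    obtain ⟨x, rfl⟩ := Ideal.Quotient.mk_surjective x
    simp [sup_eq_left.mpr (le_maximalIdeal (maximalIdeal_pow_succ_ne_top A n))]
  rw [← hmap, ← Ideal.map_pow, Ideal.map_eq_bot_iff_le_ker, Ideal.mk_ker]

variable {𝒪 : Type} [CommRing 𝒪] [IsLocalRing 𝒪] [Algebra 𝒪 A]

theorem isLocalHom_algebraMap_quotPow [IsLocalHom (algebraMap 𝒪 A)] (n : ℕ) :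
    IsLocalHom (algebraMap 𝒪 (A ⧸ maximalIdeal A ^ (n + 1))) := by
  haveI := isLocalHom_mk_quotPow A n
  constructor
  intro a ha
  have h1 : IsUnit (Ideal.Quotient.mk (maximalIdeal A ^ (n + 1)) (algebraMap 𝒪 A a)) := ha
  exact IsLocalHom.map_nonunit (f := algebraMap 𝒪 A) a
    (IsLocalHom.map_nonunit (f := Ideal.Quotient.mk (maximalIdeal A ^ (n + 1))) _ h1)

theorem isArtinianTestAlgebra_quotPow [IsNoetherianRing A] [IsLocalHom (algebraMap 𝒪 A)]
    (hsurj : Function.Surjective (IsLocalRing.residue A ∘ algebraMap 𝒪 A)) (n : ℕ) :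
    GaloisRep.IsArtinianTestAlgebra 𝒪 (A ⧸ maximalIdeal A ^ (n + 1)) where
  isLocalHom := isLocalHom_algebraMap_quotPow A n
  residue_surjective := by
    haveI := isLocalHom_mk_quotPow A n
    intro x
    obtain ⟨y, rfl⟩ := IsLocalRing.residue_surjective x
    obtain ⟨a, rfl⟩ := Ideal.Quotient.mk_surjective y
    obtain ⟨o, ho⟩ := hsurj (IsLocalRing.residue A a)
    refine ⟨o, ?_⟩
    simp only [Function.comp_apply] at ho ⊢
    rw [← sub_eq_zero, ← map_sub, IsLocalRing.residue_eq_zero_iff] at ho ⊢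
    have : algebraMap 𝒪 (A ⧸ maximalIdeal A ^ (n + 1)) o -
        Ideal.Quotient.mk (maximalIdeal A ^ (n + 1)) a =
        Ideal.Quotient.mk (maximalIdeal A ^ (n + 1)) (algebraMap 𝒪 A o - a) := by
      rw [map_sub]; rfl
    rw [this]
    intro hu
    exact ho (IsLocalHom.map_nonunit (f := Ideal.Quotient.mk (maximalIdeal A ^ (n + 1))) _ hu)
  isArtinian := by
    rw [isArtinianRing_iff_isNilpotent_maximalIdeal]
    exact ⟨n + 1, maximalIdeal_quotPow_pow_eq_bot A n⟩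

end QuotPow

section IsEquivLemmas

variable {A : Type} [CommRing A] [IsLocalRing A]

theorem adic_isEquiv_refl (ρ : GaloisRepAdic A) : ρ.IsEquiv ρ := ⟨GaloisRepAdic.Equiv.refl ρ⟩

theorem adic_isEquiv_symm {ρ₁ ρ₂ : GaloisRepAdic A} (h : ρ₁.IsEquiv ρ₂) : ρ₂.IsEquiv ρ₁ := by
  obtain ⟨e⟩ := h
  exact ⟨e.symm⟩

theorem adic_isEquiv_trans {ρ₁ ρ₂ ρ₃ : GaloisRepAdic A} (h : ρ₁.IsEquiv ρ₂)
    (h' : ρ₂.IsEquiv ρ₃) : ρ₁.IsEquiv ρ₃ := by
  obtain ⟨e⟩ := h
  obtain ⟨e'⟩ := h'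
  exact ⟨e.trans e'⟩

theorem adic_isEquiv_baseChangeAlong {B : Type} [CommRing B] [IsLocalRing B] (φ : A →+* B)
    (hφ : IsLocalHom φ) {ρ₁ ρ₂ : GaloisRepAdic A} (h : ρ₁.IsEquiv ρ₂) :
    (ρ₁.baseChangeAlong φ hφ).IsEquiv (ρ₂.baseChangeAlong φ hφ) := by
  obtain ⟨e⟩ := h
  exact ⟨e.baseChangeAlong φ hφ⟩

theorem framed_span_eq_top (ρ : GaloisRepAdic A)
    (hspan : Submodule.span A (Set.range ρ.ρ) = (⊤ : Submodule A (Module.End A ρ.V)))
    (r : FramedRep A) (e : GaloisRepAdic.Equiv ρ r.toGaloisRepAdic) :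
    Submodule.span A (Set.range (r : GQ → Matrix (Fin 2) (Fin 2) A)) = ⊤ := by
  classical
  let E : Module.End A ρ.V ≃ₗ[A] Matrix (Fin 2) (Fin 2) A :=
    (e.toLinearEquiv.conj : Module.End A ρ.V ≃ₗ[A] Module.End A (Fin 2 → A)).trans
      LinearMap.toMatrix'
  have hE : ∀ σ, E (ρ.ρ σ) = r σ := by
    intro σ
    have hconj : e.toLinearEquiv.conj (ρ.ρ σ) = Matrix.toLin' (r σ) := by
      ext x : 1
      rw [LinearEquiv.conj_apply, LinearMap.comp_apply, LinearMap.comp_apply,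
        LinearEquiv.coe_coe, LinearEquiv.coe_coe, e.map_apply, LinearEquiv.apply_symm_apply]
      rfl
    show LinearMap.toMatrix' (e.toLinearEquiv.conj (ρ.ρ σ)) = r σ
    rw [hconj, LinearMap.toMatrix'_toLin']
  have hrange : Set.range (r : GQ → Matrix (Fin 2) (Fin 2) A) = E '' Set.range ρ.ρ := by
    ext M
    constructor
    · rintro ⟨σ, rfl⟩
      exact ⟨ρ.ρ σ, ⟨σ, rfl⟩, hE σ⟩
    · rintro ⟨_, ⟨σ, rfl⟩, rfl⟩
      exact ⟨σ, (hE σ).symm⟩
  rw [hrange, ← LinearEquiv.coe_coe, ← Submodule.map_span, hspan, Submodule.map_top,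
    LinearEquiv.range]

end IsEquivLemmas

section LemmaL

variable {A : Type} [CommRing A] [IsLocalRing A]

attribute [local instance] isLocalRing_quotPow nontrivial_quotPow

theorem conjMod_of_isEquiv_map (r₁ r₂ : FramedRep A) (n : ℕ)
    (h : ((r₁.map (Ideal.Quotient.mk (maximalIdeal A ^ (n + 1)))
        (isLocalHom_mk_quotPow A n)).toGaloisRepAdic).IsEquiv
      ((r₂.map (Ideal.Quotient.mk (maximalIdeal A ^ (n + 1)))
        (isLocalHom_mk_quotPow A n)).toGaloisRepAdic)) :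
    ∃ γ : Matrix (Fin 2) (Fin 2) A, ConjMod (r₁ : GQ → Matrix (Fin 2) (Fin 2) A)
      (r₂ : GQ → Matrix (Fin 2) (Fin 2) A) (maximalIdeal A ^ (n + 1)) γ := by
  classical
  set q := Ideal.Quotient.mk (maximalIdeal A ^ (n + 1)) with hqdef
  have hq : IsLocalHom q := isLocalHom_mk_quotPow A n
  obtain ⟨γb, hγb⟩ := (FramedRep.isEquiv_iff_conj _ _).1 h
  have hsurj : ∀ i j, ∃ a : A, q a = γb.val i j := fun i j => Ideal.Quotient.mk_surjective _
  choose g hg using hsurj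
  let γ : Matrix (Fin 2) (Fin 2) A := Matrix.of g
  have hγmap : γ.map q = γb.val := by
    ext i j
    simp only [Matrix.map_apply]
    exact hg i j
  refine ⟨γ, ?_, fun σ i j => ?_⟩
  · have hdet : q γ.det = (γb.val).det := by
      rw [RingHom.map_det]
      congr 1
    have hu : IsUnit (γb.val).det := (Matrix.isUnit_iff_isUnit_det _).1 γb.isUnit
    rw [← hdet] at hu
    exact hq.map_nonunit _ hu
  · rw [← Ideal.Quotient.eq_zero_iff_mem]
    have h1 : q.mapMatrix (γ * r₁ σ - r₂ σ * γ) = 0 := by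
      rw [map_sub, map_mul, map_mul]
      simp only [RingHom.mapMatrix_apply]
      rw [hγmap]
      have := hγb σ
      simp only [FramedRep.map_apply] at this
      rw [this, sub_self]
    have h2 := congrFun (congrFun h1 i) j
    simpa using h2

theorem isEquiv_of_forall_isEquiv_quotPow [IsAdicComplete (maximalIdeal A) A]
    (ρ₁ ρ₂ : GaloisRepAdic A)
    (hspan : Submodule.span A (Set.range ρ₁.ρ) = (⊤ : Submodule A (Module.End A ρ₁.V)))
    (h : ∀ n : ℕ,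
      (ρ₁.baseChangeAlong (Ideal.Quotient.mk (maximalIdeal A ^ (n + 1)))
        (isLocalHom_mk_quotPow A n)).IsEquiv
      (ρ₂.baseChangeAlong (Ideal.Quotient.mk (maximalIdeal A ^ (n + 1)))
        (isLocalHom_mk_quotPow A n))) :
    ρ₁.IsEquiv ρ₂ := by
  classical
  obtain ⟨r₁, ⟨e₁⟩⟩ := exists_framedRep ρ₁
  obtain ⟨r₂, ⟨e₂⟩⟩ := exists_framedRep ρ₂
  have hspan' := framed_span_eq_top ρ₁ hspan r₁ e₁
  have hmod : ∀ m : ℕ, ∃ γ : Matrix (Fin 2) (Fin 2) A,
      ConjMod (r₁ : GQ → Matrix (Fin 2) (Fin 2) A) (r₂ : GQ → Matrix (Fin 2) (Fin 2) A)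
        (maximalIdeal A ^ m) γ := by
    intro m
    cases m with
    | zero =>
      refine ⟨1, by simp, fun σ i j => ?_⟩
      rw [pow_zero, Ideal.one_eq_top]
      trivial
    | succ n =>
      apply conjMod_of_isEquiv_map
      have hq := isLocalHom_mk_quotPow A n
      refine adic_isEquiv_trans (adic_isEquiv_symm (FramedRep.baseChangeAlong_isEquiv _ hq r₁)) ?_
      refine adic_isEquiv_trans (adic_isEquiv_baseChangeAlong _ hq ⟨e₁.symm⟩) ?_
      refine adic_isEquiv_trans (h n) ?_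
      refine adic_isEquiv_trans (adic_isEquiv_baseChangeAlong _ hq ⟨e₂⟩) ?_
      exact FramedRep.baseChangeAlong_isEquiv _ hq r₂
  obtain ⟨γ, hdet, hγ⟩ := exists_conj_of_forall_conjMod _ _ hspan' hmod
  have hu : IsUnit γ := (Matrix.isUnit_iff_isUnit_det _).2 hdet
  have h12 : r₁.toGaloisRepAdic.IsEquiv r₂.toGaloisRepAdic :=
    (FramedRep.isEquiv_iff_conj r₁ r₂).2 ⟨hu.unit, fun σ => by simpa using hγ σ⟩
  exact adic_isEquiv_trans ⟨e₁⟩ (adic_isEquiv_trans h12 ⟨e₂.symm⟩)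

end LemmaL

section Main

variable {𝒪 : Type} [CommRing 𝒪] [IsLocalRing 𝒪]
  (ρbar : ResidualGaloisRep (ResidueField 𝒪))
  (𝒟 : ∀ ⦃A : Type⦄ [CommRing A] [IsLocalRing A] [Algebra 𝒪 A], GaloisRepAdic A → Prop)

attribute [local instance] isLocalRing_quotPow nontrivial_quotPow

section Aux

variable (h𝒟 : GaloisRep.IsDeformationCondition 𝒪 𝒟)
    (habs : ρbar.IsAbsolutelyIrreducible)
    (R : Type) [CommRing R] [IsLocalRing R] [Algebra 𝒪 R] (ρ : GaloisRepAdic R)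
    (hArt : ∀ (B : Type) [CommRing B] [IsLocalRing B] [Algebra 𝒪 B]
      [IsLocalHom (algebraMap 𝒪 B)],
      GaloisRep.IsArtinianTestAlgebra 𝒪 B → ∀ ρB : GaloisRepAdic B, 𝒟 ρB →
      ρB.residual.IsEquiv (ρbar.baseChangeAlong (ResidueField.map (algebraMap 𝒪 B))) →
      ∃! φ : R →ₐ[𝒪] B, ∃ hφ : IsLocalHom (φ : R →+* B),
        (ρ.baseChangeAlong (φ : R →+* B) hφ).IsEquiv ρB)
    (A : Type) [CommRing A] [IsLocalRing A] [IsNoetherianRing A]
      [IsAdicComplete (maximalIdeal A) A] [Algebra 𝒪 A] [IsLocalHom (algebraMap 𝒪 A)]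
    (hsurj : Function.Surjective (IsLocalRing.residue A ∘ algebraMap 𝒪 A))
    (ρA : GaloisRepAdic A) (hDA : 𝒟 ρA)
    (hresA : ρA.residual.IsEquiv
          (ρbar.baseChangeAlong (ResidueField.map (algebraMap 𝒪 A))))

local notation "Q" n => A ⧸ maximalIdeal A ^ (n + 1)

include h𝒟 habs hArt hsurj hDA hresA in
theorem universal_of_artinian_aux :
    ∃! φ : R →ₐ[𝒪] A, ∃ hφ : IsLocalHom (φ : R →+* A),
      (ρ.baseChangeAlong (φ : R →+* A) hφ).IsEquiv ρA := by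
  classical
  let q : ∀ n : ℕ, A →ₐ[𝒪] (Q n) := fun n => Ideal.Quotient.mkₐ 𝒪 _
  have hq : ∀ n, IsLocalHom ((q n : A →ₐ[𝒪] (Q n)) : A →+* (Q n)) :=
    fun n => isLocalHom_mk_quotPow A n
  have hloc : ∀ n, IsLocalHom (algebraMap 𝒪 (Q n)) :=
    fun n => isLocalHom_algebraMap_quotPow A n
  have htest : ∀ n, GaloisRep.IsArtinianTestAlgebra 𝒪 (Q n) :=
    fun n => isArtinianTestAlgebra_quotPow A hsurj n
  let ρn : ∀ n, GaloisRepAdic (Q n) :=
    fun n => ρA.baseChangeAlong (q n : A →+* (Q n)) (hq n)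
  have hDn : ∀ n, 𝒟 (ρn n) := fun n =>
    (h𝒟.iff_forall_surjective inferInstance hsurj ρA).1 hDA (htest n) (q n) (hq n)
      (Ideal.Quotient.mkₐ_surjective 𝒪 _)
  have hresn : ∀ n, haveI := hloc n
      (ρn n).residual.IsEquiv (ρbar.baseChangeAlong
        (ResidueField.map (algebraMap 𝒪 (Q n)))) := fun n =>
    haveI := hloc n
    residual_isEquiv_baseChangeAlong ρbar ρA hresA (q n) (hq n)
  have hex : ∀ n, ∃! φ : R →ₐ[𝒪] (Q n),
      ∃ hφ : IsLocalHom (φ : R →+* (Q n)),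
        (ρ.baseChangeAlong (φ : R →+* (Q n)) hφ).IsEquiv (ρn n) :=
    fun n => haveI := hloc n; hArt _ (htest n) (ρn n) (hDn n) (hresn n)
  choose φ hφ using fun n => (hex n).exists
  have huniq : ∀ n (ψ : R →ₐ[𝒪] (Q n)),
      (∃ hψ : IsLocalHom (ψ : R →+* (Q n)),
        (ρ.baseChangeAlong (ψ : R →+* (Q n)) hψ).IsEquiv (ρn n)) →
      ψ = φ n := fun n ψ hψ => (hex n).unique hψ (hφ n)
  -- transition maps
  have hle : ∀ {m n : ℕ}, m ≤ n → maximalIdeal A ^ (n + 1) ≤ maximalIdeal A ^ (m + 1) :=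
    fun h => Ideal.pow_le_pow_right (Nat.succ_le_succ h)
  let π : ∀ {m n : ℕ} (h : m ≤ n), (Q n) →ₐ[𝒪] (Q m) := fun h => Ideal.Quotient.factorₐ 𝒪 (hle h)
  have hπloc : ∀ {m n : ℕ} (h : m ≤ n), IsLocalHom ((π h : (Q n) →ₐ[𝒪] (Q m)) : (Q n) →+* (Q m)) :=
    fun h => IsLocalHom.of_surjective _ (Ideal.Quotient.factor_surjective (hle h))
  have hcompat : ∀ {m n : ℕ} (h : m ≤ n), (π h).comp (φ n) = φ m := by
    intro m n h
    apply huniq
    obtain ⟨hφn, hEn⟩ := hφ n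
    have hloc' : IsLocalHom (((π h).comp (φ n) : R →ₐ[𝒪] (Q m)) : R →+* (Q m)) := by
      constructor
      intro a ha
      exact hφn.map_nonunit a ((hπloc h).map_nonunit _ ha)
    refine ⟨hloc', ?_⟩
    refine adic_isEquiv_trans (adic_isEquiv_symm (adicBaseChange_comp_isEquiv'
      (φ n : R →+* (Q n)) hφn (π h : (Q n) →+* (Q m)) (hπloc h) _ hloc' rfl ρ)) ?_
    refine adic_isEquiv_trans (adic_isEquiv_baseChangeAlong _ (hπloc h) hEn) ?_
    exact adicBaseChange_comp_isEquiv' (q n : A →+* (Q n)) (hq n) (π h : (Q n) →+* (Q m))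
      (hπloc h) (q m : A →+* (Q m)) (hq m) rfl ρA
  -- the compatible family into A ⧸ m ^ k
  let f : ∀ k : ℕ, R →ₐ[𝒪] A ⧸ maximalIdeal A ^ k := fun k =>
    (Ideal.Quotient.factorₐ 𝒪 (Ideal.pow_le_pow_right (Nat.le_succ k))).comp (φ k)
  have hf : ∀ {m n : ℕ} (hmn : m ≤ n),
      (Ideal.Quotient.factorₐ 𝒪 (Ideal.pow_le_pow_right hmn)).comp (f n) = f m := by
    intro m n hmn
    ext x
    have h1 : φ m x = (π hmn) (φ n x) := by rw [← hcompat hmn]; rfl
    obtain ⟨a, ha⟩ := Ideal.Quotient.mk_surjective (φ n x)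
    show (Ideal.Quotient.factorₐ 𝒪 (Ideal.pow_le_pow_right hmn))
        ((Ideal.Quotient.factorₐ 𝒪 (Ideal.pow_le_pow_right (Nat.le_succ n))) (φ n x)) =
      (Ideal.Quotient.factorₐ 𝒪 (Ideal.pow_le_pow_right (Nat.le_succ m))) (φ m x)
    rw [h1, ← ha]
    rfl
  let Φ : R →ₐ[𝒪] A := IsAdicComplete.liftAlgHom (maximalIdeal A) f hf
  have hΦ : ∀ k x, Ideal.Quotient.mk (maximalIdeal A ^ k) (Φ x) = f k x :=
    fun k x => IsAdicComplete.mk_liftAlgHom (maximalIdeal A) f hf k x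
  have hqΦ : ∀ n, (q n).comp Φ = φ n := by
    intro n
    ext x
    show Ideal.Quotient.mk (maximalIdeal A ^ (n + 1)) (Φ x) = φ n x
    rw [hΦ (n + 1) x]
    have h1 : φ n x = (π (Nat.le_succ n)) (φ (n + 1) x) := by
      rw [← hcompat (Nat.le_succ n)]; rfl
    rw [h1]
    rfl
  have hΦloc : IsLocalHom (Φ : R →+* A) := by
    constructor
    intro x hx
    obtain ⟨hφ0, -⟩ := hφ 0
    have h1 : IsUnit (φ 0 x) := by
      rw [← hqΦ 0]
      exact hx.map (q 0)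
    exact hφ0.map_nonunit x h1
  have hspanA := adic_span_range_eq_top_of_residual_isEquiv ρbar habs ρA hresA
  refine ⟨Φ, ⟨hΦloc, ?_⟩, ?_⟩
  · apply adic_isEquiv_symm
    apply isEquiv_of_forall_isEquiv_quotPow ρA _ hspanA
    intro n
    obtain ⟨hφn, hEn⟩ := hφ n
    refine adic_isEquiv_trans (adic_isEquiv_symm hEn) ?_
    exact adic_isEquiv_symm (adicBaseChange_comp_isEquiv' (Φ : R →+* A) hΦloc
      (q n : A →+* (Q n)) (hq n) (φ n : R →+* (Q n)) hφn
      (by rw [← hqΦ n]; rfl) ρ)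
  · rintro Φ' ⟨hΦ'loc, hE'⟩
    have key : ∀ n, (q n).comp Φ' = φ n := by
      intro n
      apply huniq
      have hloc' : IsLocalHom (((q n).comp Φ' : R →ₐ[𝒪] (Q n)) : R →+* (Q n)) := by
        constructor
        intro a ha
        exact hΦ'loc.map_nonunit a ((hq n).map_nonunit _ ha)
      refine ⟨hloc', ?_⟩
      refine adic_isEquiv_trans (adic_isEquiv_symm (adicBaseChange_comp_isEquiv'
        (Φ' : R →+* A) hΦ'loc (q n : A →+* (Q n)) (hq n) _ hloc' rfl ρ)) ?_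
      exact adic_isEquiv_baseChangeAlong _ (hq n) hE'
    apply IsAdicComplete.algHom_ext (maximalIdeal A)
    intro k
    cases k with
    | zero =>
      ext x
      have : Subsingleton (A ⧸ maximalIdeal A ^ 0) := by
        rw [pow_zero, Ideal.one_eq_top]
        exact Ideal.Quotient.subsingleton_iff.mpr rfl
      exact Subsingleton.elim _ _
    | succ n =>
      have h1 : (Ideal.Quotient.mkₐ 𝒪 (maximalIdeal A ^ (n + 1))).comp Φ' = φ n := key n
      have h2 : (Ideal.Quotient.mkₐ 𝒪 (maximalIdeal A ^ (n + 1))).comp Φ = φ n := hqΦ n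
      rw [h1, h2]

end Aux

theorem universal_of_artinian (h𝒟 : GaloisRep.IsDeformationCondition 𝒪 𝒟)
    (habs : ρbar.IsAbsolutelyIrreducible)
    (R : Type) [CommRing R] [IsLocalRing R] [Algebra 𝒪 R] (ρ : GaloisRepAdic R)
    (hArt : ∀ (B : Type) [CommRing B] [IsLocalRing B] [Algebra 𝒪 B]
      [IsLocalHom (algebraMap 𝒪 B)],
      GaloisRep.IsArtinianTestAlgebra 𝒪 B → ∀ ρB : GaloisRepAdic B, 𝒟 ρB →
      ρB.residual.IsEquiv (ρbar.baseChangeAlong (ResidueField.map (algebraMap 𝒪 B))) →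
      ∃! φ : R →ₐ[𝒪] B, ∃ hφ : IsLocalHom (φ : R →+* B),
        (ρ.baseChangeAlong (φ : R →+* B) hφ).IsEquiv ρB) :
    ∀ (A : Type) [CommRing A] [IsLocalRing A] [IsNoetherianRing A]
      [IsAdicComplete (maximalIdeal A) A] [Algebra 𝒪 A] [IsLocalHom (algebraMap 𝒪 A)],
      Function.Surjective (IsLocalRing.residue A ∘ algebraMap 𝒪 A) →
      ∀ ρA : GaloisRepAdic A, 𝒟 ρA →
        ρA.residual.IsEquiv
          (ρbar.baseChangeAlong (ResidueField.map (algebraMap 𝒪 A))) →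
        ∃! φ : R →ₐ[𝒪] A, ∃ hφ : IsLocalHom (φ : R →+* A),
          (ρ.baseChangeAlong (φ : R →+* A) hφ).IsEquiv ρA :=
  fun A _ _ _ _ _ _ hsurj ρA hDA hresA =>
    universal_of_artinian_aux ρbar 𝒟 h𝒟 habs R ρ hArt A hsurj ρA hDA hresA

end Main

end Fermat.Agent.S53
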