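import Mathlib
import Fermat.Prelude.Thm_IsLocalRing_isAdicComplete_of_module_finite
import Fermat.Agent.S53.EvalNilp

set_option autoImplicit false
set_option linter.style.haveILetI false

namespace Fermat.Agent.S53

open IsLocalRing MvPowerSeries

/-- Hypotheses on a tower of Artinian quotients `Λ ⧸ I n` of an `𝒪`-algebra `Λ`. -/
structure TowerHyp (𝒪 : Type) [CommRing 𝒪] [IsLocalRing 𝒪] (Λ : Type) [CommRing Λ]
    [Algebra 𝒪 Λ] (𝔐 : Ideal Λ) (I : ℕ → Ideal Λ) : Prop where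
  ne_top : 𝔐 ≠ ⊤
  res_surj : Function.Surjective (Ideal.Quotient.mk 𝔐 ∘ algebraMap 𝒪 Λ)
  map_le : (maximalIdeal 𝒪).map (algebraMap 𝒪 Λ) ≤ 𝔐
  le_M : ∀ n, I n ≤ 𝔐
  pow_le : ∀ n, 𝔐 ^ (n + 1) ≤ I n
  anti : ∀ n, I (n + 1) ≤ I n
  le_sup : ∀ n, I n ≤ I (n + 1) ⊔ 𝔐 ^ (n + 1)

theorem le_sup_pow_of_le_sup_sq {A : Type*} [CommRing A] (m N : Ideal A) (hm : m ≤ N ⊔ m ^ 2)
    (j : ℕ) : m ≤ N ⊔ m ^ (j + 1) := by
  induction j with
  | zero => rw [zero_add, pow_one]; exact le_sup_right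
  | succ j ih =>
    have h2 : m ^ (j + 1) ≤ N ⊔ m ^ (j + 1 + 1) := by
      rcases j with _ | j
      · rw [zero_add, pow_one]
        exact hm
      · have e1 : m ^ (j + 1 + 1) = m * m ^ (j + 1) := pow_succ' m (j + 1)
        have e2 : m * m ^ (j + 1) ≤ (N ⊔ m ^ 2) * m ^ (j + 1) := Ideal.mul_mono_left hm
        have e3 : (N ⊔ m ^ 2) * m ^ (j + 1) = N * m ^ (j + 1) ⊔ m ^ 2 * m ^ (j + 1) :=
          Ideal.sup_mul _ _ _
        have e4 : N * m ^ (j + 1) ≤ N := Ideal.mul_le_left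
        have e5 : m ^ 2 * m ^ (j + 1) ≤ m ^ (j + 1 + 1 + 1) := by
          rw [← pow_add]
          exact Ideal.pow_le_pow_right (by omega)
        rw [e1]
        refine e2.trans ?_
        rw [e3]
        exact sup_le (e4.trans le_sup_left) (e5.trans le_sup_right)
    exact ih.trans (sup_le le_sup_left h2)

namespace TowerHyp

variable {𝒪 : Type} [CommRing 𝒪] [IsLocalRing 𝒪] {Λ : Type} [CommRing Λ] [Algebra 𝒪 Λ]
  {𝔐 : Ideal Λ} {I : ℕ → Ideal Λ} (h : TowerHyp 𝒪 Λ 𝔐 I)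

include h

theorem anti' {m n : ℕ} (hmn : m ≤ n) : I n ≤ I m := by
  induction hmn with
  | refl => exact le_rfl
  | step _ ih => exact (h.anti _).trans ih

/-- the maximal ideal of `Λ ⧸ I n` -/
theorem map_pow_eq_bot (n : ℕ) : (𝔐.map (Ideal.Quotient.mk (I n))) ^ (n + 1) = ⊥ := by
  rw [← Ideal.map_pow]
  exact Ideal.map_mk_eq_bot_of_le (h.pow_le n)

theorem map_ne_top (n : ℕ) : 𝔐.map (Ideal.Quotient.mk (I n)) ≠ ⊤ := by
  intro htop
  have h1 : (1 : Λ ⧸ I n) ∈ 𝔐.map (Ideal.Quotient.mk (I n)) := by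
    rw [htop]; exact Submodule.mem_top
  rw [← map_one (Ideal.Quotient.mk (I n)),
    Ideal.mem_map_iff_of_surjective _ Ideal.Quotient.mk_surjective] at h1
  obtain ⟨x, hx, hx1⟩ := h1
  have h2 : x - 1 ∈ I n := by
    rw [← Ideal.Quotient.eq]; exact hx1
  have h3 : (1 : Λ) ∈ 𝔐 := by
    have : (1 : Λ) = x - (x - 1) := by ring
    rw [this]
    exact Ideal.sub_mem _ hx (h.le_M n h2)
  exact h.ne_top ((Ideal.eq_top_iff_one _).mpr h3)

theorem exists_algebraMap_sub_mem (n : ℕ) (a : Λ ⧸ I n) :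
    ∃ c : 𝒪, a - algebraMap 𝒪 (Λ ⧸ I n) c ∈ 𝔐.map (Ideal.Quotient.mk (I n)) := by
  obtain ⟨l, rfl⟩ := Ideal.Quotient.mk_surjective a
  obtain ⟨c, hc⟩ := h.res_surj (Ideal.Quotient.mk 𝔐 l)
  refine ⟨c, ?_⟩
  rw [Function.comp_apply, Ideal.Quotient.eq] at hc
  have h1 : l - algebraMap 𝒪 Λ c ∈ 𝔐 := by
    have : l - algebraMap 𝒪 Λ c = -(algebraMap 𝒪 Λ c - l) := by ring
    rw [this]
    exact (Ideal.neg_mem_iff _).mpr hc
  have h2 := Ideal.mem_map_of_mem (Ideal.Quotient.mk (I n)) h1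
  rwa [map_sub, Ideal.Quotient.mk_algebraMap] at h2

theorem I_one_le (n : ℕ) : I 1 ≤ I (n + 1) ⊔ 𝔐 ^ 2 := by
  induction n with
  | zero => exact le_sup_left
  | succ n ih =>
    refine ih.trans (sup_le ?_ le_sup_right)
    refine (h.le_sup (n + 1)).trans (sup_le le_sup_left ?_)
    exact (Ideal.pow_le_pow_right (by omega)).trans le_sup_right

section Gens

variable {e : ℕ} (lam : Fin e → Λ) (hlam : ∀ i, lam i ∈ 𝔐)
  (hgen : 𝔐 ≤ Ideal.span (Set.range lam) ⊔ I 1)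

/-- images of the chosen generators in `Λ ⧸ I n` -/
def yv (_h : TowerHyp 𝒪 Λ 𝔐 I) (n : ℕ) : Fin e → Λ ⧸ I n :=
  fun i => Ideal.Quotient.mk (I n) (lam i)

include hlam in
theorem span_yv_le (n : ℕ) :
    Ideal.span (Set.range (h.yv lam n)) ≤ 𝔐.map (Ideal.Quotient.mk (I n)) := by
  rw [Ideal.span_le]
  rintro _ ⟨i, rfl⟩
  exact Ideal.mem_map_of_mem _ (hlam i)

include hlam in
theorem span_yv_pow (n : ℕ) : (Ideal.span (Set.range (h.yv lam n))) ^ (n + 1) = ⊥ := by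
  rw [eq_bot_iff, ← h.map_pow_eq_bot n]
  exact Ideal.pow_right_mono (h.span_yv_le lam hlam n) _

include hgen in
theorem map_le_span_yv_sup (n : ℕ) :
    𝔐.map (Ideal.Quotient.mk (I n)) ≤
      Ideal.span (Set.range (h.yv lam n)) ⊔ (𝔐.map (Ideal.Quotient.mk (I n))) ^ 2 := by
  have hspan : (Ideal.span (Set.range lam)).map (Ideal.Quotient.mk (I n)) =
      Ideal.span (Set.range (h.yv lam n)) := by
    rw [Ideal.map_span, ← Set.range_comp]
    rfl
  rcases n with _ | n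
  · have : 𝔐.map (Ideal.Quotient.mk (I 0)) = ⊥ := by
      apply Ideal.map_mk_eq_bot_of_le
      have := h.pow_le 0
      simpa using this
    rw [this]
    exact bot_le
  · have h1 : 𝔐 ≤ Ideal.span (Set.range lam) ⊔ (I (n + 1) ⊔ 𝔐 ^ 2) :=
      hgen.trans (sup_le le_sup_left ((h.I_one_le n).trans le_sup_right))
    have h2 := Ideal.map_mono (f := Ideal.Quotient.mk (I (n + 1))) h1
    rw [Ideal.map_sup, Ideal.map_sup, Ideal.map_quotient_self, bot_sup_eq, Ideal.map_pow,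
      hspan] at h2
    exact h2

include hgen in
theorem map_le_span_yv (n : ℕ) :
    𝔐.map (Ideal.Quotient.mk (I n)) ≤ Ideal.span (Set.range (h.yv lam n)) := by
  have := le_sup_pow_of_le_sup_sq _ _ (h.map_le_span_yv_sup lam hgen n) n
  rwa [h.map_pow_eq_bot n, sup_bot_eq] at this

/-- the compatible maps from the power series ring to the tower -/
noncomputable def phi (n : ℕ) : MvPowerSeries (Fin e) 𝒪 →ₐ[𝒪] Λ ⧸ I n :=
  evalNilp (h.yv lam n) (n + 1) (h.span_yv_pow lam hlam n)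

theorem phi_X (n : ℕ) (i : Fin e) :
    h.phi lam hlam n (X i) = Ideal.Quotient.mk (I n) (lam i) :=
  evalNilp_X _ _ _ i

theorem phi_eq_zero_of_mem (n : ℕ) (f : MvPowerSeries (Fin e) 𝒪)
    (hf : f ∈ (Ideal.span (Set.range X) : Ideal (MvPowerSeries (Fin e) 𝒪)) ^ (n + 1)) :
    h.phi lam hlam n f = 0 :=
  evalNilp_eq_zero_of_mem _ _ _ f hf

theorem factor_comp_phi (n : ℕ) :
    (Ideal.Quotient.factorₐ 𝒪 (h.anti n)).comp (h.phi lam hlam (n + 1)) = h.phi lam hlam n := by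
  apply algHom_ext_of_pow_le_ker _ _ (n + 1 + 1)
  · intro f hf
    rw [AlgHom.comp_apply, h.phi_eq_zero_of_mem lam hlam (n + 1) f hf, map_zero]
  · intro f hf
    exact h.phi_eq_zero_of_mem lam hlam n f (Ideal.pow_le_pow_right (by omega) hf)
  · intro i
    rw [AlgHom.comp_apply, phi_X, phi_X, Ideal.Quotient.factorₐ_apply_mk]

theorem factor_phi (n : ℕ) (s : MvPowerSeries (Fin e) 𝒪) :
    Ideal.Quotient.factorₐ 𝒪 (h.anti n) (h.phi lam hlam (n + 1) s) = h.phi lam hlam n s := by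
  rw [← AlgHom.comp_apply, factor_comp_phi]

theorem map_maximalIdeal_le (n : ℕ) :
    (maximalIdeal (MvPowerSeries (Fin e) 𝒪)).map (h.phi lam hlam n) ≤
      𝔐.map (Ideal.Quotient.mk (I n)) := by
  rw [maximalIdeal_mvPowerSeries_eq, Ideal.map_sup]
  apply sup_le
  · rw [Ideal.map_span, Ideal.span_le]
    rintro _ ⟨_, ⟨i, rfl⟩, rfl⟩
    rw [phi_X]
    exact Ideal.mem_map_of_mem _ (hlam i)
  · rw [Ideal.map_le_iff_le_comap, Ideal.map_le_iff_le_comap]
    intro a ha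
    rw [Ideal.mem_comap, Ideal.mem_comap, AlgHom.commutes, ← Ideal.Quotient.mk_algebraMap]
    exact Ideal.mem_map_of_mem _ (h.map_le (Ideal.mem_map_of_mem _ ha))

include hgen in
theorem phi_surjective (n : ℕ) : Function.Surjective (h.phi lam hlam n) := by
  -- approximation modulo powers of the maximal ideal
  have key : ∀ j : ℕ, ∀ a : Λ ⧸ I n, ∃ s : MvPowerSeries (Fin e) 𝒪,
      a - h.phi lam hlam n s ∈ (𝔐.map (Ideal.Quotient.mk (I n))) ^ j := by
    intro j
    induction j with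
    | zero => intro a; exact ⟨0, by simp⟩
    | succ j ih =>
      intro a
      obtain ⟨c, hc⟩ := h.exists_algebraMap_sub_mem n a
      have hc' := h.map_le_span_yv lam hgen n hc
      rw [Ideal.mem_span_range_iff_exists_fun] at hc'
      obtain ⟨d, hd⟩ := hc'
      choose t ht using fun i => ih (d i)
      refine ⟨algebraMap 𝒪 _ c + ∑ i, t i * X i, ?_⟩
      have e1 : a - h.phi lam hlam n (algebraMap 𝒪 _ c + ∑ i, t i * X i) =
          ∑ i, (d i - h.phi lam hlam n (t i)) * h.yv lam n i := by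
        rw [map_add, AlgHom.commutes, map_sum]
        simp only [map_mul, phi_X]
        have : a = algebraMap 𝒪 (Λ ⧸ I n) c + ∑ i, d i * h.yv lam n i := by
          rw [hd]; ring
        rw [this]
        simp only [sub_mul, Finset.sum_sub_distrib]
        simp only [yv]
        ring
      rw [e1]
      refine Ideal.sum_mem _ fun i _ => ?_
      rw [pow_succ]
      exact Ideal.mul_mem_mul (ht i) (h.span_yv_le lam hlam n (Ideal.subset_span ⟨i, rfl⟩))
  intro a
  obtain ⟨s, hs⟩ := key (n + 1) a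
  rw [h.map_pow_eq_bot n, Ideal.mem_bot, sub_eq_zero] at hs
  exact ⟨s, hs.symm⟩

include hgen in
theorem exists_mem_pow_phi_eq (n : ℕ) (z : Λ ⧸ I (n + 1))
    (hz : Ideal.Quotient.factorₐ 𝒪 (h.anti n) z = 0) :
    ∃ c ∈ (maximalIdeal (MvPowerSeries (Fin e) 𝒪)) ^ (n + 1), h.phi lam hlam (n + 1) c = z := by
  have h1 : z ∈ (I n).map (Ideal.Quotient.mk (I (n + 1))) := by
    rw [← Ideal.Quotient.factor_ker (h.anti n), RingHom.mem_ker]
    exact hz
  have h2 : (I n).map (Ideal.Quotient.mk (I (n + 1))) ≤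
      (𝔐.map (Ideal.Quotient.mk (I (n + 1)))) ^ (n + 1) := by
    refine (Ideal.map_mono (h.le_sup n)).trans ?_
    rw [Ideal.map_sup, Ideal.map_quotient_self, bot_sup_eq, Ideal.map_pow]
  have h3 : 𝔐.map (Ideal.Quotient.mk (I (n + 1))) ≤
      (maximalIdeal (MvPowerSeries (Fin e) 𝒪)).map (h.phi lam hlam (n + 1)) := by
    refine (h.map_le_span_yv lam hgen (n + 1)).trans ?_
    rw [Ideal.span_le]
    rintro _ ⟨i, rfl⟩
    rw [SetLike.mem_coe, yv, ← phi_X h lam hlam]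
    apply Ideal.mem_map_of_mem
    rw [mem_maximalIdeal_mvPowerSeries_iff, constantCoeff_X]
    exact Ideal.zero_mem _
  have h4 := Ideal.pow_right_mono h3 (n + 1) (h2 h1)
  rw [← Ideal.map_pow,
    Ideal.mem_map_iff_of_surjective _ (h.phi_surjective lam hlam hgen (n + 1))] at h4
  exact h4

/-- the kernels of the maps `phi n` -/
noncomputable def J (n : ℕ) : Ideal (MvPowerSeries (Fin e) 𝒪) := RingHom.ker (h.phi lam hlam n)

theorem mem_J (n : ℕ) (s : MvPowerSeries (Fin e) 𝒪) :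
    s ∈ h.J lam hlam n ↔ h.phi lam hlam n s = 0 := RingHom.mem_ker

theorem J_anti (n : ℕ) : h.J lam hlam (n + 1) ≤ h.J lam hlam n := by
  intro s hs
  rw [mem_J] at hs ⊢
  rw [← factor_phi, hs, map_zero]

theorem J_anti' {m n : ℕ} (hmn : m ≤ n) : h.J lam hlam n ≤ h.J lam hlam m := by
  induction hmn with
  | refl => exact le_rfl
  | step _ ih => exact (h.J_anti lam hlam _).trans ih

theorem pow_le_J (n : ℕ) :
    (maximalIdeal (MvPowerSeries (Fin e) 𝒪)) ^ (n + 1) ≤ h.J lam hlam n := by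
  intro s hs
  rw [mem_J]
  have h1 := Ideal.mem_map_of_mem (h.phi lam hlam n) hs
  rw [Ideal.map_pow] at h1
  have h2 := Ideal.pow_right_mono (h.map_maximalIdeal_le lam hlam n) (n + 1) h1
  rwa [h.map_pow_eq_bot n, Ideal.mem_bot] at h2

include hgen in
theorem exists_sub_mem_J_succ (n : ℕ) (s : MvPowerSeries (Fin e) 𝒪) (hs : s ∈ h.J lam hlam n) :
    ∃ c ∈ (maximalIdeal (MvPowerSeries (Fin e) 𝒪)) ^ (n + 1), s - c ∈ h.J lam hlam (n + 1) := by
  obtain ⟨c, hc, hcz⟩ := h.exists_mem_pow_phi_eq lam hlam hgen n (h.phi lam hlam (n + 1) s) (by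
    rw [factor_phi]; exact (h.mem_J lam hlam n s).mp hs)
  exact ⟨c, hc, by rw [mem_J, map_sub, hcz, sub_self]⟩

variable [IsNoetherianRing 𝒪] [IsAdicComplete (maximalIdeal 𝒪) 𝒪]

include hgen in
theorem J_le_sup (n : ℕ) :
    h.J lam hlam n ≤ (⨅ k, h.J lam hlam k) ⊔
      (maximalIdeal (MvPowerSeries (Fin e) 𝒪)) ^ (n + 1) := by
  intro x hx
  have hstep : ∀ j, ∀ s : {s : MvPowerSeries (Fin e) 𝒪 // s ∈ h.J lam hlam (n + j)},
      ∃ s' : {s : MvPowerSeries (Fin e) 𝒪 // s ∈ h.J lam hlam (n + (j + 1))},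
        s'.1 - s.1 ∈ (maximalIdeal (MvPowerSeries (Fin e) 𝒪)) ^ (n + 1 + j) := by
    intro j s
    obtain ⟨c, hc, hsc⟩ := h.exists_sub_mem_J_succ lam hlam hgen (n + j) s.1 s.2
    refine ⟨⟨s.1 - c, hsc⟩, ?_⟩
    have : s.1 - c - s.1 = -c := by ring
    rw [this, Ideal.neg_mem_iff]
    have e : n + j + 1 = n + 1 + j := by omega
    rwa [e] at hc
  choose next hnext using hstep
  let t : (j : ℕ) → {s : MvPowerSeries (Fin e) 𝒪 // s ∈ h.J lam hlam (n + j)} :=
    fun j => Nat.rec ⟨x, hx⟩ (fun j s => next j s) j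
  have ht0 : (t 0).1 = x := rfl
  have htsucc : ∀ j, t (j + 1) = next j (t j) := fun j => rfl
  obtain ⟨L, hL⟩ := exists_limit_of_succ (maximalIdeal (MvPowerSeries (Fin e) 𝒪))
    (fun j => (t j).1) (n + 1) (fun j => by
      show (t (j + 1)).1 - (t j).1 ∈ _
      rw [htsucc]
      exact hnext j (t j))
  have hLJ : ∀ j, L ∈ h.J lam hlam (n + j) := by
    intro j
    have h1 : L = (L - (t j).1) + (t j).1 := by ring
    rw [h1]
    refine Ideal.add_mem _ (h.pow_le_J lam hlam (n + j) ?_) (t j).2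
    have e : n + j + 1 = n + 1 + j := by omega
    rw [e]
    exact hL j
  have hLinf : L ∈ ⨅ k, h.J lam hlam k := by
    rw [Ideal.mem_iInf]
    intro k
    rcases le_total k n with hk | hk
    · exact h.J_anti' lam hlam hk (by simpa using hLJ 0)
    · obtain ⟨j, rfl⟩ := Nat.exists_eq_add_of_le hk
      exact hLJ j
  have h2 : x = L + -(L - x) := by ring
  rw [h2]
  refine Ideal.add_mem _ (Ideal.mem_sup_left hLinf) (Ideal.mem_sup_right ?_)
  rw [Ideal.neg_mem_iff]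
  have := hL 0
  rwa [ht0, add_zero] at this

include hgen in
theorem exists_phi_eq (x : ∀ n, Λ ⧸ I n)
    (hx : ∀ n, Ideal.Quotient.factorₐ 𝒪 (h.anti n) (x (n + 1)) = x n) :
    ∃ s : MvPowerSeries (Fin e) 𝒪, ∀ n, h.phi lam hlam n s = x n := by
  have hstep : ∀ j, ∀ s : {s : MvPowerSeries (Fin e) 𝒪 // h.phi lam hlam j s = x j},
      ∃ s' : {s : MvPowerSeries (Fin e) 𝒪 // h.phi lam hlam (j + 1) s = x (j + 1)},
        s'.1 - s.1 ∈ (maximalIdeal (MvPowerSeries (Fin e) 𝒪)) ^ (1 + j) := by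
    intro j s
    obtain ⟨c, hc, hcz⟩ := h.exists_mem_pow_phi_eq lam hlam hgen j
      (x (j + 1) - h.phi lam hlam (j + 1) s.1) (by
        rw [map_sub, factor_phi, hx, s.2, sub_self])
    refine ⟨⟨s.1 + c, by rw [map_add, hcz]; ring⟩, ?_⟩
    have : s.1 + c - s.1 = c := by ring
    rw [this]
    have e : j + 1 = 1 + j := by omega
    rwa [e] at hc
  choose next hnext using hstep
  obtain ⟨s0, hs0⟩ := h.phi_surjective lam hlam hgen 0 (x 0)
  let t : (j : ℕ) → {s : MvPowerSeries (Fin e) 𝒪 // h.phi lam hlam j s = x j} :=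
    fun j => Nat.rec ⟨s0, hs0⟩ (fun j s => next j s) j
  have htsucc : ∀ j, t (j + 1) = next j (t j) := fun j => rfl
  obtain ⟨L, hL⟩ := exists_limit_of_succ (maximalIdeal (MvPowerSeries (Fin e) 𝒪))
    (fun j => (t j).1) 1 (fun j => by
      show (t (j + 1)).1 - (t j).1 ∈ _
      rw [htsucc]
      exact hnext j (t j))
  refine ⟨L, fun n => ?_⟩
  have h1 : L - (t n).1 ∈ h.J lam hlam n := by
    apply h.pow_le_J lam hlam n
    have e : n + 1 = 1 + n := by omega
    rw [e]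
    exact hL n
  rw [mem_J, map_sub, sub_eq_zero] at h1
  rw [h1, (t n).2]

omit [IsNoetherianRing 𝒪] [IsAdicComplete (maximalIdeal 𝒪) 𝒪] in
theorem J_ne_top (n : ℕ) : h.J lam hlam n ≠ ⊤ := by
  intro htop
  have h1 : (1 : MvPowerSeries (Fin e) 𝒪) ∈ h.J lam hlam n := by rw [htop]; exact Submodule.mem_top
  rw [mem_J, map_one] at h1
  apply h.map_ne_top n
  rw [Ideal.eq_top_iff_one, h1]
  exact Ideal.zero_mem _

/-- the intersection of all kernels -/
noncomputable def Jinf : Ideal (MvPowerSeries (Fin e) 𝒪) := ⨅ k, h.J lam hlam k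

omit [IsNoetherianRing 𝒪] [IsAdicComplete (maximalIdeal 𝒪) 𝒪] in
theorem Jinf_le (n : ℕ) : h.Jinf lam hlam ≤ h.J lam hlam n := iInf_le _ n

omit [IsNoetherianRing 𝒪] [IsAdicComplete (maximalIdeal 𝒪) 𝒪] in
theorem Jinf_ne_top : h.Jinf lam hlam ≠ ⊤ := by
  intro htop
  apply h.J_ne_top lam hlam 0
  rw [eq_top_iff, ← htop]
  exact h.Jinf_le lam hlam 0

/-- the limit ring, as a quotient of a power series ring -/
abbrev LimR : Type := MvPowerSeries (Fin e) 𝒪 ⧸ h.Jinf lam hlam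

omit [IsNoetherianRing 𝒪] [IsAdicComplete (maximalIdeal 𝒪) 𝒪] in
theorem nontrivial_limR : Nontrivial (h.LimR lam hlam) :=
  Ideal.Quotient.nontrivial_iff.mpr (h.Jinf_ne_top lam hlam)

omit [IsNoetherianRing 𝒪] [IsAdicComplete (maximalIdeal 𝒪) 𝒪] in
theorem isLocalRing_limR : IsLocalRing (h.LimR lam hlam) :=
  haveI := h.nontrivial_limR lam hlam
  IsLocalRing.of_surjective' (Ideal.Quotient.mk (h.Jinf lam hlam)) Ideal.Quotient.mk_surjective

omit [IsNoetherianRing 𝒪] [IsAdicComplete (maximalIdeal 𝒪) 𝒪] in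
theorem isLocalHom_mk_limR :
    haveI := h.isLocalRing_limR lam hlam
    IsLocalHom (Ideal.Quotient.mk (h.Jinf lam hlam)) :=
  haveI := h.isLocalRing_limR lam hlam
  Function.Surjective.isLocalHom _ Ideal.Quotient.mk_surjective

theorem isAdicComplete_limR :
    haveI := h.isLocalRing_limR lam hlam
    IsAdicComplete (maximalIdeal (h.LimR lam hlam)) (h.LimR lam hlam) := by
  haveI := h.isLocalRing_limR lam hlam
  haveI : IsLocalHom (algebraMap (MvPowerSeries (Fin e) 𝒪) (h.LimR lam hlam)) :=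
    h.isLocalHom_mk_limR lam hlam
  exact IsLocalRing.isAdicComplete_of_module_finite (𝒪 := MvPowerSeries (Fin e) 𝒪)
    (T := h.LimR lam hlam)

omit [IsNoetherianRing 𝒪] [IsAdicComplete (maximalIdeal 𝒪) 𝒪] in
theorem mk_mem_maximalIdeal_limR_iff (s : MvPowerSeries (Fin e) 𝒪) :
    haveI := h.isLocalRing_limR lam hlam
    Ideal.Quotient.mk (h.Jinf lam hlam) s ∈ maximalIdeal (h.LimR lam hlam) ↔
      s ∈ maximalIdeal (MvPowerSeries (Fin e) 𝒪) := by
  haveI := h.isLocalRing_limR lam hlam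
  haveI := h.isLocalHom_mk_limR lam hlam
  rw [mem_maximalIdeal, mem_maximalIdeal, mem_nonunits_iff, mem_nonunits_iff,
    isUnit_map_iff]

omit [IsNoetherianRing 𝒪] [IsAdicComplete (maximalIdeal 𝒪) 𝒪] in
theorem maximalIdeal_limR_eq_map :
    haveI := h.isLocalRing_limR lam hlam
    maximalIdeal (h.LimR lam hlam) =
      (maximalIdeal (MvPowerSeries (Fin e) 𝒪)).map (Ideal.Quotient.mk (h.Jinf lam hlam)) := by
  haveI := h.isLocalRing_limR lam hlam
  ext r
  obtain ⟨s, rfl⟩ := Ideal.Quotient.mk_surjective r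
  rw [mk_mem_maximalIdeal_limR_iff, Ideal.mem_map_iff_of_surjective _ Ideal.Quotient.mk_surjective]
  constructor
  · intro hs; exact ⟨s, hs, rfl⟩
  · rintro ⟨s', hs', hss'⟩
    have := (h.mk_mem_maximalIdeal_limR_iff lam hlam s').mpr hs'
    rw [hss'] at this
    exact (h.mk_mem_maximalIdeal_limR_iff lam hlam s).mp this

omit [IsNoetherianRing 𝒪] [IsAdicComplete (maximalIdeal 𝒪) 𝒪] in
theorem isLocalHom_algebraMap_limR :
    haveI := h.isLocalRing_limR lam hlam
    IsLocalHom (algebraMap 𝒪 (h.LimR lam hlam)) := by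
  haveI := h.isLocalRing_limR lam hlam
  haveI := h.isLocalHom_mk_limR lam hlam
  constructor
  intro a ha
  have h1 : algebraMap 𝒪 (h.LimR lam hlam) a =
      Ideal.Quotient.mk (h.Jinf lam hlam) (algebraMap 𝒪 (MvPowerSeries (Fin e) 𝒪) a) :=
    (Ideal.Quotient.mk_algebraMap 𝒪 _ a).symm
  rw [h1, isUnit_map_iff, ← c_eq_algebraMap, isUnit_iff_constantCoeff, constantCoeff_C] at ha
  exact ha

omit [IsNoetherianRing 𝒪] [IsAdicComplete (maximalIdeal 𝒪) 𝒪] in
theorem residue_surjective_limR :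
    haveI := h.isLocalRing_limR lam hlam
    Function.Surjective (IsLocalRing.residue (h.LimR lam hlam) ∘ algebraMap 𝒪 (h.LimR lam hlam)) := by
  haveI := h.isLocalRing_limR lam hlam
  intro z
  obtain ⟨r, rfl⟩ := IsLocalRing.residue_surjective z
  obtain ⟨s, rfl⟩ := Ideal.Quotient.mk_surjective r
  refine ⟨constantCoeff s, ?_⟩
  rw [Function.comp_apply, ← sub_eq_zero, ← map_sub, IsLocalRing.residue_eq_zero_iff,
    ← Ideal.Quotient.mk_algebraMap, ← map_sub, mk_mem_maximalIdeal_limR_iff,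
    mem_maximalIdeal_mvPowerSeries_iff, map_sub, ← c_eq_algebraMap, constantCoeff_C, sub_self]
  exact Ideal.zero_mem _

/-- the projections from the limit ring -/
noncomputable def proj (n : ℕ) : h.LimR lam hlam →ₐ[𝒪] Λ ⧸ I n :=
  Ideal.Quotient.liftₐ (h.Jinf lam hlam) (h.phi lam hlam n)
    (fun a ha => (h.mem_J lam hlam n a).mp (h.Jinf_le lam hlam n ha))

omit [IsNoetherianRing 𝒪] [IsAdicComplete (maximalIdeal 𝒪) 𝒪] in
theorem proj_mk (n : ℕ) (s : MvPowerSeries (Fin e) 𝒪) :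
    h.proj lam hlam n (Ideal.Quotient.mk (h.Jinf lam hlam) s) = h.phi lam hlam n s := rfl

omit [IsNoetherianRing 𝒪] [IsAdicComplete (maximalIdeal 𝒪) 𝒪] in
theorem factor_proj (n : ℕ) (r : h.LimR lam hlam) :
    Ideal.Quotient.factorₐ 𝒪 (h.anti n) (h.proj lam hlam (n + 1) r) = h.proj lam hlam n r := by
  obtain ⟨s, rfl⟩ := Ideal.Quotient.mk_surjective r
  rw [proj_mk, proj_mk, factor_phi]

omit [IsNoetherianRing 𝒪] [IsAdicComplete (maximalIdeal 𝒪) 𝒪] in
theorem eq_of_proj_eq (r r' : h.LimR lam hlam)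
    (hrr' : ∀ n, h.proj lam hlam n r = h.proj lam hlam n r') : r = r' := by
  obtain ⟨s, rfl⟩ := Ideal.Quotient.mk_surjective r
  obtain ⟨s', rfl⟩ := Ideal.Quotient.mk_surjective r'
  rw [Ideal.Quotient.eq, Jinf, Ideal.mem_iInf]
  intro n
  rw [mem_J, map_sub, sub_eq_zero]
  exact hrr' n

include hgen in
theorem exists_proj_eq (x : ∀ n, Λ ⧸ I n)
    (hx : ∀ n, Ideal.Quotient.factorₐ 𝒪 (h.anti n) (x (n + 1)) = x n) :
    ∃ r : h.LimR lam hlam, ∀ n, h.proj lam hlam n r = x n := by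
  obtain ⟨s, hs⟩ := h.exists_phi_eq lam hlam hgen x hx
  exact ⟨Ideal.Quotient.mk _ s, hs⟩

omit [IsNoetherianRing 𝒪] [IsAdicComplete (maximalIdeal 𝒪) 𝒪] in
include hgen in
theorem proj_surjective (n : ℕ) : Function.Surjective (h.proj lam hlam n) := by
  intro a
  obtain ⟨s, hs⟩ := h.phi_surjective lam hlam hgen n a
  exact ⟨Ideal.Quotient.mk _ s, hs⟩

include hgen in
theorem ker_proj (n : ℕ) :
    haveI := h.isLocalRing_limR lam hlam
    RingHom.ker (h.proj lam hlam n) = (maximalIdeal (h.LimR lam hlam)) ^ (n + 1) := by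
  haveI := h.isLocalRing_limR lam hlam
  rw [maximalIdeal_limR_eq_map, ← Ideal.map_pow]
  ext r
  obtain ⟨s, rfl⟩ := Ideal.Quotient.mk_surjective r
  rw [RingHom.mem_ker, proj_mk, ← mem_J,
    ← Ideal.mem_comap, Ideal.comap_map_of_surjective _ Ideal.Quotient.mk_surjective,
    ← RingHom.ker_eq_comap_bot, Ideal.mk_ker]
  constructor
  · intro hs
    have := h.J_le_sup lam hlam hgen n hs
    rwa [sup_comm] at this
  · intro hs
    exact (sup_le (h.pow_le_J lam hlam n) (h.Jinf_le lam hlam n)) hs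

include hgen in
theorem exists_proj_eq_mk (l : Λ) :
    ∃ r : h.LimR lam hlam, ∀ n, h.proj lam hlam n r = Ideal.Quotient.mk (I n) l :=
  h.exists_proj_eq lam hlam hgen (fun n => Ideal.Quotient.mk (I n) l)
    (fun n => Ideal.Quotient.factorₐ_apply_mk 𝒪 (h.anti n) l)

/-- the underlying function of the canonical map `Λ → LimR` -/
noncomputable def iotaFun (l : Λ) : h.LimR lam hlam :=
  Classical.choose (h.exists_proj_eq_mk lam hlam hgen l)

theorem proj_iotaFun (n : ℕ) (l : Λ) :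
    h.proj lam hlam n (h.iotaFun lam hlam hgen l) = Ideal.Quotient.mk (I n) l :=
  Classical.choose_spec (h.exists_proj_eq_mk lam hlam hgen l) n

/-- the canonical map `Λ → LimR` -/
noncomputable def iota : Λ →ₐ[𝒪] h.LimR lam hlam where
  toFun := h.iotaFun lam hlam hgen
  map_one' := h.eq_of_proj_eq lam hlam _ _ fun n => by rw [proj_iotaFun, map_one, map_one]
  map_mul' a b := h.eq_of_proj_eq lam hlam _ _ fun n => by
    rw [map_mul, proj_iotaFun, proj_iotaFun, proj_iotaFun, map_mul]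
  map_zero' := h.eq_of_proj_eq lam hlam _ _ fun n => by rw [proj_iotaFun, map_zero, map_zero]
  map_add' a b := h.eq_of_proj_eq lam hlam _ _ fun n => by
    rw [map_add, proj_iotaFun, proj_iotaFun, proj_iotaFun, map_add]
  commutes' c := h.eq_of_proj_eq lam hlam _ _ fun n => by
    rw [proj_iotaFun, AlgHom.commutes, Ideal.Quotient.mk_algebraMap]

theorem proj_iota (n : ℕ) (l : Λ) :
    h.proj lam hlam n (h.iota lam hlam hgen l) = Ideal.Quotient.mk (I n) l :=
  h.proj_iotaFun lam hlam hgen n l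

theorem comap_iota (n : ℕ) :
    haveI := h.isLocalRing_limR lam hlam
    ((maximalIdeal (h.LimR lam hlam)) ^ (n + 1)).comap (h.iota lam hlam hgen) = I n := by
  haveI := h.isLocalRing_limR lam hlam
  ext l
  rw [Ideal.mem_comap, ← h.ker_proj lam hlam hgen n, RingHom.mem_ker, proj_iota,
    Ideal.Quotient.eq_zero_iff_mem]

theorem exists_sub_iota_mem (n : ℕ) (x : h.LimR lam hlam) :
    haveI := h.isLocalRing_limR lam hlam
    ∃ l : Λ, x - h.iota lam hlam hgen l ∈ (maximalIdeal (h.LimR lam hlam)) ^ (n + 1) := by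
  haveI := h.isLocalRing_limR lam hlam
  obtain ⟨l, hl⟩ := Ideal.Quotient.mk_surjective (h.proj lam hlam n x)
  refine ⟨l, ?_⟩
  rw [← h.ker_proj lam hlam hgen n, RingHom.mem_ker, map_sub, proj_iota, hl, sub_self]

end Gens

end TowerHyp

end Fermat.Agent.S53
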