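import Mathlib
import Fermat.Agent.S53.LimitRing

/-!
Abstract "least good ideal" tower: from a family of predicates `G n` on ideals of `Λ`, closed
under binary intersections and with uniformly bounded finite quotients, we produce the least
ideals `I n` and the tower relations needed for `TowerHyp`.
-/

set_option autoImplicit false

namespace Fermat.Agent.S53

/-- A nonempty family of ideals, closed under binary intersections, all of whose quotients are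
finite of uniformly bounded cardinality, has a least element. -/
theorem exists_least_of_inf_closed_of_card_le {Λ : Type*} [CommRing Λ] (G : Ideal Λ → Prop)
    (hne : ∃ J, G J) (hinf : ∀ J₁ J₂, G J₁ → G J₂ → G (J₁ ⊓ J₂))
    (N : ℕ) (hcard : ∀ J, G J → Finite (Λ ⧸ J) ∧ Nat.card (Λ ⧸ J) ≤ N) :
    ∃ I, G I ∧ ∀ J, G J → I ≤ J := by
  classical
  -- the set of cardinalities
  let C : Set ℕ := {c | ∃ J, G J ∧ Nat.card (Λ ⧸ J) = c}
  have hCne : C.Nonempty := by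
    obtain ⟨J, hJ⟩ := hne
    exact ⟨_, J, hJ, rfl⟩
  have hCbdd : BddAbove C := ⟨N, by rintro c ⟨J, hJ, rfl⟩; exact (hcard J hJ).2⟩
  obtain ⟨J₀, hJ₀, hc₀⟩ : sSup C ∈ C := Nat.sSup_mem hCne hCbdd
  refine ⟨J₀, hJ₀, fun J hJ => ?_⟩
  have hG : G (J₀ ⊓ J) := hinf _ _ hJ₀ hJ
  have : Finite (Λ ⧸ (J₀ ⊓ J)) := (hcard _ hG).1
  have : Finite (Λ ⧸ J₀) := (hcard _ hJ₀).1
  have hle : Nat.card (Λ ⧸ (J₀ ⊓ J)) ≤ Nat.card (Λ ⧸ J₀) := by
    rw [hc₀]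
    exact le_csSup hCbdd ⟨_, hG, rfl⟩
  have hsurj : Function.Surjective (Ideal.Quotient.factor (inf_le_left : J₀ ⊓ J ≤ J₀)) :=
    Ideal.Quotient.factor_surjective _
  have hbij := hsurj.bijective_of_nat_card_le hle
  intro x hx
  have h0 : Ideal.Quotient.factor (inf_le_left : J₀ ⊓ J ≤ J₀) (Ideal.Quotient.mk _ x) =
      Ideal.Quotient.factor (inf_le_left : J₀ ⊓ J ≤ J₀) 0 := by
    rw [Ideal.Quotient.factor_mk, map_zero, Ideal.Quotient.eq_zero_iff_mem]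
    exact hx
  have h1 := hbij.1 h0
  rw [Ideal.Quotient.eq_zero_iff_mem] at h1
  exact h1.2

/-- The tower of least good ideals. -/
theorem exists_goodTower {Λ : Type*} [CommRing Λ] (M : Ideal Λ) (G : ℕ → Ideal Λ → Prop)
    (hne : ∀ n, ∃ J, G n J)
    (hinf : ∀ n J₁ J₂, G n J₁ → G n J₂ → G n (J₁ ⊓ J₂))
    (hcard : ∀ n, ∃ N : ℕ, ∀ J, G n J → Finite (Λ ⧸ J) ∧ Nat.card (Λ ⧸ J) ≤ N)
    (hle : ∀ n J, G n J → J ≤ M) (hpow : ∀ n J, G n J → M ^ (n + 1) ≤ J)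
    (hsucc : ∀ n J, G n J → G (n + 1) J)
    (hsup : ∀ n J, G (n + 1) J → G n (J ⊔ M ^ (n + 1))) :
    ∃ I : ℕ → Ideal Λ, (∀ n, G n (I n)) ∧ (∀ n J, G n J → I n ≤ J) ∧ (∀ n, I n ≤ M) ∧
      (∀ n, M ^ (n + 1) ≤ I n) ∧ (∀ n, I (n + 1) ≤ I n) ∧
      (∀ n, I n ≤ I (n + 1) ⊔ M ^ (n + 1)) ∧ ∀ n, Finite (Λ ⧸ I n) := by
  have hex : ∀ n, ∃ I, G n I ∧ ∀ J, G n J → I ≤ J := by
    intro n
    obtain ⟨N, hN⟩ := hcard n
    exact exists_least_of_inf_closed_of_card_le (G n) (hne n) (hinf n) N hN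
  choose I hI hmin using hex
  refine ⟨I, hI, hmin, fun n => hle n _ (hI n), fun n => hpow n _ (hI n),
    fun n => hmin (n + 1) _ (hsucc n _ (hI n)), fun n => hmin n _ (hsup n _ (hI (n + 1))),
    fun n => ?_⟩
  obtain ⟨N, hN⟩ := hcard n
  exact (hN _ (hI n)).1

/-- Packaging the tower of least good ideals as a `TowerHyp`. -/
theorem towerHyp_of_goodTower {𝒪 : Type} [CommRing 𝒪] [IsLocalRing 𝒪] {Λ : Type} [CommRing Λ]
    [Algebra 𝒪 Λ] (M : Ideal Λ) (I : ℕ → Ideal Λ) (hM : M ≠ ⊤)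
    (hres : Function.Surjective (Ideal.Quotient.mk M ∘ algebraMap 𝒪 Λ))
    (hmap : (IsLocalRing.maximalIdeal 𝒪).map (algebraMap 𝒪 Λ) ≤ M)
    (h1 : ∀ n, I n ≤ M) (h2 : ∀ n, M ^ (n + 1) ≤ I n) (h3 : ∀ n, I (n + 1) ≤ I n)
    (h4 : ∀ n, I n ≤ I (n + 1) ⊔ M ^ (n + 1)) : TowerHyp 𝒪 Λ M I :=
  ⟨hM, hres, hmap, h1, h2, h3, h4⟩

end Fermat.Agent.S53
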