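import Mathlib
import Fermat.Prelude.Def_GaloisRep_DeformationCondition

set_option autoImplicit false

namespace Fermat.Agent.S53

open IsLocalRing

section fibreSquare

variable (𝒪 : Type) {Λ : Type} [CommRing 𝒪] [CommRing Λ] [Algebra 𝒪 Λ] (I₁ I₂ : Ideal Λ)

/-- The square of quotients by `I₁ ⊓ I₂`, `I₁`, `I₂`, `I₁ ⊔ I₂` commutes. -/
lemma testAlg_factor_comp :
    (Ideal.Quotient.factorₐ 𝒪 (le_sup_left : I₁ ≤ I₁ ⊔ I₂)).comp
        (Ideal.Quotient.factorₐ 𝒪 (inf_le_left : I₁ ⊓ I₂ ≤ I₁)) =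
      (Ideal.Quotient.factorₐ 𝒪 (le_sup_right : I₂ ≤ I₁ ⊔ I₂)).comp
        (Ideal.Quotient.factorₐ 𝒪 (inf_le_right : I₁ ⊓ I₂ ≤ I₂)) := by
  apply AlgHom.ext
  intro x
  obtain ⟨l, rfl⟩ := Ideal.Quotient.mk_surjective x
  simp only [AlgHom.comp_apply, Ideal.Quotient.factorₐ_apply_mk]

/-- The quotient by `I₁ ⊓ I₂` embeds in the product of the quotients by `I₁` and `I₂`. -/
lemma testAlg_factor_injective :
    Function.Injective fun x : Λ ⧸ (I₁ ⊓ I₂) =>
      (Ideal.Quotient.factorₐ 𝒪 (inf_le_left : I₁ ⊓ I₂ ≤ I₁) x,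
        Ideal.Quotient.factorₐ 𝒪 (inf_le_right : I₁ ⊓ I₂ ≤ I₂) x) := by
  intro x y hxy
  obtain ⟨a, rfl⟩ := Ideal.Quotient.mk_surjective x
  obtain ⟨b, rfl⟩ := Ideal.Quotient.mk_surjective y
  have h1 := congrArg Prod.fst hxy
  have h2 := congrArg Prod.snd hxy
  simp only [Ideal.Quotient.factorₐ_apply_mk] at h1 h2
  rw [Ideal.Quotient.eq] at h1 h2 ⊢
  exact ⟨h1, h2⟩

/-- The quotient by `I₁ ⊓ I₂` is the fibre product of the quotients by `I₁` and `I₂` over the
quotient by `I₁ ⊔ I₂`. -/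
lemma testAlg_factor_surjective (a : Λ ⧸ I₁) (b : Λ ⧸ I₂)
    (hab : Ideal.Quotient.factorₐ 𝒪 (le_sup_left : I₁ ≤ I₁ ⊔ I₂) a =
      Ideal.Quotient.factorₐ 𝒪 (le_sup_right : I₂ ≤ I₁ ⊔ I₂) b) :
    ∃ x : Λ ⧸ (I₁ ⊓ I₂),
      Ideal.Quotient.factorₐ 𝒪 (inf_le_left : I₁ ⊓ I₂ ≤ I₁) x = a ∧
        Ideal.Quotient.factorₐ 𝒪 (inf_le_right : I₁ ⊓ I₂ ≤ I₂) x = b := by
  obtain ⟨u, rfl⟩ := Ideal.Quotient.mk_surjective a
  obtain ⟨v, rfl⟩ := Ideal.Quotient.mk_surjective b
  simp only [Ideal.Quotient.factorₐ_apply_mk] at hab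
  rw [Ideal.Quotient.eq, Submodule.mem_sup] at hab
  obtain ⟨y, hy, z, hz, hyz⟩ := hab
  refine ⟨Ideal.Quotient.mk _ (u - y), ?_, ?_⟩
  · rw [Ideal.Quotient.factorₐ_apply_mk, Ideal.Quotient.eq]
    have : u - y - u = -y := by ring
    rw [this]
    exact I₁.neg_mem hy
  · rw [Ideal.Quotient.factorₐ_apply_mk, Ideal.Quotient.eq]
    have : u - y - v = z := by linear_combination -hyz
    rw [this]
    exact hz

end fibreSquare

section testAlgebras

variable {𝒪 : Type} [CommRing 𝒪] [IsLocalRing 𝒪]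
  {A B : Type} [CommRing A] [IsLocalRing A] [Algebra 𝒪 A] [CommRing B] [IsLocalRing B] [Algebra 𝒪 B]

omit [IsLocalRing 𝒪] in
/-- The image of an Artinian test algebra under a surjective algebra homomorphism onto a local
ring is an Artinian test algebra. -/
lemma testAlg_of_surjective (hA : GaloisRep.IsArtinianTestAlgebra 𝒪 A) (φ : A →ₐ[𝒪] B)
    (hφ : Function.Surjective φ) : GaloisRep.IsArtinianTestAlgebra 𝒪 B := by
  have hloc : IsLocalHom (φ : A →+* B) := IsLocalHom.of_surjective (φ : A →+* B) hφ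
  have hAl := hA.isLocalHom
  refine ⟨?_, ?_, ?_⟩
  · constructor
    intro o ho
    have h1 : IsUnit ((φ : A →+* B) (algebraMap 𝒪 A o)) := by
      have : (φ : A →+* B) (algebraMap 𝒪 A o) = algebraMap 𝒪 B o := φ.commutes o
      rw [this]; exact ho
    exact hAl.map_nonunit o (hloc.map_nonunit _ h1)
  · intro y
    obtain ⟨b, rfl⟩ := residue_surjective y
    obtain ⟨a, rfl⟩ := hφ b
    obtain ⟨o, ho⟩ := hA.residue_surjective (residue A a)
    refine ⟨o, ?_⟩
    have h1 : residue A (algebraMap 𝒪 A o - a) = 0 := by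
      rw [map_sub]
      exact sub_eq_zero.mpr ho
    rw [residue_eq_zero_iff] at h1
    have h2 : (φ : A →+* B) (algebraMap 𝒪 A o - a) ∈ maximalIdeal B := by
      by_contra hcon
      have hu : IsUnit ((φ : A →+* B) (algebraMap 𝒪 A o - a)) := by
        by_contra hnu
        exact hcon hnu
      exact h1 (hloc.map_nonunit _ hu)
    rw [map_sub, show (φ : A →+* B) (algebraMap 𝒪 A o) = algebraMap 𝒪 B o from φ.commutes o,
      ← residue_eq_zero_iff, map_sub, sub_eq_zero] at h2
    exact h2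
  · have := hA.isArtinian
    exact Function.Surjective.isArtinianRing (f := (φ : A →+* B)) hφ

/-- An Artinian test algebra over a local ring with finite residue field is a finite ring. -/
lemma testAlg_finite [Finite (ResidueField 𝒪)] (hA : GaloisRep.IsArtinianTestAlgebra 𝒪 A) :
    Finite A := by
  have := hA.isArtinian
  have := hA.isLocalHom
  have hsurj : Function.Surjective (ResidueField.map (algebraMap 𝒪 A)) := by
    intro y
    obtain ⟨o, ho⟩ := hA.residue_surjective y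
    exact ⟨residue 𝒪 o, by rw [ResidueField.map_residue]; exact ho⟩
  have hfin : Finite (A ⧸ maximalIdeal A) :=
    Finite.of_surjective (ResidueField.map (algebraMap 𝒪 A)) hsurj
  have hfg : (maximalIdeal A).FG := (inferInstance : IsNoetherianRing A).noetherian _
  have h1 : IsNilpotent (Ideal.jacobson (⊥ : Ideal A)) := IsArtinianRing.isNilpotent_jacobson_bot
  rw [IsLocalRing.jacobson_eq_maximalIdeal ⊥ bot_ne_top] at h1
  obtain ⟨n, hn⟩ := h1
  have h2 : Finite (A ⧸ maximalIdeal A ^ n) := Ideal.finite_quotient_pow hfg n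
  rw [hn, Ideal.zero_eq_bot] at h2
  exact Finite.of_equiv _ (RingEquiv.quotientBot A).toEquiv

/-- A local `𝒪`-algebra that embeds into an Artinian test algebra is an Artinian test algebra,
when the residue field of `𝒪` is finite. -/
lemma testAlg_of_injective [Finite (ResidueField 𝒪)] (hB : GaloisRep.IsArtinianTestAlgebra 𝒪 B)
    (φ : A →ₐ[𝒪] B) (hφ : Function.Injective φ) : GaloisRep.IsArtinianTestAlgebra 𝒪 A := by
  have hBfin : Finite B := testAlg_finite hB
  have hAfin : Finite A := Finite.of_injective φ hφ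
  have hBl := hB.isLocalHom
  have := hB.isArtinian
  refine ⟨?_, ?_, inferInstance⟩
  · constructor
    intro o ho
    have h1 : IsUnit (algebraMap 𝒪 B o) := by
      rw [← φ.commutes o]
      exact ho.map φ
    exact hBl.map_nonunit o h1
  · intro y
    obtain ⟨a, rfl⟩ := residue_surjective y
    obtain ⟨o, ho⟩ := hB.residue_surjective (residue B (φ a))
    refine ⟨o, ?_⟩
    have h1 : residue B (algebraMap 𝒪 B o - φ a) = 0 := by
      rw [map_sub]
      exact sub_eq_zero.mpr ho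
    rw [residue_eq_zero_iff] at h1
    have hnil : IsNilpotent (algebraMap 𝒪 B o - φ a) := by
      have h3 : IsNilpotent (Ideal.jacobson (⊥ : Ideal B)) :=
        IsArtinianRing.isNilpotent_jacobson_bot
      rw [IsLocalRing.jacobson_eq_maximalIdeal ⊥ bot_ne_top] at h3
      obtain ⟨n, hn⟩ := h3
      refine ⟨n, ?_⟩
      have h4 := Ideal.pow_mem_pow h1 n
      rwa [hn, Ideal.zero_eq_bot, Ideal.mem_bot] at h4
    have hnilA : IsNilpotent (algebraMap 𝒪 A o - a) := by
      obtain ⟨n, hn⟩ := hnil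
      refine ⟨n, hφ ?_⟩
      rw [map_pow, map_sub, φ.commutes, hn, map_zero]
    have hmem : algebraMap 𝒪 A o - a ∈ maximalIdeal A := by
      by_contra hcon
      have hu : IsUnit (algebraMap 𝒪 A o - a) := by
        by_contra hnu
        exact hcon hnu
      obtain ⟨n, hn⟩ := hnilA
      have h5 := hu.pow n
      rw [hn] at h5
      exact not_isUnit_zero h5
    rw [← residue_eq_zero_iff, map_sub, sub_eq_zero] at hmem
    exact hmem

end testAlgebras

end Fermat.Agent.S53
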