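import Fermat.Agent.S53.SliceProps

/-!
Glue: the kernel of the base point of `Lam 𝒪` satisfies the input hypotheses of the limit ring.
-/

set_option autoImplicit false

namespace Fermat.Agent.S53

open IsLocalRing

variable {𝒪 : Type} [CommRing 𝒪] [IsLocalRing 𝒪] (S : SliceData 𝒪)

/-- The kernel of the base point. -/
noncomputable def baseIdeal : Ideal (Lam 𝒪) := RingHom.ker (basePoint S)

theorem basePoint_algebraMap (a : 𝒪) : basePoint S (algebraMap 𝒪 (Lam 𝒪) a) = residue 𝒪 a := by
  rw [AlgHom.commutes]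
  rfl

theorem basePoint_surjective : Function.Surjective (basePoint S) := by
  intro x
  obtain ⟨a, rfl⟩ := residue_surjective x
  exact ⟨algebraMap 𝒪 (Lam 𝒪) a, basePoint_algebraMap S a⟩

theorem baseIdeal_ne_top : baseIdeal S ≠ ⊤ :=
  RingHom.ker_ne_top _

theorem baseIdeal_isMaximal : (baseIdeal S).IsMaximal :=
  RingHom.ker_isMaximal_of_surjective _ (basePoint_surjective S)

theorem surjective_mk_baseIdeal :
    Function.Surjective (Ideal.Quotient.mk (baseIdeal S) ∘ algebraMap 𝒪 (Lam 𝒪)) := by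
  intro x
  obtain ⟨l, rfl⟩ := Ideal.Quotient.mk_surjective x
  obtain ⟨a, ha⟩ := residue_surjective (basePoint S l)
  refine ⟨a, ?_⟩
  rw [Function.comp_apply, Ideal.Quotient.eq]
  show _ ∈ RingHom.ker (basePoint S)
  rw [RingHom.mem_ker, map_sub, basePoint_algebraMap, ha, sub_self]

theorem map_maximalIdeal_le_baseIdeal :
    (maximalIdeal 𝒪).map (algebraMap 𝒪 (Lam 𝒪)) ≤ baseIdeal S := by
  rw [Ideal.map_le_iff_le_comap]
  intro a ha
  show _ ∈ RingHom.ker (basePoint S)
  rw [RingHom.mem_ker, basePoint_algebraMap, residue_eq_zero_iff]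
  exact ha

end Fermat.Agent.S53
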