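import Mathlib
import Fermat.Prelude.Def_GaloisRep_DeformationCondition
import Fermat.Agent.S53.SliceProps
import Fermat.Agent.S53.TowerInput
import Fermat.Agent.S53.TestAlgebra
import Fermat.Agent.S53.GoodTower

set_option autoImplicit false

namespace Fermat.Agent.S53

noncomputable section

open IsLocalRing

section quotientLocal

variable {Λ : Type} [CommRing Λ] (M : Ideal Λ) {I : Ideal Λ} {k : ℕ}

/-- Modulo an ideal containing a power of `M`, elements of `M` are nilpotent. -/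
lemma gq_isNilpotent_mk (h1 : M ^ k ≤ I) {l : Λ} (hl : l ∈ M) :
    IsNilpotent (Ideal.Quotient.mk I l) := by
  refine ⟨k, ?_⟩
  rw [← map_pow, Ideal.Quotient.eq_zero_iff_mem]
  exact h1 (Ideal.pow_mem_pow hl k)

/-- Modulo an ideal containing a power of the maximal ideal `M`, elements outside `M` are units. -/
lemma gq_isUnit_mk (hM : M.IsMaximal) (h1 : M ^ k ≤ I) {l : Λ} (hl : l ∉ M) :
    IsUnit (Ideal.Quotient.mk I l) := by
  obtain ⟨y, i, hi, hyi⟩ := hM.exists_inv hl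
  have h2 : Ideal.Quotient.mk I y * Ideal.Quotient.mk I l = 1 - Ideal.Quotient.mk I i := by
    rw [← map_mul, ← map_one (Ideal.Quotient.mk I), ← map_sub]
    congr 1
    linear_combination hyi
  have h3 : IsUnit (Ideal.Quotient.mk I y * Ideal.Quotient.mk I l) := by
    rw [h2]
    exact (gq_isNilpotent_mk M h1 hi).isUnit_one_sub
  exact isUnit_of_mul_isUnit_right h3

/-- The quotient by an ideal between a power of a maximal ideal `M` and `M` is local. -/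
lemma gq_isLocalRing_quotient (hM : M.IsMaximal) (h1 : M ^ k ≤ I) (h2 : I ≤ M) :
    IsLocalRing (Λ ⧸ I) := by
  have hne : I ≠ ⊤ := fun h => hM.ne_top (top_le_iff.mp (h ▸ h2))
  have : Nontrivial (Λ ⧸ I) := Ideal.Quotient.nontrivial_iff.mpr hne
  apply IsLocalRing.of_isUnit_or_isUnit_one_sub_self
  intro a
  obtain ⟨l, rfl⟩ := Ideal.Quotient.mk_surjective a
  by_cases hl : l ∈ M
  · exact Or.inr (gq_isNilpotent_mk M h1 hl).isUnit_one_sub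
  · exact Or.inl (gq_isUnit_mk M hM h1 hl)

/-- Description of the maximal ideal of such a quotient. -/
lemma gq_mk_mem_maximalIdeal_iff (hM : M.IsMaximal) (h1 : M ^ k ≤ I) [IsLocalRing (Λ ⧸ I)]
    (l : Λ) : Ideal.Quotient.mk I l ∈ maximalIdeal (Λ ⧸ I) ↔ l ∈ M := by
  constructor
  · intro h
    by_contra hl
    exact h (gq_isUnit_mk M hM h1 hl)
  · intro hl hu
    obtain ⟨n, hn⟩ := gq_isNilpotent_mk M h1 hl
    have h3 := hu.pow n
    rw [hn] at h3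
    exact not_isUnit_zero h3

/-- The maximal ideal of such a quotient is nilpotent of exponent `k`. -/
lemma gq_maximalIdeal_pow_eq_bot (hM : M.IsMaximal) (h1 : M ^ k ≤ I) [IsLocalRing (Λ ⧸ I)] :
    maximalIdeal (Λ ⧸ I) ^ k = ⊥ := by
  have hle : maximalIdeal (Λ ⧸ I) ≤ M.map (Ideal.Quotient.mk I) := by
    intro x hx
    obtain ⟨l, rfl⟩ := Ideal.Quotient.mk_surjective x
    exact Ideal.mem_map_of_mem _ ((gq_mk_mem_maximalIdeal_iff M hM h1 l).mp hx)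
  rw [eq_bot_iff]
  calc maximalIdeal (Λ ⧸ I) ^ k ≤ (M.map (Ideal.Quotient.mk I)) ^ k := Ideal.pow_right_mono hle k
    _ = (M ^ k).map (Ideal.Quotient.mk I) := (Ideal.map_pow _ _ _).symm
    _ ≤ I.map (Ideal.Quotient.mk I) := Ideal.map_mono h1
    _ = ⊥ := Ideal.map_quotient_self I

end quotientLocal

section baseIdealFacts

variable {𝒪 : Type} [CommRing 𝒪] [IsLocalRing 𝒪] (S : SliceData 𝒪)

lemma gq_mem_baseIdeal_iff (l : Lam 𝒪) : l ∈ baseIdeal S ↔ basePoint S l = 0 := Iff.rfl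

/-- A quotient of `Lam 𝒪` by an ideal between a power of the base ideal and the base ideal, if
finite, is an Artinian test algebra. -/
lemma gq_testAlg_quotient {I : Ideal (Lam 𝒪)} {k : ℕ} (h1 : baseIdeal S ^ k ≤ I)
    [IsLocalRing (Lam 𝒪 ⧸ I)] [Finite (Lam 𝒪 ⧸ I)] :
    GaloisRep.IsArtinianTestAlgebra 𝒪 (Lam 𝒪 ⧸ I) := by
  have hM := baseIdeal_isMaximal S
  refine ⟨?_, ?_, inferInstance⟩
  · constructor
    intro o ho
    have h3 : algebraMap 𝒪 (Lam 𝒪) o ∉ baseIdeal S := by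
      intro hmem
      have := (gq_mk_mem_maximalIdeal_iff (baseIdeal S) hM h1 (algebraMap 𝒪 (Lam 𝒪) o)).mpr hmem
      exact this ho
    rw [gq_mem_baseIdeal_iff, basePoint_algebraMap, residue_eq_zero_iff] at h3
    by_contra hcon
    exact h3 hcon
  · intro y
    obtain ⟨x, rfl⟩ := residue_surjective y
    obtain ⟨l, rfl⟩ := Ideal.Quotient.mk_surjective x
    obtain ⟨o, ho⟩ := residue_surjective (basePoint S l)
    refine ⟨o, ?_⟩
    have h3 : algebraMap 𝒪 (Lam 𝒪) o - l ∈ baseIdeal S := by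
      rw [gq_mem_baseIdeal_iff, map_sub, basePoint_algebraMap, ho, sub_self]
    have h4 := (gq_mk_mem_maximalIdeal_iff (baseIdeal S) hM h1 _).mpr h3
    rw [← residue_eq_zero_iff, map_sub, map_sub, sub_eq_zero] at h4
    exact h4

end baseIdealFacts

section goodResidue

variable {𝒪 : Type} [CommRing 𝒪] [IsLocalRing 𝒪] (S : SliceData 𝒪)
  (𝒟 : ∀ ⦃A : Type⦄ [CommRing A] [IsLocalRing A] [Algebra 𝒪 A], GaloisRepAdic A → Prop)
  {B : Type} [CommRing B] [IsLocalRing B] [Algebra 𝒪 B]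

/-- The residual point of a good point is the base point. -/
lemma gq_good_residue [IsLocalHom (algebraMap 𝒪 B)] {f : Lam 𝒪 →ₐ[𝒪] B} (hf : good S 𝒟 f)
    (l : Lam 𝒪) :
    residue B (f l) = ResidueField.map (algebraMap 𝒪 B) (basePoint S l) := by
  obtain ⟨r, hr1, hr2⟩ := (good_iff S 𝒟 f).mp hf
  have key : (residue B).comp (f : Lam 𝒪 →+* B) =
      (ResidueField.map (algebraMap 𝒪 B)).comp (basePoint S : Lam 𝒪 →+* ResidueField 𝒪) := by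
    apply MvPolynomial.ringHom_ext
    · intro o
      rw [RingHom.comp_apply, RingHom.comp_apply, ← MvPolynomial.algebraMap_eq]
      have e1 : (f : Lam 𝒪 →+* B) (algebraMap 𝒪 (Lam 𝒪) o) = algebraMap 𝒪 B o := f.commutes o
      have e2 : (basePoint S : Lam 𝒪 →+* ResidueField 𝒪) (algebraMap 𝒪 (Lam 𝒪) o) =
          residue 𝒪 o := basePoint_algebraMap S o
      rw [e1, e2, ResidueField.map_residue]
    · rintro ⟨σ, i, j⟩
      rw [RingHom.comp_apply, RingHom.comp_apply]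
      have e1 : (f : Lam 𝒪 →+* B) (MvPolynomial.X (σ, i, j)) = r σ i j := by
        rw [hr1 σ]
        rfl
      have e2 : (basePoint S : Lam 𝒪 →+* ResidueField 𝒪) (MvPolynomial.X (σ, i, j)) =
          S.rb σ i j := evalHom_X _ σ i j
      rw [e1, e2]
      have h3 := congrFun (congrFun (hr2.lift σ) i) j
      simp only [Matrix.map_apply] at h3
      exact h3
  exact congrArg (fun φ : Lam 𝒪 →+* ResidueField B => φ l) key

lemma gq_ker_le_baseIdeal [IsLocalHom (algebraMap 𝒪 B)] {f : Lam 𝒪 →ₐ[𝒪] B}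
    (hf : good S 𝒟 f) : RingHom.ker f ≤ baseIdeal S := by
  intro l hl
  rw [RingHom.mem_ker] at hl
  have h1 := gq_good_residue S 𝒟 hf l
  rw [hl, map_zero] at h1
  rw [gq_mem_baseIdeal_iff]
  exact ((map_eq_zero _).mp h1.symm)

lemma gq_map_mem_maximalIdeal [IsLocalHom (algebraMap 𝒪 B)] {f : Lam 𝒪 →ₐ[𝒪] B}
    (hf : good S 𝒟 f) {l : Lam 𝒪} (hl : l ∈ baseIdeal S) : f l ∈ maximalIdeal B := by
  rw [← residue_eq_zero_iff, gq_good_residue S 𝒟 hf l, (gq_mem_baseIdeal_iff S l).mp hl, map_zero]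

lemma gq_pow_le_ker [IsLocalHom (algebraMap 𝒪 B)] {f : Lam 𝒪 →ₐ[𝒪] B} (hf : good S 𝒟 f)
    {n : ℕ} (hn : maximalIdeal B ^ n = ⊥) : baseIdeal S ^ n ≤ RingHom.ker f := by
  have h1 : (baseIdeal S).map (f : Lam 𝒪 →+* B) ≤ maximalIdeal B := by
    rw [Ideal.map_le_iff_le_comap]
    intro l hl
    exact gq_map_mem_maximalIdeal S 𝒟 hf hl
  intro l hl
  rw [RingHom.mem_ker]
  have h2 : (f : Lam 𝒪 →+* B) l ∈ ((baseIdeal S) ^ n).map (f : Lam 𝒪 →+* B) :=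
    Ideal.mem_map_of_mem _ hl
  rw [Ideal.map_pow] at h2
  have h3 := Ideal.pow_right_mono h1 n h2
  rwa [hn, Ideal.mem_bot] at h3

end goodResidue

section goodIdeals

variable {𝒪 : Type} [CommRing 𝒪] [IsLocalRing 𝒪] (S : SliceData 𝒪)
  (𝒟 : ∀ ⦃A : Type⦄ [CommRing A] [IsLocalRing A] [Algebra 𝒪 A], GaloisRepAdic A → Prop)

/-- `J` is a good ideal of level `n`: it lies between `M ^ (n + 1)` and `M`, has finite quotient,
and the quotient map is a good point. -/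
def IsGoodQuot (n : ℕ) (J : Ideal (Lam 𝒪)) : Prop :=
  baseIdeal S ^ (n + 1) ≤ J ∧ J ≤ baseIdeal S ∧ Finite (Lam 𝒪 ⧸ J) ∧
    ∃ _ : IsLocalRing (Lam 𝒪 ⧸ J), good S 𝒟 (Ideal.Quotient.mkₐ 𝒪 J)

variable {S 𝒟}

lemma IsGoodQuot.isLocalRing {n : ℕ} {J : Ideal (Lam 𝒪)} (h : IsGoodQuot S 𝒟 n J) :
    IsLocalRing (Lam 𝒪 ⧸ J) :=
  gq_isLocalRing_quotient (baseIdeal S) (baseIdeal_isMaximal S) h.1 h.2.1

lemma IsGoodQuot.good_mk {n : ℕ} {J : Ideal (Lam 𝒪)} (h : IsGoodQuot S 𝒟 n J)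
    [IsLocalRing (Lam 𝒪 ⧸ J)] : good S 𝒟 (Ideal.Quotient.mkₐ 𝒪 J) := by
  obtain ⟨-, -, -, _, hg⟩ := h
  exact hg

lemma IsGoodQuot.testAlg {n : ℕ} {J : Ideal (Lam 𝒪)} (h : IsGoodQuot S 𝒟 n J)
    [IsLocalRing (Lam 𝒪 ⧸ J)] : GaloisRep.IsArtinianTestAlgebra 𝒪 (Lam 𝒪 ⧸ J) := by
  have := h.2.2.1
  exact gq_testAlg_quotient S h.1

lemma IsGoodQuot.pow_eq_bot {n : ℕ} {J : Ideal (Lam 𝒪)} (h : IsGoodQuot S 𝒟 n J)
    [IsLocalRing (Lam 𝒪 ⧸ J)] : maximalIdeal (Lam 𝒪 ⧸ J) ^ (n + 1) = ⊥ :=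
  gq_maximalIdeal_pow_eq_bot (baseIdeal S) (baseIdeal_isMaximal S) h.1

/-- Constructor: an ideal in the right range with finite quotient whose quotient map is good. -/
lemma IsGoodQuot.mk' {n : ℕ} {J : Ideal (Lam 𝒪)} (h1 : baseIdeal S ^ (n + 1) ≤ J)
    (h2 : J ≤ baseIdeal S) (h3 : Finite (Lam 𝒪 ⧸ J))
    (h4 : ∀ [IsLocalRing (Lam 𝒪 ⧸ J)], GaloisRep.IsArtinianTestAlgebra 𝒪 (Lam 𝒪 ⧸ J) →
      good S 𝒟 (Ideal.Quotient.mkₐ 𝒪 J)) : IsGoodQuot S 𝒟 n J := by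
  have hl : IsLocalRing (Lam 𝒪 ⧸ J) :=
    gq_isLocalRing_quotient (baseIdeal S) (baseIdeal_isMaximal S) h1 h2
  exact ⟨h1, h2, h3, hl, h4 (gq_testAlg_quotient S h1)⟩

/-- The kernel of a good point of a test algebra of level `n` is a good ideal of level `n`. -/
theorem gq_isGoodQuot_ker (h𝒟 : GaloisRep.IsDeformationCondition 𝒪 𝒟)
    [Finite (ResidueField 𝒪)] {n : ℕ}
    {B : Type} [CommRing B] [IsLocalRing B] [Algebra 𝒪 B]
    (hB : GaloisRep.IsArtinianTestAlgebra 𝒪 B) (hn : maximalIdeal B ^ (n + 1) = ⊥)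
    {f : Lam 𝒪 →ₐ[𝒪] B} (hf : good S 𝒟 f) : IsGoodQuot S 𝒟 n (RingHom.ker f) := by
  have := hB.isLocalHom
  have hBfin : Finite B := testAlg_finite hB
  have hfin : Finite (Lam 𝒪 ⧸ RingHom.ker f) :=
    Finite.of_injective _ (Ideal.kerLiftAlg_injective f)
  refine IsGoodQuot.mk' (gq_pow_le_ker S 𝒟 hf hn) (gq_ker_le_baseIdeal S 𝒟 hf) hfin ?_
  intro _ hQ
  refine good_of_comp_injective S 𝒟 h𝒟 hQ hB (Ideal.kerLiftAlg f) (Ideal.kerLiftAlg_injective f) ?_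
  have e : (Ideal.kerLiftAlg f).comp (Ideal.Quotient.mkₐ 𝒪 (RingHom.ker f)) = f := by
    apply AlgHom.ext
    intro l
    rfl
  rw [e]
  exact hf

/-- A point of a test algebra killing a good ideal is good. -/
theorem IsGoodQuot.good_of_le (h𝒟 : GaloisRep.IsDeformationCondition 𝒪 𝒟) {n : ℕ}
    {J : Ideal (Lam 𝒪)} (hJ : IsGoodQuot S 𝒟 n J)
    {B : Type} [CommRing B] [IsLocalRing B] [Algebra 𝒪 B]
    (hB : GaloisRep.IsArtinianTestAlgebra 𝒪 B) (f : Lam 𝒪 →ₐ[𝒪] B)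
    (hle : J ≤ RingHom.ker f) : good S 𝒟 f := by
  have := hJ.isLocalRing
  have e : (Ideal.Quotient.liftₐ J f (fun a ha => hle ha)).comp (Ideal.Quotient.mkₐ 𝒪 J) = f := by
    apply AlgHom.ext
    intro l
    rfl
  rw [← e]
  exact good_comp S 𝒟 h𝒟 hJ.testAlg hB _ hJ.good_mk

/-- Good ideals of level `n` are closed under intersection. -/
theorem IsGoodQuot.inf (h𝒟 : GaloisRep.IsDeformationCondition 𝒪 𝒟) {n : ℕ}
    {J₁ J₂ : Ideal (Lam 𝒪)} (h₁ : IsGoodQuot S 𝒟 n J₁) (h₂ : IsGoodQuot S 𝒟 n J₂) :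
    IsGoodQuot S 𝒟 n (J₁ ⊓ J₂) := by
  have hl₁ := h₁.isLocalRing
  have hl₂ := h₂.isLocalRing
  have hf₁ := h₁.2.2.1
  have hf₂ := h₂.2.2.1
  have hfin : Finite (Lam 𝒪 ⧸ (J₁ ⊓ J₂)) :=
    Finite.of_injective _ (testAlg_factor_injective 𝒪 J₁ J₂)
  refine IsGoodQuot.mk' (le_inf h₁.1 h₂.1) (inf_le_left.trans h₁.2.1) hfin ?_
  intro _ hP
  -- the quotient by the sum
  have hs1 : baseIdeal S ^ (n + 1) ≤ J₁ ⊔ J₂ := h₁.1.trans le_sup_left
  have hs2 : J₁ ⊔ J₂ ≤ baseIdeal S := sup_le h₁.2.1 h₂.2.1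
  have hlC : IsLocalRing (Lam 𝒪 ⧸ (J₁ ⊔ J₂)) :=
    gq_isLocalRing_quotient (baseIdeal S) (baseIdeal_isMaximal S) hs1 hs2
  have hC : GaloisRep.IsArtinianTestAlgebra 𝒪 (Lam 𝒪 ⧸ (J₁ ⊔ J₂)) :=
    testAlg_of_surjective h₁.testAlg (Ideal.Quotient.factorₐ 𝒪 (le_sup_left : J₁ ≤ J₁ ⊔ J₂))
      (Ideal.Quotient.factor_surjective (le_sup_left : J₁ ≤ J₁ ⊔ J₂))
  refine good_of_fibreProduct S 𝒟 h𝒟 h₁.testAlg h₂.testAlg hC hP
    (Ideal.Quotient.factorₐ 𝒪 (le_sup_left : J₁ ≤ J₁ ⊔ J₂))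
    (Ideal.Quotient.factorₐ 𝒪 (le_sup_right : J₂ ≤ J₁ ⊔ J₂))
    (Ideal.Quotient.factorₐ 𝒪 (inf_le_left : J₁ ⊓ J₂ ≤ J₁))
    (Ideal.Quotient.factorₐ 𝒪 (inf_le_right : J₁ ⊓ J₂ ≤ J₂))
    (testAlg_factor_comp 𝒪 J₁ J₂) (testAlg_factor_injective 𝒪 J₁ J₂)
    (testAlg_factor_surjective 𝒪 J₁ J₂) ?_ ?_
  · have e : (Ideal.Quotient.factorₐ 𝒪 (inf_le_left : J₁ ⊓ J₂ ≤ J₁)).comp
        (Ideal.Quotient.mkₐ 𝒪 (J₁ ⊓ J₂)) = Ideal.Quotient.mkₐ 𝒪 J₁ := by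
      apply AlgHom.ext
      intro l
      rfl
    rw [e]
    exact h₁.good_mk
  · have e : (Ideal.Quotient.factorₐ 𝒪 (inf_le_right : J₁ ⊓ J₂ ≤ J₂)).comp
        (Ideal.Quotient.mkₐ 𝒪 (J₁ ⊓ J₂)) = Ideal.Quotient.mkₐ 𝒪 J₂ := by
      apply AlgHom.ext
      intro l
      rfl
    rw [e]
    exact h₂.good_mk

/-- A good ideal of level `n` is a good ideal of level `n + 1`. -/
lemma IsGoodQuot.succ {n : ℕ} {J : Ideal (Lam 𝒪)} (h : IsGoodQuot S 𝒟 n J) :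
    IsGoodQuot S 𝒟 (n + 1) J :=
  ⟨(Ideal.pow_le_pow_right (Nat.le_succ (n + 1))).trans h.1, h.2.1, h.2.2.1, h.2.2.2⟩

/-- Truncating a good ideal of level `n + 1` gives a good ideal of level `n`. -/
theorem IsGoodQuot.sup_pow (h𝒟 : GaloisRep.IsDeformationCondition 𝒪 𝒟) {n : ℕ}
    {J : Ideal (Lam 𝒪)} (h : IsGoodQuot S 𝒟 (n + 1) J) :
    IsGoodQuot S 𝒟 n (J ⊔ baseIdeal S ^ (n + 1)) := by
  have hl := h.isLocalRing
  have hfJ := h.2.2.1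
  have hfin : Finite (Lam 𝒪 ⧸ (J ⊔ baseIdeal S ^ (n + 1))) :=
    Finite.of_surjective (Ideal.Quotient.factor (le_sup_left : J ≤ J ⊔ baseIdeal S ^ (n + 1)))
      (Ideal.Quotient.factor_surjective _)
  refine IsGoodQuot.mk' le_sup_right (sup_le h.2.1 (Ideal.pow_le_self (Nat.succ_ne_zero n)))
    hfin ?_
  intro _ hQ
  have e : (Ideal.Quotient.factorₐ 𝒪 (le_sup_left : J ≤ J ⊔ baseIdeal S ^ (n + 1))).comp
      (Ideal.Quotient.mkₐ 𝒪 J) = Ideal.Quotient.mkₐ 𝒪 (J ⊔ baseIdeal S ^ (n + 1)) := by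
    apply AlgHom.ext
    intro l
    rfl
  rw [← e]
  exact good_comp S 𝒟 h𝒟 h.testAlg hQ _ h.good_mk

/-- The base ideal is a good ideal of every level. -/
theorem gq_isGoodQuot_baseIdeal (h𝒟 : GaloisRep.IsDeformationCondition 𝒪 𝒟)
    [Finite (ResidueField 𝒪)] {ρbar : ResidualGaloisRep (ResidueField 𝒪)}
    (hrb : ρbar.IsEquiv S.rb.toResidualGaloisRep)
    (hbar : 𝒟 (GaloisRepAdic.ofResidualGaloisRep ρbar)) (n : ℕ) :
    IsGoodQuot S 𝒟 n (baseIdeal S) := by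
  have hn : maximalIdeal (ResidueField 𝒪) ^ (n + 1) = ⊥ := by
    rw [IsLocalRing.maximalIdeal_eq_bot, ← Ideal.zero_eq_bot, zero_pow (Nat.succ_ne_zero n)]
  exact gq_isGoodQuot_ker h𝒟 isArtinianTestAlgebra_residueField hn
    (good_basePoint S 𝒟 h𝒟 hrb hbar)

/-- The tower of least good ideals, its `TowerHyp`, finiteness of the quotients, and the
characterisation of good points of level `n`. The uniform cardinality bound is an input. -/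
theorem gq_exists_tower (h𝒟 : GaloisRep.IsDeformationCondition 𝒪 𝒟)
    [Finite (ResidueField 𝒪)] {ρbar : ResidualGaloisRep (ResidueField 𝒪)}
    (hrb : ρbar.IsEquiv S.rb.toResidualGaloisRep)
    (hbar : 𝒟 (GaloisRepAdic.ofResidualGaloisRep ρbar))
    (hbound : ∀ n : ℕ, ∃ N : ℕ, ∀ (A : Type) [CommRing A] [IsLocalRing A] [Algebra 𝒪 A],
      GaloisRep.IsArtinianTestAlgebra 𝒪 A → maximalIdeal A ^ (n + 1) = ⊥ →
      ∀ f : Lam 𝒪 →ₐ[𝒪] A, Function.Surjective f → good S 𝒟 f → Finite A ∧ Nat.card A ≤ N) :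
    ∃ I : ℕ → Ideal (Lam 𝒪), TowerHyp 𝒪 (Lam 𝒪) (baseIdeal S) I ∧
      (∀ n, Finite (Lam 𝒪 ⧸ I n)) ∧
      ∀ (n : ℕ) ⦃B : Type⦄ [CommRing B] [IsLocalRing B] [Algebra 𝒪 B],
        GaloisRep.IsArtinianTestAlgebra 𝒪 B → maximalIdeal B ^ (n + 1) = ⊥ →
        ∀ f : Lam 𝒪 →ₐ[𝒪] B, (good S 𝒟 f ↔ I n ≤ RingHom.ker f) := by
  obtain ⟨I, hI, hmin, h1, h2, h3, h4, h5⟩ := exists_goodTower (baseIdeal S) (IsGoodQuot S 𝒟)
    (fun n => ⟨_, gq_isGoodQuot_baseIdeal h𝒟 hrb hbar n⟩)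
    (fun n J₁ J₂ h₁ h₂ => h₁.inf h𝒟 h₂)
    (fun n => by
      obtain ⟨N, hN⟩ := hbound n
      refine ⟨N, fun J hJ => ?_⟩
      have := hJ.isLocalRing
      exact hN (Lam 𝒪 ⧸ J) hJ.testAlg hJ.pow_eq_bot (Ideal.Quotient.mkₐ 𝒪 J)
        (Ideal.Quotient.mkₐ_surjective 𝒪 J) hJ.good_mk)
    (fun n J hJ => hJ.2.1) (fun n J hJ => hJ.1) (fun n J hJ => hJ.succ)
    (fun n J hJ => hJ.sup_pow h𝒟)
  refine ⟨I, towerHyp_of_goodTower (baseIdeal S) I (baseIdeal_ne_top S)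
    (surjective_mk_baseIdeal S) (map_maximalIdeal_le_baseIdeal S) h1 h2 h3 h4, h5, ?_⟩
  intro n B _ _ _ hB hn f
  exact ⟨fun hf => hmin n _ (gq_isGoodQuot_ker h𝒟 hB hn hf),
    fun hle => (hI n).good_of_le h𝒟 hB f hle⟩

end goodIdeals

end

end Fermat.Agent.S53
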