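import Mathlib
import Fermat.Agent.S53.LimitRing

set_option autoImplicit false
set_option linter.style.haveILetI false

namespace Fermat.Agent.S53

open IsLocalRing

/-- The output of the limit ring construction: a complete Noetherian local `𝒪`-algebra `R`
with a map `ι : Λ → R` identifying `R ⧸ 𝔪_R ^ (n + 1)` with `Λ ⧸ I n`. -/
structure LimitRingData (𝒪 : Type) [CommRing 𝒪] [IsLocalRing 𝒪] (Λ : Type) [CommRing Λ]
    [Algebra 𝒪 Λ] (I : ℕ → Ideal Λ) : Type 1 where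
  R : Type
  [instCommRing : CommRing R]
  [instIsLocalRing : IsLocalRing R]
  [instIsNoetherianRing : IsNoetherianRing R]
  [instIsAdicComplete : IsAdicComplete (maximalIdeal R) R]
  [instAlgebra : Algebra 𝒪 R]
  [instIsLocalHom : IsLocalHom (algebraMap 𝒪 R)]
  residue_surjective : Function.Surjective (IsLocalRing.residue R ∘ algebraMap 𝒪 R)
  ι : Λ →ₐ[𝒪] R
  comap_ι : ∀ n, ((maximalIdeal R) ^ (n + 1)).comap ι = I n
  dense_ι : ∀ (n : ℕ) (x : R), ∃ l : Λ, x - ι l ∈ (maximalIdeal R) ^ (n + 1)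

attribute [instance] LimitRingData.instCommRing LimitRingData.instIsLocalRing
  LimitRingData.instIsNoetherianRing LimitRingData.instIsAdicComplete
  LimitRingData.instAlgebra LimitRingData.instIsLocalHom

section Exists

variable {𝒪 : Type} [CommRing 𝒪] [IsLocalRing 𝒪] [IsNoetherianRing 𝒪]
  [IsAdicComplete (maximalIdeal 𝒪) 𝒪] {Λ : Type} [CommRing Λ] [Algebra 𝒪 Λ]
  {𝔐 : Ideal Λ} {I : ℕ → Ideal Λ}

theorem nonempty_limitRingData_of_gens (h : TowerHyp 𝒪 Λ 𝔐 I) {e : ℕ} (lam : Fin e → Λ)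
    (hlam : ∀ i, lam i ∈ 𝔐) (hgen : 𝔐 ≤ Ideal.span (Set.range lam) ⊔ I 1) :
    Nonempty (LimitRingData 𝒪 Λ I) := by
  haveI := h.isLocalRing_limR lam hlam
  haveI := h.isAdicComplete_limR lam hlam
  haveI := h.isLocalHom_algebraMap_limR lam hlam
  exact ⟨{ R := h.LimR lam hlam
           residue_surjective := h.residue_surjective_limR lam hlam
           ι := h.iota lam hlam hgen
           comap_ι := h.comap_iota lam hlam hgen
           dense_ι := h.exists_sub_iota_mem lam hlam hgen }⟩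

omit [IsNoetherianRing 𝒪] [IsAdicComplete (maximalIdeal 𝒪) 𝒪] in
theorem exists_gens_of_isNoetherianRing (_h : TowerHyp 𝒪 Λ 𝔐 I)
    [IsNoetherianRing (Λ ⧸ I 1)] :
    ∃ (e : ℕ) (lam : Fin e → Λ), (∀ i, lam i ∈ 𝔐) ∧
      𝔐 ≤ Ideal.span (Set.range lam) ⊔ I 1 := by
  have hfg : (𝔐.map (Ideal.Quotient.mk (I 1))).FG := IsNoetherian.noetherian _
  obtain ⟨e, s, hs⟩ := Submodule.fg_iff_exists_fin_generating_family.mp hfg
  have hmem : ∀ i, s i ∈ 𝔐.map (Ideal.Quotient.mk (I 1)) := by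
    intro i
    rw [← hs]
    exact Submodule.subset_span ⟨i, rfl⟩
  have hlift : ∀ i, ∃ l ∈ 𝔐, Ideal.Quotient.mk (I 1) l = s i := fun i =>
    (Ideal.mem_map_iff_of_surjective _ Ideal.Quotient.mk_surjective).mp (hmem i)
  choose lam hlam hlams using hlift
  refine ⟨e, lam, hlam, ?_⟩
  intro x hx
  have h1 : Ideal.Quotient.mk (I 1) x ∈ (Ideal.span (Set.range lam)).map
      (Ideal.Quotient.mk (I 1)) := by
    rw [Ideal.map_span, ← Set.range_comp]
    have : (⇑(Ideal.Quotient.mk (I 1)) ∘ lam) = s := funext hlams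
    rw [this]
    have h2 := Ideal.mem_map_of_mem (Ideal.Quotient.mk (I 1)) hx
    rw [← hs] at h2
    exact h2
  rw [← Ideal.mem_comap, Ideal.comap_map_of_surjective _ Ideal.Quotient.mk_surjective,
    ← RingHom.ker_eq_comap_bot, Ideal.mk_ker] at h1
  exact h1

/-- **Limit ring.** A tower `Λ ⧸ I n` satisfying `TowerHyp` with Noetherian (e.g. Artinian or
finite) second stage has a limit which is a complete Noetherian local `𝒪`-algebra. -/
theorem nonempty_limitRingData (h : TowerHyp 𝒪 Λ 𝔐 I) [IsNoetherianRing (Λ ⧸ I 1)] :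
    Nonempty (LimitRingData 𝒪 Λ I) := by
  obtain ⟨e, lam, hlam, hgen⟩ := exists_gens_of_isNoetherianRing h
  exact nonempty_limitRingData_of_gens h lam hlam hgen

end Exists

end Fermat.Agent.S53

namespace Fermat.Agent.S53

open IsLocalRing

namespace LimitRingData

variable {𝒪 : Type} [CommRing 𝒪] [IsLocalRing 𝒪] {Λ : Type} [CommRing Λ] [Algebra 𝒪 Λ]
  {I : ℕ → Ideal Λ} (D : LimitRingData 𝒪 Λ I)

/-- the composite `Λ → R → R ⧸ 𝔪 ^ (n + 1)` -/
noncomputable def toQuot (n : ℕ) : Λ →ₐ[𝒪] D.R ⧸ (maximalIdeal D.R) ^ (n + 1) :=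
  (Ideal.Quotient.mkₐ 𝒪 _).comp D.ι

theorem toQuot_apply (n : ℕ) (l : Λ) :
    D.toQuot n l = Ideal.Quotient.mk ((maximalIdeal D.R) ^ (n + 1)) (D.ι l) := rfl

theorem toQuot_surjective (n : ℕ) : Function.Surjective (D.toQuot n) := by
  intro y
  obtain ⟨x, rfl⟩ := Ideal.Quotient.mk_surjective y
  obtain ⟨l, hl⟩ := D.dense_ι n x
  refine ⟨l, ?_⟩
  rw [toQuot_apply, eq_comm, Ideal.Quotient.eq]
  exact hl

theorem toQuot_eq_zero_iff (n : ℕ) (l : Λ) : D.toQuot n l = 0 ↔ l ∈ I n := by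
  rw [toQuot_apply, Ideal.Quotient.eq_zero_iff_mem, ← Ideal.mem_comap, D.comap_ι]

/-- the identification `Λ ⧸ I n ≃ R ⧸ 𝔪 ^ (n + 1)` -/
noncomputable def quotEquiv (n : ℕ) :
    (Λ ⧸ I n) ≃ₐ[𝒪] D.R ⧸ (maximalIdeal D.R) ^ (n + 1) :=
  AlgEquiv.ofBijective
    (Ideal.Quotient.liftₐ (I n) (D.toQuot n) (fun a ha => (D.toQuot_eq_zero_iff n a).mpr ha))
    ⟨by
      rw [injective_iff_map_eq_zero]
      intro y hy
      obtain ⟨l, rfl⟩ := Ideal.Quotient.mk_surjective y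
      rw [Ideal.Quotient.eq_zero_iff_mem, ← D.toQuot_eq_zero_iff n]
      exact hy,
    by
      intro y
      obtain ⟨l, rfl⟩ := D.toQuot_surjective n y
      exact ⟨Ideal.Quotient.mk _ l, rfl⟩⟩

theorem quotEquiv_mk (n : ℕ) (l : Λ) :
    D.quotEquiv n (Ideal.Quotient.mk (I n) l) =
      Ideal.Quotient.mk ((maximalIdeal D.R) ^ (n + 1)) (D.ι l) := rfl

theorem quotEquiv_symm_mk_ι (n : ℕ) (l : Λ) :
    (D.quotEquiv n).symm (Ideal.Quotient.mk ((maximalIdeal D.R) ^ (n + 1)) (D.ι l)) =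
      Ideal.Quotient.mk (I n) l := by
  rw [← quotEquiv_mk, AlgEquiv.symm_apply_apply]

section LiftArtin

variable {B : Type*} [CommRing B] [Algebra 𝒪 B]

/-- maps out of the limit ring killing a power of the maximal ideal -/
noncomputable def liftArtin (n : ℕ) (g : Λ →ₐ[𝒪] B) (hg : I n ≤ RingHom.ker g) :
    D.R →ₐ[𝒪] B :=
  ((Ideal.Quotient.liftₐ (I n) g (fun _ ha => hg ha)).comp
    (D.quotEquiv n).symm.toAlgHom).comp (Ideal.Quotient.mkₐ 𝒪 _)

theorem liftArtin_ι (n : ℕ) (g : Λ →ₐ[𝒪] B) (hg : I n ≤ RingHom.ker g) (l : Λ) :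
    D.liftArtin n g hg (D.ι l) = g l := by
  have h : D.liftArtin n g hg (D.ι l) = (Ideal.Quotient.liftₐ (I n) g (fun _ ha => hg ha))
      ((D.quotEquiv n).symm (Ideal.Quotient.mk ((maximalIdeal D.R) ^ (n + 1)) (D.ι l))) := rfl
  rw [h, quotEquiv_symm_mk_ι]
  rfl

theorem liftArtin_eq_zero_of_mem (n : ℕ) (g : Λ →ₐ[𝒪] B) (hg : I n ≤ RingHom.ker g) (x : D.R)
    (hx : x ∈ (maximalIdeal D.R) ^ (n + 1)) : D.liftArtin n g hg x = 0 := by
  have h : D.liftArtin n g hg x = (Ideal.Quotient.liftₐ (I n) g (fun _ ha => hg ha))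
      ((D.quotEquiv n).symm (Ideal.Quotient.mk ((maximalIdeal D.R) ^ (n + 1)) x)) := rfl
  rw [h, Ideal.Quotient.eq_zero_iff_mem.mpr hx, map_zero, map_zero]

/-- Two algebra maps out of the limit ring which agree on `ι` and kill a power of the maximal
ideal are equal. -/
theorem algHom_ext_of_pow_le_ker (φ ψ : D.R →ₐ[𝒪] B) (n : ℕ)
    (hφ : ∀ x ∈ (maximalIdeal D.R) ^ (n + 1), φ x = 0)
    (hψ : ∀ x ∈ (maximalIdeal D.R) ^ (n + 1), ψ x = 0)
    (hι : ∀ l, φ (D.ι l) = ψ (D.ι l)) : φ = ψ := by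
  apply AlgHom.ext
  intro x
  obtain ⟨l, hl⟩ := D.dense_ι n x
  have : x = (x - D.ι l) + D.ι l := by ring
  rw [this, map_add, map_add, hφ _ hl, hψ _ hl, hι]

end LiftArtin

section LiftComplete

variable {A : Type*} [CommRing A] [Algebra 𝒪 A] (K : Ideal A) [IsAdicComplete K A]
  (f : ∀ n : ℕ, Λ →ₐ[𝒪] A ⧸ K ^ (n + 1))
  (hker : ∀ n, I n ≤ RingHom.ker (f n))
  (hcompat : ∀ (n : ℕ) (l : Λ),
    Ideal.Quotient.factorₐ 𝒪 (Ideal.pow_le_pow_right (Nat.le_succ (n + 1))) (f (n + 1) l) = f n l)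

omit [IsLocalRing 𝒪] [IsAdicComplete K A] in
include hcompat in
theorem compat_of_le {m n : ℕ} (hmn : m ≤ n) (l : Λ) :
    Ideal.Quotient.factorₐ 𝒪 (Ideal.pow_le_pow_right (Nat.succ_le_succ hmn)) (f n l) = f m l := by
  induction hmn with
  | refl =>
    obtain ⟨a, ha⟩ := Ideal.Quotient.mk_surjective (f m l)
    rw [← ha, Ideal.Quotient.factorₐ_apply_mk]
  | step hmk ih =>
    rename_i k
    rw [← ih, ← hcompat k l]
    obtain ⟨a, ha⟩ := Ideal.Quotient.mk_surjective (f (k + 1) l)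
    rw [← ha, Ideal.Quotient.factorₐ_apply_mk, Ideal.Quotient.factorₐ_apply_mk,
      Ideal.Quotient.factorₐ_apply_mk]

/-- the `n`-th approximation of the lift -/
noncomputable def liftAux (n : ℕ) : D.R →ₐ[𝒪] A ⧸ K ^ n :=
  (Ideal.Quotient.factorₐ 𝒪 (Ideal.pow_le_pow_right (Nat.le_succ n))).comp
    (D.liftArtin n (f n) (hker n))

omit [IsAdicComplete K A] in
theorem liftAux_ι (n : ℕ) (l : Λ) :
    D.liftAux K f hker n (D.ι l) =
      Ideal.Quotient.factorₐ 𝒪 (Ideal.pow_le_pow_right (Nat.le_succ n)) (f n l) := by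
  rw [liftAux, AlgHom.comp_apply, liftArtin_ι]

omit [IsAdicComplete K A] in
theorem liftAux_eq_zero_of_mem (n : ℕ) (x : D.R) (hx : x ∈ (maximalIdeal D.R) ^ (n + 1)) :
    D.liftAux K f hker n x = 0 := by
  rw [liftAux, AlgHom.comp_apply, liftArtin_eq_zero_of_mem _ _ _ _ _ hx, map_zero]

omit [IsAdicComplete K A] in
include hcompat in
theorem liftAux_compat {m n : ℕ} (hle : m ≤ n) :
    (Ideal.Quotient.factorₐ 𝒪 (Ideal.pow_le_pow_right hle)).comp (D.liftAux K f hker n) =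
      D.liftAux K f hker m := by
  apply D.algHom_ext_of_pow_le_ker _ _ n
  · intro x hx
    rw [AlgHom.comp_apply, liftAux_eq_zero_of_mem _ _ _ _ _ _ hx, map_zero]
  · intro x hx
    exact liftAux_eq_zero_of_mem _ _ _ _ _ _ (Ideal.pow_le_pow_right (by omega) hx)
  · intro l
    rw [AlgHom.comp_apply, liftAux_ι, liftAux_ι, ← compat_of_le K f hcompat hle l]
    obtain ⟨a, ha⟩ := Ideal.Quotient.mk_surjective (f n l)
    rw [← ha, Ideal.Quotient.factorₐ_apply_mk, Ideal.Quotient.factorₐ_apply_mk,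
      Ideal.Quotient.factorₐ_apply_mk, Ideal.Quotient.factorₐ_apply_mk]

/-- **Lifting maps out of the limit ring** into an adically complete algebra. -/
noncomputable def lift : D.R →ₐ[𝒪] A :=
  IsAdicComplete.liftAlgHom K (D.liftAux K f hker)
    (fun hle => D.liftAux_compat K f hker hcompat hle)

theorem mk_lift_ι (n : ℕ) (l : Λ) :
    Ideal.Quotient.mk (K ^ (n + 1)) (D.lift K f hker hcompat (D.ι l)) = f n l := by
  rw [lift, IsAdicComplete.mk_liftAlgHom, liftAux_ι, hcompat]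

omit [IsAdicComplete K A] in
/-- uniqueness of lifts -/
theorem algHom_ext_of_mk_ι_eq [IsHausdorff K A] (φ ψ : D.R →ₐ[𝒪] A)
    (hφ : (maximalIdeal D.R).map φ ≤ K) (hψ : (maximalIdeal D.R).map ψ ≤ K)
    (hι : ∀ (n : ℕ) (l : Λ), Ideal.Quotient.mk (K ^ (n + 1)) (φ (D.ι l)) =
      Ideal.Quotient.mk (K ^ (n + 1)) (ψ (D.ι l))) : φ = ψ := by
  apply AlgHom.ext
  intro x
  rw [IsHausdorff.eq_iff_smodEq (I := K)]
  intro n
  rw [SModEq.sub_mem, smul_eq_mul, Ideal.mul_top]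
  apply Ideal.pow_le_pow_right (Nat.le_succ n)
  obtain ⟨l, hl⟩ := D.dense_ι n x
  have h1 : φ (x - D.ι l) ∈ K ^ (n + 1) := by
    have := Ideal.mem_map_of_mem φ hl
    rw [Ideal.map_pow] at this
    exact Ideal.pow_right_mono hφ _ this
  have h2 : ψ (x - D.ι l) ∈ K ^ (n + 1) := by
    have := Ideal.mem_map_of_mem ψ hl
    rw [Ideal.map_pow] at this
    exact Ideal.pow_right_mono hψ _ this
  have h3 : φ (D.ι l) - ψ (D.ι l) ∈ K ^ (n + 1) := by
    rw [← Ideal.Quotient.eq]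
    exact hι n l
  have : φ x - ψ x = φ (x - D.ι l) - ψ (x - D.ι l) + (φ (D.ι l) - ψ (D.ι l)) := by
    rw [map_sub, map_sub]; ring
  rw [this]
  exact Ideal.add_mem _ (Ideal.sub_mem _ h1 h2) h3

end LiftComplete

end LimitRingData

end Fermat.Agent.S53
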