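import Mathlib
import Fermat.Prelude.Def_GaloisRep_DeformationCondition

set_option autoImplicit false
set_option linter.unusedSectionVars false

namespace Fermat.Agent.S53

open IsLocalRing

section LimitLift

variable {O : Type} [CommRing O] [IsLocalRing O]

/-- (a) Any `O`-algebra homomorphism from a local `O`-algebra to an Artinian test algebra is a
local homomorphism. -/
theorem isLocalHom_of_isArtinianTestAlgebra {R B : Type} [CommRing R] [IsLocalRing R]
    [Algebra O R] [CommRing B] [IsLocalRing B] [Algebra O B]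
    (hB : GaloisRep.IsArtinianTestAlgebra O B) (φ : R →ₐ[O] B) :
    IsLocalHom (φ : R →+* B) := by
  set ψ : R →+* ResidueField B := (residue B).comp (φ : R →+* B) with hψ
  have hsurj : Function.Surjective ψ := by
    intro y
    obtain ⟨c, hc⟩ := hB.residue_surjective y
    refine ⟨algebraMap O R c, ?_⟩
    rw [hψ, RingHom.comp_apply]
    have : (φ : R →+* B) (algebraMap O R c) = algebraMap O B c := φ.commutes c
    rw [this]
    exact hc
  have hmax : (RingHom.ker ψ).IsMaximal := RingHom.ker_isMaximal_of_surjective ψ hsurj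
  have hker : RingHom.ker ψ = maximalIdeal R := IsLocalRing.eq_maximalIdeal hmax
  refine ⟨fun x hx => ?_⟩
  by_contra hnu
  have hxm : x ∈ maximalIdeal R := (mem_maximalIdeal x).mpr hnu
  rw [← hker, RingHom.mem_ker, hψ, RingHom.comp_apply, residue_eq_zero_iff] at hxm
  exact ((mem_maximalIdeal _).mp hxm) hx

/-- A local homomorphism maps powers of the maximal ideal into powers of the maximal ideal. -/
theorem limitLift_map_pow_mem {R A : Type*} [CommRing R] [IsLocalRing R] [CommRing A]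
    [IsLocalRing A] (φ : R →+* A) [IsLocalHom φ] (n : ℕ) {x : R}
    (hx : x ∈ maximalIdeal R ^ n) : φ x ∈ maximalIdeal A ^ n := by
  have hle : (maximalIdeal R ^ n).map φ ≤ maximalIdeal A ^ n := by
    rw [Ideal.map_pow]
    exact Ideal.pow_right_mono (Ideal.map_le_iff_le_comap.mpr fun a ha =>
      Ideal.mem_comap.mpr (map_nonunit φ a ha)) n
  exact hle (Ideal.mem_map_of_mem φ hx)

variable {Lam R : Type} [CommRing Lam] [Algebra O Lam] [CommRing R] [IsLocalRing R] [Algebra O R]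
  (iota : Lam →ₐ[O] R) (I : ℕ → Ideal Lam)

/-- The composite `Lam → R → R ⧸ m_R^(n+1)`. -/
noncomputable def limitLiftQuotMap (n : ℕ) : Lam →ₐ[O] R ⧸ maximalIdeal R ^ (n + 1) :=
  (Ideal.Quotient.mkₐ O (maximalIdeal R ^ (n + 1))).comp iota

theorem limitLiftQuotMap_surjective
    (LR2 : ∀ n (x : R), ∃ l : Lam, x - iota l ∈ maximalIdeal R ^ (n + 1)) (n : ℕ) :
    Function.Surjective (limitLiftQuotMap iota n) := by
  intro y
  obtain ⟨x, rfl⟩ := Ideal.Quotient.mk_surjective y
  obtain ⟨l, hl⟩ := LR2 n x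
  refine ⟨l, ?_⟩
  show Ideal.Quotient.mk _ (iota l) = Ideal.Quotient.mk _ x
  rw [Ideal.Quotient.eq, ← neg_sub]
  exact neg_mem hl

theorem ker_limitLiftQuotMap
    (LR1 : ∀ n, (maximalIdeal R ^ (n + 1)).comap iota = I n) (n : ℕ) :
    RingHom.ker (limitLiftQuotMap iota n) = I n := by
  rw [← LR1 n]
  ext l
  rw [RingHom.mem_ker, Ideal.mem_comap]
  show Ideal.Quotient.mk _ (iota l) = 0 ↔ _
  rw [Ideal.Quotient.eq_zero_iff_mem]

/-- (d) `Lam ⧸ I n ≃ R ⧸ m_R^(n+1)`. -/
noncomputable def limitLiftQuotEquiv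
    (LR1 : ∀ n, (maximalIdeal R ^ (n + 1)).comap iota = I n)
    (LR2 : ∀ n (x : R), ∃ l : Lam, x - iota l ∈ maximalIdeal R ^ (n + 1)) (n : ℕ) :
    (Lam ⧸ I n) ≃ₐ[O] (R ⧸ maximalIdeal R ^ (n + 1)) :=
  (Ideal.quotientEquivAlgOfEq O (ker_limitLiftQuotMap iota I LR1 n).symm).trans
    (Ideal.quotientKerAlgEquivOfSurjective (limitLiftQuotMap_surjective iota LR2 n))

theorem limitLiftQuotEquiv_mk
    (LR1 : ∀ n, (maximalIdeal R ^ (n + 1)).comap iota = I n)
    (LR2 : ∀ n (x : R), ∃ l : Lam, x - iota l ∈ maximalIdeal R ^ (n + 1)) (n : ℕ) (l : Lam) :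
    limitLiftQuotEquiv iota I LR1 LR2 n (Ideal.Quotient.mk (I n) l) =
      Ideal.Quotient.mk (maximalIdeal R ^ (n + 1)) (iota l) := by
  rfl

theorem limitLiftQuotEquiv_symm_mk
    (LR1 : ∀ n, (maximalIdeal R ^ (n + 1)).comap iota = I n)
    (LR2 : ∀ n (x : R), ∃ l : Lam, x - iota l ∈ maximalIdeal R ^ (n + 1)) (n : ℕ) (l : Lam) :
    (limitLiftQuotEquiv iota I LR1 LR2 n).symm
      (Ideal.Quotient.mk (maximalIdeal R ^ (n + 1)) (iota l)) = Ideal.Quotient.mk (I n) l := by
  rw [← limitLiftQuotEquiv_mk iota I LR1 LR2 n l, AlgEquiv.symm_apply_apply]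

/-- (b) LR3: an `O`-algebra map `g : Lam → B` into an Artinian test algebra with
`m_B^(n+1) = 0` killing `I n` factors uniquely through `iota`. -/
theorem existsUnique_lift_of_le_ker
    (LR1 : ∀ n, (maximalIdeal R ^ (n + 1)).comap iota = I n)
    (LR2 : ∀ n (x : R), ∃ l : Lam, x - iota l ∈ maximalIdeal R ^ (n + 1))
    {B : Type} [CommRing B] [IsLocalRing B] [Algebra O B]
    (hB : GaloisRep.IsArtinianTestAlgebra O B) (n : ℕ)
    (hn : maximalIdeal B ^ (n + 1) = ⊥) (g : Lam →ₐ[O] B) (hg : I n ≤ RingHom.ker g) :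
    ∃! φ : R →ₐ[O] B, φ.comp iota = g := by
  set gbar : (Lam ⧸ I n) →ₐ[O] B :=
    Ideal.Quotient.liftₐ (I n) g (fun a ha => hg ha) with hgbar
  set φ : R →ₐ[O] B :=
    (gbar.comp (limitLiftQuotEquiv iota I LR1 LR2 n).symm.toAlgHom).comp
      (Ideal.Quotient.mkₐ O (maximalIdeal R ^ (n + 1))) with hφ
  have hφi : φ.comp iota = g := by
    ext l
    show gbar ((limitLiftQuotEquiv iota I LR1 LR2 n).symm
      (Ideal.Quotient.mk (maximalIdeal R ^ (n + 1)) (iota l))) = g l
    rw [limitLiftQuotEquiv_symm_mk]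
    rfl
  refine ⟨φ, hφi, fun φ' hφ' => ?_⟩
  have : IsLocalHom (φ' : R →+* B) := isLocalHom_of_isArtinianTestAlgebra hB φ'
  have : IsLocalHom (φ : R →+* B) := isLocalHom_of_isArtinianTestAlgebra hB φ
  ext x
  obtain ⟨l, hl⟩ := LR2 n x
  have h1 : (φ' : R →+* B) (x - iota l) = 0 := by
    have := limitLift_map_pow_mem (φ' : R →+* B) (n + 1) hl
    rwa [hn, Ideal.mem_bot] at this
  have h2 : (φ : R →+* B) (x - iota l) = 0 := by
    have := limitLift_map_pow_mem (φ : R →+* B) (n + 1) hl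
    rwa [hn, Ideal.mem_bot] at this
  have h3 : φ' (iota l) = g l := by rw [← hφ']; rfl
  have h4 : φ (iota l) = g l := by rw [← hφi]; rfl
  have h5 : φ' x = φ' (iota l) := by
    have : φ' (x - iota l) = 0 := h1
    rwa [map_sub, sub_eq_zero] at this
  have h6 : φ x = φ (iota l) := by
    have : φ (x - iota l) = 0 := h2
    rwa [map_sub, sub_eq_zero] at this
  rw [h5, h6, h3, h4]

/-- (c) Two local `O`-algebra maps from `R` into a separated local ring that agree on `iota`
are equal (density of `iota`). -/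
theorem algHom_ext_of_comp_iota
    (LR2 : ∀ n (x : R), ∃ l : Lam, x - iota l ∈ maximalIdeal R ^ (n + 1))
    {A : Type*} [CommRing A] [IsLocalRing A] [Algebra O A] [IsHausdorff (maximalIdeal A) A]
    (φ φ' : R →ₐ[O] A) [IsLocalHom (φ : R →+* A)] [IsLocalHom (φ' : R →+* A)]
    (h : φ.comp iota = φ'.comp iota) : φ = φ' := by
  ext x
  rw [← sub_eq_zero]
  apply IsHausdorff.haus (I := maximalIdeal A) (M := A) inferInstance
  intro n
  rw [SModEq.zero, smul_eq_mul, Ideal.mul_top]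
  obtain ⟨l, hl⟩ := LR2 n x
  have hl' : x - iota l ∈ maximalIdeal R ^ n :=
    Ideal.pow_le_pow_right (Nat.le_succ n) hl
  have h1 := limitLift_map_pow_mem (φ : R →+* A) n hl'
  have h2 := limitLift_map_pow_mem (φ' : R →+* A) n hl'
  have h3 : φ (iota l) = φ' (iota l) := by
    have := congrArg (fun f : Lam →ₐ[O] A => f l) h
    simpa using this
  have h4 : φ x - φ' x = (φ : R →+* A) (x - iota l) - (φ' : R →+* A) (x - iota l) := by
    simp only [map_sub, RingHom.coe_coe, h3]
    ring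
  rw [h4]
  exact Ideal.sub_mem _ h1 h2

end LimitLift

end Fermat.Agent.S53
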