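import Mathlib
import Fermat.Prelude.Def_GaloisRep_DeformationRingData
import Fermat.Prelude.Def_GaloisRep_DeformationCondition
import Fermat.Agent.S53.Slice
import Fermat.Agent.S53.LimitLift
import Fermat.Agent.S53.UniversalRep
import Fermat.Agent.S53.ArtinUniversal

/-!
Concrete instantiation of the abstract packages of `UniversalRep.lean` (G3) and
`ArtinUniversal.lean` (G4) against the slice definitions of `Slice.lean` and the limit ring
interface (LR1, LR2) of `LimitLift.lean`.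
-/

set_option autoImplicit false

namespace Fermat.Agent.S53

open IsLocalRing

noncomputable section

section UniversalSlice

attribute [local instance] quotPow_isLocalRing

variable {𝒪 : Type} [CommRing 𝒪] [IsLocalRing 𝒪] (S : SliceData 𝒪)
variable {𝒟 : ∀ ⦃A : Type⦄ [CommRing A] [IsLocalRing A] [Algebra 𝒪 A], GaloisRepAdic A → Prop}
variable {R : Type} [CommRing R] [IsLocalRing R] [IsNoetherianRing R]
  [IsAdicComplete (maximalIdeal R) R] [Algebra 𝒪 R] [IsLocalHom (algebraMap 𝒪 R)]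

/-- The slice predicate without the `IsLocalHom` instance binder. -/
def SlicePred (𝒟 : ∀ ⦃A : Type⦄ [CommRing A] [IsLocalRing A] [Algebra 𝒪 A], GaloisRepAdic A → Prop)
    ⦃B : Type⦄ [CommRing B] [IsLocalRing B] [Algebra 𝒪 B] (r : FramedRep B) : Prop :=
  ∃ (_ : IsLocalHom (algebraMap 𝒪 B)), IsSlicePoint S 𝒟 r

omit [IsNoetherianRing R] [IsAdicComplete (maximalIdeal R) R] [IsLocalHom (algebraMap 𝒪 R)] in
lemma good_iff_slicePred {B : Type} [CommRing B] [IsLocalRing B] [Algebra 𝒪 B]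
    (f : Lam 𝒪 →ₐ[𝒪] B) :
    good S 𝒟 f ↔ ∃ r : FramedRep B,
      (∀ σ i j, r σ i j = f (MvPolynomial.X (σ, i, j))) ∧ SlicePred S 𝒟 r := by
  constructor
  · rintro ⟨h, r, hr, hsp⟩
    exact ⟨r, fun σ i j => by rw [hr σ]; rfl, h, hsp⟩
  · rintro ⟨r, hr, h, hsp⟩
    refine ⟨h, r, fun σ => ?_, hsp⟩
    ext i j
    rw [hr σ i j]
    rfl

/-- (G3, concrete) The universal slice point over the limit ring. -/
theorem exists_universalSlicePoint
    (h𝒟 : GaloisRep.IsDeformationCondition 𝒪 𝒟) (I : ℕ → Ideal (Lam 𝒪))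
    (hGI : ∀ (n : ℕ) ⦃B : Type⦄ [CommRing B] [IsLocalRing B] [Algebra 𝒪 B],
      GaloisRep.IsArtinianTestAlgebra 𝒪 B → maximalIdeal B ^ (n + 1) = ⊥ →
      ∀ f : Lam 𝒪 →ₐ[𝒪] B, (good S 𝒟 f ↔ I n ≤ RingHom.ker f))
    (hres : Function.Surjective (residue R ∘ algebraMap 𝒪 R))
    (ι : Lam 𝒪 →ₐ[𝒪] R) (LR1 : ∀ n, (maximalIdeal R ^ (n + 1)).comap ι = I n) :
    ∃ rU : FramedRep R, (∀ σ, rU σ = matOf ι σ) ∧ IsSlicePoint S 𝒟 rU := by
  obtain ⟨rU, hrU, hD, hlift⟩ := exists_universalFramedRep (R := R) (𝒟 := 𝒟) h𝒟 S.rb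
    (SlicePred S 𝒟)
    (fun B _ _ _ _ r hr => by obtain ⟨_, hs⟩ := hr; exact hs.type)
    (fun B _ _ _ _ _ r hr => by obtain ⟨_, hs⟩ := hr; exact hs.lift)
    (fun σ i j => (MvPolynomial.X (σ, i, j) : Lam 𝒪)) I
    (fun n B _ _ _ hB hn f hf => (good_iff_slicePred S f).mp ((hGI n hB hn f).mpr hf))
    hres ι (fun n => (LR1 n).ge)
  have hrU' : ∀ σ, rU σ = matOf ι σ := by
    intro σ
    ext i j
    rw [hrU σ i j]
    rfl
  refine ⟨rU, hrU', hlift, ?_, hD⟩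
  -- normalisation, by separatedness
  have hlev : ∀ n : ℕ, ∃ r : FramedRep (R ⧸ maximalIdeal R ^ (n + 1)),
      (∀ σ i j, r σ i j = Ideal.Quotient.mk (maximalIdeal R ^ (n + 1)) (rU σ i j)) ∧
        SlicePred S 𝒟 r := by
    intro n
    have hB := quotPow_isArtinianTestAlgebra (𝒪 := 𝒪) (R := R) hres n
    have hker : I n ≤ RingHom.ker ((Ideal.Quotient.mkₐ 𝒪 (maximalIdeal R ^ (n + 1))).comp ι) := by
      intro l hl
      rw [RingHom.mem_ker]
      have := (LR1 n).ge hl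
      rw [Ideal.mem_comap] at this
      show Ideal.Quotient.mk (maximalIdeal R ^ (n + 1)) (ι l) = 0
      exact Ideal.Quotient.eq_zero_iff_mem.mpr this
    obtain ⟨r, hr, hSP⟩ := (good_iff_slicePred S _).mp
      ((hGI n hB (quotPow_maximalIdeal_pow n) _).mpr hker)
    exact ⟨r, fun σ i j => by rw [hr, hrU]; rfl, hSP⟩
  choose rl hrl hrlSP using hlev
  have hsep : ∀ {a b : R}, (∀ n, Ideal.Quotient.mk (maximalIdeal R ^ (n + 1)) a =
      Ideal.Quotient.mk (maximalIdeal R ^ (n + 1)) b) → a = b := by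
    intro a b h
    rw [← sub_eq_zero]
    apply eq_zero_of_forall_mem_pow_succ
    intro n
    exact Ideal.Quotient.eq.mp (h n)
  refine ⟨hsep fun n => ?_, hsep fun n => ?_, hsep fun n => ?_⟩
  · obtain ⟨_, hs⟩ := hrlSP n
    have := hs.normalized.col0
    rw [map_zero, ← this]
    exact (hrl n _ _ _).symm
  · obtain ⟨_, hs⟩ := hrlSP n
    have := hs.normalized.col1
    rw [map_one, ← this]
    exact (hrl n _ _ _).symm
  · obtain ⟨_, hs⟩ := hrlSP n
    have := hs.normalized.entry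
    have h2 : Ideal.Quotient.mk (maximalIdeal R ^ (n + 1)) (algebraMap 𝒪 R S.c0) =
        algebraMap 𝒪 (R ⧸ maximalIdeal R ^ (n + 1)) S.c0 := rfl
    rw [h2, ← this]
    exact (hrl n _ _ _).symm

omit [IsNoetherianRing R] [IsAdicComplete (maximalIdeal R) R] [IsLocalHom (algebraMap 𝒪 R)] in
/-- (G4, concrete) The universal property of the universal slice point with respect to Artinian
test algebras. -/
theorem universalSlicePoint_artinian
    (h𝒟 : GaloisRep.IsDeformationCondition 𝒪 𝒟) (I : ℕ → Ideal (Lam 𝒪))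
    (hGI : ∀ (n : ℕ) ⦃B : Type⦄ [CommRing B] [IsLocalRing B] [Algebra 𝒪 B],
      GaloisRep.IsArtinianTestAlgebra 𝒪 B → maximalIdeal B ^ (n + 1) = ⊥ →
      ∀ f : Lam 𝒪 →ₐ[𝒪] B, (good S 𝒟 f ↔ I n ≤ RingHom.ker f))
    (ι : Lam 𝒪 →ₐ[𝒪] R) (LR1 : ∀ n, (maximalIdeal R ^ (n + 1)).comap ι = I n)
    (LR2 : ∀ n (x : R), ∃ l : Lam 𝒪, x - ι l ∈ maximalIdeal R ^ (n + 1))
    (rU : FramedRep R) (hrU : ∀ σ, rU σ = matOf ι σ)
    {ρbar : ResidualGaloisRep (ResidueField 𝒪)}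
    (hrb : ρbar.IsEquiv S.rb.toResidualGaloisRep)
    (B : Type) [CommRing B] [IsLocalRing B] [Algebra 𝒪 B] [IsLocalHom (algebraMap 𝒪 B)]
    (hB : GaloisRep.IsArtinianTestAlgebra 𝒪 B) (ρB : GaloisRepAdic B) (hρB : 𝒟 ρB)
    (hresB : ρB.residual.IsEquiv (ρbar.baseChangeAlong (ResidueField.map (algebraMap 𝒪 B)))) :
    ∃! φ : R →ₐ[𝒪] B, ∃ hφ : IsLocalHom (φ : R →+* B),
      (rU.toGaloisRepAdic.baseChangeAlong (φ : R →+* B) hφ).IsEquiv ρB := by
  refine artinian_universal (R := R) (𝒟 := 𝒟) ρbar (SlicePred S 𝒟) ?_ ?_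
    (fun σ i j => (MvPolynomial.X (σ, i, j) : Lam 𝒪)) I ?_ ?_ ?_ ι (fun n => (LR1 n).ge) LR2 ?_
    rU (fun σ i j => by rw [hrU σ]; rfl) B hB ρB hρB hresB
  · intro B _ _ _ _ hB ρB hρB hresB
    obtain ⟨r, hr, he⟩ := exists_isSlicePoint S 𝒟 h𝒟 hB hrb ρB hρB hresB
    exact ⟨r, ⟨inferInstance, hr⟩, he⟩
  · intro B _ _ _ hB r r' hr hr' he
    obtain ⟨h1, hr⟩ := hr
    obtain ⟨_, hr'⟩ := hr'
    have := hB.isArtinian
    exact IsSlicePoint.eq_of_isEquiv S 𝒟 hr hr' he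
  · intro n B _ _ _ hB hn f
    rw [← hGI n hB hn f, good_iff_slicePred]
  · intro B _ _ _ v
    refine ⟨evalHom (𝒪 := 𝒪) (fun σ => Matrix.of (v σ)), fun σ i j => ?_⟩
    rw [evalHom_X]
    rfl
  · intro B _ _ _ f g h
    apply MvPolynomial.algHom_ext
    rintro ⟨σ, i, j⟩
    exact h σ i j
  · intro n B _ _ _ hB hn g hg
    obtain ⟨φ, hφ, -⟩ := existsUnique_lift_of_le_ker ι I LR1 LR2 hB n hn g hg
    exact ⟨φ, fun l => congrArg (fun h : Lam 𝒪 →ₐ[𝒪] B => h l) hφ⟩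

end UniversalSlice

end

end Fermat.Agent.S53
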