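import Fermat.Agent.S53.GI.Main

/-!
Abstract representability block for S53 (helper21), namespace `Fermat.Agent.S53.GI`.
Main statement: `Fermat.Agent.S53.GI.exists_goodIdeal_tower`.
-/
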