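import Mathlib
import Fermat.Prelude.Def_GaloisRep_DeformationCondition
import Fermat.Agent.S53.Slice
import Fermat.Agent.S53.Tangent

set_option autoImplicit false
set_option linter.style.haveILetI false

namespace Fermat.Agent.S53

noncomputable section

open IsLocalRing GaloisRep

section sliceTangent

variable {𝒪 : Type} [CommRing 𝒪] [IsLocalRing 𝒪] (S : SliceData 𝒪)
  (𝒟 : ∀ ⦃A : Type⦄ [CommRing A] [IsLocalRing A] [Algebra 𝒪 A], GaloisRepAdic A → Prop)

/-- Two good points over an Artinian local `𝒪`-algebra whose framed representations are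
equivalent coincide. -/
theorem good_eq_of_isEquiv {A : Type} [CommRing A] [IsLocalRing A] [Algebra 𝒪 A]
    [IsLocalHom (algebraMap 𝒪 A)] [IsArtinianRing A] {f f' : Lam 𝒪 →ₐ[𝒪] A}
    {r r' : FramedRep A} (h1 : ∀ σ, r σ = matOf f σ) (h1' : ∀ σ, r' σ = matOf f' σ)
    (h2 : IsSlicePoint S 𝒟 r) (h2' : IsSlicePoint S 𝒟 r')
    (h : r.toGaloisRepAdic.IsEquiv r'.toGaloisRepAdic) : f = f' := by
  have hrr : r = r' := IsSlicePoint.eq_of_isEquiv S 𝒟 h2 h2' h
  subst hrr
  exact algHom_ext_matOf fun σ => by rw [← h1 σ, ← h1' σ]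

/-- The tangent field of the good-predicate package: the good points with values in the dual
numbers over the residue field form a finite set. -/
theorem finite_good_dualNumber {ρbar : ResidualGaloisRep (ResidueField 𝒪)}
    (hrb : ρbar.IsEquiv S.rb.toResidualGaloisRep)
    (hfin : GaloisRep.TangentFinite 𝒪 ρbar 𝒟) :
    letI := dualNumberAlgebra 𝒪
    Finite {f : Lam 𝒪 →ₐ[𝒪] DualNumber (ResidueField 𝒪) // good S 𝒟 f} := by
  letI := dualNumberAlgebra 𝒪
  haveI := isLocalHom_algebraMap_dualNumber 𝒪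
  haveI : IsArtinianRing (DualNumber (ResidueField 𝒪)) :=
    (isArtinianTestAlgebra_dualNumber 𝒪).isArtinian
  have hex : ∀ f : {f : Lam 𝒪 →ₐ[𝒪] DualNumber (ResidueField 𝒪) // good S 𝒟 f},
      ∃ r : FramedRep (DualNumber (ResidueField 𝒪)),
        (∀ σ, r σ = matOf f.1 σ) ∧ IsSlicePoint S 𝒟 r := fun f => (good_iff S 𝒟 f.1).mp f.2
  choose r hr1 hr2 using hex
  refine finite_of_tangentFinite 𝒪 ρbar 𝒟 hfin (fun f => (r f).toGaloisRepAdic)
    (fun f => (hr2 f).type) (fun f => (hr2 f).lift.residual_isEquiv hrb) ?_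
  intro f f' h
  exact Subtype.ext (good_eq_of_isEquiv S 𝒟 (hr1 f) (hr1 f') (hr2 f) (hr2 f') h)

/-- Variant of `finite_good_dualNumber` for an arbitrary `𝒪`-algebra structure on the dual
numbers whose structure map is the composite `𝒪 → k → k[ε]`. -/
theorem finite_good_dualNumber' {ρbar : ResidualGaloisRep (ResidueField 𝒪)}
    (hrb : ρbar.IsEquiv S.rb.toResidualGaloisRep)
    (hfin : GaloisRep.TangentFinite 𝒪 ρbar 𝒟)
    [inst : Algebra 𝒪 (DualNumber (ResidueField 𝒪))]
    (hinst : algebraMap 𝒪 (DualNumber (ResidueField 𝒪)) =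
      (algebraMap (ResidueField 𝒪) (DualNumber (ResidueField 𝒪))).comp
        (algebraMap 𝒪 (ResidueField 𝒪))) :
    Finite {f : Lam 𝒪 →ₐ[𝒪] DualNumber (ResidueField 𝒪) // good S 𝒟 f} := by
  have h : inst = dualNumberAlgebra 𝒪 := by
    apply Algebra.algebra_ext
    intro a
    exact congrArg (fun φ : 𝒪 →+* DualNumber (ResidueField 𝒪) => φ a) hinst
  subst h
  exact finite_good_dualNumber S 𝒟 hrb hfin

end sliceTangent

end

end Fermat.Agent.S53
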