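import Mathlib
import Fermat.Prelude.Def_GaloisRep_DeformationCondition
import Fermat.Agent.S53.SliceProps
import Fermat.Agent.S53.SliceTangent

/-!
Glue for the cardinality bound in the good-ideal tower: if `f : Lam 𝒪 → A` is a surjective good
point of a test algebra `A`, then the `𝒪`-algebra homomorphisms `A → k[ε]` inject into the
(finite) set of good tangent points.
-/

set_option autoImplicit false
set_option linter.style.haveILetI false

namespace Fermat.Agent.S53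

noncomputable section

open IsLocalRing GaloisRep

section goodBound

variable {𝒪 : Type} [CommRing 𝒪] [IsLocalRing 𝒪] (S : SliceData 𝒪)
  (𝒟 : ∀ ⦃A : Type⦄ [CommRing A] [IsLocalRing A] [Algebra 𝒪 A], GaloisRepAdic A → Prop)

/-- The number of good tangent points. -/
def goodTangentCard : ℕ :=
  letI := dualNumberAlgebra 𝒪
  Nat.card {g : Lam 𝒪 →ₐ[𝒪] DualNumber (ResidueField 𝒪) // good S 𝒟 g}

/-- For a surjective good point `f : Lam 𝒪 → A` of a test algebra, the `𝒪`-algebra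
homomorphisms `A → k[ε]` form a finite set, of cardinality at most the number of good tangent
points. -/
theorem finite_algHom_dualNumber_of_good (h𝒟 : GaloisRep.IsDeformationCondition 𝒪 𝒟)
    {ρbar : ResidualGaloisRep (ResidueField 𝒪)}
    (hrb : ρbar.IsEquiv S.rb.toResidualGaloisRep)
    (hfin : GaloisRep.TangentFinite 𝒪 ρbar 𝒟)
    {A : Type} [CommRing A] [IsLocalRing A] [Algebra 𝒪 A]
    (hA : GaloisRep.IsArtinianTestAlgebra 𝒪 A) (f : Lam 𝒪 →ₐ[𝒪] A)
    (hsurj : Function.Surjective f) (hf : good S 𝒟 f) :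
    letI := dualNumberAlgebra 𝒪
    Finite (A →ₐ[𝒪] DualNumber (ResidueField 𝒪)) ∧
      Nat.card (A →ₐ[𝒪] DualNumber (ResidueField 𝒪)) ≤ goodTangentCard S 𝒟 := by
  letI := dualNumberAlgebra 𝒪
  haveI := finite_good_dualNumber S 𝒟 hrb hfin
  let Φ : (A →ₐ[𝒪] DualNumber (ResidueField 𝒪)) →
      {g : Lam 𝒪 →ₐ[𝒪] DualNumber (ResidueField 𝒪) // good S 𝒟 g} :=
    fun ψ => ⟨ψ.comp f, good_comp S 𝒟 h𝒟 hA (isArtinianTestAlgebra_dualNumber 𝒪) ψ hf⟩
  have hΦ : Function.Injective Φ := by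
    intro ψ ψ' h
    have h' : ψ.comp f = ψ'.comp f := congrArg Subtype.val h
    apply AlgHom.ext
    intro a
    obtain ⟨l, rfl⟩ := hsurj a
    exact congrArg (fun g : Lam 𝒪 →ₐ[𝒪] DualNumber (ResidueField 𝒪) => g l) h'
  exact ⟨Finite.of_injective Φ hΦ, Nat.card_le_card_of_injective Φ hΦ⟩

/-- The uniform cardinality bound for surjective good points of test algebras of a given
level, from an abstract cardinality bound for test algebras with few tangent homomorphisms. -/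
theorem good_card_bound_of_cardBound (h𝒟 : GaloisRep.IsDeformationCondition 𝒪 𝒟)
    {ρbar : ResidualGaloisRep (ResidueField 𝒪)}
    (hrb : ρbar.IsEquiv S.rb.toResidualGaloisRep)
    (hfin : GaloisRep.TangentFinite 𝒪 ρbar 𝒟)
    (hCB : ∀ N n : ℕ, ∃ Bd : ℕ, ∀ {A : Type} [CommRing A] [IsLocalRing A] [Algebra 𝒪 A],
      GaloisRep.IsArtinianTestAlgebra 𝒪 A → maximalIdeal A ^ (n + 1) = ⊥ →
      (letI := dualNumberAlgebra 𝒪
       Finite (A →ₐ[𝒪] DualNumber (ResidueField 𝒪)) ∧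
        Nat.card (A →ₐ[𝒪] DualNumber (ResidueField 𝒪)) ≤ N) →
      Finite A ∧ Nat.card A ≤ Bd) (n : ℕ) :
    ∃ Bd : ℕ, ∀ {A : Type} [CommRing A] [IsLocalRing A] [Algebra 𝒪 A],
      GaloisRep.IsArtinianTestAlgebra 𝒪 A → maximalIdeal A ^ (n + 1) = ⊥ →
      ∀ f : Lam 𝒪 →ₐ[𝒪] A, Function.Surjective f → good S 𝒟 f → Finite A ∧ Nat.card A ≤ Bd := by
  obtain ⟨Bd, hBd⟩ := hCB (goodTangentCard S 𝒟) n
  exact ⟨Bd, fun hA hn f hsurj hf =>
    hBd hA hn (finite_algHom_dualNumber_of_good S 𝒟 h𝒟 hrb hfin hA f hsurj hf)⟩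

end goodBound

end

end Fermat.Agent.S53
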