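import Mathlib
import Fermat.Prelude.Def_GaloisRep_DeformationCondition
import Fermat.Agent.S53.LimitRingData

/-!
Insurance copy of the core of the "good ideals" block (M3): for an abstract predicate `good` on
points of an `𝒪`-algebra `Lam` with values in Artinian test algebras, closed under composition,
descent along injections and fibre products, with a unique good point over the residue field,
the good ideals of nilpotency level `n` have a least element `I n` as soon as the cardinalities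
of the quotients are uniformly bounded; the `I n` satisfy the tower hypotheses of the limit ring
and the universality property (GI).
-/

set_option autoImplicit false
set_option linter.style.haveILetI false
set_option linter.unusedSectionVars false

namespace Fermat.Agent.S53

open IsLocalRing GaloisRep

noncomputable section

section gmQuot

variable {Lam : Type} [CommRing Lam] {M J : Ideal Lam}

lemma gm_isNilpotent_mk (n : ℕ) (hpow : M ^ (n + 1) ≤ J) {x : Lam} (hx : x ∈ M) :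
    IsNilpotent (Ideal.Quotient.mk J x) :=
  ⟨n + 1, by
    rw [← map_pow]
    exact Ideal.Quotient.eq_zero_iff_mem.mpr (hpow (Ideal.pow_mem_pow hx _))⟩

lemma gm_isUnit_mk (hM : M.IsMaximal) (n : ℕ) (hpow : M ^ (n + 1) ≤ J) {x : Lam} (hx : x ∉ M) :
    IsUnit (Ideal.Quotient.mk J x) := by
  obtain ⟨y, m, hm, hym⟩ := hM.exists_inv hx
  have h1 : Ideal.Quotient.mk J y * Ideal.Quotient.mk J x = 1 - Ideal.Quotient.mk J m := by
    rw [← map_mul, ← map_one (Ideal.Quotient.mk J), ← map_sub]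
    congr 1
    linear_combination hym
  have h2 : IsUnit (1 - Ideal.Quotient.mk J m) := (gm_isNilpotent_mk n hpow hm).isUnit_one_sub
  rw [← h1] at h2
  exact isUnit_of_mul_isUnit_right h2

theorem gm_isLocalRing (hM : M.IsMaximal) (n : ℕ) (hJM : J ≤ M) (hpow : M ^ (n + 1) ≤ J) :
    IsLocalRing (Lam ⧸ J) := by
  haveI : Nontrivial (Lam ⧸ J) :=
    Ideal.Quotient.nontrivial_iff.mpr (fun h => hM.ne_top (top_le_iff.mp (h ▸ hJM)))
  refine IsLocalRing.of_isUnit_or_isUnit_one_sub_self fun a => ?_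
  obtain ⟨x, rfl⟩ := Ideal.Quotient.mk_surjective a
  by_cases hx : x ∈ M
  · right
    exact (gm_isNilpotent_mk n hpow hx).isUnit_one_sub
  · left
    exact gm_isUnit_mk hM n hpow hx

theorem gm_mk_mem_maximalIdeal_iff (hM : M.IsMaximal) (n : ℕ) (hpow : M ^ (n + 1) ≤ J)
    [IsLocalRing (Lam ⧸ J)] (x : Lam) :
    Ideal.Quotient.mk J x ∈ maximalIdeal (Lam ⧸ J) ↔ x ∈ M := by
  rw [mem_maximalIdeal, mem_nonunits_iff]
  constructor
  · intro h
    by_contra hx
    exact h (gm_isUnit_mk hM n hpow hx)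
  · intro hx hu
    obtain ⟨k, hk⟩ := gm_isNilpotent_mk n hpow hx
    have h2 := hu.pow k
    rw [hk] at h2
    exact not_isUnit_zero h2

theorem gm_maximalIdeal_eq_map (hM : M.IsMaximal) (n : ℕ) (hJM : J ≤ M) (hpow : M ^ (n + 1) ≤ J)
    [IsLocalRing (Lam ⧸ J)] : maximalIdeal (Lam ⧸ J) = M.map (Ideal.Quotient.mk J) := by
  ext a
  obtain ⟨x, rfl⟩ := Ideal.Quotient.mk_surjective a
  rw [gm_mk_mem_maximalIdeal_iff hM n hpow,
    Ideal.mem_map_iff_of_surjective _ Ideal.Quotient.mk_surjective]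
  constructor
  · intro hx
    exact ⟨x, hx, rfl⟩
  · rintro ⟨y, hy, hxy⟩
    have h1 : x - y ∈ J := Ideal.Quotient.eq.mp hxy.symm
    have h2 := M.add_mem (hJM h1) hy
    rwa [sub_add_cancel] at h2

theorem gm_maximalIdeal_pow_eq_bot (hM : M.IsMaximal) (n : ℕ) (hJM : J ≤ M)
    (hpow : M ^ (n + 1) ≤ J) [IsLocalRing (Lam ⧸ J)] :
    maximalIdeal (Lam ⧸ J) ^ (n + 1) = ⊥ := by
  rw [gm_maximalIdeal_eq_map hM n hJM hpow, ← Ideal.map_pow, eq_bot_iff]
  refine (Ideal.map_mono hpow).trans ?_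
  rw [Ideal.map_quotient_self]

end gmQuot

section gmBase

variable {𝒪 : Type} [CommRing 𝒪] [IsLocalRing 𝒪] {Lam : Type} [CommRing Lam] [Algebra 𝒪 Lam]
  (base : Lam →ₐ[𝒪] ResidueField 𝒪)

lemma gm_base_algebraMap (a : 𝒪) : base (algebraMap 𝒪 Lam a) = residue 𝒪 a := base.commutes a

lemma gm_base_surjective : Function.Surjective base := fun y => by
  obtain ⟨a, rfl⟩ := residue_surjective y
  exact ⟨algebraMap 𝒪 Lam a, gm_base_algebraMap base a⟩

lemma gm_ker_isMaximal : (RingHom.ker base).IsMaximal :=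
  RingHom.ker_isMaximal_of_surjective _ (gm_base_surjective base)

lemma gm_exists_sub_mem (x : Lam) : ∃ a : 𝒪, x - algebraMap 𝒪 Lam a ∈ RingHom.ker base := by
  obtain ⟨a, ha⟩ := residue_surjective (base x)
  exact ⟨a, by rw [RingHom.mem_ker, map_sub, gm_base_algebraMap, ha, sub_self]⟩

/-- Quotients of `Lam` by ideals between a power of the kernel of the base point and that kernel
are Artinian test algebras as soon as they are finite. -/
theorem gm_isArtinianTestAlgebra {J : Ideal Lam} (n : ℕ) (hpow : RingHom.ker base ^ (n + 1) ≤ J)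
    [Finite (Lam ⧸ J)] [IsLocalRing (Lam ⧸ J)] : IsArtinianTestAlgebra 𝒪 (Lam ⧸ J) where
  isLocalHom := ⟨fun a ha => by
    by_contra hna
    have h1 : algebraMap 𝒪 Lam a ∈ RingHom.ker base := by
      rw [RingHom.mem_ker, gm_base_algebraMap, residue_eq_zero_iff]
      exact hna
    have h2 := (gm_mk_mem_maximalIdeal_iff (gm_ker_isMaximal base) n hpow _).mpr h1
    exact h2 ha⟩
  residue_surjective := fun y => by
    obtain ⟨b, rfl⟩ := residue_surjective y
    obtain ⟨x, rfl⟩ := Ideal.Quotient.mk_surjective b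
    obtain ⟨a, ha⟩ := gm_exists_sub_mem base x
    refine ⟨a, ?_⟩
    show residue _ (algebraMap 𝒪 (Lam ⧸ J) a) = residue _ (Ideal.Quotient.mk J x)
    rw [eq_comm, ← sub_eq_zero, ← map_sub, residue_eq_zero_iff]
    exact (gm_mk_mem_maximalIdeal_iff (gm_ker_isMaximal base) n hpow
      (x - algebraMap 𝒪 Lam a)).mpr ha
  isArtinian := inferInstance

end gmBase

section gmCore

variable {𝒪 : Type} [CommRing 𝒪] [IsLocalRing 𝒪] {Lam : Type} [CommRing Lam] [Algebra 𝒪 Lam]

/-- The residue field is an Artinian test algebra. -/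
lemma gm_isArtinianTestAlgebra_residueField : IsArtinianTestAlgebra 𝒪 (ResidueField 𝒪) where
  isLocalHom := by
    rw [ResidueField.algebraMap_eq]
    infer_instance
  residue_surjective := by
    rw [ResidueField.algebraMap_eq]
    exact residue_surjective.comp residue_surjective
  isArtinian := inferInstance

/-- Every test algebra maps to the residue field of `𝒪`, with kernel the maximal ideal. -/
lemma gm_exists_toResidue {B : Type} [CommRing B] [IsLocalRing B] [Algebra 𝒪 B]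
    (hB : IsArtinianTestAlgebra 𝒪 B) :
    ∃ ψ : B →ₐ[𝒪] ResidueField 𝒪, ∀ b, ψ b = 0 ↔ b ∈ maximalIdeal B := by
  haveI := hB.isLocalHom
  have hbij : Function.Bijective (ResidueField.map (algebraMap 𝒪 B)) :=
    ⟨(ResidueField.map (algebraMap 𝒪 B)).injective, fun y => by
      obtain ⟨a, ha⟩ := hB.residue_surjective y
      exact ⟨residue 𝒪 a, by rw [ResidueField.map_residue]; exact ha⟩⟩
  let e : ResidueField 𝒪 ≃+* ResidueField B := RingEquiv.ofBijective _ hbij
  refine ⟨{ toRingHom := (e.symm : ResidueField B →+* ResidueField 𝒪).comp (residue B)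
            commutes' := fun a => ?_ }, fun b => ?_⟩
  · show e.symm (residue B (algebraMap 𝒪 B a)) = residue 𝒪 a
    rw [RingEquiv.symm_apply_eq]
    exact (ResidueField.map_residue _ a).symm
  · show e.symm (residue B b) = 0 ↔ _
    rw [map_eq_zero_iff _ e.symm.injective, residue_eq_zero_iff]

/-- The hypotheses on the abstract predicate `good`. -/
structure GmGoodPredicate
    (good : ∀ {A : Type} [CommRing A] [IsLocalRing A] [Algebra 𝒪 A], (Lam →ₐ[𝒪] A) → Prop)
    (base : Lam →ₐ[𝒪] ResidueField 𝒪) : Prop where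
  comp : ∀ {A B : Type} [CommRing A] [IsLocalRing A] [Algebra 𝒪 A]
    [CommRing B] [IsLocalRing B] [Algebra 𝒪 B],
    IsArtinianTestAlgebra 𝒪 A → IsArtinianTestAlgebra 𝒪 B →
    ∀ (φ : A →ₐ[𝒪] B) {f : Lam →ₐ[𝒪] A}, good f → good (φ.comp f)
  of_comp_injective : ∀ {A B : Type} [CommRing A] [IsLocalRing A] [Algebra 𝒪 A]
    [CommRing B] [IsLocalRing B] [Algebra 𝒪 B],
    IsArtinianTestAlgebra 𝒪 A → IsArtinianTestAlgebra 𝒪 B →
    ∀ (φ : A →ₐ[𝒪] B), Function.Injective φ → ∀ {f : Lam →ₐ[𝒪] A}, good (φ.comp f) → good f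
  of_fibreProduct : ∀ {A B C P : Type} [CommRing A] [IsLocalRing A] [Algebra 𝒪 A]
    [CommRing B] [IsLocalRing B] [Algebra 𝒪 B] [CommRing C] [IsLocalRing C] [Algebra 𝒪 C]
    [CommRing P] [IsLocalRing P] [Algebra 𝒪 P],
    IsArtinianTestAlgebra 𝒪 A → IsArtinianTestAlgebra 𝒪 B → IsArtinianTestAlgebra 𝒪 C →
    IsArtinianTestAlgebra 𝒪 P →
    ∀ (f : A →ₐ[𝒪] C) (g : B →ₐ[𝒪] C) (pA : P →ₐ[𝒪] A) (pB : P →ₐ[𝒪] B),
      f.comp pA = g.comp pB → Function.Injective (fun x => (pA x, pB x)) →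
      (∀ a b, f a = g b → ∃ x, pA x = a ∧ pB x = b) →
      ∀ {x : Lam →ₐ[𝒪] P}, good (pA.comp x) → good (pB.comp x) → good x
  base_good : good base
  base_unique : ∀ f : Lam →ₐ[𝒪] ResidueField 𝒪, good f → f = base
  finite_test : ∀ {B : Type} [CommRing B] [IsLocalRing B] [Algebra 𝒪 B],
    IsArtinianTestAlgebra 𝒪 B → Finite B

variable (good : ∀ {A : Type} [CommRing A] [IsLocalRing A] [Algebra 𝒪 A], (Lam →ₐ[𝒪] A) → Prop)
  (base : Lam →ₐ[𝒪] ResidueField 𝒪)

/-- Good ideals of nilpotency level `n`. -/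
structure GmIsGoodIdeal (n : ℕ) (J : Ideal Lam) : Prop where
  le_M : J ≤ RingHom.ker base
  pow_le : RingHom.ker base ^ (n + 1) ≤ J
  finite : Finite (Lam ⧸ J)
  isGood : ∀ [IsLocalRing (Lam ⧸ J)], good (Ideal.Quotient.mkₐ 𝒪 J)

variable {good base}

lemma GmIsGoodIdeal.isLocalRing {n : ℕ} {J : Ideal Lam} (hJ : GmIsGoodIdeal good base n J) :
    IsLocalRing (Lam ⧸ J) :=
  gm_isLocalRing (gm_ker_isMaximal base) n hJ.le_M hJ.pow_le

lemma GmIsGoodIdeal.isArtinianTestAlgebra {n : ℕ} {J : Ideal Lam}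
    (hJ : GmIsGoodIdeal good base n J) [IsLocalRing (Lam ⧸ J)] :
    IsArtinianTestAlgebra 𝒪 (Lam ⧸ J) :=
  haveI := hJ.finite
  gm_isArtinianTestAlgebra base n hJ.pow_le

/-- The kernel of a good point with values in a test algebra of level `n` is a good ideal of
level `n`. -/
theorem GmIsGoodIdeal.of_good (H : GmGoodPredicate good base) (n : ℕ) {B : Type} [CommRing B]
    [IsLocalRing B] [Algebra 𝒪 B] (hB : IsArtinianTestAlgebra 𝒪 B)
    (hn : maximalIdeal B ^ (n + 1) = ⊥) (f : Lam →ₐ[𝒪] B) (hf : good f) :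
    GmIsGoodIdeal good base n (RingHom.ker f) := by
  obtain ⟨ψ, hψ⟩ := gm_exists_toResidue hB
  have hk : IsArtinianTestAlgebra 𝒪 (ResidueField 𝒪) := gm_isArtinianTestAlgebra_residueField
  have h1 : ψ.comp f = base := H.base_unique _ (H.comp hB hk ψ hf)
  have hmem : ∀ x, x ∈ RingHom.ker base ↔ f x ∈ maximalIdeal B := fun x => by
    rw [RingHom.mem_ker, ← h1, AlgHom.comp_apply, hψ]
  have hle : RingHom.ker f ≤ RingHom.ker base := fun x hx =>
    (hmem x).mpr (by rw [RingHom.mem_ker.mp hx]; exact zero_mem _)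
  have hpow : RingHom.ker base ^ (n + 1) ≤ RingHom.ker f := by
    have h2 : RingHom.ker base ≤ (maximalIdeal B).comap f := fun x hx => (hmem x).mp hx
    calc RingHom.ker base ^ (n + 1) ≤ ((maximalIdeal B).comap f) ^ (n + 1) :=
          Ideal.pow_right_mono h2 _
      _ ≤ (maximalIdeal B ^ (n + 1)).comap f := Ideal.le_comap_pow _ _
      _ = RingHom.ker f := by rw [hn]; rfl
  let φ : (Lam ⧸ RingHom.ker f) →ₐ[𝒪] B :=
    Ideal.Quotient.liftₐ (RingHom.ker f) f (fun a ha => ha)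
  have hφinj : Function.Injective φ := by
    intro a b hab
    obtain ⟨x, rfl⟩ := Ideal.Quotient.mk_surjective a
    obtain ⟨y, rfl⟩ := Ideal.Quotient.mk_surjective b
    have h3 : f x = f y := hab
    rw [Ideal.Quotient.eq, RingHom.mem_ker, map_sub, h3, sub_self]
  have hfinB : Finite B := H.finite_test hB
  have hfin : Finite (Lam ⧸ RingHom.ker f) := Finite.of_injective φ hφinj
  refine ⟨hle, hpow, hfin, ?_⟩
  intro _
  have hA : IsArtinianTestAlgebra 𝒪 (Lam ⧸ RingHom.ker f) :=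
    gm_isArtinianTestAlgebra base n hpow
  have h4 : φ.comp (Ideal.Quotient.mkₐ 𝒪 (RingHom.ker f)) = f := AlgHom.ext fun x => rfl
  exact H.of_comp_injective hA hB φ hφinj (by rw [h4]; exact hf)

/-- Good ideals are stable under enlarging inside the kernel of the base point. -/
theorem GmIsGoodIdeal.mono (H : GmGoodPredicate good base) {n : ℕ} {J J' : Ideal Lam}
    (hJ : GmIsGoodIdeal good base n J) (hJJ' : J ≤ J') (hJ' : J' ≤ RingHom.ker base) :
    GmIsGoodIdeal good base n J' := by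
  have hfin := hJ.finite
  have hfin' : Finite (Lam ⧸ J') :=
    Finite.of_surjective (Ideal.Quotient.factor hJJ') (Ideal.Quotient.factor_surjective hJJ')
  refine ⟨hJ', hJ.pow_le.trans hJJ', hfin', ?_⟩
  intro _
  haveI := hJ.isLocalRing
  have hA := hJ.isArtinianTestAlgebra
  have hA' : IsArtinianTestAlgebra 𝒪 (Lam ⧸ J') :=
    gm_isArtinianTestAlgebra base n (hJ.pow_le.trans hJJ')
  have h := H.comp hA hA' (Ideal.Quotient.factorₐ 𝒪 hJJ') hJ.isGood
  have h4 : (Ideal.Quotient.factorₐ 𝒪 hJJ').comp (Ideal.Quotient.mkₐ 𝒪 J) =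
      Ideal.Quotient.mkₐ 𝒪 J' := AlgHom.ext fun x => rfl
  rwa [h4] at h

theorem GmIsGoodIdeal.succ {n : ℕ} {J : Ideal Lam} (hJ : GmIsGoodIdeal good base n J) :
    GmIsGoodIdeal good base (n + 1) J :=
  ⟨hJ.le_M, (Ideal.pow_le_pow_right (Nat.le_succ _)).trans hJ.pow_le, hJ.finite, hJ.isGood⟩

/-- Good ideals are stable under finite intersections. -/
theorem GmIsGoodIdeal.inf (H : GmGoodPredicate good base) {n : ℕ} {J₁ J₂ : Ideal Lam}
    (h₁ : GmIsGoodIdeal good base n J₁) (h₂ : GmIsGoodIdeal good base n J₂) :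
    GmIsGoodIdeal good base n (J₁ ⊓ J₂) := by
  have hf₁ := h₁.finite
  have hf₂ := h₂.finite
  have hinj : Function.Injective fun x : Lam ⧸ (J₁ ⊓ J₂) =>
      (Ideal.Quotient.factorₐ 𝒪 (inf_le_left : J₁ ⊓ J₂ ≤ J₁) x,
        Ideal.Quotient.factorₐ 𝒪 (inf_le_right : J₁ ⊓ J₂ ≤ J₂) x) := by
    intro a b hab
    obtain ⟨x, rfl⟩ := Ideal.Quotient.mk_surjective a
    obtain ⟨y, rfl⟩ := Ideal.Quotient.mk_surjective b
    have h1 : Ideal.Quotient.mk J₁ x = Ideal.Quotient.mk J₁ y := congrArg Prod.fst hab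
    have h2 : Ideal.Quotient.mk J₂ x = Ideal.Quotient.mk J₂ y := congrArg Prod.snd hab
    rw [Ideal.Quotient.eq] at h1 h2 ⊢
    exact ⟨h1, h2⟩
  have hfin : Finite (Lam ⧸ (J₁ ⊓ J₂)) := Finite.of_injective _ hinj
  have hpow : RingHom.ker base ^ (n + 1) ≤ J₁ ⊓ J₂ := le_inf h₁.pow_le h₂.pow_le
  refine ⟨inf_le_left.trans h₁.le_M, hpow, hfin, ?_⟩
  intro _
  haveI := h₁.isLocalRing
  haveI := h₂.isLocalRing
  have h₃ : GmIsGoodIdeal good base n (J₁ ⊔ J₂) :=
    h₁.mono H le_sup_left (sup_le h₁.le_M h₂.le_M)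
  haveI := h₃.isLocalRing
  have hA := h₁.isArtinianTestAlgebra
  have hB := h₂.isArtinianTestAlgebra
  have hC := h₃.isArtinianTestAlgebra
  have hP : IsArtinianTestAlgebra 𝒪 (Lam ⧸ (J₁ ⊓ J₂)) := gm_isArtinianTestAlgebra base n hpow
  refine H.of_fibreProduct hA hB hC hP
    (Ideal.Quotient.factorₐ 𝒪 (le_sup_left : J₁ ≤ J₁ ⊔ J₂))
    (Ideal.Quotient.factorₐ 𝒪 (le_sup_right : J₂ ≤ J₁ ⊔ J₂))
    (Ideal.Quotient.factorₐ 𝒪 (inf_le_left : J₁ ⊓ J₂ ≤ J₁))
    (Ideal.Quotient.factorₐ 𝒪 (inf_le_right : J₁ ⊓ J₂ ≤ J₂)) ?_ hinj ?_ ?_ ?_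
  · apply AlgHom.ext
    intro a
    obtain ⟨x, rfl⟩ := Ideal.Quotient.mk_surjective a
    rfl
  · intro a b hab
    obtain ⟨x, rfl⟩ := Ideal.Quotient.mk_surjective a
    obtain ⟨y, rfl⟩ := Ideal.Quotient.mk_surjective b
    have h1 : Ideal.Quotient.mk (J₁ ⊔ J₂) x = Ideal.Quotient.mk (J₁ ⊔ J₂) y := hab
    rw [Ideal.Quotient.eq, Submodule.mem_sup] at h1
    obtain ⟨j₁, hj₁, j₂, hj₂, hj⟩ := h1
    refine ⟨Ideal.Quotient.mk (J₁ ⊓ J₂) (x - j₁), ?_, ?_⟩
    · show Ideal.Quotient.mk J₁ (x - j₁) = Ideal.Quotient.mk J₁ x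
      rw [Ideal.Quotient.eq]
      have : x - j₁ - x = -j₁ := by ring
      rw [this]
      exact J₁.neg_mem hj₁
    · show Ideal.Quotient.mk J₂ (x - j₁) = Ideal.Quotient.mk J₂ y
      rw [Ideal.Quotient.eq]
      have : x - j₁ - y = j₂ := by linear_combination -hj
      rw [this]
      exact hj₂
  · have h4 : (Ideal.Quotient.factorₐ 𝒪 (inf_le_left : J₁ ⊓ J₂ ≤ J₁)).comp
        (Ideal.Quotient.mkₐ 𝒪 (J₁ ⊓ J₂)) = Ideal.Quotient.mkₐ 𝒪 J₁ := AlgHom.ext fun x => rfl
    rw [h4]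
    exact h₁.isGood
  · have h4 : (Ideal.Quotient.factorₐ 𝒪 (inf_le_right : J₁ ⊓ J₂ ≤ J₂)).comp
        (Ideal.Quotient.mkₐ 𝒪 (J₁ ⊓ J₂)) = Ideal.Quotient.mkₐ 𝒪 J₂ := AlgHom.ext fun x => rfl
    rw [h4]
    exact h₂.isGood

/-- The kernel of the base point is a good ideal of every level. -/
theorem GmIsGoodIdeal.ker_base (H : GmGoodPredicate good base) (n : ℕ) :
    GmIsGoodIdeal good base n (RingHom.ker base) := by
  have h := GmIsGoodIdeal.of_good H n (gm_isArtinianTestAlgebra_residueField (𝒪 := 𝒪))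
    (by rw [maximalIdeal_eq_bot, Ideal.bot_pow (Nat.succ_ne_zero n)]) base H.base_good
  exact h

/-- A good ideal of level `n` whose quotient has maximal cardinality is the least good ideal of
level `n`. -/
theorem GmIsGoodIdeal.exists_least (H : GmGoodPredicate good base) (n : ℕ)
    (hbound : ∃ N : ℕ, ∀ J : Ideal Lam, GmIsGoodIdeal good base n J → Nat.card (Lam ⧸ J) ≤ N) :
    ∃ I : Ideal Lam, GmIsGoodIdeal good base n I ∧
      ∀ J : Ideal Lam, GmIsGoodIdeal good base n J → I ≤ J := by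
  obtain ⟨N, hN⟩ := hbound
  -- choose a good ideal with quotient of maximal cardinality
  have hex : ∃ c : ℕ, ∃ J : Ideal Lam, GmIsGoodIdeal good base n J ∧ Nat.card (Lam ⧸ J) = c :=
    ⟨_, _, GmIsGoodIdeal.ker_base H n, rfl⟩
  classical
  let c := Nat.findGreatest
    (fun c => ∃ J : Ideal Lam, GmIsGoodIdeal good base n J ∧ Nat.card (Lam ⧸ J) = c) N
  obtain ⟨c₀, J₀, hJ₀, hc₀⟩ := hex
  have hspec : ∃ J : Ideal Lam, GmIsGoodIdeal good base n J ∧ Nat.card (Lam ⧸ J) = c :=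
    Nat.findGreatest_spec (P := fun c => ∃ J : Ideal Lam, GmIsGoodIdeal good base n J ∧
      Nat.card (Lam ⧸ J) = c) (hc₀ ▸ hN J₀ hJ₀) ⟨J₀, hJ₀, hc₀⟩
  obtain ⟨I, hI, hIc⟩ := hspec
  refine ⟨I, hI, fun J hJ => ?_⟩
  have hIJ := hI.inf H hJ
  have hle : Nat.card (Lam ⧸ (I ⊓ J)) ≤ c :=
    Nat.le_findGreatest (P := fun c => ∃ J : Ideal Lam, GmIsGoodIdeal good base n J ∧
      Nat.card (Lam ⧸ J) = c) (hN _ hIJ) ⟨_, hIJ, rfl⟩
  have hfin := hIJ.finite
  have hfinI := hI.finite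
  have hsurj : Function.Surjective (Ideal.Quotient.factor (inf_le_left : I ⊓ J ≤ I)) :=
    Ideal.Quotient.factor_surjective _
  have hbij := hsurj.bijective_of_nat_card_le (by rw [hIc]; exact hle)
  intro x hx
  have h1 : Ideal.Quotient.factor (inf_le_left : I ⊓ J ≤ I) (Ideal.Quotient.mk (I ⊓ J) x) =
      Ideal.Quotient.factor (inf_le_left : I ⊓ J ≤ I) 0 := by
    rw [map_zero]
    exact Ideal.Quotient.eq_zero_iff_mem.mpr hx
  have h2 := hbij.1 h1
  exact (Ideal.Quotient.eq_zero_iff_mem.mp h2).2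

/-- Main theorem of the core: from a uniform bound on the cardinalities of the good quotients of
every level, the least good ideals exist, satisfy the tower hypotheses of the limit ring, and
represent `good` on test algebras of each level (GI). -/
theorem gm_exists_tower (H : GmGoodPredicate good base)
    (hbound : ∀ n : ℕ, ∃ N : ℕ, ∀ J : Ideal Lam, GmIsGoodIdeal good base n J →
      Nat.card (Lam ⧸ J) ≤ N) :
    ∃ I : ℕ → Ideal Lam, TowerHyp 𝒪 Lam (RingHom.ker base) I ∧ Finite (Lam ⧸ I 1) ∧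
      (∀ n, GmIsGoodIdeal good base n (I n)) ∧
      ∀ (n : ℕ) ⦃B : Type⦄ [CommRing B] [IsLocalRing B] [Algebra 𝒪 B],
        IsArtinianTestAlgebra 𝒪 B → maximalIdeal B ^ (n + 1) = ⊥ →
        ∀ f : Lam →ₐ[𝒪] B, (good f ↔ I n ≤ RingHom.ker f) := by
  choose I hI hleast using fun n => GmIsGoodIdeal.exists_least H n (hbound n)
  refine ⟨I, ⟨?_, ?_, ?_, fun n => (hI n).le_M, fun n => (hI n).pow_le, ?_, ?_⟩, (hI 1).finite,
    hI, ?_⟩
  · exact (gm_ker_isMaximal base).ne_top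
  · intro y
    obtain ⟨x, rfl⟩ := Ideal.Quotient.mk_surjective y
    obtain ⟨a, ha⟩ := gm_exists_sub_mem base x
    exact ⟨a, (Ideal.Quotient.eq.mpr ha).symm⟩
  · rw [Ideal.map_le_iff_le_comap]
    intro a ha
    rw [Ideal.mem_comap, RingHom.mem_ker, gm_base_algebraMap, residue_eq_zero_iff]
    exact ha
  · intro n
    exact hleast (n + 1) _ (hI n).succ
  · intro n
    have h1 : GmIsGoodIdeal good base (n + 1) (I (n + 1) ⊔ RingHom.ker base ^ (n + 1)) :=
      (hI (n + 1)).mono H le_sup_left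
        (sup_le (hI (n + 1)).le_M (Ideal.pow_le_self (Nat.succ_ne_zero n)))
    have h2 : GmIsGoodIdeal good base n (I (n + 1) ⊔ RingHom.ker base ^ (n + 1)) :=
      ⟨h1.le_M, le_sup_right, h1.finite, h1.isGood⟩
    exact hleast n _ h2
  · intro n B _ _ _ hB hn f
    constructor
    · intro hf
      exact hleast n _ (GmIsGoodIdeal.of_good H n hB hn f hf)
    · intro hker
      haveI := (hI n).isLocalRing
      have hA := (hI n).isArtinianTestAlgebra
      let φ : (Lam ⧸ I n) →ₐ[𝒪] B := Ideal.Quotient.liftₐ (I n) f (fun a ha => hker ha)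
      have h4 : φ.comp (Ideal.Quotient.mkₐ 𝒪 (I n)) = f := AlgHom.ext fun x => rfl
      rw [← h4]
      exact H.comp hA hB φ (hI n).isGood

end gmCore

end

end Fermat.Agent.S53
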