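import Mathlib
import Fermat.Prelude.Def_GaloisRep_DeformationCondition
import Fermat.Agent.S53.GoodMin
import Fermat.Agent.S53.SliceProps
import Fermat.Agent.S53.TestAlgebra
import Fermat.Agent.S53.TowerInput

/-!
Instantiation of the abstract core `GoodMin.lean` for the slice predicate `good S 𝒟`: from a
uniform cardinality bound for good surjective points of each level, the tower of least good ideals
of `Lam 𝒪` with the tower hypotheses of the limit ring and the universality property (GI).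
-/

set_option autoImplicit false
set_option linter.style.haveILetI false

namespace Fermat.Agent.S53

open IsLocalRing GaloisRep

noncomputable section

section gmInst

variable {𝒪 : Type} [CommRing 𝒪] [IsLocalRing 𝒪] [Finite (ResidueField 𝒪)] (S : SliceData 𝒪)
  (𝒟 : ∀ ⦃A : Type⦄ [CommRing A] [IsLocalRing A] [Algebra 𝒪 A], GaloisRepAdic A → Prop)

/-- The slice predicate satisfies the hypotheses of the abstract core. -/
theorem gm_goodPredicate (h𝒟 : IsDeformationCondition 𝒪 𝒟)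
    {ρbar : ResidualGaloisRep (ResidueField 𝒪)} (hrb : ρbar.IsEquiv S.rb.toResidualGaloisRep)
    (hbar : 𝒟 (GaloisRepAdic.ofResidualGaloisRep ρbar)) :
    GmGoodPredicate (𝒪 := 𝒪) (Lam := Lam 𝒪)
      (fun {A : Type} [CommRing A] [IsLocalRing A] [Algebra 𝒪 A] (f : Lam 𝒪 →ₐ[𝒪] A) =>
        good S 𝒟 f) (basePoint S) where
  comp := fun hA hB φ _ hf => good_comp S 𝒟 h𝒟 hA hB φ hf
  of_comp_injective := fun hA hB φ hinj _ hf => good_of_comp_injective S 𝒟 h𝒟 hA hB φ hinj hf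
  of_fibreProduct := fun hA hB hC hP f g pA pB hfg hinj hsurj _ hxA hxB =>
    good_of_fibreProduct S 𝒟 h𝒟 hA hB hC hP f g pA pB hfg hinj hsurj hxA hxB
  base_good := good_basePoint S 𝒟 h𝒟 hrb hbar
  base_unique := fun _ hf => eq_basePoint_of_good S 𝒟 hf
  finite_test := fun hB => testAlg_finite hB

/-- The block (M3) for the slice predicate, given the uniform cardinality bound. -/
theorem gm_hM3 (h𝒟 : IsDeformationCondition 𝒪 𝒟)
    {ρbar : ResidualGaloisRep (ResidueField 𝒪)} (hrb : ρbar.IsEquiv S.rb.toResidualGaloisRep)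
    (hbar : 𝒟 (GaloisRepAdic.ofResidualGaloisRep ρbar))
    (hcard : ∀ n : ℕ, ∃ N : ℕ, ∀ (A : Type) [CommRing A] [IsLocalRing A] [Algebra 𝒪 A],
      IsArtinianTestAlgebra 𝒪 A → maximalIdeal A ^ (n + 1) = ⊥ →
      ∀ f : Lam 𝒪 →ₐ[𝒪] A, Function.Surjective f → good S 𝒟 f → Finite A ∧ Nat.card A ≤ N) :
    ∃ I : ℕ → Ideal (Lam 𝒪), TowerHyp 𝒪 (Lam 𝒪) (baseIdeal S) I ∧ Finite (Lam 𝒪 ⧸ I 1) ∧
      ∀ (n : ℕ) ⦃B : Type⦄ [CommRing B] [IsLocalRing B] [Algebra 𝒪 B],
        IsArtinianTestAlgebra 𝒪 B → maximalIdeal B ^ (n + 1) = ⊥ →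
        ∀ f : Lam 𝒪 →ₐ[𝒪] B, (good S 𝒟 f ↔ I n ≤ RingHom.ker f) := by
  have H := gm_goodPredicate S 𝒟 h𝒟 hrb hbar
  obtain ⟨I, hT, hfin, -, hGI⟩ := gm_exists_tower H (fun n => by
    obtain ⟨N, hN⟩ := hcard n
    refine ⟨N, fun J hJ => ?_⟩
    haveI := hJ.isLocalRing
    have hA := hJ.isArtinianTestAlgebra
    have hpow : maximalIdeal (Lam 𝒪 ⧸ J) ^ (n + 1) = ⊥ :=
      gm_maximalIdeal_pow_eq_bot (gm_ker_isMaximal (basePoint S)) n hJ.le_M hJ.pow_le
    exact (hN (Lam 𝒪 ⧸ J) hA hpow (Ideal.Quotient.mkₐ 𝒪 J)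
      (Ideal.Quotient.mkₐ_surjective 𝒪 J) hJ.isGood).2)
  exact ⟨I, hT, hfin, hGI⟩

end gmInst

end

end Fermat.Agent.S53
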