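import Mathlib
import Fermat.Prelude.Def_GaloisRep_DeformationCondition
import Fermat.Agent.S53.Framed

/-!
# S53, block G4: the universal property for Artinian test algebras

Abstract statement: given the limit ring `R` with `ι : Λ →ₐ[𝒪] R` (`Λ` the polynomial ring on the
matrix entries), the tower of minimal good ideals `I n`, the characterisation of good points
(`GI`), the slice theorem (existence + uniqueness of slice points), and the universal framed
representation `rU` over `R` with entries `ι X_{σ,i,j}`, every deformation of type `𝒟` to an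
Artinian test algebra `B` comes from a unique local `𝒪`-algebra homomorphism `R → B`.
-/

set_option autoImplicit false

open IsLocalRing GaloisRep

namespace Fermat.Agent.S53

section CommAlg

variable {𝒪 : Type} [CommRing 𝒪]

/-- Any `𝒪`-algebra homomorphism from a local `𝒪`-algebra to a local `𝒪`-algebra whose structure
map is local and residually surjective is a local homomorphism. -/
theorem ua_isLocalHom_of_residue_surjective {R B : Type} [CommRing R] [IsLocalRing R]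
    [Algebra 𝒪 R] [CommRing B] [IsLocalRing B] [Algebra 𝒪 B] [IsLocalHom (algebraMap 𝒪 B)]
    (hres : Function.Surjective (residue B ∘ algebraMap 𝒪 B)) (φ : R →ₐ[𝒪] B) :
    IsLocalHom (φ : R →+* B) := by
  refine ⟨fun x hx => ?_⟩
  by_contra hxu
  have hx' : IsUnit (φ x) := hx
  have hxm : x ∈ maximalIdeal R := (mem_maximalIdeal x).2 hxu
  obtain ⟨a, ha⟩ := hres (residue B (φ x))
  have h1 : algebraMap 𝒪 B a - φ x ∈ maximalIdeal B := by
    rw [← residue_eq_zero_iff, map_sub, sub_eq_zero]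
    exact ha
  have h2 : IsUnit (algebraMap 𝒪 B a) := by
    by_contra h
    have h' : algebraMap 𝒪 B a ∈ maximalIdeal B := (mem_maximalIdeal _).2 h
    have h'' : φ x ∈ maximalIdeal B := by
      have := (maximalIdeal B).sub_mem h' h1
      simpa using this
    exact (mem_maximalIdeal _).1 h'' hx'
  have h3 : IsUnit a := isUnit_of_map_unit (algebraMap 𝒪 B) a h2
  have h4 : IsUnit (algebraMap 𝒪 R a - x) := by
    by_contra h
    have h' : algebraMap 𝒪 R a - x ∈ maximalIdeal R := (mem_maximalIdeal _).2 h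
    have h'' : algebraMap 𝒪 R a ∈ maximalIdeal R := by
      have := (maximalIdeal R).add_mem h' hxm
      simpa using this
    exact (mem_maximalIdeal _).1 h'' (h3.map (algebraMap 𝒪 R))
  have h5 : IsUnit (φ (algebraMap 𝒪 R a - x)) := h4.map φ
  rw [map_sub, AlgHom.commutes] at h5
  exact (mem_maximalIdeal _).1 h1 h5

/-- In an Artinian local ring some power of the maximal ideal vanishes. -/
theorem ua_exists_pow_maximalIdeal_eq_bot (B : Type) [CommRing B] [IsLocalRing B]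
    [IsArtinianRing B] : ∃ n : ℕ, maximalIdeal B ^ (n + 1) = ⊥ := by
  have h := IsArtinianRing.isNilpotent_jacobson_bot (R := B)
  rw [IsLocalRing.jacobson_eq_maximalIdeal ⊥ bot_ne_top] at h
  obtain ⟨n, hn⟩ := h
  exact ⟨n, by rw [pow_succ, hn, Ideal.zero_eq_bot, Ideal.bot_mul]⟩

variable {Lam R B : Type} [CommRing Lam] [Algebra 𝒪 Lam] [CommRing R] [IsLocalRing R]
  [Algebra 𝒪 R] [CommRing B] [IsLocalRing B] [Algebra 𝒪 B]

/-- Density of `ι` modulo `𝔪_R ^ (n+1)`: two local algebra homomorphisms into a ring with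
`𝔪_B ^ (n+1) = ⊥` which agree on the image of `ι` are equal. -/
theorem ua_algHom_ext_of_dense (ι : Lam →ₐ[𝒪] R) (n : ℕ)
    (LR2 : ∀ x : R, ∃ l : Lam, x - ι l ∈ maximalIdeal R ^ (n + 1))
    (hB : maximalIdeal B ^ (n + 1) = ⊥) (φ φ' : R →ₐ[𝒪] B)
    (hφ : IsLocalHom (φ : R →+* B)) (hφ' : IsLocalHom (φ' : R →+* B))
    (h : φ.comp ι = φ'.comp ι) : φ = φ' := by
  have key : ∀ (ψ : R →ₐ[𝒪] B), IsLocalHom (ψ : R →+* B) → ∀ (x : R) (l : Lam),
      x - ι l ∈ maximalIdeal R ^ (n + 1) → ψ x = ψ (ι l) := by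
    intro ψ hψ x l hl
    have h1 : (ψ : R →+* B) (x - ι l) ∈ maximalIdeal B ^ (n + 1) :=
      map_mem_maximalIdeal_pow (ψ : R →+* B) hψ hl
    rw [hB, Ideal.mem_bot] at h1
    have h2 : ψ x - ψ (ι l) = 0 := by
      rw [← map_sub]
      exact h1
    exact sub_eq_zero.mp h2
  refine AlgHom.ext fun x => ?_
  obtain ⟨l, hl⟩ := LR2 x
  rw [key φ hφ x l hl, key φ' hφ' x l hl]
  exact DFunLike.congr_fun h l

omit [IsLocalRing B] in
/-- (LR3, existence) An algebra homomorphism from `Λ` killing `I n = ι⁻¹ (𝔪_R ^ (n+1))` factors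
through `R` when `ι` is dense modulo `𝔪_R ^ (n+1)`. -/
theorem ua_exists_lift (ι : Lam →ₐ[𝒪] R) (n : ℕ) (J : Ideal Lam)
    (LR1 : (maximalIdeal R ^ (n + 1)).comap ι = J)
    (LR2 : ∀ x : R, ∃ l : Lam, x - ι l ∈ maximalIdeal R ^ (n + 1))
    (g : Lam →ₐ[𝒪] B) (hg : J ≤ RingHom.ker g) :
    ∃ φ : R →ₐ[𝒪] B, φ.comp ι = g := by
  let q : R →ₐ[𝒪] R ⧸ maximalIdeal R ^ (n + 1) := Ideal.Quotient.mkₐ 𝒪 _
  let p : Lam →ₐ[𝒪] R ⧸ maximalIdeal R ^ (n + 1) := q.comp ι
  have hp : Function.Surjective p := by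
    intro y
    obtain ⟨x, rfl⟩ := Ideal.Quotient.mk_surjective y
    obtain ⟨l, hl⟩ := LR2 x
    refine ⟨l, ?_⟩
    show Ideal.Quotient.mk _ (ι l) = Ideal.Quotient.mk _ x
    exact (Ideal.Quotient.eq.mpr hl).symm
  have hker : RingHom.ker p.toRingHom ≤ RingHom.ker g.toRingHom := by
    intro l hl
    apply hg
    rw [← LR1, Ideal.mem_comap]
    have hl' : Ideal.Quotient.mk (maximalIdeal R ^ (n + 1)) (ι l) = 0 := hl
    exact Ideal.Quotient.eq_zero_iff_mem.mp hl'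
  refine ⟨(AlgHom.liftOfSurjective p hp g hker).comp q, ?_⟩
  rw [AlgHom.comp_assoc]
  exact AlgHom.liftOfSurjective_comp p hp g hker

end CommAlg

section Main

variable {𝒪 : Type} [CommRing 𝒪] [IsLocalRing 𝒪]

/-- **G4**: the universal property of `(R, rU)` for Artinian test algebras, from the limit-ring
properties `LR1`, `LR2`, the characterisation `GI` of good points by the ideals `I n`, and the
slice theorem (`hslice_exists`, `hslice_unique`). The conclusion is the hypothesis `hArt` of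
`universal_of_artinian`. -/
theorem universal_artin
    (ρbar : ResidualGaloisRep (ResidueField 𝒪))
    (𝒟 : ∀ ⦃A : Type⦄ [CommRing A] [IsLocalRing A] [Algebra 𝒪 A], GaloisRepAdic A → Prop)
    (SP : ∀ {A : Type} [CommRing A] [IsLocalRing A] [Algebra 𝒪 A]
      [IsLocalHom (algebraMap 𝒪 A)], FramedRep A → Prop)
    (hslice_exists : ∀ {B : Type} [CommRing B] [IsLocalRing B] [Algebra 𝒪 B]
      [IsLocalHom (algebraMap 𝒪 B)], IsArtinianTestAlgebra 𝒪 B → ∀ ρB : GaloisRepAdic B, 𝒟 ρB →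
      ρB.residual.IsEquiv (ρbar.baseChangeAlong (ResidueField.map (algebraMap 𝒪 B))) →
      ∃ r : FramedRep B, SP r ∧ r.toGaloisRepAdic.IsEquiv ρB)
    (hslice_unique : ∀ {B : Type} [CommRing B] [IsLocalRing B] [Algebra 𝒪 B]
      [IsLocalHom (algebraMap 𝒪 B)], IsArtinianTestAlgebra 𝒪 B → ∀ r r' : FramedRep B,
      SP r → SP r' → r.toGaloisRepAdic.IsEquiv r'.toGaloisRepAdic → r = r')
    {R : Type} [CommRing R] [IsLocalRing R] [Algebra 𝒪 R]
    (ι : MvPolynomial (GQ × Fin 2 × Fin 2) 𝒪 →ₐ[𝒪] R)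
    (I : ℕ → Ideal (MvPolynomial (GQ × Fin 2 × Fin 2) 𝒪))
    (LR1 : ∀ n, (maximalIdeal R ^ (n + 1)).comap ι = I n)
    (LR2 : ∀ n (x : R), ∃ l, x - ι l ∈ maximalIdeal R ^ (n + 1))
    (GI : ∀ (n : ℕ) {B : Type} [CommRing B] [IsLocalRing B] [Algebra 𝒪 B]
      [IsLocalHom (algebraMap 𝒪 B)], IsArtinianTestAlgebra 𝒪 B →
      maximalIdeal B ^ (n + 1) = ⊥ → ∀ f : MvPolynomial (GQ × Fin 2 × Fin 2) 𝒪 →ₐ[𝒪] B,
      ((∃ r : FramedRep B, (∀ σ i j, r σ i j = f (MvPolynomial.X (σ, i, j))) ∧ SP r) ↔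
        I n ≤ RingHom.ker f))
    (rU : FramedRep R) (hrU : ∀ σ i j, rU σ i j = ι (MvPolynomial.X (σ, i, j))) :
    ∀ (B : Type) [CommRing B] [IsLocalRing B] [Algebra 𝒪 B] [IsLocalHom (algebraMap 𝒪 B)],
      IsArtinianTestAlgebra 𝒪 B → ∀ ρB : GaloisRepAdic B, 𝒟 ρB →
      ρB.residual.IsEquiv (ρbar.baseChangeAlong (ResidueField.map (algebraMap 𝒪 B))) →
      ∃! φ : R →ₐ[𝒪] B, ∃ hφ : IsLocalHom (φ : R →+* B),
        (rU.toGaloisRepAdic.baseChangeAlong (φ : R →+* B) hφ).IsEquiv ρB := by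
  intro B _ _ _ _ hB ρB hD hres
  have : IsArtinianRing B := hB.isArtinian
  obtain ⟨n, hn⟩ := ua_exists_pow_maximalIdeal_eq_bot B
  have hloc : ∀ φ : R →ₐ[𝒪] B, IsLocalHom (φ : R →+* B) := fun φ =>
    ua_isLocalHom_of_residue_surjective hB.residue_surjective φ
  -- for every `φ`, the push-forward of `rU` is the slice point with entries `φ (ι X)`
  have hmap_entries : ∀ (φ : R →ₐ[𝒪] B) (σ : GQ) (i j : Fin 2),
      (rU.map (φ : R →+* B) (hloc φ)) σ i j = (φ.comp ι) (MvPolynomial.X (σ, i, j)) := by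
    intro φ σ i j
    rw [FramedRep.map_apply, Matrix.map_apply, hrU]
    rfl
  have hSP : ∀ φ : R →ₐ[𝒪] B, SP (rU.map (φ : R →+* B) (hloc φ)) := by
    intro φ
    have hker : I n ≤ RingHom.ker (φ.comp ι) := by
      intro l hl
      rw [← LR1 n, Ideal.mem_comap] at hl
      have h1 : (φ : R →+* B) (ι l) ∈ maximalIdeal B ^ (n + 1) :=
        map_mem_maximalIdeal_pow (φ : R →+* B) (hloc φ) hl
      rw [hn, Ideal.mem_bot] at h1
      exact h1
    obtain ⟨r, hr, hrSP⟩ := (GI n hB hn (φ.comp ι)).mpr hker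
    have : r = rU.map (φ : R →+* B) (hloc φ) := by
      refine FramedRep.ext fun σ => ?_
      ext i j
      rw [hr, hmap_entries]
    rw [← this]
    exact hrSP
  -- existence
  obtain ⟨r, hrSP, hrE⟩ := hslice_exists hB ρB hD hres
  let f : MvPolynomial (GQ × Fin 2 × Fin 2) 𝒪 →ₐ[𝒪] B :=
    MvPolynomial.aeval fun x : GQ × Fin 2 × Fin 2 => r x.1 x.2.1 x.2.2
  have hf : ∀ σ i j, r σ i j = f (MvPolynomial.X (σ, i, j)) := by
    intro σ i j
    simp [f]
  have hIf : I n ≤ RingHom.ker f := (GI n hB hn f).mp ⟨r, hf, hrSP⟩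
  obtain ⟨φ, hφι⟩ := ua_exists_lift ι n (I n) (LR1 n) (LR2 n) f hIf
  have hφr : rU.map (φ : R →+* B) (hloc φ) = r := by
    refine FramedRep.ext fun σ => ?_
    ext i j
    rw [hmap_entries, hφι, hf]
  refine ⟨φ, ⟨hloc φ, ?_⟩, ?_⟩
  · obtain ⟨e1⟩ := FramedRep.baseChangeAlong_isEquiv (φ : R →+* B) (hloc φ) rU
    obtain ⟨e2⟩ := hrE
    rw [hφr] at e1
    exact ⟨e1.trans e2⟩
  · -- uniqueness
    rintro φ' ⟨hφ', hE'⟩
    have hE1 : (rU.map (φ' : R →+* B) (hloc φ')).toGaloisRepAdic.IsEquiv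
        (rU.map (φ : R →+* B) (hloc φ)).toGaloisRepAdic := by
      obtain ⟨e1⟩ := FramedRep.baseChangeAlong_isEquiv (φ' : R →+* B) (hloc φ') rU
      obtain ⟨e2⟩ := hE'
      obtain ⟨e3⟩ := hrE
      rw [hφr]
      exact ⟨(e1.symm.trans e2).trans e3.symm⟩
    have heq : rU.map (φ' : R →+* B) (hloc φ') = rU.map (φ : R →+* B) (hloc φ) :=
      hslice_unique hB _ _ (hSP φ') (hSP φ) hE1
    have hcomp : φ'.comp ι = φ.comp ι := by
      refine MvPolynomial.algHom_ext fun x => ?_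
      obtain ⟨σ, i, j⟩ := x
      rw [← hmap_entries φ' σ i j, ← hmap_entries φ σ i j, heq]
    exact ua_algHom_ext_of_dense ι n (LR2 n) hn φ' φ (hloc φ') (hloc φ) hcomp

/-- Variant of `universal_artin` where the slice existence hypothesis is oriented as
`ρB.IsEquiv r.toGaloisRepAdic`. -/
theorem universal_artin'
    (ρbar : ResidualGaloisRep (ResidueField 𝒪))
    (𝒟 : ∀ ⦃A : Type⦄ [CommRing A] [IsLocalRing A] [Algebra 𝒪 A], GaloisRepAdic A → Prop)
    (SP : ∀ {A : Type} [CommRing A] [IsLocalRing A] [Algebra 𝒪 A]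
      [IsLocalHom (algebraMap 𝒪 A)], FramedRep A → Prop)
    (hslice_exists : ∀ {B : Type} [CommRing B] [IsLocalRing B] [Algebra 𝒪 B]
      [IsLocalHom (algebraMap 𝒪 B)], IsArtinianTestAlgebra 𝒪 B → ∀ ρB : GaloisRepAdic B, 𝒟 ρB →
      ρB.residual.IsEquiv (ρbar.baseChangeAlong (ResidueField.map (algebraMap 𝒪 B))) →
      ∃ r : FramedRep B, SP r ∧ ρB.IsEquiv r.toGaloisRepAdic)
    (hslice_unique : ∀ {B : Type} [CommRing B] [IsLocalRing B] [Algebra 𝒪 B]
      [IsLocalHom (algebraMap 𝒪 B)], IsArtinianTestAlgebra 𝒪 B → ∀ r r' : FramedRep B,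
      SP r → SP r' → r.toGaloisRepAdic.IsEquiv r'.toGaloisRepAdic → r = r')
    {R : Type} [CommRing R] [IsLocalRing R] [Algebra 𝒪 R]
    (ι : MvPolynomial (GQ × Fin 2 × Fin 2) 𝒪 →ₐ[𝒪] R)
    (I : ℕ → Ideal (MvPolynomial (GQ × Fin 2 × Fin 2) 𝒪))
    (LR1 : ∀ n, (maximalIdeal R ^ (n + 1)).comap ι = I n)
    (LR2 : ∀ n (x : R), ∃ l, x - ι l ∈ maximalIdeal R ^ (n + 1))
    (GI : ∀ (n : ℕ) {B : Type} [CommRing B] [IsLocalRing B] [Algebra 𝒪 B]
      [IsLocalHom (algebraMap 𝒪 B)], IsArtinianTestAlgebra 𝒪 B →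
      maximalIdeal B ^ (n + 1) = ⊥ → ∀ f : MvPolynomial (GQ × Fin 2 × Fin 2) 𝒪 →ₐ[𝒪] B,
      ((∃ r : FramedRep B, (∀ σ i j, r σ i j = f (MvPolynomial.X (σ, i, j))) ∧ SP r) ↔
        I n ≤ RingHom.ker f))
    (rU : FramedRep R) (hrU : ∀ σ i j, rU σ i j = ι (MvPolynomial.X (σ, i, j))) :
    ∀ (B : Type) [CommRing B] [IsLocalRing B] [Algebra 𝒪 B] [IsLocalHom (algebraMap 𝒪 B)],
      IsArtinianTestAlgebra 𝒪 B → ∀ ρB : GaloisRepAdic B, 𝒟 ρB →
      ρB.residual.IsEquiv (ρbar.baseChangeAlong (ResidueField.map (algebraMap 𝒪 B))) →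
      ∃! φ : R →ₐ[𝒪] B, ∃ hφ : IsLocalHom (φ : R →+* B),
        (rU.toGaloisRepAdic.baseChangeAlong (φ : R →+* B) hφ).IsEquiv ρB :=
  universal_artin ρbar 𝒟 SP
    (fun hB ρB hD hres => by
      obtain ⟨r, hr, ⟨e⟩⟩ := hslice_exists hB ρB hD hres
      exact ⟨r, hr, ⟨e.symm⟩⟩)
    hslice_unique ι I LR1 LR2 GI rU hrU

end Main

end Fermat.Agent.S53
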